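/-
Program N (S34), chapter MODEL-(G2), brick (G2-v2), part 1 (helper8):
the FRICKE AUTOMORPHISM `W_N : x_d ↦ x_{N/d}` of the function fields

* `Fbar N = ℚbar(x_d : d ∣ N) ⊂ ℚbar((q))`   (`frickeBar N : FF N →ₐ[ℚbar] FF N`), obtained from the
  Fricke expansion `tauS N = (cuspData N).T S` of Program H (`RED/LVL/FrickeExp17`), whose values
  on the generators are again generators: `tauS N (x_d) = j(q^{N/d}) = x_{N/d}`;
* `FK N L = L(x_d : d ∣ N) ⊂ L((q))` for every intermediate field `L` of `ℚbar/ℚ`
  (`frickeFK N L : FK N L →ₐ[L] FK N L`), by descent of the coefficients.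

Both are involutions, commute with the coefficientwise Galois action and with the coefficient
extension `L → ℚbar`.  This is what the second Gauss valuation `v₂ := v₁ ∘ W` of the nodal model of
`X₀(M'q)` is made of.
-/
import Mathlib
import Fermat.Agent.RED.LVL.FrickeExp17
import Fermat.Agent.X0.CuspGood
import Fermat.Agent.RED.DESC.CoeffDescent1
import Fermat.Agent.RED.DESC.PlaceExtend27
import Fermat.Agent.RED.PUR.DegBaseChange25

set_option autoImplicit false
set_option linter.unusedSectionVars false

noncomputable section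

namespace Fermat.Agent.ES.N34.FrickeFK8

open Fermat.Agent.X0 Fermat.Agent.X0.Analytic ModularCurve IntermediateField
open Fermat.Agent.RED.Interface4 Fermat.Agent.RED.LVL.FrickeExp17
open Fermat.Agent.RED.DESC.CoeffDescent1

/-! ### Level `N` over `ℚbar` -/

section Bar

variable (N : ℕ) [NeZero N]

/-- `coeffEmb` of `j(q^e)` over `ℚ` is `j(q^e)` over `ℚbar`. -/
theorem coe_jdF_eq_qExpand (e : ℕ) [NeZero e] (he : e ∣ N) :
    ((jdF N e he : FF N) : LaurentSeries Kbar) = qExpand Kbar e jqK := by
  rw [FracR.coe_jdF, jqK]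
  exact Fermat.Agent.X0.CuspGood.coeffMap_qExpand (algebraMap ℚ Kbar) e jq

/-- **Fricke expansion of the generators, in `FF N`**: `tauS N (x_d) = x_{N/d}`. -/
theorem tauS_jdF (d e : ℕ) [NeZero d] [NeZero e] (hde : d * e = N) :
    tauS N (jdF N d (Dvd.intro _ hde)) =
      ((jdF N e (Dvd.intro_left _ hde) : FF N) : LaurentSeries Kbar) := by
  have hNd : N / d = e := by
    rw [← hde, Nat.mul_div_cancel_left _ (Nat.pos_of_ne_zero (NeZero.ne d))]
  have : NeZero (N / d) := ⟨by rw [hNd]; exact NeZero.ne e⟩
  have h1 : tauS N (jdF N d (Dvd.intro _ hde)) = qExpand Kbar (N / d) jqK :=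
    T_S_jdF N (realizeData N) (cuspData N) d (Dvd.intro _ hde)
  rw [h1, coe_jdF_eq_qExpand]
  exact qExpand_congr hNd _

/-- The Fricke expansion as a `ℚbar`-algebra homomorphism. -/
def tauSAlg : FF N →ₐ[Kbar] LaurentSeries Kbar :=
  { tauS N with
    commutes' := fun c => by
      show tauS N (algebraMap Kbar (FF N) c) = algebraMap Kbar (LaurentSeries Kbar) c
      rw [tauS_const, algebraMap_laurentSeries_eq_single]
      rfl }

@[simp] theorem tauSAlg_apply (f : FF N) : tauSAlg N f = tauS N f := rfl

/-- The Fricke expansion of an element of `Fbar N` lies in `Fbar N` again. -/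
theorem tauS_mem (f : FF N) : tauS N f ∈ modularFunctionFieldBar N := by
  have htop : IntermediateField.adjoin Kbar (genSet N) ≤
      (modularFunctionFieldBar N).comap (tauSAlg N) := by
    rw [IntermediateField.adjoin_le_iff]
    rintro _ ⟨d, hne, hd, rfl⟩
    have := hne
    obtain ⟨e, hde⟩ := hd
    have he0 : e ≠ 0 := by
      rintro rfl
      exact NeZero.ne N (by rw [hde, mul_zero])
    have : NeZero e := ⟨he0⟩
    rw [SetLike.mem_coe, mem_comap_iff, tauSAlg_apply, tauS_jdF N d e hde.symm]
    exact (jdF N e (Dvd.intro_left _ hde.symm)).2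
  have hf := htop (FracR.mem_adjoin_genSet N f)
  rwa [mem_comap_iff] at hf

/-- **The Fricke involution `W_N` of `Fbar N`** (as an algebra endomorphism). -/
def frickeBar : FF N →ₐ[Kbar] FF N :=
  (tauSAlg N).codRestrict (modularFunctionFieldBar N).toSubalgebra (tauS_mem N)

@[simp] theorem coe_frickeBar (f : FF N) :
    ((frickeBar N f : FF N) : LaurentSeries Kbar) = tauS N f := rfl

/-- `W_N (x_d) = x_{N/d}`. -/
theorem frickeBar_jdF (d e : ℕ) [NeZero d] [NeZero e] (hde : d * e = N) :
    frickeBar N (jdF N d (Dvd.intro _ hde)) = jdF N e (Dvd.intro_left _ hde) :=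
  Subtype.val_injective (tauS_jdF N d e hde)

/-- Two `ℚbar`-algebra endomorphisms of `Fbar N` that agree on the generators `x_d` agree. -/
theorem algHom_ext_jdF {φ ψ : FF N →ₐ[Kbar] FF N}
    (h : ∀ (d : ℕ) [NeZero d] (hd : d ∣ N), φ (jdF N d hd) = ψ (jdF N d hd)) : φ = ψ := by
  have hR : ∀ u : Rsub N, φ (u : FF N) = ψ (u : FF N) := by
    intro u
    induction u using FracR.Rsub_induction with
    | hgen d hd => exact h d hd
    | hconst c =>
        show φ (algebraMap Kbar (FF N) c) = ψ (algebraMap Kbar (FF N) c)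
        rw [φ.commutes, ψ.commutes]
    | hadd u v hu hv =>
        show φ ((u : FF N) + (v : FF N)) = ψ ((u : FF N) + (v : FF N))
        rw [map_add, map_add, hu, hv]
    | hmul u v hu hv =>
        show φ ((u : FF N) * (v : FF N)) = ψ ((u : FF N) * (v : FF N))
        rw [map_mul, map_mul, hu, hv]
  apply AlgHom.ext
  intro y
  obtain ⟨r, s, rfl⟩ := FracR.exists_div N y
  rw [map_div₀, map_div₀, hR r, hR s]

/-- `W_N` is an involution. -/
theorem frickeBar_comp_frickeBar : (frickeBar N).comp (frickeBar N) = AlgHom.id Kbar (FF N) := by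
  apply algHom_ext_jdF
  intro d _ hd
  obtain ⟨e, hde⟩ := hd
  have he0 : e ≠ 0 := by
    rintro rfl
    exact NeZero.ne N (by rw [hde, mul_zero])
  have : NeZero e := ⟨he0⟩
  have h1 := frickeBar_jdF N d e hde.symm
  have h2 := frickeBar_jdF N e d (by rw [mul_comm]; exact hde.symm)
  rw [AlgHom.comp_apply, h1, h2]
  rfl

theorem frickeBar_frickeBar (f : FF N) : frickeBar N (frickeBar N f) = f :=
  DFunLike.congr_fun (frickeBar_comp_frickeBar N) f

/-- `W_N` as an algebra automorphism. -/
def frickeBarEquiv : FF N ≃ₐ[Kbar] FF N :=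
  AlgEquiv.ofAlgHom (frickeBar N) (frickeBar N) (frickeBar_comp_frickeBar N)
    (frickeBar_comp_frickeBar N)

@[simp] theorem frickeBarEquiv_apply (f : FF N) : frickeBarEquiv N f = frickeBar N f := rfl

end Bar

/-! ### Level `N` over an intermediate field `L` of `ℚbar/ℚ` -/

section FKLevel

open Fermat.Agent.RED.DESC.PlaceExtend27

variable (N : ℕ) [NeZero N] (L : IntermediateField ℚ Qbar)

set_option synthInstance.maxHeartbeats 400000
set_option maxHeartbeats 400000

theorem qExpand_jqModC_mem_FK (d : ℕ) [NeZero d] (hd : d ∣ N) :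
    qExpand L d (jqModC L) ∈ FK N L := by
  show _ ∈ laurentBaseChange L (modularFunctionFieldFull N)
  rw [Fermat.Agent.RED.PUR.DegBaseChange25.laurentBaseChange_full_eq]
  exact jqModCd_mem_full L N hd

/-- The generator `x_d = j(q^d)` of `FK N L`. -/
def xdL (d : ℕ) [NeZero d] (hd : d ∣ N) : FK N L :=
  ⟨qExpand L d (jqModC L), qExpand_jqModC_mem_FK N L d hd⟩

@[simp] theorem coe_xdL (d : ℕ) [NeZero d] (hd : d ∣ N) :
    ((xdL N L d hd : FK N L) : LaurentSeries L) = qExpand L d (jqModC L) := rfl

theorem baseChangeHom_xdL (d : ℕ) [NeZero d] (hd : d ∣ N) :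
    baseChangeHom N L (xdL N L d hd) = jdF N d hd := by
  apply Subtype.ext
  rw [coe_baseChangeHom, coe_xdL, coe_jdF_eq_qExpand, Fermat.Agent.X0.CuspGood.coeffMap_qExpand,
    coeffMap_jqModC]
  congr 1
  rw [jqK, coeffEmb, ← jqModC_rat, coeffMap_jqModC]

theorem FK_eq_fullC : FK N L = modularFunctionFieldFullC L N :=
  Fermat.Agent.RED.PUR.DegBaseChange25.laurentBaseChange_full_eq L N

theorem mem_FK_iff (y : LaurentSeries L) : y ∈ FK N L ↔ y ∈ modularFunctionFieldFullC L N := by
  rw [FK_eq_fullC]

/-- A subfield of `FK N L` containing the constants and the `x_d` is everything. -/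
theorem mem_subfield_of_gen (S : Subfield (FK N L))
    (hx : ∀ (d : ℕ) [NeZero d] (hd : d ∣ N), xdL N L d hd ∈ S)
    (hc : ∀ c : L, algebraMap L (FK N L) c ∈ S) (f : FK N L) : f ∈ S := by
  let S' : IntermediateField L (FK N L) := S.toIntermediateField hc
  let T : IntermediateField L (LaurentSeries L) := S'.map (FK N L).val
  have hle : modularFunctionFieldFullC L N ≤ T := by
    unfold modularFunctionFieldFullC
    rw [IntermediateField.adjoin_le_iff]
    rintro _ ⟨d, hne, hd, rfl⟩
    have := hne
    exact ⟨xdL N L d hd, hx d hd, rfl⟩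
  obtain ⟨y, hy⟩ := f
  obtain ⟨g, hg, hgy⟩ := hle ((mem_FK_iff N L y).mp hy)
  have : g = ⟨y, hy⟩ := Subtype.ext hgy
  rw [← this]
  exact hg

/-- **Induction principle for `FK N L = L(x_d : d ∣ N)`.** -/
theorem FK_induction {P : FK N L → Prop}
    (hx : ∀ (d : ℕ) [NeZero d] (hd : d ∣ N), P (xdL N L d hd))
    (hc : ∀ c : L, P (algebraMap L (FK N L) c))
    (hadd : ∀ f g, P f → P g → P (f + g))
    (hmul : ∀ f g, P f → P g → P (f * g))
    (hinv : ∀ f, P f → P f⁻¹) (f : FK N L) : P f := by
  let S : Subfield (FK N L) :=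
    { carrier := {f | P f}
      mul_mem' := fun {a b} ha hb => hmul a b ha hb
      one_mem' := by
        have := hc 1
        rwa [map_one] at this
      add_mem' := fun {a b} ha hb => hadd a b ha hb
      zero_mem' := by
        have := hc 0
        rwa [map_zero] at this
      neg_mem' := fun {a} ha => by
        have h1 := hc (-1)
        have h2 := hmul _ _ h1 ha
        have h3 : algebraMap L (FK N L) (-1) * a = -a := by
          rw [map_neg, map_one, neg_one_mul]
        rw [h3] at h2
        exact h2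
      inv_mem' := fun a ha => hinv a ha }
  exact mem_subfield_of_gen N L S hx hc f

/-- `W_N` descends to `FK N L`. -/
theorem exists_descent (f : FK N L) :
    ∃ g : FK N L, baseChangeHom N L g = frickeBar N (baseChangeHom N L f) := by
  induction f using FK_induction with
  | hx d hd =>
      obtain ⟨e, hde⟩ := hd
      have he0 : e ≠ 0 := by
        rintro rfl
        exact NeZero.ne N (by rw [hde, mul_zero])
      have : NeZero e := ⟨he0⟩
      refine ⟨xdL N L e (Dvd.intro_left _ hde.symm), ?_⟩
      rw [baseChangeHom_xdL, baseChangeHom_xdL]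
      exact (frickeBar_jdF N d e hde.symm).symm
  | hc c =>
      exact ⟨algebraMap L (FK N L) c, by rw [baseChangeHom_algebraMap, (frickeBar N).commutes]⟩
  | hadd f g hf hg =>
      obtain ⟨f', hf'⟩ := hf
      obtain ⟨g', hg'⟩ := hg
      exact ⟨f' + g', by rw [map_add, map_add, map_add, hf', hg']⟩
  | hmul f g hf hg =>
      obtain ⟨f', hf'⟩ := hf
      obtain ⟨g', hg'⟩ := hg
      exact ⟨f' * g', by rw [map_mul, map_mul, map_mul, hf', hg']⟩
  | hinv f hf =>
      obtain ⟨f', hf'⟩ := hf
      exact ⟨f'⁻¹, by rw [map_inv₀, map_inv₀, map_inv₀, hf']⟩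

/-- The Fricke involution on `FK N L`, as a function. -/
def frickeFun (f : FK N L) : FK N L := (exists_descent N L f).choose

theorem baseChangeHom_frickeFun (f : FK N L) :
    baseChangeHom N L (frickeFun N L f) = frickeBar N (baseChangeHom N L f) :=
  (exists_descent N L f).choose_spec

/-- **The Fricke involution `W_N` of `FK N L = L(x_d : d ∣ N)`.** -/
def frickeFK : FK N L →ₐ[L] FK N L where
  toFun := frickeFun N L
  map_one' := baseChangeHom_injective N L (by
    rw [baseChangeHom_frickeFun]; simp only [map_one])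
  map_mul' f g := baseChangeHom_injective N L (by
    rw [baseChangeHom_frickeFun, map_mul, map_mul, map_mul, baseChangeHom_frickeFun,
      baseChangeHom_frickeFun])
  map_zero' := baseChangeHom_injective N L (by
    rw [baseChangeHom_frickeFun]; simp only [map_zero])
  map_add' f g := baseChangeHom_injective N L (by
    rw [baseChangeHom_frickeFun, map_add, map_add, map_add, baseChangeHom_frickeFun,
      baseChangeHom_frickeFun])
  commutes' c := baseChangeHom_injective N L (by
    rw [baseChangeHom_frickeFun, baseChangeHom_algebraMap, (frickeBar N).commutes])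

/-- `W_N` over `L` is the restriction of `W_N` over `ℚbar`. -/
theorem baseChangeHom_frickeFK (f : FK N L) :
    baseChangeHom N L (frickeFK N L f) = frickeBar N (baseChangeHom N L f) :=
  baseChangeHom_frickeFun N L f

/-- `W_N (x_d) = x_{N/d}` in `FK N L`. -/
theorem frickeFK_xdL (d e : ℕ) [NeZero d] [NeZero e] (hde : d * e = N) :
    frickeFK N L (xdL N L d (Dvd.intro _ hde)) = xdL N L e (Dvd.intro_left _ hde) := by
  apply baseChangeHom_injective N L
  rw [baseChangeHom_frickeFK, baseChangeHom_xdL, baseChangeHom_xdL]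
  exact frickeBar_jdF N d e hde

/-- `W_N` is an involution of `FK N L`. -/
theorem frickeFK_frickeFK (f : FK N L) : frickeFK N L (frickeFK N L f) = f := by
  apply baseChangeHom_injective N L
  rw [baseChangeHom_frickeFK, baseChangeHom_frickeFK, frickeBar_frickeBar]

/-- `W_N` as an `L`-algebra automorphism of `FK N L`. -/
def frickeFKEquiv : FK N L ≃ₐ[L] FK N L :=
  AlgEquiv.ofAlgHom (frickeFK N L) (frickeFK N L)
    (AlgHom.ext fun f => frickeFK_frickeFK N L f) (AlgHom.ext fun f => frickeFK_frickeFK N L f)

@[simp] theorem frickeFKEquiv_apply (f : FK N L) : frickeFKEquiv N L f = frickeFK N L f := rfl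

@[simp] theorem frickeFKEquiv_symm_apply (f : FK N L) :
    (frickeFKEquiv N L).symm f = frickeFK N L f := rfl

/-- **The expansion at the cusp `0`** (Fricke expansion `T_S`, descended to `L`), as a ring
homomorphism `FK N L → L((q))`. -/
def iotaTwo : FK N L →+* LaurentSeries L :=
  (FK N L).val.toRingHom.comp (frickeFK N L).toRingHom

@[simp] theorem iotaTwo_apply (f : FK N L) :
    iotaTwo N L f = ((frickeFK N L f : FK N L) : LaurentSeries L) := rfl

/-- `coeffMap (L → ℚbar) (T_S f) = T_S (f ⊗ ℚbar)`. -/
theorem coeffMap_iotaTwo (f : FK N L) :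
    coeffMap (algebraMap L Qbar) (iotaTwo N L f) = tauS N (baseChangeHom N L f) := by
  rw [iotaTwo_apply, ← coe_baseChangeHom, baseChangeHom_frickeFK, coe_frickeBar]

theorem iotaTwo_xdL (d e : ℕ) [NeZero d] [NeZero e] (hde : d * e = N) :
    iotaTwo N L (xdL N L d (Dvd.intro _ hde)) = qExpand L e (jqModC L) := by
  rw [iotaTwo_apply, frickeFK_xdL N L d e hde, coe_xdL]

theorem iotaTwo_algebraMap (c : L) :
    iotaTwo N L (algebraMap L (FK N L) c) = HahnSeries.C c := by
  rw [iotaTwo_apply, (frickeFK N L).commutes]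
  show algebraMap L (LaurentSeries L) c = HahnSeries.C c
  rw [HahnSeries.C_apply]
  exact algebraMap_laurentSeries_eq_single L c

/-- **`T_S` is rational**: it commutes with the coefficientwise Galois action. -/
theorem frickeFK_arithmeticRingAut (σ : L ≃ₐ[ℚ] L) (f : FK N L) :
    frickeFK N L (arithmeticRingAut (modularFunctionFieldFull N) σ f) =
      arithmeticRingAut (modularFunctionFieldFull N) σ (frickeFK N L f) := by
  induction f using FK_induction with
  | hx d hd =>
      have hfix : ∀ (a : ℕ) [NeZero a] (ha : a ∣ N),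
          arithmeticRingAut (modularFunctionFieldFull N) σ (xdL N L a ha) = xdL N L a ha := by
        intro a _ ha
        apply Subtype.ext
        rw [coe_arithmeticRingAut_apply, coe_xdL, Fermat.Agent.X0.CuspGood.coeffMap_qExpand,
          coeffMap_jqModC]
      obtain ⟨e, hde⟩ := hd
      have he0 : e ≠ 0 := by
        rintro rfl
        exact NeZero.ne N (by rw [hde, mul_zero])
      have : NeZero e := ⟨he0⟩
      rw [hfix d, frickeFK_xdL N L d e hde.symm, hfix e]
  | hc c =>
      rw [arithmeticRingAut_algebraMap, (frickeFK N L).commutes, (frickeFK N L).commutes,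
        arithmeticRingAut_algebraMap]
  | hadd f g hf hg => rw [map_add, map_add, hf, hg, map_add, map_add]
  | hmul f g hf hg => rw [map_mul, map_mul, hf, hg, map_mul, map_mul]
  | hinv f hf => rw [map_inv₀, map_inv₀, hf, map_inv₀, map_inv₀]

/-- (c) of GAL's contract: `ι₂ (σ • x) = coeffMap σ (ι₂ x)`. -/
theorem iotaTwo_arithmeticRingAut (σ : L ≃ₐ[ℚ] L) (f : FK N L) :
    iotaTwo N L (arithmeticRingAut (modularFunctionFieldFull N) σ f) =
      coeffMap (σ : L →+* L) (iotaTwo N L f) := by
  rw [iotaTwo_apply, frickeFK_arithmeticRingAut, coe_arithmeticRingAut_apply, iotaTwo_apply]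

end FKLevel

end Fermat.Agent.ES.N34.FrickeFK8
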