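/-
Program N (S34), chapter MODEL, brick M0 (helper9): **MODEL-DEFS** — definitions only.

Data `(q, M', A, K)`: `q` prime, `q ∤ M'`, bad level `N' = M' * q`, `A` a valuation subring of `ℚ̄` over
`q`, `K ⊂ ℚ̄` a number field (normal over `ℚ` for the Galois chapters; not needed for the definitions).

* `R := ↥(AK A K)`, `F_M := ↥(FK M' K)` (good level), `F := ↥(FK (M' * q) K)` (bad level);
* `alpha, beta : F_M →ₐ[K] F` — the two degeneracy maps (Prelude's `heckeAlphaBar` = inclusion,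
  `heckeBetaBar` = `𝐪 ↦ 𝐪^q`);
* `tM ht : F_M` — Program H's Hauptmodul `tq K n e` (`ht : tq K n e ∈ FK M' K`; `(n, e) = (4, 8)` for `q` odd,
  `(9, 3)` for `q = 2`, `n ∣ M'`); `tN q ht := alpha (tM ht)`, `yN q ht := beta (tM ht)` in `F`;
* `B0 A q ht, B1 A q ht : Subalgebra R F` — `ChartGeneric22.chart R (tN q ht)`, `chart R (tN q ht)⁻¹`;
  `B0M A ht, B1M A ht : Subalgebra R F_M` — Program H's charts `chart R (tM ht)`, `chart R (tM ht)⁻¹`;
* `O1 M' q hπ hE` — the Gauss valuation ring `GaussGen8.gaussVS` of `F ⊂ K((𝐪))` (expansion at `∞`;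
  literally `G1Package8.OvE` when `hπ = isUnif_of_irreducible _ _`);
* `wN K M' q := FrickeFK8.frickeFK (M' * q) K` — the `K`-rational Fricke involution `W_{N'}` of `F`
  (helper8), `iota2 K M' q := FrickeFK8.iotaTwo (M' * q) K = coe ∘ W_{N'}` — the expansion at the cusp `0`;
* `O2 M' q hπ hE := (O1 M' q hπ hE).comap W_{N'}` — the Gauss valuation ring of the expansion at the cusp
  `0`; `mem_O2_iff : x ∈ O2 ↔ iota2 K M' q x ∈ gaussRing (AK A K)` (`Iff.rfl`): the literal hypothesis `hOj`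
  of `GalGaussInst21.isInertial_of_expansion` and `GaussEmb22.IsGaussPullback`.
-/
import Mathlib
import Fermat.Prelude.Def_ModularCurve_HeckeOperator
import Fermat.Agent.RED.Interface4
import Fermat.Agent.RED.PUR.GaussGen8
import Fermat.Agent.RED.PUR.ChartGeneric22
import Fermat.Agent.RED.BASE.EtaQuot12
import Fermat.Agent.ES.N34.FrickeFK8

set_option autoImplicit false
set_option linter.unusedSectionVars false

noncomputable section

open HahnSeries ModularCurve

namespace Fermat.Agent.ES.N34.ModelDefs9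

open Fermat.Agent.RED.Interface4 Fermat.Agent.RED.PUR.GaussGen8 Fermat.Agent.RED.PUR.ChartGeneric22
  Fermat.Agent.RED.BASE.EtaQuot12 Fermat.Agent.ES.N34.FrickeFK8

variable (A : ValuationSubring Qbar) (K : IntermediateField ℚ Qbar) (M' q : ℕ) [NeZero M'] [NeZero q]

/-! ### The two degeneracy maps -/

/-- first degeneracy map (inclusion) `F_{M'} → F_{M' q}`. -/
def alpha : FK M' K →ₐ[K] FK (M' * q) K := heckeAlphaBar (↥K) M' q

/-- second degeneracy map (`𝐪 ↦ 𝐪^q`) `F_{M'} → F_{M' q}`. -/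
def beta : FK M' K →ₐ[K] FK (M' * q) K := heckeBetaBar (↥K) M' q

@[simp] theorem coe_alpha (x : FK M' K) :
    ((alpha K M' q x : FK (M' * q) K) : LaurentSeries K) = (x : LaurentSeries K) :=
  coe_heckeAlphaBar M' q x

@[simp] theorem coe_beta (x : FK M' K) :
    ((beta K M' q x : FK (M' * q) K) : LaurentSeries K) = qExpand (↥K) q (x : LaurentSeries K) :=
  rfl

/-! ### The Hauptmodul `t` and `y = t(𝐪^q)` -/

section Hauptmodul

variable {K M'} {n e : ℕ} [NeZero n]

/-- the Hauptmodul at the good level. -/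
def tM (ht : tq (↥K) n e ∈ FK M' K) : FK M' K := ⟨tq (↥K) n e, ht⟩

/-- the Hauptmodul `t` at the bad level. -/
def tN (ht : tq (↥K) n e ∈ FK M' K) : FK (M' * q) K := alpha K M' q (tM ht)

/-- `y = t(𝐪^q)` at the bad level. -/
def yN (ht : tq (↥K) n e ∈ FK M' K) : FK (M' * q) K := beta K M' q (tM ht)

@[simp] theorem coe_tM (ht : tq (↥K) n e ∈ FK M' K) :
    ((tM ht : FK M' K) : LaurentSeries K) = tq (↥K) n e := rfl

@[simp] theorem coe_tN (ht : tq (↥K) n e ∈ FK M' K) :
    ((tN q ht : FK (M' * q) K) : LaurentSeries K) = tq (↥K) n e := by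
  rw [tN, coe_alpha, coe_tM]

@[simp] theorem coe_yN (ht : tq (↥K) n e ∈ FK M' K) :
    ((yN q ht : FK (M' * q) K) : LaurentSeries K) = qExpand (↥K) q (tq (↥K) n e) := rfl

/-- Program H's `∀ t, ↑t = tq K n e → …` style: such a `t` is `tN q ht`. -/
theorem eq_tN_of_coe (ht : tq (↥K) n e ∈ FK M' K) {t : FK (M' * q) K}
    (h : (t : LaurentSeries K) = tq (↥K) n e) : t = tN q ht :=
  Subtype.ext (h.trans (coe_tN q ht).symm)

theorem eq_tM_of_coe (ht : tq (↥K) n e ∈ FK M' K) {t : FK M' K}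
    (h : (t : LaurentSeries K) = tq (↥K) n e) : t = tM ht :=
  Subtype.ext h

/-! ### The two charts -/

/-- chart `0`: the integral closure of `R[t]` in `F`. -/
def B0 (ht : tq (↥K) n e ∈ FK M' K) : Subalgebra ↥(AK A K) ↥(FK (M' * q) K) :=
  chart ↥(AK A K) (tN q ht)

/-- chart `1`: the integral closure of `R[t⁻¹]` in `F`. -/
def B1 (ht : tq (↥K) n e ∈ FK M' K) : Subalgebra ↥(AK A K) ↥(FK (M' * q) K) :=
  chart ↥(AK A K) (tN q ht)⁻¹

/-- level-`M'` chart `0` (Program H's chart): the integral closure of `R[t]` in `F_{M'}`. -/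
def B0M (ht : tq (↥K) n e ∈ FK M' K) : Subalgebra ↥(AK A K) ↥(FK M' K) :=
  chart ↥(AK A K) (tM ht)

/-- level-`M'` chart `1` (Program H's chart): the integral closure of `R[t⁻¹]` in `F_{M'}`. -/
def B1M (ht : tq (↥K) n e ∈ FK M' K) : Subalgebra ↥(AK A K) ↥(FK M' K) :=
  chart ↥(AK A K) (tM ht)⁻¹

end Hauptmodul

/-! ### The two Gauss valuation rings -/

section Gauss

variable {A K}

/-- `O1`: the Gauss valuation ring of the expansion at `∞`. -/
def O1 {π : ↥(AK A K)} (hπ : IsUnif (AK A K) π) (hE : FK (M' * q) K ≤ fracField (AK A K)) :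
    ValuationSubring ↥(FK (M' * q) K) :=
  gaussVS hπ (FK (M' * q) K) hE

theorem mem_O1_iff {π : ↥(AK A K)} (hπ : IsUnif (AK A K) π)
    (hE : FK (M' * q) K ≤ fracField (AK A K)) (x : FK (M' * q) K) :
    x ∈ O1 M' q hπ hE ↔ (x : LaurentSeries K) ∈ gaussRing (AK A K) := Iff.rfl

variable (K) in
/-- the `K`-rational Fricke involution `W_{N'}` of `F` (helper8's `frickeFK`). -/
def wN : FK (M' * q) K →ₐ[K] FK (M' * q) K := frickeFK (M' * q) K

variable (K) in
/-- the `K`-rational expansion at the cusp `0` (helper8's `iotaTwo`), `= coe ∘ W_{N'}`. -/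
def iota2 : FK (M' * q) K →+* LaurentSeries (↥K) := iotaTwo (M' * q) K

variable (K) in
theorem iota2_apply (x : FK (M' * q) K) :
    iota2 K M' q x = ((wN K M' q x : FK (M' * q) K) : LaurentSeries K) := rfl

variable (K) in
theorem wN_wN (x : FK (M' * q) K) : wN K M' q (wN K M' q x) = x :=
  frickeFK_frickeFK (M' * q) K x

/-- `O2`: the Gauss valuation ring of the expansion at the cusp `0`, `= W_{N'}⁻¹ (O1)`. -/
def O2 {π : ↥(AK A K)} (hπ : IsUnif (AK A K) π) (hE : FK (M' * q) K ≤ fracField (AK A K)) :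
    ValuationSubring ↥(FK (M' * q) K) :=
  (O1 M' q hπ hE).comap (wN K M' q).toRingHom

theorem mem_O2_iff {π : ↥(AK A K)} (hπ : IsUnif (AK A K) π)
    (hE : FK (M' * q) K ≤ fracField (AK A K)) (x : FK (M' * q) K) :
    x ∈ O2 M' q hπ hE ↔ iota2 K M' q x ∈ gaussRing (AK A K) := Iff.rfl

theorem mem_O2_iff_wN_mem_O1 {π : ↥(AK A K)} (hπ : IsUnif (AK A K) π)
    (hE : FK (M' * q) K ≤ fracField (AK A K)) (x : FK (M' * q) K) :
    x ∈ O2 M' q hπ hE ↔ wN K M' q x ∈ O1 M' q hπ hE := Iff.rfl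

theorem wN_mem_O2_iff {π : ↥(AK A K)} (hπ : IsUnif (AK A K) π)
    (hE : FK (M' * q) K ≤ fracField (AK A K)) (x : FK (M' * q) K) :
    wN K M' q x ∈ O2 M' q hπ hE ↔ x ∈ O1 M' q hπ hE := by
  rw [mem_O2_iff_wN_mem_O1, wN_wN]

end Gauss

end Fermat.Agent.ES.N34.ModelDefs9
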