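/-
Program N (S34), chapter MODEL, brick S3 helper file (helper5): **branch intersections**
`O_j ∩ φ(F_{M'}) = φ(Ov_{M'})` for the two degeneracy maps `φ = alpha, beta` of `ModelDefs9`
(`Ov_{M'}` = the Gauss valuation ring of the good level `M'`, i.e. `↑z ∈ gaussRing (AK A K)`).

* `alpha_mem_O1_iff` : `alpha z ∈ O1 ↔ ↑z ∈ gaussRing`          (`coe_alpha`, unconditional);
* `beta_mem_O2_iff`  : `beta z ∈ O2 ↔ ↑z ∈ gaussRing`           from
    (V2-a) `W_{M'q} (beta x) = alpha (W_{M'} x)` (`FrickeV11.wN_beta`, on main) and the level-`M'`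
    ISOMETRY `↑x ∈ gaussRing ↔ ↑(W_{M'} x) ∈ gaussRing`, taken as a hypothesis in its literal shape
    (`GaussVTwoInst25`);
* `alpha_mem_O2_iff_qExpand`, `beta_mem_O1_iff_qExpand` : the two mixed intersections reduced to
  the Gauss norm of `V_q` (`qExpand q`): `alpha z ∈ O2 ↔ qExpand q ↑(W_{M'} z) ∈ gaussRing`,
  `beta z ∈ O1 ↔ qExpand q ↑z ∈ gaussRing`  (not needed by S3).
-/
import Mathlib
import Fermat.Agent.ES.N34.ModelDefs9
import Fermat.Agent.ES.N34.FrickeV11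

set_option autoImplicit false
set_option linter.unusedSectionVars false

noncomputable section

open HahnSeries ModularCurve

namespace Fermat.Agent.ES.N34.BranchInt5

open Fermat.Agent.RED.Interface4 Fermat.Agent.RED.PUR.GaussGen8
  Fermat.Agent.ES.N34.FrickeFK8 Fermat.Agent.ES.N34.ModelDefs9

variable {A : ValuationSubring Qbar} {K : IntermediateField ℚ Qbar} (M' q : ℕ) [NeZero M'] [NeZero q]
  {π : ↥(AK A K)} (hu : IsUnif (AK A K) π) (hE : FK (M' * q) K ≤ fracField (AK A K))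

/-- `O1 ∩ alpha(F_{M'}) = alpha(Ov_{M'})`. -/
theorem alpha_mem_O1_iff (z : FK M' K) :
    alpha K M' q z ∈ O1 M' q hu hE ↔ (z : LaurentSeries ↥K) ∈ gaussRing (AK A K) := by
  rw [mem_O1_iff, coe_alpha]

/-- `O1 ∩ beta(F_{M'})`, reduced to the Gauss norm of `V_q`. -/
theorem beta_mem_O1_iff_qExpand (z : FK M' K) :
    beta K M' q z ∈ O1 M' q hu hE ↔
      qExpand (↥K) q (z : LaurentSeries ↥K) ∈ gaussRing (AK A K) := by
  rw [mem_O1_iff, coe_beta]

/-- **`O2 ∩ beta(F_{M'}) = beta(Ov_{M'})`** from (V2-a) and the level-`M'` isometry. -/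
theorem beta_mem_O2_iff
    (hiso : ∀ x : FK M' K, (x : LaurentSeries ↥K) ∈ gaussRing (AK A K) ↔
      ((frickeFK M' K x : FK M' K) : LaurentSeries ↥K) ∈ gaussRing (AK A K))
    (z : FK M' K) :
    beta K M' q z ∈ O2 M' q hu hE ↔ (z : LaurentSeries ↥K) ∈ gaussRing (AK A K) := by
  rw [mem_O2_iff_wN_mem_O1, hiso z]
  rw [FrickeV11.wN_beta, alpha_mem_O1_iff]

/-- `O2 ∩ alpha(F_{M'})`, reduced by (V2-a) to the Gauss norm of `V_q`. -/
theorem alpha_mem_O2_iff_qExpand (z : FK M' K) :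
    alpha K M' q z ∈ O2 M' q hu hE ↔
      qExpand (↥K) q ((frickeFK M' K z : FK M' K) : LaurentSeries ↥K) ∈ gaussRing (AK A K) := by
  rw [mem_O2_iff_wN_mem_O1, FrickeV11.wN_alpha, beta_mem_O1_iff_qExpand]

end Fermat.Agent.ES.N34.BranchInt5
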