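/-
Program N (S34), chapter NODAL CORE (helper13): the abstract core (b'') for a
two-chart model whose special fibre is REDUCED with TWO components (Gauss valuation rings
`O1`, `O2`), possibly singular (nodes), over a possibly ramified DVR.

`O := O1 ⊓ O2`.  Contract `NodalTwoChartModel` = `CoreIface24.TwoChartModel` with the single Gauss
ring replaced by the pair, saturation w.r.t. `π (O1 ⊓ O2)`, and NO smoothness field.  The local
input of START is a HYPOTHESIS (`LocStart`): at every maximal ideal `𝔪 ∋ π` of a chart there is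
`g ∈ F` with `g ^ m * u ∈ (B)_𝔪` and, for each `j`, either `g ≡ 1 mod π O_j` or the component `j`
does not pass through `𝔪`.

`nodal_core`: then there is `s ≠ 0`, `s ≡ 1 mod π O`, `s ^ m * u ∈ B0 ⊓ B1`, hence integral over `K`.
Reuses `NewtonCech24.exists_global_root` (already generic in the subring `Ov`) and `Constants18`.
-/
import Mathlib
import Fermat.Agent.RED.CORE.CoreB24

set_option autoImplicit false

namespace Fermat.Agent.ES.N34.NodalCore13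

open Polynomial Fermat.Agent.RED.CORE

section JArgument

variable {F : Type*} [Field F] {B : Type*} [CommRing B] [Algebra B F]

/-- `x ∈ π · O` for a subring `O`. -/
def PiMulS (O : Subring F) (π : B) (x : F) : Prop :=
  ∃ o ∈ O, x = algebraMap B F π * o

variable {O : Subring F} {π : B}

theorem PiMulS.add {x y : F} (hx : PiMulS O π x) (hy : PiMulS O π y) : PiMulS O π (x + y) := by
  obtain ⟨o, ho, rfl⟩ := hx
  obtain ⟨o', ho', rfl⟩ := hy
  exact ⟨o + o', O.add_mem ho ho', by ring⟩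

theorem PiMulS.mul_left {x : F} (hx : PiMulS O π x) {c : F} (hc : c ∈ O) :
    PiMulS O π (c * x) := by
  obtain ⟨o, ho, rfl⟩ := hx
  exact ⟨c * o, O.mul_mem hc ho, by ring⟩

/-- If `S` is closed under `m`-th roots, `{g | g ^ m * u ∈ S}` is closed under addition. -/
theorem add_pow_mul_mem {S : Subring F} {m : ℕ} (hroot : ∀ x : F, x ^ m ∈ S → x ∈ S) {u x y : F}
    (hx : x ^ m * u ∈ S) (hy : y ^ m * u ∈ S) : (x + y) ^ m * u ∈ S := by
  rw [add_pow, Finset.sum_mul]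
  refine S.sum_mem fun k hk => ?_
  have hk' : k ≤ m := Nat.lt_succ_iff.mp (Finset.mem_range.mp hk)
  obtain ⟨j, hj⟩ : ∃ j, m = k + j := ⟨m - k, by omega⟩
  have hmk : m - k = j := by omega
  rw [hmk]
  have h1 : x ^ k * y ^ j * u ∈ S := by
    apply hroot
    have : (x ^ k * y ^ j * u) ^ m = (x ^ m * u) ^ k * (y ^ m * u) ^ j := by
      rw [hj]; ring
    rw [this]
    exact S.mul_mem (S.pow_mem hx k) (S.pow_mem hy j)
  have : x ^ k * y ^ j * (m.choose k : F) * u = (m.choose k : F) * (x ^ k * y ^ j * u) := by ring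
  rw [this]
  exact S.mul_mem (natCast_mem S _) h1

/-- **Globalisation of START** (the `J`-argument of `StartD28`, for an arbitrary subring `O`). -/
theorem exists_start_of_local (hB : ∀ b : B, algebraMap B F b ∈ O) {m : ℕ} (hm : m ≠ 0)
    (hroot : ∀ x : F, x ^ m ∈ (algebraMap B F).range → x ∈ (algebraMap B F).range) {u : F}
    (hloc : ∀ 𝔪 : Ideal B, 𝔪.IsMaximal → π ∈ 𝔪 → ∃ (g : F) (d : B), d ∉ 𝔪 ∧
      g ^ m * u ∈ (algebraMap B F).range ∧ PiMulS O π (g - algebraMap B F d)) :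
    ∃ g : F, g ^ m * u ∈ (algebraMap B F).range ∧ PiMulS O π (g - 1) := by
  classical
  let J : Ideal B :=
    { carrier := {c | ∃ g : F, g ^ m * u ∈ (algebraMap B F).range ∧
        PiMulS O π (g - algebraMap B F c)}
      zero_mem' := ⟨0, by rw [zero_pow hm, zero_mul]; exact Subring.zero_mem _,
        ⟨0, O.zero_mem, by simp⟩⟩
      add_mem' := by
        rintro c₁ c₂ ⟨g₁, h₁, h₁'⟩ ⟨g₂, h₂, h₂'⟩
        refine ⟨g₁ + g₂, add_pow_mul_mem hroot h₁ h₂, ?_⟩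
        have : g₁ + g₂ - algebraMap B F (c₁ + c₂) =
            (g₁ - algebraMap B F c₁) + (g₂ - algebraMap B F c₂) := by rw [map_add]; ring
        rw [this]
        exact h₁'.add h₂'
      smul_mem' := by
        rintro b c ⟨g, h, h'⟩
        refine ⟨algebraMap B F b * g, ?_, ?_⟩
        · have : (algebraMap B F b * g) ^ m * u = algebraMap B F b ^ m * (g ^ m * u) := by ring
          rw [this]
          exact Subring.mul_mem _ (Subring.pow_mem _ (RingHom.mem_range_self _ b) m) h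
        · have : algebraMap B F b * g - algebraMap B F (b • c) =
              algebraMap B F b * (g - algebraMap B F c) := by
            rw [smul_eq_mul, map_mul]; ring
          rw [this]
          exact h'.mul_left (hB b) }
  have hπJ : π ∈ J :=
    ⟨0, by rw [zero_pow hm, zero_mul]; exact Subring.zero_mem _,
      ⟨-1, O.neg_mem O.one_mem, by ring⟩⟩
  have hJtop : J = ⊤ := by
    by_contra hne
    obtain ⟨𝔪, h𝔪, hJ𝔪⟩ := Ideal.exists_le_maximal J hne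
    obtain ⟨g, d, hd, hg, hg'⟩ := hloc 𝔪 h𝔪 (hJ𝔪 hπJ)
    exact hd (hJ𝔪 ⟨g, hg, hg'⟩)
  have h1 : (1 : B) ∈ J := by rw [hJtop]; exact Submodule.mem_top
  obtain ⟨g, hg, hg'⟩ := h1
  exact ⟨g, hg, by rwa [map_one] at hg'⟩

end JArgument

section Contract

variable (R F : Type*) [CommRing R] [Field F] [Algebra R F]

/-- The nodal two-chart model (reduced special fibre with two components), as a list of
elementary properties.  Compare `CoreIface24.TwoChartModel`. -/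
structure NodalTwoChartModel (π : R) (t : F) (B0 B1 : Subalgebra R F)
    (O1 O2 : ValuationSubring F) : Prop where
  noethR : IsNoetherianRing R
  t_ne : t ≠ 0
  t_mem : t ∈ B0
  tinv_mem : t⁻¹ ∈ B1
  /-- the charts are integrally closed in `F` -/
  intcl0 : ∀ x : F, IsIntegral B0 x → x ∈ B0
  intcl1 : ∀ x : F, IsIntegral B1 x → x ∈ B1
  /-- the charts are integral over `R[t]`, `R[t⁻¹]` -/
  int0 : ∀ x ∈ B0, IsIntegral (Algebra.adjoin R {t}) x
  int1 : ∀ x ∈ B1, IsIntegral (Algebra.adjoin R {t⁻¹}) x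
  /-- `B0` is a finite `R[t]`-module -/
  fin0 : ∃ (r : ℕ) (e : Fin r → F), (∀ i, e i ∈ B0) ∧
    ∀ x ∈ B0, ∃ P : Fin r → R[X], x = ∑ i, aeval t (P i) * e i
  /-- overlap: `B0[1/t] = B1[t]` -/
  ov0 : ∀ x ∈ B1, ∃ k : ℕ, t ^ k * x ∈ B0
  ov1 : ∀ x ∈ B0, ∃ k : ℕ, t⁻¹ ^ k * x ∈ B1
  /-- the two Gauss valuation rings contain the charts, `t` is a unit, `π` a uniformiser -/
  le_O1_0 : ∀ x ∈ B0, x ∈ O1
  le_O2_0 : ∀ x ∈ B0, x ∈ O2
  le_O1_1 : ∀ x ∈ B1, x ∈ O1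
  le_O2_1 : ∀ x ∈ B1, x ∈ O2
  tinv_mem_O1 : t⁻¹ ∈ O1
  tinv_mem_O2 : t⁻¹ ∈ O2
  pi_ne : algebraMap R F π ≠ 0
  pi_nonunit1 : (algebraMap R F π)⁻¹ ∉ O1
  pi_nonunit2 : (algebraMap R F π)⁻¹ ∉ O2
  unif1 : ∀ x ∈ O1, x⁻¹ ∉ O1 → ∃ c ∈ O1, x = algebraMap R F π * c
  unif2 : ∀ x ∈ O2, x⁻¹ ∉ O2 → ∃ c ∈ O2, x = algebraMap R F π * c
  /-- the valuations are of rank one with uniformiser `π` -/
  arch1 : ∀ x : F, ∃ k : ℕ, algebraMap R F π ^ k * x ∈ O1
  arch2 : ∀ x : F, ∃ k : ℕ, algebraMap R F π ^ k * x ∈ O2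
  /-- the charts are `π`-saturated in `O1 ⊓ O2` (the special fibre is reduced, and all its
  components are among the two) -/
  sat0 : ∀ b ∈ B0, ∀ c : F, c ∈ O1 → c ∈ O2 → b = algebraMap R F π * c → c ∈ B0
  sat1 : ∀ b ∈ B1, ∀ c : F, c ∈ O1 → c ∈ O2 → b = algebraMap R F π * c → c ∈ B1

variable {R F}

/-- `x ∈ π (O1 ⊓ O2)`. -/
def PiO (π : R) (O1 O2 : ValuationSubring F) (x : F) : Prop :=
  ∃ c : F, c ∈ O1 ∧ c ∈ O2 ∧ x = algebraMap R F π * c

/-- "The component `j` does not pass through `𝔪`": some `e ∈ B ∖ 𝔪` lies in `π O_j`. -/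
def OffBranch (π : R) (B : Subalgebra R F) (Oj : ValuationSubring F) (𝔪 : Ideal B) : Prop :=
  ∃ e : B, e ∉ 𝔪 ∧ ∃ c ∈ Oj, (e : F) = algebraMap R F π * c

/-- The LOCAL START at a maximal ideal `𝔪` of the chart `B`: `g` with `g ^ m * u ∈ B_𝔪`
(denominator `d ∉ 𝔪`), and for each component `j` either `g ≡ 1 mod π O_j` or the component
does not pass through `𝔪`. -/
def LocStart (π : R) (B : Subalgebra R F) (O1 O2 : ValuationSubring F) (m : ℕ) (u : F)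
    (𝔪 : Ideal B) : Prop :=
  ∃ g : F, (∃ a d : B, d ∉ 𝔪 ∧ g ^ m * u * (d : F) = (a : F)) ∧
    ((∃ c ∈ O1, g - 1 = algebraMap R F π * c) ∨ OffBranch π B O1 𝔪) ∧
    ((∃ c ∈ O2, g - 1 = algebraMap R F π * c) ∨ OffBranch π B O2 𝔪)

end Contract

section OneChart

variable {R F : Type*} [CommRing R] [Field F] [Algebra R F]

/-- One branch: a multiplier `c ∉ 𝔪` with `c * y ∈ π O_j`, if `y ∈ π O_j` or the component `j`
misses `𝔪`. -/
theorem exists_multiplier (π : R) (B : Subalgebra R F) (Oj : ValuationSubring F)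
    (arch : ∀ x : F, ∃ k : ℕ, algebraMap R F π ^ k * x ∈ Oj)
    (𝔪 : Ideal B) [𝔪.IsPrime] (y : F)
    (h : (∃ c ∈ Oj, y = algebraMap R F π * c) ∨ OffBranch π B Oj 𝔪) :
    ∃ c : B, c ∉ 𝔪 ∧ ∃ o ∈ Oj, (c : F) * y = algebraMap R F π * o := by
  rcases h with ⟨c, hc, hgc⟩ | ⟨e, he, o, ho, heo⟩
  · exact ⟨1, fun h1 => (Ideal.IsPrime.ne_top ‹_›) ((Ideal.eq_top_iff_one 𝔪).mpr h1), c, hc, by
      rw [hgc]; simp⟩
  · obtain ⟨k, hk⟩ := arch y
    refine ⟨e ^ (k + 1), fun h1 => he (Ideal.IsPrime.mem_of_pow_mem ‹_› _ h1),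
      o ^ (k + 1) * (algebraMap R F π ^ k * y), ?_, ?_⟩
    · exact Oj.mul_mem _ _ (pow_mem ho _) hk
    · push_cast
      rw [heo]
      ring

/-- One branch, membership form: a multiplier `c ∉ 𝔪` with `c * y ∈ O_j`, if `y ∈ O_j` or the
component `j` misses `𝔪`. -/
theorem exists_multiplier_mem (π : R) (B : Subalgebra R F) (Oj : ValuationSubring F)
    (arch : ∀ x : F, ∃ k : ℕ, algebraMap R F π ^ k * x ∈ Oj)
    (𝔪 : Ideal B) [𝔪.IsPrime] (y : F) (h : y ∈ Oj ∨ OffBranch π B Oj 𝔪) :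
    ∃ c : B, c ∉ 𝔪 ∧ (c : F) * y ∈ Oj := by
  rcases h with hy | ⟨e, he, o, ho, heo⟩
  · exact ⟨1, fun h1 => (Ideal.IsPrime.ne_top ‹_›) ((Ideal.eq_top_iff_one 𝔪).mpr h1), by
      simpa using hy⟩
  · obtain ⟨k, hk⟩ := arch y
    refine ⟨e ^ k, fun h1 => he (Ideal.IsPrime.mem_of_pow_mem ‹_› _ h1), ?_⟩
    have : ((e ^ k : B) : F) * y = o ^ k * (algebraMap R F π ^ k * y) := by
      push_cast
      rw [heo]
      ring
    rw [this]
    exact Oj.mul_mem _ _ (pow_mem ho _) hk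

/-- **START on one nodal chart**: from the local starts at all maximal ideals `𝔪 ∋ π`. -/
theorem start_chart (π : R) (B : Subalgebra R F) (O1 O2 : ValuationSubring F)
    (leO1 : ∀ x ∈ B, x ∈ O1) (leO2 : ∀ x ∈ B, x ∈ O2)
    (pi_ne : algebraMap R F π ≠ 0)
    (arch1 : ∀ x : F, ∃ k : ℕ, algebraMap R F π ^ k * x ∈ O1)
    (arch2 : ∀ x : F, ∃ k : ℕ, algebraMap R F π ^ k * x ∈ O2)
    {m : ℕ} (hm : 0 < m) (hroot : ∀ x : F, x ^ m ∈ B → x ∈ B) {u : F}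
    (hloc : ∀ 𝔪 : Ideal B, 𝔪.IsMaximal → algebraMap R B π ∈ 𝔪 → LocStart π B O1 O2 m u 𝔪) :
    ∃ g : F, g ^ m * u ∈ B ∧ PiO π O1 O2 (g - 1) := by
  classical
  set O : Subring F := O1.toSubring ⊓ O2.toSubring with hO
  have memO : ∀ x : F, x ∈ O ↔ x ∈ O1 ∧ x ∈ O2 := fun x => by
    rw [hO, Subring.mem_inf]; rfl
  have key : ∀ y : F, y ∈ (algebraMap B F).range ↔ y ∈ B := by
    intro y
    constructor
    · rintro ⟨b, rfl⟩
      exact b.2
    · intro hy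
      exact ⟨⟨y, hy⟩, rfl⟩
  have hπ : algebraMap B F (algebraMap R B π) = algebraMap R F π := rfl
  obtain ⟨g, hg, o, ho, hgo⟩ := exists_start_of_local (B := B) (O := O)
    (π := algebraMap R B π) (fun b => (memO _).mpr ⟨leO1 b b.2, leO2 b b.2⟩) hm.ne'
    (fun y hy => (key y).mpr (hroot y ((key _).mp hy))) (u := u) (by
      intro 𝔪 h𝔪 hπ𝔪
      have : 𝔪.IsPrime := h𝔪.isPrime
      obtain ⟨g, ⟨a, d, hd, hgad⟩, h1, h2⟩ := hloc 𝔪 h𝔪 hπ𝔪
      obtain ⟨c1, hc1, o1, ho1, hco1⟩ := exists_multiplier π B O1 arch1 𝔪 (g - 1) h1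
      obtain ⟨c2, hc2, o2, ho2, hco2⟩ := exists_multiplier π B O2 arch2 𝔪 (g - 1) h2
      have hd0 : (d : F) ≠ 0 := by
        intro h0
        apply hd
        have : d = 0 := Subtype.ext h0
        rw [this]; exact 𝔪.zero_mem
      obtain ⟨m', rfl⟩ : ∃ m', m = m' + 1 := ⟨m - 1, by omega⟩
      have hcd : c1 * c2 * d ∉ 𝔪 := fun h =>
        (‹𝔪.IsPrime›.mem_or_mem h).elim
          (fun h' => (‹𝔪.IsPrime›.mem_or_mem h').elim hc1 hc2) hd
      refine ⟨((c1 * c2 * d : B) : F) * g, c1 * c2 * d, hcd, (key _).mpr ?_, ?_⟩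
      · have : (((c1 * c2 * d : B) : F) * g) ^ (m' + 1) * u
            = ((c1 : F) * (c2 : F)) ^ (m' + 1) * (d : F) ^ m' * (a : F) := by
          rw [← hgad]; push_cast; ring
        rw [this]
        exact B.mul_mem (B.mul_mem (B.pow_mem (B.mul_mem c1.2 c2.2) _) (B.pow_mem d.2 _)) a.2
      · -- `c g - c = c1 c2 d (g - 1) ∈ π O1 ∩ π O2`
        have hp0 : algebraMap R F π ≠ 0 := pi_ne
        refine ⟨(c2 : F) * (d : F) * o1, (memO _).mpr ⟨?_, ?_⟩, ?_⟩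
        · exact O1.mul_mem _ _ (O1.mul_mem _ _ (leO1 _ c2.2) (leO1 _ d.2)) ho1
        · have : (c2 : F) * (d : F) * o1 = (c1 : F) * (d : F) * o2 := by
            apply mul_left_cancel₀ hp0
            have e1 : algebraMap R F π * ((c2 : F) * (d : F) * o1)
                = (c2 : F) * (d : F) * (algebraMap R F π * o1) := by ring
            have e2 : algebraMap R F π * ((c1 : F) * (d : F) * o2)
                = (c1 : F) * (d : F) * (algebraMap R F π * o2) := by ring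
            rw [e1, e2, ← hco1, ← hco2]; ring
          rw [this]
          exact O2.mul_mem _ _ (O2.mul_mem _ _ (leO2 _ c1.2) (leO2 _ d.2)) ho2
        · rw [hπ]
          have e1 : algebraMap R F π * ((c2 : F) * (d : F) * o1)
              = (c2 : F) * (d : F) * (algebraMap R F π * o1) := by ring
          rw [e1, ← hco1]
          show ((c1 * c2 * d : B) : F) * g - ((c1 * c2 * d : B) : F) = _
          push_cast; ring)
  refine ⟨g, (key _).mp hg, o, ((memO _).mp ho).1, ((memO _).mp ho).2, ?_⟩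
  rw [← hπ]; exact hgo

end OneChart

section Core

variable {R K F : Type*} [CommRing R] [Field K] [Field F] [Algebra R K] [Algebra K F]
  [Algebra R F] [IsScalarTower R K F]

/-- **The abstract nodal core, chart form**: a global `m`-th root up to an element of
`B0 ⊓ B1`. -/
theorem nodal_core_mem (π : R) (t : F) (B0 B1 : Subalgebra R F) (O1 O2 : ValuationSubring F)
    (M : NodalTwoChartModel R F π t B0 B1 O1 O2) (m : ℕ) (hm : 0 < m) (minv : R)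
    (hminv : (m : R) * minv = 1) (u : F) (hu1 : PiO π O1 O2 (u - 1))
    (hloc0 : ∀ 𝔪 : Ideal B0, 𝔪.IsMaximal → algebraMap R B0 π ∈ 𝔪 → LocStart π B0 O1 O2 m u 𝔪)
    (hloc1 : ∀ 𝔪 : Ideal B1, 𝔪.IsMaximal → algebraMap R B1 π ∈ 𝔪 → LocStart π B1 O1 O2 m u 𝔪) :
    ∃ s : F, s ≠ 0 ∧ s ^ m * u ∈ B0 ∧ s ^ m * u ∈ B1 ∧ PiO π O1 O2 (s - 1) := by
  have := M.noethR
  set p : F := algebraMap R F π with hp
  set O : Subring F := O1.toSubring ⊓ O2.toSubring with hO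
  have memO : ∀ x : F, x ∈ O ↔ x ∈ O1 ∧ x ∈ O2 := fun x => by
    rw [hO, Subring.mem_inf]; rfl
  have toO : ∀ {a : F}, PiO π O1 O2 a → ∃ c ∈ O, a = p * c := by
    rintro a ⟨c, h1, h2, h⟩; exact ⟨c, (memO c).mpr ⟨h1, h2⟩, h⟩
  have ht0 := M.t_ne
  have htinv_pow : ∀ k : ℕ, t⁻¹ ^ k * t ^ k = 1 := fun k => by
    rw [← mul_pow, inv_mul_cancel₀ ht0, one_pow]
  set B01 := CoreB24.overlap t B0 M.t_mem with hB01
  have h0le : B0 ≤ B01 := fun x hx => ⟨0, by simpa using hx⟩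
  have h1le : B1 ≤ B01 := fun x hx => M.ov0 x hx
  have hroot0 := CoreB24.root_closed B0 M.intcl0 m hm
  have hroot1 := CoreB24.root_closed B1 M.intcl1 m hm
  have hroot01 : ∀ x : F, x ^ m ∈ B01 → x ∈ B01 := by
    rintro x ⟨k, hk⟩
    refine ⟨k, hroot0 _ ?_⟩
    obtain ⟨m', rfl⟩ : ∃ m', m = m' + 1 := ⟨m - 1, (Nat.sub_add_cancel hm).symm⟩
    have : (t ^ k * x) ^ (m' + 1) = (t ^ k) ^ m' * (t ^ k * x ^ (m' + 1)) := by ring
    rw [this]
    exact B0.mul_mem (B0.pow_mem (B0.pow_mem M.t_mem k) m') hk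
  have hloc0' : ∀ x ∈ B01, ∃ k : ℕ, t ^ k * x ∈ B0 := fun x hx => hx
  have hloc1' : ∀ x ∈ B01, ∃ k : ℕ, t⁻¹ ^ k * x ∈ B1 := by
    rintro x ⟨k, hk⟩
    obtain ⟨j, hj⟩ := M.ov1 _ hk
    refine ⟨j, ?_⟩
    have : t⁻¹ ^ j * x = t⁻¹ ^ k * (t⁻¹ ^ j * (t ^ k * x)) := by
      have h1 : t⁻¹ ^ k * (t⁻¹ ^ j * (t ^ k * x)) = (t⁻¹ ^ k * t ^ k) * (t⁻¹ ^ j * x) := by ring
      rw [h1, htinv_pow, one_mul]
    rw [this]
    exact B1.mul_mem (B1.pow_mem M.tinv_mem k) hj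
  obtain ⟨r, e, he, hgen⟩ := M.fin0
  have hB01O : ∀ x ∈ B01, x ∈ O := by
    rintro x ⟨k, hk⟩
    have : x = t⁻¹ ^ k * (t ^ k * x) := by rw [← mul_assoc, htinv_pow, one_mul]
    rw [this]
    exact (memO _).mpr
      ⟨O1.mul_mem _ _ (pow_mem M.tinv_mem_O1 k) (M.le_O1_0 _ hk),
        O2.mul_mem _ _ (pow_mem M.tinv_mem_O2 k) (M.le_O2_0 _ hk)⟩
  have hrootO : ∀ x : F, x ^ m ∈ O → x ∈ O := fun x hx =>
    (memO x).mpr ⟨CoreB24.vs_root_closed O1 m hm x ((memO _).mp hx).1,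
      CoreB24.vs_root_closed O2 m hm x ((memO _).mp hx).2⟩
  have hp0 : p ≠ 0 := M.pi_ne
  have hpnu : p⁻¹ ∉ O := fun h => M.pi_nonunit1 ((memO _).mp h).1
  have hunit_j : ∀ (Oj : ValuationSubring F), p ∈ Oj → p⁻¹ ∉ Oj →
      (∀ x ∈ Oj, x⁻¹ ∉ Oj → ∃ c ∈ Oj, x = p * c) → ∀ c ∈ Oj, (1 + p * c)⁻¹ ∈ Oj := by
    intro Oj hpOj hnu unif c hc
    by_contra h
    have hmem : 1 + p * c ∈ Oj := Oj.add_mem _ _ Oj.one_mem (Oj.mul_mem _ _ hpOj hc)
    obtain ⟨c', hc', hcc⟩ := unif _ hmem h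
    apply hnu
    have : p⁻¹ = c' - c := by
      field_simp
      linear_combination hcc
    rw [this]
    exact sub_mem hc' hc
  have hpO1 : p ∈ O1 := M.le_O1_0 _ (B0.algebraMap_mem π)
  have hpO2 : p ∈ O2 := M.le_O2_0 _ (B0.algebraMap_mem π)
  have hunit : ∀ c ∈ O, (1 + p * c)⁻¹ ∈ O := fun c hc =>
    (memO _).mpr ⟨hunit_j O1 hpO1 M.pi_nonunit1 M.unif1 c ((memO _).mp hc).1,
      hunit_j O2 hpO2 M.pi_nonunit2 M.unif2 c ((memO _).mp hc).2⟩
  have hsat0 : ∀ b ∈ B0, ∀ c ∈ O, b = p * c → c ∈ B0 := fun b hb c hc h =>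
    M.sat0 b hb c ((memO _).mp hc).1 ((memO _).mp hc).2 h
  have hsat1 : ∀ b ∈ B1, ∀ c ∈ O, b = p * c → c ∈ B1 := fun b hb c hc h =>
    M.sat1 b hb c ((memO _).mp hc).1 ((memO _).mp hc).2 h
  have hsat01 : ∀ b ∈ B01, ∀ c ∈ O, b = p * c → c ∈ B01 := by
    rintro b ⟨k, hk⟩ c hc hbc
    refine ⟨k, hsat0 _ hk (t ^ k * c) ?_ ?_⟩
    · exact O.mul_mem (O.pow_mem (hB01O _ (h0le M.t_mem)) k) hc
    · rw [hbc]; ring
  -- START on both charts
  obtain ⟨g0, hg0, hg0'⟩ := start_chart π B0 O1 O2 M.le_O1_0 M.le_O2_0 M.pi_ne M.arch1 M.arch2 hm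
    hroot0 hloc0
  obtain ⟨g1, hg1, hg1'⟩ := start_chart π B1 O1 O2 M.le_O1_1 M.le_O2_1 M.pi_ne M.arch1 M.arch2 hm
    hroot1 hloc1
  obtain ⟨s, hs0, hsB0, hsB1, c, hc, hsc⟩ := NewtonCech24.exists_global_root π m hm minv hminv t ht0
    B0 B1 B01 h0le h1le M.t_mem M.tinv_mem hroot0 hroot1 hroot01 hloc0' hloc1' e he hgen
    O hB01O hrootO hpnu hunit hsat0 hsat1 hsat01 u (toO hu1)
    g0 g1 hg0 (toO hg0') hg1 (toO hg1')
  exact ⟨s, hs0, hsB0, hsB1, c, ((memO _).mp hc).1, ((memO _).mp hc).2, hsc⟩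

/-- **The abstract nodal core**: `s ^ m * u` is integral (algebraic) over `K`. -/
theorem nodal_core (π : R) (t : F) (B0 B1 : Subalgebra R F) (O1 O2 : ValuationSubring F)
    (M : NodalTwoChartModel R F π t B0 B1 O1 O2) (m : ℕ) (hm : 0 < m) (minv : R)
    (hminv : (m : R) * minv = 1) (u : F) (hu1 : PiO π O1 O2 (u - 1))
    (hloc0 : ∀ 𝔪 : Ideal B0, 𝔪.IsMaximal → algebraMap R B0 π ∈ 𝔪 → LocStart π B0 O1 O2 m u 𝔪)
    (hloc1 : ∀ 𝔪 : Ideal B1, 𝔪.IsMaximal → algebraMap R B1 π ∈ 𝔪 → LocStart π B1 O1 O2 m u 𝔪) :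
    ∃ s : F, s ≠ 0 ∧ IsIntegral K (s ^ m * u) := by
  obtain ⟨s, hs0, hsB0, hsB1, -⟩ :=
    nodal_core_mem π t B0 B1 O1 O2 M m hm minv hminv u hu1 hloc0 hloc1
  exact ⟨s, hs0, isAlgebraic_iff_isIntegral.mp
    (Constants18.isAlgebraic_of_isIntegral_both (R₀ := R) t _ (M.int0 _ hsB0) (M.int1 _ hsB1))⟩

/-- Constant form: if `K` is algebraically closed in `F`, `u` is a constant times an `m`-th
power. -/
theorem nodal_core_const (π : R) (t : F) (B0 B1 : Subalgebra R F) (O1 O2 : ValuationSubring F)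
    (M : NodalTwoChartModel R F π t B0 B1 O1 O2) (m : ℕ) (hm : 0 < m) (minv : R)
    (hminv : (m : R) * minv = 1) (u : F) (hu1 : PiO π O1 O2 (u - 1))
    (hloc0 : ∀ 𝔪 : Ideal B0, 𝔪.IsMaximal → algebraMap R B0 π ∈ 𝔪 → LocStart π B0 O1 O2 m u 𝔪)
    (hloc1 : ∀ 𝔪 : Ideal B1, 𝔪.IsMaximal → algebraMap R B1 π ∈ 𝔪 → LocStart π B1 O1 O2 m u 𝔪)
    (hKF : ∀ y : F, IsAlgebraic K y → ∃ c : K, algebraMap K F c = y) :
    ∃ s : F, s ≠ 0 ∧ ∃ c : K, c ≠ 0 ∧ s ^ m = algebraMap K F c * u := by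
  obtain ⟨s, hs0, hs⟩ := nodal_core (K := K) π t B0 B1 O1 O2 M m hm minv hminv u hu1 hloc0 hloc1
  obtain ⟨c, hc⟩ := hKF _ (isAlgebraic_iff_isIntegral.mpr hs)
  have hu0 : u ≠ 0 := by
    rintro rfl
    obtain ⟨o, ho, -, h⟩ := hu1
    apply M.pi_nonunit1
    have hp0 := M.pi_ne
    have : (algebraMap R F π)⁻¹ = -o := by
      field_simp
      linear_combination -h
    rw [this]
    exact neg_mem ho
  have hρ0 : s ^ m * u ≠ 0 := mul_ne_zero (pow_ne_zero m hs0) hu0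
  have hc0 : c ≠ 0 := by
    rintro rfl
    rw [map_zero] at hc
    exact hρ0 hc.symm
  refine ⟨s⁻¹, inv_ne_zero hs0, c⁻¹, inv_ne_zero hc0, ?_⟩
  rw [map_inv₀, hc, inv_pow]
  field_simp

end Core

end Fermat.Agent.ES.N34.NodalCore13
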