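/-
Program N (S34), chapter MODEL, brick S1 (helper26): the CHART-generic fields.

For abstract `(R, K, F, t)` -- `R` a noetherian integrally closed domain, `K = Frac R` of characteristic
zero, `t ∈ F` transcendental over `K`, `F` finite over `K(t)` -- the charts `B0 := chart R t` (integral
closure of `R[t]` in `F`) and `B1 := chart R t⁻¹` satisfy every field of
`NodalCore13.NodalTwoChartModel` that does not involve the two Gauss valuation rings
(`noethR, t_ne, t_mem, tinv_mem, intcl0/1, int0/1, fin0, ov0/ov1`), the fields `le_O*` follow from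
`R ⊆ O_j`, `t^{±1} ∈ O_j`, and the extra hypotheses `noeth0/1`, `frac0/1` of `NodalCL13.cl_nodal` hold.
The remaining Gauss fields (`pi_ne, pi_nonunit_j, unif_j, arch_j, sat0, sat1`) are hypotheses
(they are the deliverable of V3).

Concrete part: over a DVR `O : ValuationSubring K` and `E ≤ K((q))`, `t ∈ E ∩ gaussRing O` with
transcendental residue and `[E : K(t)] ≠ 0`: all of the above for `chart ↥O t`, `chart ↥O t⁻¹ ⊆ ↥E`,
together with `fracR`, `dvrR`, `hKF` -- the complete non-Gauss input of `cl_nodal`.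
Arithmetic part: `R := AK A K`, `F := FK N K`, `t := tq K n e` for all large number fields `K`.
This is the pattern of `RED/ModelAsm4` + `RED/ModelMain4`.
-/
import Mathlib
import Fermat.Agent.RED.PUR.ChartGeneric22
import Fermat.Agent.RED.ModelAsm4
import Fermat.Agent.RED.PUR.GaussBridge10
import Fermat.Agent.RED.ModelFinal4
import Fermat.Agent.ES.N34.NodalCore13

set_option autoImplicit false

namespace Fermat.Agent.ES.N34.ChartN26

open Polynomial Fermat.Agent.RED.PUR.ChartGeneric22 Fermat.Agent.ES.N34.NodalCore13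

section Abstract

variable {R K F : Type*} [CommRing R] [IsDomain R] [Field K] [Field F] [Algebra R K] [Algebra K F]
  [Algebra R F] [IsScalarTower R K F] [IsFractionRing R K] [IsNoetherianRing R]
  [IsIntegrallyClosed R] [CharZero K]

/-- The chart-generic facts which are NOT fields of `NodalTwoChartModel` but hypotheses of
`NodalCL13.cl_nodal`: both charts are noetherian with fraction field `F`. -/
theorem chart_noeth_frac {t : F} [FiniteDimensional (IntermediateField.adjoin K {t}) F]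
    (htr : Transcendental K t) :
    IsNoetherianRing (chart R t) ∧ IsNoetherianRing (chart R t⁻¹) ∧
    (∀ x : F, ∃ a ∈ chart R t, ∃ b ∈ chart R t, b ≠ 0 ∧ x * b = a) ∧
    (∀ x : F, ∃ a ∈ chart R t⁻¹, ∃ b ∈ chart R t⁻¹, b ≠ 0 ∧ x * b = a) := by
  have hmem : t ∈ IntermediateField.adjoin K {t} := IntermediateField.mem_adjoin_simple_self K t
  have hinv_mem : t⁻¹ ∈ IntermediateField.adjoin K {t} := inv_mem hmem
  have hE' : IntermediateField.adjoin K {t} ≤ IntermediateField.adjoin K {t⁻¹} := by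
    rw [IntermediateField.adjoin_le_iff, Set.singleton_subset_iff]
    have h1 : t⁻¹ ∈ IntermediateField.adjoin K {t⁻¹} :=
      IntermediateField.mem_adjoin_simple_self K t⁻¹
    have h2 := inv_mem h1
    rwa [inv_inv] at h2
  have htr' : Transcendental K t⁻¹ := fun h => htr (IsAlgebraic.inv_iff.1 h)
  obtain ⟨hn0, hf0, -⟩ := chart_facts (R := R) (IntermediateField.adjoin K {t}) hmem le_rfl htr
  obtain ⟨hn1, hf1, -⟩ := chart_facts (R := R) (IntermediateField.adjoin K {t}) hinv_mem hE' htr'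
  exact ⟨hn0, hn1, hf0, hf1⟩

/-- **The generic part of `NodalTwoChartModel`**: for the charts `chart R t`, `chart R t⁻¹` all
fields not involving the Gauss valuation rings hold, and `le_O*` follow from `R ⊆ O_j`,
`t^{±1} ∈ O_j`; the Gauss fields are hypotheses. -/
theorem nodalTwoChartModel_of {π : R} {t : F} (O1 O2 : ValuationSubring F)
    [FiniteDimensional (IntermediateField.adjoin K {t}) F] (htr : Transcendental K t)
    (R_le_O1 : ∀ r : R, algebraMap R F r ∈ O1) (R_le_O2 : ∀ r : R, algebraMap R F r ∈ O2)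
    (t_mem_O1 : t ∈ O1) (t_mem_O2 : t ∈ O2) (tinv_mem_O1 : t⁻¹ ∈ O1) (tinv_mem_O2 : t⁻¹ ∈ O2)
    (pi_ne : algebraMap R F π ≠ 0)
    (pi_nonunit1 : (algebraMap R F π)⁻¹ ∉ O1) (pi_nonunit2 : (algebraMap R F π)⁻¹ ∉ O2)
    (unif1 : ∀ x ∈ O1, x⁻¹ ∉ O1 → ∃ c ∈ O1, x = algebraMap R F π * c)
    (unif2 : ∀ x ∈ O2, x⁻¹ ∉ O2 → ∃ c ∈ O2, x = algebraMap R F π * c)
    (arch1 : ∀ x : F, ∃ k : ℕ, algebraMap R F π ^ k * x ∈ O1)
    (arch2 : ∀ x : F, ∃ k : ℕ, algebraMap R F π ^ k * x ∈ O2)
    (sat0 : ∀ b ∈ chart R t, ∀ c : F, c ∈ O1 → c ∈ O2 → b = algebraMap R F π * c → c ∈ chart R t)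
    (sat1 : ∀ b ∈ chart R t⁻¹, ∀ c : F, c ∈ O1 → c ∈ O2 → b = algebraMap R F π * c →
      c ∈ chart R t⁻¹) :
    NodalTwoChartModel R F π t (chart R t) (chart R t⁻¹) O1 O2 := by
  have ht0 : t ≠ 0 := by
    rintro rfl
    exact htr (isAlgebraic_zero)
  have hmem : t ∈ IntermediateField.adjoin K {t} := IntermediateField.mem_adjoin_simple_self K t
  obtain ⟨-, -, hg0⟩ := chart_facts (R := R) (IntermediateField.adjoin K {t}) hmem le_rfl htr
  exact
    { noethR := inferInstance
      t_ne := ht0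
      t_mem := self_mem_chart t
      tinv_mem := self_mem_chart t⁻¹
      intcl0 := chart_intcl t
      intcl1 := chart_intcl t⁻¹
      int0 := fun x hx => hx
      int1 := fun x hx => hx
      fin0 := hg0
      ov0 := fun x hx => exists_pow_mul_mem_chart ht0 hx
      ov1 := fun x hx => by
        have hx' : x ∈ chart R (t⁻¹)⁻¹ := by rwa [inv_inv]
        exact exists_pow_mul_mem_chart (inv_ne_zero ht0) hx'
      le_O1_0 := chart_le_valuationSubring O1 R_le_O1 t_mem_O1
      le_O2_0 := chart_le_valuationSubring O2 R_le_O2 t_mem_O2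
      le_O1_1 := chart_le_valuationSubring O1 R_le_O1 tinv_mem_O1
      le_O2_1 := chart_le_valuationSubring O2 R_le_O2 tinv_mem_O2
      tinv_mem_O1 := tinv_mem_O1
      tinv_mem_O2 := tinv_mem_O2
      pi_ne := pi_ne
      pi_nonunit1 := pi_nonunit1
      pi_nonunit2 := pi_nonunit2
      unif1 := unif1
      unif2 := unif2
      arch1 := arch1
      arch2 := arch2
      sat0 := sat0
      sat1 := sat1 }

end Abstract

section Bundle

variable (R K F : Type*) [CommRing R] [Field K] [Field F] [Algebra R K] [Algebra K F]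
  [Algebra R F] [IsScalarTower R K F]

/-- The complete NON-Gauss input of `NodalCL13.cl_nodal` for the charts `chart R t`, `chart R t⁻¹`:
every hypothesis of `cl_nodal` except the model `M` (whose non-Gauss fields are produced by
`model`), (M2), (U1)-(U3). -/
structure ChartInputs (π : R) (t : F) : Prop where
  /-- the model, given the Gauss fields for ANY pair of valuation subrings -/
  model : ∀ O1 O2 : ValuationSubring F,
    (∀ r : R, algebraMap R F r ∈ O1) → (∀ r : R, algebraMap R F r ∈ O2) →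
    t ∈ O1 → t ∈ O2 → t⁻¹ ∈ O1 → t⁻¹ ∈ O2 →
    algebraMap R F π ≠ 0 →
    (algebraMap R F π)⁻¹ ∉ O1 → (algebraMap R F π)⁻¹ ∉ O2 →
    (∀ x ∈ O1, x⁻¹ ∉ O1 → ∃ c ∈ O1, x = algebraMap R F π * c) →
    (∀ x ∈ O2, x⁻¹ ∉ O2 → ∃ c ∈ O2, x = algebraMap R F π * c) →
    (∀ x : F, ∃ k : ℕ, algebraMap R F π ^ k * x ∈ O1) →
    (∀ x : F, ∃ k : ℕ, algebraMap R F π ^ k * x ∈ O2) →
    (∀ b ∈ chart R t, ∀ c : F, c ∈ O1 → c ∈ O2 → b = algebraMap R F π * c → c ∈ chart R t) →
    (∀ b ∈ chart R t⁻¹, ∀ c : F, c ∈ O1 → c ∈ O2 → b = algebraMap R F π * c →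
      c ∈ chart R t⁻¹) →
    NodalTwoChartModel R F π t (chart R t) (chart R t⁻¹) O1 O2
  noeth0 : IsNoetherianRing (chart R t)
  noeth1 : IsNoetherianRing (chart R t⁻¹)
  frac0 : ∀ x : F, ∃ a ∈ chart R t, ∃ b ∈ chart R t, b ≠ 0 ∧ x * b = a
  frac1 : ∀ x : F, ∃ a ∈ chart R t⁻¹, ∃ b ∈ chart R t⁻¹, b ≠ 0 ∧ x * b = a
  fracR : IsFractionRing R K
  dvrR : ∀ r : R, r ≠ 0 → ∃ (k : ℕ) (v : Rˣ), r = π ^ k * v
  hKF : ∀ y : F, IsAlgebraic K y → ∃ c : K, algebraMap K F c = y
  /-- also recorded: `t` is transcendental over `K` and nonzero -/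
  htr : Transcendental K t
  t_ne : t ≠ 0

variable {R K F}

/-- `ChartInputs` from the abstract data. -/
theorem chartInputs_of [IsDomain R] [IsFractionRing R K] [IsNoetherianRing R]
    [IsIntegrallyClosed R] [CharZero K] {π : R} {t : F}
    [FiniteDimensional (IntermediateField.adjoin K {t}) F] (htr : Transcendental K t)
    (dvrR : ∀ r : R, r ≠ 0 → ∃ (k : ℕ) (v : Rˣ), r = π ^ k * v)
    (hKF : ∀ y : F, IsAlgebraic K y → ∃ c : K, algebraMap K F c = y) :
    ChartInputs R K F π t := by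
  obtain ⟨hn0, hn1, hf0, hf1⟩ := chart_noeth_frac (R := R) htr
  exact
    { model := fun O1 O2 h1 h2 h3 h4 h5 h6 h7 h8 h9 h10 h11 h12 h13 h14 h15 =>
        nodalTwoChartModel_of O1 O2 htr h1 h2 h3 h4 h5 h6 h7 h8 h9 h10 h11 h12 h13 h14 h15
      noeth0 := hn0
      noeth1 := hn1
      frac0 := hf0
      frac1 := hf1
      fracR := inferInstance
      dvrR := dvrR
      hKF := hKF
      htr := htr
      t_ne := by
        rintro rfl
        exact htr isAlgebraic_zero }

end Bundle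

noncomputable section Concrete

open HahnSeries ModularCurve IntermediateField
open Fermat.Agent.RED.PUR.GaussGen8 Fermat.Agent.RED.PUR.KtGauss8
  Fermat.Agent.RED.PUR.G1Package8 Fermat.Agent.RED.NumInst4 Fermat.Agent.RED.ModelAsm4

variable {K : Type*} [Field K] {O : ValuationSubring K} [IsDiscreteValuationRing ↥O]
  {E : IntermediateField K (LaurentSeries K)}

/-- `ChartInputs` at `(O, E)`: a generic wrapper (typeclass search at the concrete number-field
types is slow, so concrete statements only mention `ChartInputsAt O E π t`; it unfolds by `id`). -/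
def ChartInputsAt (O : ValuationSubring K) (E : IntermediateField K (LaurentSeries K))
    (π : ↥O) (t : ↥E) : Prop :=
  ChartInputs ↥O K ↥E π t

omit [IsDiscreteValuationRing ↥O] in
theorem ChartInputsAt.out {π : ↥O} {t : ↥E} (h : ChartInputsAt O E π t) :
    ChartInputs ↥O K ↥E π t := h

/-- **CHART-generic, Gauss form.**  Over a DVR `O : ValuationSubring K` (char 0), `E ≤ K((q))`,
`t ∈ E ∩ gaussRing O` with transcendental residue and `[E : K(t)] ≠ 0`: the complete non-Gauss
input of `cl_nodal` for the charts `chart ↥O t`, `chart ↥O t⁻¹ ⊆ ↥E`. -/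
theorem chartInputs_gauss [CharZero K] {π : ↥O} (hπ : Irreducible π) (t : ↥E)
    (ht : (t : LaurentSeries K) ∈ gaussRing O)
    (htr : Transcendental (Res O) (gaussRed O ⟨(t : LaurentSeries K), ht⟩))
    (hn : relfinrank (Kt O ⟨(t : LaurentSeries K), ht⟩) E ≠ 0) :
    ChartInputsAt O E π t := by
  have : IsScalarTower ↥O K ↥E := isScalarTower_OE O E
  have : FiniteDimensional ↥(IntermediateField.adjoin K {t}) ↥E := finiteDimensional_adjoin t hn
  have htrK : Transcendental K t :=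
    transcendental_of_coe t (transcendental_t (tG := ⟨(t : LaurentSeries K), ht⟩) hπ htr)
  refine chartInputs_of (R := ↥O) (K := K) (F := ↥E) htrK (dvr_factor hπ) ?_
  intro y hy
  obtain ⟨c, hc⟩ := Fermat.Agent.RED.PUR.GaussBridge10.exists_algebraMap_eq_of_isAlgebraic E hy
  exact ⟨c, hc.symm⟩

end Concrete

noncomputable section Arithmetic

open HahnSeries ModularCurve IntermediateField
open Fermat.Agent.RED.Interface4 Fermat.Agent.RED.PUR.GaussGen8 Fermat.Agent.RED.PUR.KtGauss8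
  Fermat.Agent.RED.ModelTargets4 Fermat.Agent.RED.BASE.EtaQuot12 Fermat.Agent.X0
  Fermat.Agent.RED.DESC.NumberFieldDVR27 Fermat.Agent.RED.ModelMain4
  Fermat.Agent.RED.BASE.Interface12

variable {n e N : ℕ} [NeZero n] [NeZero N] {A : ValuationSubring Qbar}

/-- **CHART-generic for the arithmetic data**, from the BASE→GAUSS targets: for all large number
fields `K`, `AK A K` is a DVR and for every uniformiser `ϖ` and the Hauptmodul
`t = tq K n e ∈ FK N K`, the complete non-Gauss input of `cl_nodal` holds for the charts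
`chart (AK A K) t^{±1} ⊆ FK N K`.  NO hypothesis `ℓ ∤ N` (in Program N, `ℓ = q ∣ N`). -/
theorem chartInputs_of_targets {ℓ : ℕ} (hℓ : ℓ.Prime) (hA : A.LiesOverPrime ℓ)
    (hT : TTarget n e N) (hJ : JTarget n e) :
    ∃ K₀ : IntermediateField ℚ Qbar, FiniteDimensional ℚ K₀ ∧
      ∀ K : IntermediateField ℚ Qbar, FiniteDimensional ℚ K → K₀ ≤ K →
        IsDiscreteValuationRing ↥(AK A K) ∧ tq K n e ∈ FK N K ∧
        ∀ (ϖ : ↥(AK A K)) (_ : Irreducible ϖ) (t : ↥(FK N K)),
          (t : LaurentSeries K) = tq K n e →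
          ChartInputsAt (AK A K) (FK N K) ϖ t := by
  obtain ⟨K₁, hK₁, hT⟩ := hT
  obtain ⟨K₂, hK₂, hJ⟩ := hJ
  refine ⟨K₁ ⊔ K₂, inferInstance, fun K hKfd hle => ?_⟩
  have hle1 : K₁ ≤ K := le_trans le_sup_left hle
  have hle2 : K₂ ≤ K := le_trans le_sup_right hle
  have hdvr : IsDiscreteValuationRing ↥(AK A K) := isDiscreteValuationRing_AK A K hℓ.ne_zero hA
  have htE : tq K n e ∈ FK N K := hT K hKfd hle1
  refine ⟨hdvr, htE, fun ϖ hϖ t htq => ?_⟩
  have ht : ((t : ↥(FK N K)) : LaurentSeries K) ∈ gaussRing (AK A K) := by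
    rw [htq]; exact tq_mem_gaussRing (AK A K) n e
  have h1 : (⟨((t : ↥(FK N K)) : LaurentSeries K), ht⟩ : ↥(gaussRing (AK A K))) =
      ⟨tq K n e, tq_mem_gaussRing (AK A K) n e⟩ := Subtype.ext htq
  have htr : Transcendental (Res (AK A K))
      (gaussRed (AK A K) ⟨((t : ↥(FK N K)) : LaurentSeries K), ht⟩) := by
    rw [h1]
    exact transcendental_gaussRed_tq (AK A K) n e
  have hjt : jqModC K ∈ Kt (AK A K) ⟨((t : ↥(FK N K)) : LaurentSeries K), ht⟩ := by
    rw [h1]
    exact hJ K hKfd hle2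
  have hn : relfinrank (Kt (AK A K) ⟨((t : ↥(FK N K)) : LaurentSeries K), ht⟩) (FK N K) ≠ 0 :=
    relfinrank_ne_zero (AK A K) N _ t.2 hjt
  exact chartInputs_gauss hϖ t ht htr hn

/-- The same from the BASE exports `TMem n e N`, `TGenBase n e`. -/
theorem chartInputs_of_base {ℓ : ℕ} (hℓ : ℓ.Prime) (hA : A.LiesOverPrime ℓ)
    (hmem : TMem n e N) (hgen : TGenBase n e) :
    ∃ K₀ : IntermediateField ℚ Qbar, FiniteDimensional ℚ K₀ ∧
      ∀ K : IntermediateField ℚ Qbar, FiniteDimensional ℚ K → K₀ ≤ K →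
        IsDiscreteValuationRing ↥(AK A K) ∧ tq K n e ∈ FK N K ∧
        ∀ (ϖ : ↥(AK A K)) (_ : Irreducible ϖ) (t : ↥(FK N K)),
          (t : LaurentSeries K) = tq K n e →
          ChartInputsAt (AK A K) (FK N K) ϖ t :=
  chartInputs_of_targets hℓ hA (Fermat.Agent.RED.ModelFinal4.tTarget N hmem)
    (Fermat.Agent.RED.ModelFinal4.jTarget hgen)

end Arithmetic

section Levels

open HahnSeries ModularCurve
open Fermat.Agent.RED.Interface4 Fermat.Agent.RED.BASE.EtaQuot12

variable {A : ValuationSubring Qbar}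

/-- Level `N` with `4 ∣ N` (`ℓ` odd in Program N): Hauptmodul `tq K 4 8`. -/
theorem chartInputs_four (N : ℕ) [NeZero N] (hN : 4 ∣ N) {ℓ : ℕ} (hℓ : ℓ.Prime)
    (hA : A.LiesOverPrime ℓ) :
    ∃ K₀ : IntermediateField ℚ Qbar, FiniteDimensional ℚ K₀ ∧
      ∀ K : IntermediateField ℚ Qbar, FiniteDimensional ℚ K → K₀ ≤ K →
        IsDiscreteValuationRing ↥(AK A K) ∧ tq K 4 8 ∈ FK N K ∧
        ∀ (ϖ : ↥(AK A K)) (_ : Irreducible ϖ) (t : ↥(FK N K)),
          (t : LaurentSeries K) = tq K 4 8 →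
          ChartInputsAt (AK A K) (FK N K) ϖ t := by
  have hB := (Fermat.Agent.RED.BASE.MainCusp12.base_four N hN).1
  exact chartInputs_of_base hℓ hA hB.mem hB.genBase

/-- Level `N` with `9 ∣ N` (`ℓ = 2` in Program N): Hauptmodul `tq K 9 3`. -/
theorem chartInputs_nine (N : ℕ) [NeZero N] (hN : 9 ∣ N) {ℓ : ℕ} (hℓ : ℓ.Prime)
    (hA : A.LiesOverPrime ℓ) :
    ∃ K₀ : IntermediateField ℚ Qbar, FiniteDimensional ℚ K₀ ∧
      ∀ K : IntermediateField ℚ Qbar, FiniteDimensional ℚ K → K₀ ≤ K →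
        IsDiscreteValuationRing ↥(AK A K) ∧ tq K 9 3 ∈ FK N K ∧
        ∀ (ϖ : ↥(AK A K)) (_ : Irreducible ϖ) (t : ↥(FK N K)),
          (t : LaurentSeries K) = tq K 9 3 →
          ChartInputsAt (AK A K) (FK N K) ϖ t := by
  have hB := (Fermat.Agent.RED.BASE.MainCusp12.base_nine N hN).1
  exact chartInputs_of_base hℓ hA hB.mem hB.genBase

end Levels

end Fermat.Agent.ES.N34.ChartN26
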