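/-
Program N (S34), chapter MODEL, brick S1 (helper26), instantiation at `ModelDefs9`.

`ChartN26.ChartInputs` (the complete non-Gauss input of `NodalCL13.cl_nodal`) for the literal data of
`ModelDefs9`: `R := ↥(AK A K)`, `F := ↥(FK (M' * q) K)`, `t := tN q ht`, charts `B0 A q ht`, `B1 A q ht`,
for all large number fields `K` (no normality needed, `K` may be ramified at `ℓ = q`).

Statements use the wrapper `ChartInputsAt (AK A K) (FK (M' * q) K) ϖ (tN q ht)` (`= ChartInputs ↥(AK A K) K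
↥(FK (M' * q) K) ϖ (tN q ht)` by `ChartInputsAt.out`/`id`); the field `model` then produces
`NodalTwoChartModel _ _ ϖ (tN q ht) (chart _ (tN q ht)) (chart _ (tN q ht)⁻¹) O1 O2`, and
`B0 A q ht = chart _ (tN q ht)`, `B1 A q ht = chart _ (tN q ht)⁻¹` by `rfl` (`model_B` below).
-/
import Mathlib
import Fermat.Agent.ES.N34.ChartN26
import Fermat.Agent.ES.N34.ModelDefs9

set_option autoImplicit false

noncomputable section

open HahnSeries ModularCurve IntermediateField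

namespace Fermat.Agent.ES.N34.ChartNInst26

open Fermat.Agent.RED.Interface4 Fermat.Agent.RED.PUR.GaussGen8 Fermat.Agent.RED.PUR.KtGauss8
  Fermat.Agent.RED.ModelTargets4 Fermat.Agent.RED.BASE.EtaQuot12 Fermat.Agent.X0
  Fermat.Agent.RED.DESC.NumberFieldDVR27 Fermat.Agent.RED.ModelMain4
  Fermat.Agent.RED.BASE.Interface12 Fermat.Agent.RED.PUR.ChartGeneric22
  Fermat.Agent.ES.N34.NodalCore13 Fermat.Agent.ES.N34.ChartN26 Fermat.Agent.ES.N34.ModelDefs9

variable {n e M' : ℕ} [NeZero n] [NeZero M'] (q : ℕ) [NeZero q] {A : ValuationSubring Qbar}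

/-- The model for the literal charts `B0`, `B1` of `ModelDefs9` (definitional unfolding). -/
theorem model_B {K : IntermediateField ℚ Qbar} {ϖ : ↥(AK A K)} (ht : tq (↥K) n e ∈ FK M' K)
    (O1 O2 : ValuationSubring ↥(FK (M' * q) K))
    (h : NodalTwoChartModel _ _ ϖ (tN q ht) (chart _ (tN q ht)) (chart _ (tN q ht)⁻¹) O1 O2) :
    NodalTwoChartModel _ _ ϖ (tN q ht) (B0 A q ht) (B1 A q ht) O1 O2 := h

/-- **S1 at the `ModelDefs9` data**, from the BASE→GAUSS targets at the GOOD level `M'`. -/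
theorem chartInputs_tN_of_targets {ℓ : ℕ} (hℓ : ℓ.Prime) (hA : A.LiesOverPrime ℓ)
    (hT : TTarget n e M') (hJ : JTarget n e) :
    ∃ K₀ : IntermediateField ℚ Qbar, FiniteDimensional ℚ K₀ ∧
      ∀ K : IntermediateField ℚ Qbar, FiniteDimensional ℚ K → K₀ ≤ K →
        IsDiscreteValuationRing ↥(AK A K) ∧ ∃ ht : tq (↥K) n e ∈ FK M' K,
          ∀ ϖ : ↥(AK A K), Irreducible ϖ →
            ChartInputsAt (AK A K) (FK (M' * q) K) ϖ (tN q ht) := by
  obtain ⟨K₁, hK₁, hT⟩ := hT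
  obtain ⟨K₂, hK₂, hJ⟩ := hJ
  refine ⟨K₁ ⊔ K₂, inferInstance, fun K hKfd hle => ?_⟩
  have hle1 : K₁ ≤ K := le_trans le_sup_left hle
  have hle2 : K₂ ≤ K := le_trans le_sup_right hle
  have hdvr : IsDiscreteValuationRing ↥(AK A K) := isDiscreteValuationRing_AK A K hℓ.ne_zero hA
  have htM : tq (↥K) n e ∈ FK M' K := hT K hKfd hle1
  refine ⟨hdvr, htM, fun ϖ hϖ => ?_⟩
  have htq : ((tN q htM : ↥(FK (M' * q) K)) : LaurentSeries K) = tq (↥K) n e := coe_tN q htM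
  have ht : ((tN q htM : ↥(FK (M' * q) K)) : LaurentSeries K) ∈ gaussRing (AK A K) := by
    rw [htq]; exact tq_mem_gaussRing (AK A K) n e
  have h1 : (⟨((tN q htM : ↥(FK (M' * q) K)) : LaurentSeries K), ht⟩ : ↥(gaussRing (AK A K))) =
      ⟨tq (↥K) n e, tq_mem_gaussRing (AK A K) n e⟩ := Subtype.ext htq
  have htr : Transcendental (Res (AK A K))
      (gaussRed (AK A K) ⟨((tN q htM : ↥(FK (M' * q) K)) : LaurentSeries K), ht⟩) := by
    rw [h1]
    exact transcendental_gaussRed_tq (AK A K) n e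
  have hjt : jqModC K ∈ Kt (AK A K) ⟨((tN q htM : ↥(FK (M' * q) K)) : LaurentSeries K), ht⟩ := by
    rw [h1]
    exact hJ K hKfd hle2
  have : NeZero (M' * q) := ⟨Nat.mul_ne_zero (NeZero.ne M') (NeZero.ne q)⟩
  have hn : relfinrank (Kt (AK A K) ⟨((tN q htM : ↥(FK (M' * q) K)) : LaurentSeries K), ht⟩)
      (FK (M' * q) K) ≠ 0 :=
    relfinrank_ne_zero (AK A K) (M' * q) _ (tN q htM).2 hjt
  exact chartInputs_gauss hϖ (tN q htM) ht htr hn

/-- `ℓ = q` odd: `4 ∣ M'`, Hauptmodul `tq K 4 8`. -/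
theorem chartInputs_tN_four (hM : 4 ∣ M') {ℓ : ℕ} (hℓ : ℓ.Prime) (hA : A.LiesOverPrime ℓ) :
    ∃ K₀ : IntermediateField ℚ Qbar, FiniteDimensional ℚ K₀ ∧
      ∀ K : IntermediateField ℚ Qbar, FiniteDimensional ℚ K → K₀ ≤ K →
        IsDiscreteValuationRing ↥(AK A K) ∧ ∃ ht : tq (↥K) 4 8 ∈ FK M' K,
          ∀ ϖ : ↥(AK A K), Irreducible ϖ →
            ChartInputsAt (AK A K) (FK (M' * q) K) ϖ (tN q ht) := by
  have hB := (Fermat.Agent.RED.BASE.MainCusp12.base_four M' hM).1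
  exact chartInputs_tN_of_targets q hℓ hA (Fermat.Agent.RED.ModelFinal4.tTarget M' hB.mem)
    (Fermat.Agent.RED.ModelFinal4.jTarget hB.genBase)

/-- `ℓ = q = 2`: `9 ∣ M'`, Hauptmodul `tq K 9 3`. -/
theorem chartInputs_tN_nine (hM : 9 ∣ M') {ℓ : ℕ} (hℓ : ℓ.Prime) (hA : A.LiesOverPrime ℓ) :
    ∃ K₀ : IntermediateField ℚ Qbar, FiniteDimensional ℚ K₀ ∧
      ∀ K : IntermediateField ℚ Qbar, FiniteDimensional ℚ K → K₀ ≤ K →
        IsDiscreteValuationRing ↥(AK A K) ∧ ∃ ht : tq (↥K) 9 3 ∈ FK M' K,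
          ∀ ϖ : ↥(AK A K), Irreducible ϖ →
            ChartInputsAt (AK A K) (FK (M' * q) K) ϖ (tN q ht) := by
  have hB := (Fermat.Agent.RED.BASE.MainCusp12.base_nine M' hM).1
  exact chartInputs_tN_of_targets q hℓ hA (Fermat.Agent.RED.ModelFinal4.tTarget M' hB.mem)
    (Fermat.Agent.RED.ModelFinal4.jTarget hB.genBase)

end Fermat.Agent.ES.N34.ChartNInst26
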