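/-
Program N (S34), chapter MODEL, brick S3 "(C) COMPONENTS", abstract part (helper16).
Mathlib + `ES/RED/FibreSurj17` (pure-algebra lemma only).  (The two-valuation-ring degree count
"(ADD)/(F1-abs)" that produces the hypothesis `hF1` below lives in helper22's `TwoExtDeg22`.)

* `residue_eq_zero_iff` : in a valuation ring with uniformiser `π` the kernel of the residue map is
  `π O`.
* `comp_surj` : **(C)**, surjectivity.  `B` (the level-`N'` chart) inside the valuation ring `O_j`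
  with uniformiser `π`; `φ : B⁰ → F` (the level-`M'` chart, embedded by `α` resp. `β`) with
  `φ(B⁰) ⊂ B`, `φ⁻¹(π O_j) = π B⁰`, `B⁰ / π` an integrally closed domain, residue degree one (F1) and
  `B` integral over `φ(B⁰)` MODULO `π O_j` (every `y ∈ B` satisfies `P(y) ∈ π O_j`, `P` monic over `B⁰`).  Then `B = φ(B⁰) + (B ∩ π O_j)`:  `B / 𝔭_j ≅ B⁰ / π`.
* `comp_principal` : hence at every maximal ideal `𝔪 ∋ π` of `B` the branch `(B / 𝔭_j)_𝔪` has
  principal maximal ideal generated by `φ s⁰`, `s⁰` the local generator of Program H's smooth chart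
  `B⁰` — literally the hypothesis `hgen` of `NodalCL13.smoothAt_of_branch_principal`.
-/
import Mathlib
import Fermat.Agent.ES.RED.FibreSurj17

set_option autoImplicit false

namespace Fermat.Agent.ES.N34.CompN16

open scoped Classical

/-! ### (C) — the component `B / (B ∩ π O_j)` is the level-`M'` special fibre -/

section Comp

variable {R F : Type*} [CommRing R] [Field F] [Algebra R F]

/-- In a valuation ring with uniformiser `π`, the kernel of the residue map is `π O`. -/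
theorem residue_eq_zero_iff (π : R) (Oj : ValuationSubring F)
    (pi_nonunit : (algebraMap R F π)⁻¹ ∉ Oj)
    (unif : ∀ x ∈ Oj, x⁻¹ ∉ Oj → ∃ c ∈ Oj, x = algebraMap R F π * c) (x : Oj) :
    IsLocalRing.residue Oj x = 0 ↔ ∃ c ∈ Oj, (x : F) = algebraMap R F π * c := by
  rw [IsLocalRing.residue_eq_zero_iff, IsLocalRing.mem_maximalIdeal, mem_nonunits_iff]
  constructor
  · intro hx
    by_cases h0 : (x : F) = 0
    · exact ⟨0, Oj.zero_mem, by rw [h0, mul_zero]⟩
    · refine unif x x.2 fun hinv => hx ?_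
      exact isUnit_iff_exists_inv.mpr ⟨⟨_, hinv⟩, Subtype.ext (by
        show (x : F) * (x : F)⁻¹ = 1
        exact mul_inv_cancel₀ h0)⟩
  · rintro ⟨c, hc, hxc⟩ hu
    obtain ⟨y, hy⟩ := isUnit_iff_exists_inv.mp hu
    have hy' : (x : F) * (y : F) = 1 := by
      have := congrArg Subtype.val hy
      simpa using this
    apply pi_nonunit
    have : (algebraMap R F π)⁻¹ = c * (y : F) := by
      apply inv_eq_of_mul_eq_one_right
      rw [← mul_assoc, ← hxc]
      exact hy'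
    rw [this]
    exact Oj.mul_mem _ _ hc y.2

/-- **(C), surjectivity.**  See the header. -/
theorem comp_surj (π : R) (B : Subalgebra R F) (Oj : ValuationSubring F)
    (leO : ∀ x ∈ B, x ∈ Oj) (pi_nonunit : (algebraMap R F π)⁻¹ ∉ Oj)
    (unif : ∀ x ∈ Oj, x⁻¹ ∉ Oj → ∃ c ∈ Oj, x = algebraMap R F π * c)
    {B0 : Type*} [CommRing B0] [Algebra R B0] (φ : B0 →ₐ[R] F) (hφB : ∀ b : B0, φ b ∈ B)
    (hker : ∀ b : B0, (∃ c ∈ Oj, φ b = algebraMap R F π * c) →
      b ∈ Ideal.span {algebraMap R B0 π})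
    [IsDomain (B0 ⧸ Ideal.span {algebraMap R B0 π})]
    [IsIntegrallyClosed (B0 ⧸ Ideal.span {algebraMap R B0 π})]
    (hF1 : ∀ x ∈ Oj, ∃ a b : B0, (¬ ∃ c ∈ Oj, φ b = algebraMap R F π * c) ∧
      ∃ c ∈ Oj, x * φ b - φ a = algebraMap R F π * c)
    (hint : ∀ y ∈ B, ∃ P : Polynomial B0, P.Monic ∧
      ∃ c ∈ Oj, P.eval₂ (φ : B0 →+* F) y = algebraMap R F π * c) :
    ∀ y ∈ B, ∃ b : B0, ∃ c ∈ Oj, y - φ b = algebraMap R F π * c := by
  intro y hy
  have hres := residue_eq_zero_iff π Oj pi_nonunit unif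
  -- the ring hom `B⁰ → O_j → κ_j`
  let φO : B0 →+* Oj := (φ : B0 →+* F).codRestrict Oj.toSubring (fun b => leO _ (hφB b))
  have hφO : ∀ b, ((φO b : Oj) : F) = φ b := fun b => rfl
  let ρ : B0 →+* IsLocalRing.ResidueField Oj := (IsLocalRing.residue Oj).comp φO
  have hρ : ∀ b, ρ b = IsLocalRing.residue Oj (φO b) := fun b => rfl
  have hkerρ : ∀ b, ρ b = 0 ↔ b ∈ Ideal.span {algebraMap R B0 π} := by
    intro b
    rw [hρ, hres, hφO]
    refine ⟨hker b, fun hb => ?_⟩
    obtain ⟨b', rfl⟩ := Ideal.mem_span_singleton'.mp hb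
    refine ⟨φ b', leO _ (hφB b'), ?_⟩
    rw [map_mul, AlgHom.commutes, mul_comm]
  set yO : Oj := ⟨y, leO _ hy⟩ with hyO
  obtain ⟨a, b, hb, c, hc, hab⟩ := hF1 y (leO _ hy)
  have hρb : ρ b ≠ 0 := by
    rw [Ne, hρ, hres, hφO]; exact hb
  have hyab : IsLocalRing.residue Oj yO * ρ b = ρ a := by
    rw [hρ, hρ, ← map_mul, ← sub_eq_zero, ← map_sub, hres]
    exact ⟨c, hc, by
      show y * φ b - φ a = _
      exact hab⟩
  -- integrality of the residue
  have hintρ : IsIntegral ρ.range (IsLocalRing.residue Oj yO) := by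
    obtain ⟨P, hPm, c', hc', hPy⟩ := hint y hy
    have hcomp : (Oj.subtype).comp φO = (φ : B0 →+* F) := by
      ext d; rfl
    have hPyO : ((P.eval₂ φO yO : Oj) : F) = algebraMap R F π * c' := by
      have h2 := Polynomial.hom_eval₂ P φO Oj.subtype yO
      rw [hcomp] at h2
      exact h2.trans hPy
    have hPρ : P.eval₂ ρ (IsLocalRing.residue Oj yO) = 0 := by
      have := Polynomial.hom_eval₂ P φO (IsLocalRing.residue Oj) yO
      rw [← this]
      exact (hres _).mpr ⟨c', hc', hPyO⟩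
    refine ⟨P.map ρ.rangeRestrict, hPm.map _, ?_⟩
    rw [Polynomial.eval₂_map]
    have h3 : (algebraMap ρ.range (IsLocalRing.ResidueField Oj)).comp ρ.rangeRestrict = ρ := by
      ext d; rfl
    rw [h3]
    exact hPρ
  obtain ⟨c0, hc0⟩ := Fermat.Agent.ES.RED.FibreSurj17.exists_map_eq_of_isIntegral ρ
    (Ideal.span {algebraMap R B0 π}) hkerρ hρb hyab hintρ
  have hz : IsLocalRing.residue Oj (yO - φO c0) = 0 := by
    rw [map_sub, ← hρ, hc0, sub_self]
  obtain ⟨c, hc, hyc⟩ := (hres _).mp hz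
  exact ⟨c0, c, hc, by
    rw [← hyc]
    rfl⟩

/-- **(C), local generators.**  From the surjectivity `B = φ(B⁰) + (B ∩ π O_j)` (no integrality
hypothesis is needed any more: `B⁰ → B / 𝔪` is onto for every `𝔪 ⊇ B ∩ π O_j`) and the smoothness
of the chart `B⁰` (Program H's field `smooth_i`): at every maximal ideal `𝔪 ∋ π` of `B` the branch
`(B / 𝔭_j)_𝔪` has principal maximal ideal, generated by `φ s⁰` for some `s⁰ ∈ B⁰`.  The conclusion
is literally the hypothesis `hgen` of `NodalCL13.smoothAt_of_branch_principal`.  (If the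
component `j` does not pass through `𝔪` the statement is trivially true.) -/
theorem comp_principal (π : R) (B : Subalgebra R F) (Oj : ValuationSubring F)
    (leO : ∀ x ∈ B, x ∈ Oj)
    {B0 : Type*} [CommRing B0] [Algebra R B0] (φ : B0 →ₐ[R] F) (hφB : ∀ b : B0, φ b ∈ B)
    (hsurj : ∀ y ∈ B, ∃ b : B0, ∃ c ∈ Oj, y - φ b = algebraMap R F π * c)
    (hsmooth : ∀ x : Ideal B0, x.IsMaximal → algebraMap R B0 π ∈ x →
      ∃ s ∈ x, ∀ y ∈ x, ∃ d : B0, d ∉ x ∧ d * y ∈ Ideal.span {algebraMap R B0 π, s})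
    (𝔪 : Ideal B) (h𝔪 : 𝔪.IsMaximal) (hπ𝔪 : algebraMap R B π ∈ 𝔪) :
    ∃ s0 : B0, (⟨φ s0, hφB s0⟩ : B) ∈ 𝔪 ∧
      ∀ y ∈ 𝔪, ∃ d : B, d ∉ 𝔪 ∧ ∃ b : B, ∃ c ∈ Oj,
        (d : F) * (y : F) - (b : F) * φ s0 = algebraMap R F π * c := by
  have h𝔪p : 𝔪.IsPrime := h𝔪.isPrime
  -- `φ` as a ring hom into the chart
  let φB : B0 →+* B := (φ : B0 →+* F).codRestrict B.toSubring hφB
  have hφB' : ∀ b, ((φB b : B) : F) = φ b := fun b => rfl
  have hφBπ : φB (algebraMap R B0 π) = algebraMap R B π := by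
    apply Subtype.ext
    rw [hφB', AlgHom.commutes]
    rfl
  by_cases hoff : ∃ e : B, e ∉ 𝔪 ∧ ∃ c ∈ Oj, (e : F) = algebraMap R F π * c
  · -- the component does not pass through `𝔪`
    obtain ⟨e, he, c, hc, hec⟩ := hoff
    refine ⟨algebraMap R B0 π, ?_, fun y _ => ⟨e, he, 0, c * (y : F), ?_, ?_⟩⟩
    · have : (⟨φ (algebraMap R B0 π), hφB _⟩ : B) = algebraMap R B π := hφBπ
      rw [this]; exact hπ𝔪
    · exact Oj.mul_mem _ _ hc (leO _ y.2)
    · rw [hec]; push_cast; ring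
  · -- the component passes through `𝔪`: `B ∩ π O_j ⊆ 𝔪`
    have hon : ∀ e : B, (∃ c ∈ Oj, (e : F) = algebraMap R F π * c) → e ∈ 𝔪 := by
      intro e he
      by_contra hne
      exact hoff ⟨e, hne, he⟩
    -- the contraction of `𝔪` is maximal: `B⁰ → B / 𝔪` is surjective
    have hsurj𝔪 : Function.Surjective ((Ideal.Quotient.mk 𝔪).comp φB) := by
      intro z
      obtain ⟨y, rfl⟩ := Ideal.Quotient.mk_surjective z
      obtain ⟨b0, c, hc, hyb⟩ := hsurj y y.2
      refine ⟨b0, ?_⟩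
      rw [RingHom.comp_apply, Ideal.Quotient.eq, ← Ideal.neg_mem_iff, neg_sub]
      exact hon _ ⟨c, hc, by
        show (y : F) - φ b0 = _
        exact hyb⟩
    have hmax0 : (𝔪.comap φB).IsMaximal := by
      have h1 : 𝔪.comap φB = RingHom.ker ((Ideal.Quotient.mk 𝔪).comp φB) := by
        ext b
        rw [Ideal.mem_comap, RingHom.mem_ker, RingHom.comp_apply, Ideal.Quotient.eq_zero_iff_mem]
      rw [h1]
      have := h𝔪
      let _ : Field (↥B ⧸ 𝔪) := Ideal.Quotient.field 𝔪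
      exact RingHom.ker_isMaximal_of_surjective _ hsurj𝔪
    have hπ0 : algebraMap R B0 π ∈ 𝔪.comap φB := by
      rw [Ideal.mem_comap, hφBπ]; exact hπ𝔪
    obtain ⟨s0, hs0, hgen⟩ := hsmooth _ hmax0 hπ0
    refine ⟨s0, hs0, fun y hy => ?_⟩
    obtain ⟨b0, c, hc, hyb⟩ := hsurj y y.2
    -- `φ b0 ∈ 𝔪`
    have hb0 : b0 ∈ 𝔪.comap φB := by
      rw [Ideal.mem_comap]
      have he : y - φB b0 ∈ 𝔪 := hon _ ⟨c, hc, by
        show (y : F) - φ b0 = _
        exact hyb⟩
      have : φB b0 = y - (y - φB b0) := by ring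
      rw [this]
      exact 𝔪.sub_mem hy he
    obtain ⟨d0, hd0, hd0y⟩ := hgen b0 hb0
    obtain ⟨a0, r0, har⟩ := Ideal.mem_span_pair.mp hd0y
    refine ⟨φB d0, hd0, φB r0, φ d0 * c + φ a0, ?_, ?_⟩
    · exact Oj.add_mem _ _ (Oj.mul_mem _ _ (leO _ (hφB d0)) hc) (leO _ (hφB a0))
    · have h1 : φ d0 * φ b0 = φ a0 * algebraMap R F π + φ r0 * φ s0 := by
        rw [← map_mul, ← har, map_add, map_mul, map_mul, AlgHom.commutes]
      rw [hφB', hφB']
      linear_combination (φ d0) * hyb + h1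

end Comp

end Fermat.Agent.ES.N34.CompN16
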