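/-
Program N (S34), chapter MODEL, brick S3 "(C) COMPONENTS", middle layer (helper16).
Mathlib + `ES/N34/CompN16`.

The hypotheses `hker`, `hF1`, `hint`, `hφB` of `CompN16.comp_surj` / `comp_principal`, derived from
elementary facts about a field embedding `φ : F_M → F` (`α` resp. `β`), the level-`M'` chart `B_M`
with its Gauss valuation ring `O_M`, and the valuation ring `O_j` of `F`:

* `hker_of_sat`   : `φ⁻¹(O_j) ⊆ O_M` and the level-`M'` saturation `B_M ∩ π O_M = π B_M` give `hker`;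
* `hF1_of_comb`   : `O_M` is a ring of fractions of `B_M` (denominators prime to `π`) and
  `O_j = φ(O_M) + π O_j` ("residue degree one") give `hF1`;
* `hcomb_of_residue_combination` : `O_j = φ(O_M) + π O_j` from the output of
  `TwoExtDeg22.exists_residue_combination` (family in `φ(O_M)`, coefficients in a subfield `E` whose
  integers are congruent to elements of `φ(O_M)`);
* `isIntegral_of_subalgebra`, `hφB_of_chart` : integrality bookkeeping; `hint_of_chart` : the weak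
  integrality hypothesis (`P(y) ∈ π O_j`, `P` monic over `B_M`) from `t ≡ φ w mod π O_j`;
* `branchPrincipal_of_data` : the assembly, conclusion = `SmoothN5.BranchPrincipalVia`.
-/
import Mathlib
import Fermat.Agent.ES.N34.CompN16

set_option autoImplicit false

namespace Fermat.Agent.ES.N34.CompHyp16

open scoped Classical

section Integral

variable {R F : Type*} [CommRing R] [Field F] [Algebra R F]

/-- Transitivity of integrality through a subalgebra which is not assumed to be an algebra over the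
base: if every element of `S` is integral over `A` and `y` is integral over `S` then `y` is integral
over `A`. -/
theorem isIntegral_of_subalgebra {A : Type*} [CommRing A] [Algebra A F] (S : Subalgebra R F)
    (hS : ∀ s ∈ S, IsIntegral A s) {y : F} (hy : IsIntegral S y) : IsIntegral A y := by
  obtain ⟨p, hpm, hpy⟩ := hy
  let C := integralClosure A F
  let inc : ↥S →+* ↥C := (S.val.toRingHom).codRestrict C.toSubring (fun x => hS x x.2)
  have hyC : IsIntegral C y := by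
    refine ⟨p.map inc, hpm.map inc, ?_⟩
    rw [Polynomial.eval₂_map]
    have : (algebraMap ↥C F).comp inc = algebraMap ↥S F := by
      ext d; rfl
    rw [this]
    exact hpy
  exact isIntegral_trans (R := A) (A := ↥C) y hyC

end Integral


section Transfer

variable {R FM F : Type*} [CommRing R] [Field FM] [Field F] [Algebra R FM] [Algebra R F]

/-- The restriction of the field embedding `φ` to the level-`M'` chart. -/
def chartHom (φ : FM →ₐ[R] F) (BM : Subalgebra R FM) : ↥BM →ₐ[R] F := φ.comp BM.val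

@[simp] theorem chartHom_apply (φ : FM →ₐ[R] F) (BM : Subalgebra R FM) (b : ↥BM) :
    chartHom φ BM b = φ (b : FM) := rfl

/-- `hφB`: `φ` maps the level-`M'` chart (integral over `R[t_M]`) into the chart `B` (the integral
closure of `R[t]`), as soon as `φ t_M` is integral over `R[t]`. -/
theorem hφB_of_chart (φ : FM →ₐ[R] F) (BM : Subalgebra R FM) (B : Subalgebra R F) (tM : FM) (t : F)
    (hBM : ∀ b ∈ BM, IsIntegral (Algebra.adjoin R {tM}) b)
    (hBcl : ∀ y : F, IsIntegral (Algebra.adjoin R {t}) y → y ∈ B)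
    (hy : IsIntegral (Algebra.adjoin R {t}) (φ tM)) :
    ∀ b : ↥BM, chartHom φ BM b ∈ B := by
  intro b
  apply hBcl
  rw [chartHom_apply]
  -- `φ b` is integral over `R[φ t_M]`
  have h1 : IsIntegral (Algebra.adjoin R {φ tM}) (φ (b : FM)) := by
    have hmap : ∀ x : ↥(Algebra.adjoin R {tM}), φ (x : FM) ∈ Algebra.adjoin R {φ tM} := by
      intro x
      have : φ (x : FM) ∈ (Algebra.adjoin R {tM}).map φ := ⟨x, x.2, rfl⟩
      rwa [AlgHom.map_adjoin_singleton] at this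
    let φ' : ↥(Algebra.adjoin R {tM}) →+* ↥(Algebra.adjoin R {φ tM}) :=
      ((φ : FM →+* F).comp (Algebra.adjoin R {tM}).val.toRingHom).codRestrict
        (Algebra.adjoin R {φ tM}).toSubring hmap
    exact IsIntegral.map_of_comp_eq φ' (φ : FM →+* F) (by ext d; rfl) (hBM b b.2)
  refine isIntegral_of_subalgebra (Algebra.adjoin R {φ tM}) ?_ h1
  intro s hs
  induction hs using Algebra.adjoin_induction with
  | mem x hx =>
    rw [Set.mem_singleton_iff] at hx
    subst hx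
    exact hy
  | algebraMap r =>
    have : algebraMap R F r =
        algebraMap ↥(Algebra.adjoin R {t}) F (algebraMap R ↥(Algebra.adjoin R {t}) r) := rfl
    rw [this]
    exact isIntegral_algebraMap
  | add x y _ _ hx hy => exact hx.add hy
  | mul x y _ _ hx hy => exact hx.mul hy

/-- `hker`: `φ⁻¹(O_j) ⊆ O_M` and the saturation `B_M ∩ π O_M = π B_M` of the level-`M'` chart. -/
theorem hker_of_sat (π : R) (φ : FM →ₐ[R] F) (BM : Subalgebra R FM) (OvM : ValuationSubring FM)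
    (Oj : ValuationSubring F)
    (hcomap : ∀ z : FM, φ z ∈ Oj → z ∈ OvM)
    (satM : ∀ b ∈ BM, ∀ c ∈ OvM, b = algebraMap R FM π * c → c ∈ BM) :
    ∀ b : ↥BM, (∃ c ∈ Oj, chartHom φ BM b = algebraMap R F π * c) →
      b ∈ Ideal.span {algebraMap R ↥BM π} := by
  rintro b ⟨c, hc, hbc⟩
  rw [chartHom_apply] at hbc
  have hφπ : φ (algebraMap R FM π) = algebraMap R F π := φ.commutes π
  by_cases hπ0 : algebraMap R FM π = 0
  · have hb0 : (b : FM) = 0 := by
      apply (φ : FM →+* F).injective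
      rw [map_zero]
      show φ (b : FM) = 0
      rw [hbc, ← hφπ, hπ0, map_zero, zero_mul]
    have : b = 0 := Subtype.ext hb0
    rw [this]
    exact Ideal.zero_mem _
  · set c' : FM := (algebraMap R FM π)⁻¹ * (b : FM) with hc'
    have hbc' : (b : FM) = algebraMap R FM π * c' := by
      rw [hc', ← mul_assoc, mul_inv_cancel₀ hπ0, one_mul]
    have hφc' : φ c' = c := by
      have hπF : algebraMap R F π ≠ 0 := by
        rw [← hφπ]
        exact fun h => hπ0 ((map_eq_zero φ).mp h)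
      have : algebraMap R F π * φ c' = algebraMap R F π * c := by
        rw [← hφπ, ← map_mul, ← hbc', hφπ, hbc]
      exact mul_left_cancel₀ hπF this
    have hc'M : c' ∈ OvM := hcomap c' (hφc' ▸ hc)
    have hc'B : c' ∈ BM := satM b b.2 c' hc'M hbc'
    rw [Ideal.mem_span_singleton']
    exact ⟨⟨c', hc'B⟩, Subtype.ext (by
      show c' * algebraMap R FM π = (b : FM)
      rw [hbc', mul_comm])⟩

/-- `hF1`: residue degree one in the `a / b`-form of `CompN16.comp_surj`, from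
`O_j = φ(O_M) + π O_j` and "`O_M` is a ring of fractions of `B_M`". -/
theorem hF1_of_comb (π : R) (φ : FM →ₐ[R] F) (BM : Subalgebra R FM) (OvM : ValuationSubring FM)
    (Oj : ValuationSubring F)
    (hBMle : ∀ b ∈ BM, b ∈ OvM)
    (hlocM : ∀ z ∈ OvM, ∃ a b : ↥BM, (b : FM) ≠ 0 ∧ (b : FM)⁻¹ ∈ OvM ∧ z * (b : FM) = (a : FM))
    (pi_nonunit : (algebraMap R F π)⁻¹ ∉ Oj)
    (hle : ∀ z ∈ OvM, φ z ∈ Oj)
    (hcomb : ∀ x ∈ Oj, ∃ z ∈ OvM, ∃ c ∈ Oj, x - φ z = algebraMap R F π * c) :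
    ∀ x ∈ Oj, ∃ a b : ↥BM, (¬ ∃ c ∈ Oj, chartHom φ BM b = algebraMap R F π * c) ∧
      ∃ c ∈ Oj, x * chartHom φ BM b - chartHom φ BM a = algebraMap R F π * c := by
  intro x hx
  obtain ⟨z, hz, c, hc, hxz⟩ := hcomb x hx
  obtain ⟨a, b, hb0, hb, hzb⟩ := hlocM z hz
  refine ⟨a, b, ?_, c * φ (b : FM), Oj.mul_mem _ _ hc (hle _ (hBMle _ b.2)), ?_⟩
  · rintro ⟨c1, hc1, hbc1⟩
    rw [chartHom_apply] at hbc1
    -- `φ b` is a unit of `O_j`, so `π⁻¹ = c1 * (φ b)⁻¹ ∈ O_j`
    apply pi_nonunit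
    have hbinv : (φ (b : FM))⁻¹ ∈ Oj := by
      rw [← map_inv₀]
      exact hle _ hb
    have hφb0 : φ (b : FM) ≠ 0 := fun h0 => hb0 ((map_eq_zero φ).mp h0)
    have : (algebraMap R F π)⁻¹ = c1 * (φ (b : FM))⁻¹ := by
      apply inv_eq_of_mul_eq_one_right
      rw [← mul_assoc, ← hbc1, mul_inv_cancel₀ hφb0]
    rw [this]
    exact Oj.mul_mem _ _ hc1 hbinv
  · rw [chartHom_apply, chartHom_apply, ← hzb, map_mul]
    linear_combination (φ (b : FM)) * hxz

end Transfer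

section Comb

variable {R FM F : Type*} [CommRing R] [Field FM] [Field F] [Algebra R FM] [Algebra R F]

/-- `x ∈ π O_j`. -/
def PiMul (π : R) (Oj : ValuationSubring F) (x : F) : Prop :=
  ∃ c ∈ Oj, x = algebraMap R F π * c

theorem PiMul.zero (π : R) (Oj : ValuationSubring F) : PiMul π Oj 0 :=
  ⟨0, Oj.zero_mem, by rw [mul_zero]⟩

theorem PiMul.add {π : R} {Oj : ValuationSubring F} {x y : F} (hx : PiMul π Oj x)
    (hy : PiMul π Oj y) : PiMul π Oj (x + y) := by
  obtain ⟨c, hc, rfl⟩ := hx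
  obtain ⟨d, hd, rfl⟩ := hy
  exact ⟨c + d, Oj.add_mem _ _ hc hd, by ring⟩

theorem PiMul.neg {π : R} {Oj : ValuationSubring F} {x : F} (hx : PiMul π Oj x) :
    PiMul π Oj (-x) := by
  obtain ⟨c, hc, rfl⟩ := hx
  exact ⟨-c, Oj.neg_mem _ hc, by ring⟩

theorem PiMul.sub {π : R} {Oj : ValuationSubring F} {x y : F} (hx : PiMul π Oj x)
    (hy : PiMul π Oj y) : PiMul π Oj (x - y) := by
  rw [sub_eq_add_neg]
  exact hx.add hy.neg

theorem PiMul.mul_left {π : R} {Oj : ValuationSubring F} {x : F} (hx : PiMul π Oj x) {y : F}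
    (hy : y ∈ Oj) : PiMul π Oj (y * x) := by
  obtain ⟨c, hc, rfl⟩ := hx
  exact ⟨y * c, Oj.mul_mem _ _ hy hc, by ring⟩

theorem PiMul.mul_right {π : R} {Oj : ValuationSubring F} {x : F} (hx : PiMul π Oj x) {y : F}
    (hy : y ∈ Oj) : PiMul π Oj (x * y) := by
  rw [mul_comm]
  exact hx.mul_left hy

theorem PiMul.sum {π : R} {Oj : ValuationSubring F} {ι : Type*} (s : Finset ι) (f : ι → F)
    (h : ∀ i ∈ s, PiMul π Oj (f i)) : PiMul π Oj (∑ i ∈ s, f i) := by
  induction s using Finset.induction_on with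
  | empty => rw [Finset.sum_empty]; exact PiMul.zero π Oj
  | insert a s ha ih =>
    rw [Finset.sum_insert ha]
    exact (h a (Finset.mem_insert_self a s)).add
      (ih fun i hi => h i (Finset.mem_insert_of_mem hi))

/-- `𝔪_j = π O_j` in valuation form. -/
theorem piMul_of_val_lt_one (π : R) (Oj : ValuationSubring F)
    (unif : ∀ x ∈ Oj, x⁻¹ ∉ Oj → ∃ c ∈ Oj, x = algebraMap R F π * c) {x : F}
    (hx : Oj.valuation x < 1) : PiMul π Oj x := by
  by_cases h0 : x = 0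
  · rw [h0]; exact PiMul.zero π Oj
  · refine unif x ((Oj.valuation_le_one_iff x).mp hx.le) fun hinv => ?_
    have h1 : Oj.valuation x⁻¹ ≤ 1 := (Oj.valuation_le_one_iff _).mpr hinv
    rw [map_inv₀] at h1
    have h2 : Oj.valuation x ≠ 0 := (Oj.valuation.ne_zero_iff).mpr h0
    have h3 : 1 ≤ Oj.valuation x := by
      rwa [inv_le_one₀ (zero_lt_iff.mpr h2)] at h1
    exact absurd hx (not_lt.mpr h3)

/-- Congruences modulo `π O_j` to elements of `φ(O_M)` multiply. -/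
theorem congr_mul (π : R) (φ : FM →ₐ[R] F) (OvM : ValuationSubring FM) (Oj : ValuationSubring F)
    (hle : ∀ z ∈ OvM, φ z ∈ Oj) {x y : F} (hy : y ∈ Oj)
    (hx' : ∃ z ∈ OvM, PiMul π Oj (x - φ z)) (hy' : ∃ z ∈ OvM, PiMul π Oj (y - φ z)) :
    ∃ z ∈ OvM, PiMul π Oj (x * y - φ z) := by
  obtain ⟨z, hz, hxz⟩ := hx'
  obtain ⟨w, hw, hyw⟩ := hy'
  refine ⟨z * w, OvM.mul_mem _ _ hz hw, ?_⟩
  have : x * y - φ (z * w) = (x - φ z) * y + φ z * (y - φ w) := by
    rw [map_mul]; ring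
  rw [this]
  exact (hxz.mul_right hy).add (hyw.mul_left (hle _ hz))

theorem congr_sum (π : R) (φ : FM →ₐ[R] F) (OvM : ValuationSubring FM) (Oj : ValuationSubring F)
    {ι : Type*} (s : Finset ι) (f : ι → F)
    (h : ∀ i ∈ s, ∃ z ∈ OvM, PiMul π Oj (f i - φ z)) :
    ∃ z ∈ OvM, PiMul π Oj (∑ i ∈ s, f i - φ z) := by
  induction s using Finset.induction_on with
  | empty =>
    exact ⟨0, OvM.zero_mem, by rw [Finset.sum_empty, map_zero, sub_zero]; exact PiMul.zero π Oj⟩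
  | insert a s ha ih =>
    obtain ⟨z, hz, hz'⟩ := h a (Finset.mem_insert_self a s)
    obtain ⟨w, hw, hw'⟩ := ih fun i hi => h i (Finset.mem_insert_of_mem hi)
    refine ⟨z + w, OvM.add_mem _ _ hz hw, ?_⟩
    rw [Finset.sum_insert ha, map_add]
    have : f a + ∑ i ∈ s, f i - (φ z + φ w) = (f a - φ z) + (∑ i ∈ s, f i - φ w) := by ring
    rw [this]
    exact hz'.add hw'

/-- **`O_j = φ(O_M) + π O_j`** from the output of `TwoExtDeg22.exists_residue_combination`: the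
family `b` and the integers of the base field `E` are congruent to elements of `φ(O_M)`. -/
theorem hcomb_of_residue_combination {E : Type*} [Field E] [Algebra E F] (π : R) (φ : FM →ₐ[R] F)
    (OvM : ValuationSubring FM) (Oj : ValuationSubring F)
    (unif : ∀ x ∈ Oj, x⁻¹ ∉ Oj → ∃ c ∈ Oj, x = algebraMap R F π * c)
    (hle : ∀ z ∈ OvM, φ z ∈ Oj)
    {n : ℕ} (b : Fin n → F) (hbO : ∀ i, b i ∈ Oj)
    (hb : ∀ i, ∃ z ∈ OvM, PiMul π Oj (b i - φ z))
    (hE : ∀ a : E, (Oj.comap (algebraMap E F)).valuation a ≤ 1 →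
      ∃ z ∈ OvM, PiMul π Oj (algebraMap E F a - φ z))
    (hres : ∀ x ∈ Oj, ∃ a : Fin n → E,
      (∀ i, (Oj.comap (algebraMap E F)).valuation (a i) ≤ 1) ∧
      Oj.valuation (x - ∑ i, algebraMap E F (a i) * b i) < 1) :
    ∀ x ∈ Oj, ∃ z ∈ OvM, ∃ c ∈ Oj, x - φ z = algebraMap R F π * c := by
  intro x hx
  obtain ⟨a, ha, hval⟩ := hres x hx
  obtain ⟨z, hz, hz'⟩ := congr_sum π φ OvM Oj Finset.univ
    (fun i => algebraMap E F (a i) * b i)
    (fun i _ => congr_mul π φ OvM Oj hle (hbO i) (hE (a i) (ha i)) (hb i))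
  refine ⟨z, hz, ?_⟩
  have h1 := piMul_of_val_lt_one π Oj unif hval
  have : x - φ z = (x - ∑ i, algebraMap E F (a i) * b i) +
      (∑ i, algebraMap E F (a i) * b i - φ z) := by ring
  rw [this]
  exact h1.add hz'

end Comb

section WeakHint

variable {R F : Type*} [CommRing R] [Field F] [Algebra R F]

open Polynomial in
/-- The (weak) `hint` of `CompN16.comp_surj`: if the chart `B` is integral over `R[t]` and
`t ≡ ψ w mod π O_j`, every `y ∈ B` satisfies `P(y) ∈ π O_j` for some monic `P` over `B⁰`. -/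
theorem hint_of_chart {B0 : Type*} [CommRing B0] [Algebra R B0] (ψ : B0 →ₐ[R] F) (π : R)
    (Oj : ValuationSubring F) (B : Subalgebra R F) (leO : ∀ x ∈ B, x ∈ Oj) (t : F) (htB : t ∈ B)
    (hB : ∀ y ∈ B, IsIntegral (Algebra.adjoin R {t}) y)
    (hψO : ∀ b : B0, ψ b ∈ Oj)
    (ht : ∃ w : B0, PiMul π Oj (t - ψ w)) :
    ∀ y ∈ B, ∃ P : Polynomial B0, P.Monic ∧
      ∃ c ∈ Oj, P.eval₂ (ψ : B0 →+* F) y = algebraMap R F π * c := by
  -- every element of `R[t]` is congruent to an element of `ψ(B⁰)`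
  have hadj : ∀ s ∈ Algebra.adjoin R {t}, ∃ b : B0, PiMul π Oj (s - ψ b) := by
    intro s hs
    have hsO : ∀ s ∈ Algebra.adjoin R {t}, s ∈ Oj := fun s hs =>
      leO s (Algebra.adjoin_le (Set.singleton_subset_iff.mpr htB) hs)
    induction hs using Algebra.adjoin_induction with
    | mem x hx =>
      rw [Set.mem_singleton_iff] at hx
      subst hx
      exact ht
    | algebraMap r =>
      exact ⟨algebraMap R B0 r, by rw [AlgHom.commutes, sub_self]; exact PiMul.zero π Oj⟩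
    | add x y _ _ hx hy =>
      obtain ⟨b, hb⟩ := hx
      obtain ⟨c, hc⟩ := hy
      refine ⟨b + c, ?_⟩
      have : x + y - ψ (b + c) = (x - ψ b) + (y - ψ c) := by rw [map_add]; ring
      rw [this]
      exact hb.add hc
    | mul x y _ hy' hx hy =>
      obtain ⟨b, hb⟩ := hx
      obtain ⟨c, hc⟩ := hy
      refine ⟨b * c, ?_⟩
      have : x * y - ψ (b * c) = (x - ψ b) * y + ψ b * (y - ψ c) := by rw [map_mul]; ring
      rw [this]
      exact (hb.mul_right (hsO y hy')).add (hc.mul_left (hψO b))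
  intro y hy
  obtain ⟨P0, hm, hP0⟩ := hB y hy
  choose g hg using fun s : ↥(Algebra.adjoin R {t}) => hadj s s.2
  set d := P0.natDegree with hd
  set Q : Polynomial B0 := ∑ i ∈ Finset.range d, C (g (P0.coeff i)) * X ^ i with hQ
  have hQdeg : Q.degree < d := by
    refine (Polynomial.degree_sum_le _ _).trans_lt ?_
    refine (Finset.sup_lt_iff (WithBot.bot_lt_coe d)).mpr fun i hi => ?_
    exact (Polynomial.degree_C_mul_X_pow_le i _).trans_lt
      (WithBot.coe_lt_coe.mpr (Finset.mem_range.mp hi))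
  refine ⟨X ^ d + Q, Polynomial.monic_X_pow_add hQdeg, ?_⟩
  have hyO : y ∈ Oj := leO y hy
  -- the two evaluations
  have h1 : (X ^ d + Q).eval₂ (ψ : B0 →+* F) y =
      y ^ d + ∑ i ∈ Finset.range d, ψ (g (P0.coeff i)) * y ^ i := by
    rw [eval₂_add, eval₂_pow, eval₂_X, hQ, eval₂_finsetSum]
    congr 1
    refine Finset.sum_congr rfl fun i _ => ?_
    rw [eval₂_mul, eval₂_C, eval₂_pow, eval₂_X]
    rfl
  have h2 : (0 : F) = y ^ d + ∑ i ∈ Finset.range d, ((P0.coeff i : ↥(Algebra.adjoin R {t})) : F) * y ^ i := by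
    rw [← hP0]
    conv_lhs => rw [hm.as_sum]
    rw [eval₂_add, eval₂_pow, eval₂_X, eval₂_finsetSum]
    congr 1
    refine Finset.sum_congr rfl fun i _ => ?_
    rw [eval₂_mul, eval₂_C, eval₂_pow, eval₂_X]
    rfl
  have h3 : (X ^ d + Q).eval₂ (ψ : B0 →+* F) y =
      ∑ i ∈ Finset.range d,
        (-(((P0.coeff i : ↥(Algebra.adjoin R {t})) : F) - ψ (g (P0.coeff i)))) * y ^ i := by
    rw [h1]
    have : ∑ i ∈ Finset.range d,
        (-(((P0.coeff i : ↥(Algebra.adjoin R {t})) : F) - ψ (g (P0.coeff i)))) * y ^ i =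
        ∑ i ∈ Finset.range d, ψ (g (P0.coeff i)) * y ^ i -
          ∑ i ∈ Finset.range d, ((P0.coeff i : ↥(Algebra.adjoin R {t})) : F) * y ^ i := by
      rw [← Finset.sum_sub_distrib]
      refine Finset.sum_congr rfl fun i _ => ?_
      ring
    rw [this]
    linear_combination (-1 : F) * h2
  rw [h3]
  exact PiMul.sum _ _ fun i _ => (hg (P0.coeff i)).neg.mul_right (Oj.pow_mem hyO i)

end WeakHint

section Subst

variable {R FM F : Type*} [CommRing R] [Field FM] [Field F] [Algebra R FM] [Algebra R F]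

open Polynomial in
/-- If `t ≡ φ w mod π O_j` with `w ∈ O_M`, every polynomial expression `f(t)`, `f ∈ R[X]`, is
congruent to an element of `φ(O_M)`. -/
theorem congr_aeval (π : R) (φ : FM →ₐ[R] F) (OvM : ValuationSubring FM) (Oj : ValuationSubring F)
    (hle : ∀ z ∈ OvM, φ z ∈ Oj) (hR : ∀ r : R, algebraMap R FM r ∈ OvM)
    {t : F} (htO : t ∈ Oj) (ht : ∃ w ∈ OvM, PiMul π Oj (t - φ w)) (f : R[X]) :
    ∃ z ∈ OvM, PiMul π Oj (aeval t f - φ z) := by
  induction f using Polynomial.induction_on with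
  | C r =>
    refine ⟨algebraMap R FM r, hR r, ?_⟩
    rw [aeval_C, AlgHom.commutes, sub_self]
    exact PiMul.zero π Oj
  | add f g hf hg =>
    obtain ⟨z, hz, hz'⟩ := hf
    obtain ⟨w, hw, hw'⟩ := hg
    refine ⟨z + w, OvM.add_mem _ _ hz hw, ?_⟩
    have : aeval t (f + g) - φ (z + w) = (aeval t f - φ z) + (aeval t g - φ w) := by
      rw [map_add, map_add]; ring
    rw [this]
    exact hz'.add hw'
  | monomial n r ih =>
    have : aeval t (C r * X ^ (n + 1)) = aeval t (C r * X ^ n) * t := by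
      rw [pow_succ, ← mul_assoc, map_mul _ _ X, aeval_X]
    rw [this]
    exact congr_mul π φ OvM Oj hle htO ih ht

open Polynomial in
/-- **Integers of `E = K(t)` are congruent to elements of `φ(O_M)`** when `t ≡ φ w`: the hypothesis
`hE` of `hcomb_of_residue_combination`.  `hrep` is the description `a = f(t) / h(t)`, `h(t)` a unit
of `O_j`, of the integers of `E` (`GaussEmb22.mem_iff_rep`). -/
theorem hE_of_rep {E : Type*} [Field E] [Algebra E F] (π : R) (φ : FM →ₐ[R] F)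
    (OvM : ValuationSubring FM) (Oj : ValuationSubring F)
    (hcomap : ∀ z : FM, φ z ∈ Oj → z ∈ OvM)
    (hle : ∀ z ∈ OvM, φ z ∈ Oj) (hR : ∀ r : R, algebraMap R FM r ∈ OvM)
    (pi_nonunit : (algebraMap R F π)⁻¹ ∉ Oj)
    {t : F} (htO : t ∈ Oj) (ht : ∃ w ∈ OvM, PiMul π Oj (t - φ w))
    (hrep : ∀ a : E, (Oj.comap (algebraMap E F)).valuation a ≤ 1 →
      ∃ f h : R[X], Oj.valuation (aeval t h) = 1 ∧
        algebraMap E F a * aeval t h = aeval t f) :
    ∀ a : E, (Oj.comap (algebraMap E F)).valuation a ≤ 1 →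
      ∃ z ∈ OvM, PiMul π Oj (algebraMap E F a - φ z) := by
  intro a ha
  have haO : algebraMap E F a ∈ Oj := by
    have := ((Oj.comap (algebraMap E F)).valuation_le_one_iff a).mp ha
    exact this
  obtain ⟨f, h, hh, hrel⟩ := hrep a ha
  obtain ⟨zf, hzf, hzf'⟩ := congr_aeval π φ OvM Oj hle hR htO ht f
  obtain ⟨zh, hzh, hzh'⟩ := congr_aeval π φ OvM Oj hle hR htO ht h
  -- `val π < 1`
  have hπval : Oj.valuation (algebraMap R F π) < 1 := by
    by_contra hge
    rw [not_lt] at hge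
    apply pi_nonunit
    rw [← Oj.valuation_le_one_iff, map_inv₀]
    by_cases h0 : Oj.valuation (algebraMap R F π) = 0
    · rw [h0, inv_zero]; exact zero_le_one
    · rwa [inv_le_one₀ (zero_lt_iff.mpr h0)]
  have hval_pimul : ∀ {x : F}, PiMul π Oj x → Oj.valuation x < 1 := by
    rintro x ⟨c, hc, rfl⟩
    rw [map_mul]
    calc Oj.valuation (algebraMap R F π) * Oj.valuation c
        ≤ Oj.valuation (algebraMap R F π) * 1 :=
          mul_le_mul_right ((Oj.valuation_le_one_iff c).mpr hc) _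
      _ = Oj.valuation (algebraMap R F π) := mul_one _
      _ < 1 := hπval
  -- `φ zh` is a unit of `O_j`
  have hφzh : Oj.valuation (φ zh) = 1 := by
    have h1 : φ zh = aeval t h - (aeval t h - φ zh) := by ring
    rw [h1]
    have h2 : Oj.valuation (aeval t h - φ zh) < Oj.valuation (aeval t h) := by
      rw [hh]; exact hval_pimul hzh'
    rw [Valuation.map_sub_eq_of_lt_left _ h2, hh]
  have hφzh0 : φ zh ≠ 0 := by
    intro h0
    rw [h0, map_zero] at hφzh
    exact zero_ne_one hφzh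
  have hzhinv : zh⁻¹ ∈ OvM := by
    apply hcomap
    rw [map_inv₀, ← Oj.valuation_le_one_iff, map_inv₀, hφzh, inv_one]
  refine ⟨zf * zh⁻¹, OvM.mul_mem _ _ hzf hzhinv, ?_⟩
  have hinvO : (φ zh)⁻¹ ∈ Oj := by
    rw [← map_inv₀]; exact hle _ hzhinv
  have key : algebraMap E F a - φ (zf * zh⁻¹) =
      ((aeval t f - φ zf) - algebraMap E F a * (aeval t h - φ zh)) * (φ zh)⁻¹ := by
    rw [map_mul, map_inv₀, ← hrel]
    field_simp
    ring
  rw [key]
  exact (hzf'.sub (hzh'.mul_left haO)).mul_right hinvO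

end Subst

section Assembly

variable {R FM F : Type*} [CommRing R] [Field FM] [Field F] [Algebra R FM] [Algebra R F]

open Fermat.Agent.ES.N34.CompN16

/-- **(C), surjectivity, from elementary data**: `B = φ(B_M) + (B ∩ π O_j)`. -/
theorem surj_of_data (π : R) (φ : FM →ₐ[R] F) (BM : Subalgebra R FM) (OvM : ValuationSubring FM)
    (B : Subalgebra R F) (Oj : ValuationSubring F)
    (leO : ∀ x ∈ B, x ∈ Oj) (pi_nonunit : (algebraMap R F π)⁻¹ ∉ Oj)
    (unif : ∀ x ∈ Oj, x⁻¹ ∉ Oj → ∃ c ∈ Oj, x = algebraMap R F π * c)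
    (hφB : ∀ b : ↥BM, chartHom φ BM b ∈ B)
    (hint : ∀ y ∈ B, ∃ P : Polynomial ↥BM, P.Monic ∧
      ∃ c ∈ Oj, P.eval₂ (chartHom φ BM : ↥BM →+* F) y = algebraMap R F π * c)
    (hcomap : ∀ z : FM, φ z ∈ Oj → z ∈ OvM) (hle : ∀ z ∈ OvM, φ z ∈ Oj)
    (hBMle : ∀ b ∈ BM, b ∈ OvM)
    (satM : ∀ b ∈ BM, ∀ c ∈ OvM, b = algebraMap R FM π * c → c ∈ BM)
    (hlocM : ∀ z ∈ OvM, ∃ a b : ↥BM, (b : FM) ≠ 0 ∧ (b : FM)⁻¹ ∈ OvM ∧ z * (b : FM) = (a : FM))
    (hcomb : ∀ x ∈ Oj, ∃ z ∈ OvM, ∃ c ∈ Oj, x - φ z = algebraMap R F π * c)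
    [IsDomain (↥BM ⧸ Ideal.span {algebraMap R ↥BM π})]
    [IsIntegrallyClosed (↥BM ⧸ Ideal.span {algebraMap R ↥BM π})] :
    ∀ y ∈ B, ∃ b : ↥BM, ∃ c ∈ Oj, y - chartHom φ BM b = algebraMap R F π * c :=
  comp_surj π B Oj leO pi_nonunit unif (chartHom φ BM) hφB
    (hker_of_sat π φ BM OvM Oj hcomap satM)
    (hF1_of_comb π φ BM OvM Oj hBMle hlocM pi_nonunit hle hcomb) hint

/-- **(C-prin) from elementary data**: the conclusion is `SmoothN5.BranchPrincipalVia
(chartHom φ BM) π B Oj` unfolded (and, without `hs`, the `hCα`/`hCβ` of `NodeCoordsAsm29`). -/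
theorem branchPrincipal_of_data (π : R) (φ : FM →ₐ[R] F) (BM : Subalgebra R FM)
    (OvM : ValuationSubring FM) (B : Subalgebra R F) (Oj : ValuationSubring F)
    (leO : ∀ x ∈ B, x ∈ Oj) (pi_nonunit : (algebraMap R F π)⁻¹ ∉ Oj)
    (unif : ∀ x ∈ Oj, x⁻¹ ∉ Oj → ∃ c ∈ Oj, x = algebraMap R F π * c)
    (hφB : ∀ b : ↥BM, chartHom φ BM b ∈ B)
    (hint : ∀ y ∈ B, ∃ P : Polynomial ↥BM, P.Monic ∧
      ∃ c ∈ Oj, P.eval₂ (chartHom φ BM : ↥BM →+* F) y = algebraMap R F π * c)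
    (hcomap : ∀ z : FM, φ z ∈ Oj → z ∈ OvM) (hle : ∀ z ∈ OvM, φ z ∈ Oj)
    (hBMle : ∀ b ∈ BM, b ∈ OvM)
    (satM : ∀ b ∈ BM, ∀ c ∈ OvM, b = algebraMap R FM π * c → c ∈ BM)
    (hlocM : ∀ z ∈ OvM, ∃ a b : ↥BM, (b : FM) ≠ 0 ∧ (b : FM)⁻¹ ∈ OvM ∧ z * (b : FM) = (a : FM))
    (hcomb : ∀ x ∈ Oj, ∃ z ∈ OvM, ∃ c ∈ Oj, x - φ z = algebraMap R F π * c)
    [IsDomain (↥BM ⧸ Ideal.span {algebraMap R ↥BM π})]
    [IsIntegrallyClosed (↥BM ⧸ Ideal.span {algebraMap R ↥BM π})]
    (hsmooth : ∀ x : Ideal ↥BM, x.IsMaximal → algebraMap R ↥BM π ∈ x →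
      ∃ s ∈ x, ∀ y ∈ x, ∃ d : ↥BM, d ∉ x ∧ d * y ∈ Ideal.span {algebraMap R ↥BM π, s}) :
    ∀ 𝔪 : Ideal ↥B, 𝔪.IsMaximal → algebraMap R ↥B π ∈ 𝔪 →
      ∃ s₀ : ↥BM, ∃ hs : chartHom φ BM s₀ ∈ B, (⟨chartHom φ BM s₀, hs⟩ : ↥B) ∈ 𝔪 ∧
        ∀ y ∈ 𝔪, ∃ d : ↥B, d ∉ 𝔪 ∧ ∃ b : ↥B, ∃ c ∈ Oj,
          (d : F) * (y : F) - (b : F) * chartHom φ BM s₀ = algebraMap R F π * c := by
  intro 𝔪 h𝔪 hπ𝔪
  obtain ⟨s0, h1, h2⟩ := comp_principal π B Oj leO (chartHom φ BM) hφB
    (surj_of_data π φ BM OvM B Oj leO pi_nonunit unif hφB hint hcomap hle hBMle satM hlocM hcomb)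
    hsmooth 𝔪 h𝔪 hπ𝔪
  exact ⟨s0, hφB s0, h1, h2⟩

end Assembly

end Fermat.Agent.ES.N34.CompHyp16
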