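/-
Program N (S34), chapter MODEL, brick (VAL2-abstract), helper22.  Mathlib + `RED/PUR/UniqueExt20`.

`F / E` a finite field extension, `O₁ ≠ O₂` valuation subrings of `F` with the same restriction
`O_E` to `E`.

* `exists_approx3`, `exists_adjust3`: approximation for THREE pairwise incomparable valuation
  subrings (general rank, no completion).
* `eq_or_eq_of_residually_independent`: if `[F : E] ≤ n₁ + n₂`, `O₁` contains `n₁` and `O₂`
  contains `n₂` residually independent elements (elementwise form over `O_E`), then every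
  valuation subring of `F` with the same restriction to `E` is `O₁` or `O₂`
  ("`∑ eᵢ fᵢ ≤ n`" without completions).
* `val_le_of_residually_independent`: in the same situation, if `𝔪_E = ϖ O_E` then
  `𝔪₁ = ϖ O₁` (`e₁ = 1`).
-/
import Mathlib
import Fermat.Agent.RED.PUR.UniqueExt20

set_option autoImplicit false

namespace Fermat.Agent.ES.N34.TwoExt22

open Fermat.Agent.RED.PUR.UniqueExt20

open scoped Classical

variable {E F : Type*} [Field E] [Field F] [Algebra E F]

/-! ### Approximation for three valuation rings -/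

/-- For `A` incomparable with `B` and with `C`: an element `≡ 1 mod 𝔪_A` lying in `𝔪_B ∩ 𝔪_C`. -/
theorem exists_approx3 {A B C : ValuationSubring F} (hAB : ¬ A ≤ B) (hBA : ¬ B ≤ A)
    (hAC : ¬ A ≤ C) (hCA : ¬ C ≤ A) :
    ∃ w : F, A.valuation (1 - w) < 1 ∧ B.valuation w < 1 ∧ C.valuation w < 1 := by
  obtain ⟨t, htA, htB⟩ := exists_approx hAB hBA
  obtain ⟨s, hsA, hsC⟩ := exists_approx hAC hCA
  by_cases htC : C.valuation t < 1
  · exact ⟨t, htA, htB, htC⟩
  by_cases hsB : B.valuation s < 1
  · exact ⟨s, hsA, hsB, hsC⟩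
  rw [not_lt] at htC hsB
  have htA1 : A.valuation t = 1 := by
    have : t = 1 - (1 - t) := by ring
    rw [this]; exact Valuation.map_one_sub_of_lt _ htA
  have hsA1 : A.valuation s = 1 := by
    have : s = 1 - (1 - s) := by ring
    rw [this]; exact Valuation.map_one_sub_of_lt _ hsA
  have ht0 : t ≠ 0 := by
    rintro rfl; rw [map_zero] at htA1; exact zero_ne_one htA1
  have hs0 : s ≠ 0 := by
    rintro rfl; rw [map_zero] at hsA1; exact zero_ne_one hsA1
  -- `u = t⁻¹ + s⁻¹ - 1`
  have huA' : A.valuation (t⁻¹ + s⁻¹ - 1 - 1) < 1 := by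
    have h1 : t⁻¹ + s⁻¹ - 1 - 1 = (1 - t) / t + (1 - s) / s := by field_simp; ring
    rw [h1]
    refine Valuation.map_add_lt _ ?_ ?_
    · rw [map_div₀, htA1, div_one]; exact htA
    · rw [map_div₀, hsA1, div_one]; exact hsA
  have huA : A.valuation (t⁻¹ + s⁻¹ - 1) = 1 := by
    have : t⁻¹ + s⁻¹ - 1 = 1 + (t⁻¹ + s⁻¹ - 1 - 1) := by ring
    rw [this]; exact Valuation.map_one_add_of_lt _ huA'
  have hu0 : t⁻¹ + s⁻¹ - 1 ≠ 0 := by
    intro h0; rw [h0, map_zero] at huA; exact zero_ne_one huA
  have hBt : 1 < B.valuation t⁻¹ := by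
    rw [map_inv₀]; exact (one_lt_inv₀ (val_pos B ht0)).mpr htB
  have hCs : 1 < C.valuation s⁻¹ := by
    rw [map_inv₀]; exact (one_lt_inv₀ (val_pos C hs0)).mpr hsC
  have hBs : B.valuation (s⁻¹ - 1) ≤ 1 := by
    refine (Valuation.map_sub _ _ _).trans (max_le ?_ (by rw [map_one]))
    rw [map_inv₀]; exact inv_le_one_of_one_le₀ hsB
  have hCt : C.valuation (t⁻¹ - 1) ≤ 1 := by
    refine (Valuation.map_sub _ _ _).trans (max_le ?_ (by rw [map_one]))
    rw [map_inv₀]; exact inv_le_one_of_one_le₀ htC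
  have huB : B.valuation (t⁻¹ + s⁻¹ - 1) = B.valuation t⁻¹ := by
    have : t⁻¹ + s⁻¹ - 1 = t⁻¹ + (s⁻¹ - 1) := by ring
    rw [this]; exact Valuation.map_add_eq_of_lt_left _ (lt_of_le_of_lt hBs hBt)
  have huC : C.valuation (t⁻¹ + s⁻¹ - 1) = C.valuation s⁻¹ := by
    have : t⁻¹ + s⁻¹ - 1 = (t⁻¹ - 1) + s⁻¹ := by ring
    rw [this]; exact Valuation.map_add_eq_of_lt_right _ (lt_of_le_of_lt hCt hCs)
  refine ⟨(t⁻¹ + s⁻¹ - 1)⁻¹, ?_, ?_, ?_⟩
  · have key : ∀ u : F, u ≠ 0 → 1 - u⁻¹ = (u - 1) / u := fun u hu => by field_simp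
    rw [key _ hu0, map_div₀, huA, div_one]; exact huA'
  · rw [map_inv₀, huB, map_inv₀, inv_inv]; exact htB
  · rw [map_inv₀, huC, map_inv₀, inv_inv]; exact hsC

theorem val_eq_one_of_one_sub_lt {A : ValuationSubring F} {w : F} (hw : A.valuation (1 - w) < 1) :
    A.valuation w = 1 := by
  have : w = 1 - (1 - w) := by ring
  rw [this]; exact Valuation.map_one_sub_of_lt _ hw

/-- Powers of `w ≡ 1 mod 𝔪_A` are `≡ 1 mod 𝔪_A`. -/
theorem val_one_sub_pow_lt {A : ValuationSubring F} {w : F} (hw : A.valuation (1 - w) < 1)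
    (k : ℕ) : A.valuation (1 - w ^ k) < 1 := by
  have hw1 := val_eq_one_of_one_sub_lt hw
  induction k with
  | zero => simp
  | succ k ih =>
    have : 1 - w ^ (k + 1) = (1 - w ^ k) + w ^ k * (1 - w) := by ring
    rw [this]
    refine Valuation.map_add_lt _ ih ?_
    rw [map_mul, map_pow, hw1, one_pow, one_mul]; exact hw

/-- The one-ring estimate behind `exists_adjust3`. -/
theorem val_adjust_lt {B : ValuationSubring F} {x b : F} (hx0 : x ≠ 0)
    (hxB : B.valuation x < 1) (hne : B.valuation x ≠ B.valuation b ^ 2) :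
    B.valuation (b * x / (x + b ^ 2 * (1 - x))) < 1 := by
  have h1x : B.valuation (1 - x) = 1 := Valuation.map_one_sub_of_lt _ hxB
  have hb2 : B.valuation (b ^ 2 * (1 - x)) = B.valuation b ^ 2 := by
    rw [map_mul, h1x, mul_one, map_pow]
  have hxpos : 0 < B.valuation x := val_pos B hx0
  rcases lt_or_gt_of_ne hne with hlt | hgt
  · -- `v x < v b ^ 2`
    have hden : B.valuation (x + b ^ 2 * (1 - x)) = B.valuation b ^ 2 := by
      rw [Valuation.map_add_eq_of_lt_right _ (by rw [hb2]; exact hlt), hb2]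
    have hb0 : b ≠ 0 := by
      rintro rfl
      rw [map_zero, zero_pow two_ne_zero] at hlt
      exact not_lt_of_ge zero_le hlt
    have hbpos : 0 < B.valuation b := val_pos B hb0
    have hxb : B.valuation x < B.valuation b := by
      rcases le_or_gt 1 (B.valuation b) with h1 | h1
      · exact lt_of_lt_of_le hxB h1
      · refine lt_of_lt_of_le hlt ?_
        rw [pow_two]
        exact mul_le_of_le_one_left' h1.le
    rw [map_div₀, hden, map_mul]
    refine (div_lt_one₀ (pow_pos hbpos 2)).mpr ?_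
    rw [pow_two]
    exact (mul_lt_mul_iff_of_pos_left hbpos).mpr hxb
  · -- `v b ^ 2 < v x`
    have hden : B.valuation (x + b ^ 2 * (1 - x)) = B.valuation x := by
      rw [Valuation.map_add_eq_of_lt_left _ (by rw [hb2]; exact hgt)]
    rw [map_div₀, hden, map_mul, mul_div_assoc, div_self hxpos.ne', mul_one]
    by_contra h1
    rw [not_lt] at h1
    have h2 : (1 : B.ValueGroup) ≤ B.valuation b ^ 2 := one_le_pow₀ h1
    exact absurd (lt_of_le_of_lt h2 (lt_trans hgt hxB)) (lt_irrefl _)

/-- Adjusting an element of `A` into `𝔪_B ∩ 𝔪_C` without changing its residue in `A`. -/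
theorem exists_adjust3 {A B C : ValuationSubring F} {w : F} (hwA : A.valuation (1 - w) < 1)
    (hwB : B.valuation w < 1) (hwC : C.valuation w < 1) {b : F} (hb : A.valuation b ≤ 1) :
    ∃ c : F, A.valuation (c - b) < 1 ∧ B.valuation c < 1 ∧ C.valuation c < 1 := by
  have hwA1 := val_eq_one_of_one_sub_lt hwA
  have hw0 : w ≠ 0 := by
    rintro rfl; rw [map_zero] at hwA1; exact zero_ne_one hwA1
  have hBs : ∀ i j : ℕ, i < j → B.valuation w ^ j < B.valuation w ^ i := fun i j hij =>
    pow_lt_pow_right_of_lt_one₀ (val_pos B hw0) hwB hij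
  have hCs : ∀ i j : ℕ, i < j → C.valuation w ^ j < C.valuation w ^ i := fun i j hij =>
    pow_lt_pow_right_of_lt_one₀ (val_pos C hw0) hwC hij
  -- choice of the exponent
  obtain ⟨k, hk, hkB, hkC⟩ : ∃ k : ℕ, 0 < k ∧ B.valuation w ^ k ≠ B.valuation b ^ 2 ∧
      C.valuation w ^ k ≠ C.valuation b ^ 2 := by
    by_cases h1 : B.valuation w ^ 1 = B.valuation b ^ 2
    · by_cases h2 : C.valuation w ^ 2 = C.valuation b ^ 2
      · refine ⟨3, by norm_num, ?_, ?_⟩
        · intro h3; exact absurd (h1.trans h3.symm) (ne_of_gt (hBs 1 3 (by norm_num)))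
        · intro h3; exact absurd (h2.trans h3.symm) (ne_of_gt (hCs 2 3 (by norm_num)))
      · refine ⟨2, by norm_num, ?_, h2⟩
        intro h3; exact absurd (h1.trans h3.symm) (ne_of_gt (hBs 1 2 (by norm_num)))
    · by_cases h1c : C.valuation w ^ 1 = C.valuation b ^ 2
      · by_cases h2 : B.valuation w ^ 2 = B.valuation b ^ 2
        · refine ⟨3, by norm_num, ?_, ?_⟩
          · intro h3; exact absurd (h2.trans h3.symm) (ne_of_gt (hBs 2 3 (by norm_num)))
          · intro h3; exact absurd (h1c.trans h3.symm) (ne_of_gt (hCs 1 3 (by norm_num)))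
        · refine ⟨2, by norm_num, h2, ?_⟩
          intro h3; exact absurd (h1c.trans h3.symm) (ne_of_gt (hCs 1 2 (by norm_num)))
      · exact ⟨1, one_pos, h1, h1c⟩
  have hx0 : w ^ k ≠ 0 := pow_ne_zero _ hw0
  have hxA : A.valuation (1 - w ^ k) < 1 := val_one_sub_pow_lt hwA k
  have hxA1 : A.valuation (w ^ k) = 1 := by rw [map_pow, hwA1, one_pow]
  have hxB : B.valuation (w ^ k) < 1 := by
    rw [map_pow]; exact pow_lt_one₀ zero_le hwB hk.ne'
  have hxC : C.valuation (w ^ k) < 1 := by
    rw [map_pow]; exact pow_lt_one₀ zero_le hwC hk.ne'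
  have hsmall : A.valuation (b ^ 2 * (1 - w ^ k)) < 1 := by
    rw [map_mul, map_pow]
    exact (mul_le_of_le_one_left' (pow_le_one₀ zero_le hb)).trans_lt hxA
  have hden : A.valuation (w ^ k + b ^ 2 * (1 - w ^ k)) = 1 := by
    rw [Valuation.map_add_eq_of_lt_left _ (by rw [hxA1]; exact hsmall), hxA1]
  have hden0 : w ^ k + b ^ 2 * (1 - w ^ k) ≠ 0 := by
    intro h0; rw [h0, map_zero] at hden; exact zero_ne_one hden
  refine ⟨b * w ^ k / (w ^ k + b ^ 2 * (1 - w ^ k)), ?_, ?_, ?_⟩
  · have : b * w ^ k / (w ^ k + b ^ 2 * (1 - w ^ k)) - b =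
        -(b * (b ^ 2 * (1 - w ^ k))) / (w ^ k + b ^ 2 * (1 - w ^ k)) := by
      field_simp; ring
    rw [this, map_div₀, hden, div_one, Valuation.map_neg, map_mul]
    exact (mul_le_of_le_one_left' hb).trans_lt hsmall
  · exact val_adjust_lt hx0 hxB (by rw [map_pow]; exact hkB)
  · exact val_adjust_lt hx0 hxC (by rw [map_pow]; exact hkC)

/-! ### At most two extensions -/

theorem val_sum_mul_lt (V : ValuationSubring F) {ι : Type*} [Fintype ι] (a c : ι → F)
    (ha : ∀ i, V.valuation (a i) ≤ 1) (hc : ∀ i, V.valuation (c i) < 1) :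
    V.valuation (∑ i, a i * c i) < 1 := by
  refine Valuation.map_sum_lt _ one_ne_zero fun i _ => ?_
  rw [map_mul]
  exact (mul_le_of_le_one_left' (ha i)).trans_lt (hc i)

theorem not_le_of_ne_of_comap_eq [Algebra.IsAlgebraic E F] {A B : ValuationSubring F}
    (hne : A ≠ B) (hcomap : A.comap (algebraMap E F) = B.comap (algebraMap E F)) : ¬ A ≤ B :=
  fun h => hne (eq_of_le_of_comap_eq h hcomap.symm).symm

/-- **(TWO)**  `[F : E] ≤ n₁ + n₂`; `O₁ ≠ O₂` valuation subrings of `F` with the same restriction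
`O_E` to `E`; `O₁` contains `n₁` and `O₂` contains `n₂` elements that are residually independent
over the residue field of `O_E` (elementwise form).  Then every valuation subring `O₃` of `F` with
restriction `O_E` is `O₁` or `O₂`. -/
theorem eq_or_eq_of_residually_independent [FiniteDimensional E F] {n₁ n₂ : ℕ}
    (hn : Module.finrank E F ≤ n₁ + n₂) (O₁ O₂ O₃ : ValuationSubring F) (h12 : O₁ ≠ O₂)
    (hcomap₂ : O₁.comap (algebraMap E F) = O₂.comap (algebraMap E F))
    (hcomap₃ : O₁.comap (algebraMap E F) = O₃.comap (algebraMap E F))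
    (b₁ : Fin n₁ → F) (hb₁O : ∀ i, b₁ i ∈ O₁)
    (hb₁ : ∀ a : Fin n₁ → E, (∀ i, (O₁.comap (algebraMap E F)).valuation (a i) ≤ 1) →
      O₁.valuation (∑ i, algebraMap E F (a i) * b₁ i) < 1 →
      ∀ i, (O₁.comap (algebraMap E F)).valuation (a i) < 1)
    (b₂ : Fin n₂ → F) (hb₂O : ∀ i, b₂ i ∈ O₂)
    (hb₂ : ∀ a : Fin n₂ → E, (∀ i, (O₁.comap (algebraMap E F)).valuation (a i) ≤ 1) →
      O₂.valuation (∑ i, algebraMap E F (a i) * b₂ i) < 1 →
      ∀ i, (O₁.comap (algebraMap E F)).valuation (a i) < 1) :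
    O₃ = O₁ ∨ O₃ = O₂ := by
  have : Algebra.IsAlgebraic E F := Algebra.IsAlgebraic.of_finite E F
  by_contra hcon
  rw [not_or] at hcon
  obtain ⟨h31, h32⟩ := hcon
  have hcomap₂₃ : O₂.comap (algebraMap E F) = O₃.comap (algebraMap E F) :=
    hcomap₂.symm.trans hcomap₃
  have n12 := not_le_of_ne_of_comap_eq h12 hcomap₂
  have n21 := not_le_of_ne_of_comap_eq (Ne.symm h12) hcomap₂.symm
  have n13 := not_le_of_ne_of_comap_eq (Ne.symm h31) hcomap₃
  have n31 := not_le_of_ne_of_comap_eq h31 hcomap₃.symm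
  have n23 := not_le_of_ne_of_comap_eq (Ne.symm h32) hcomap₂₃
  have n32 := not_le_of_ne_of_comap_eq h32 hcomap₂₃.symm
  obtain ⟨w₁, hw₁1, hw₁2, hw₁3⟩ := exists_approx3 n12 n21 n13 n31
  obtain ⟨w₂, hw₂2, hw₂1, hw₂3⟩ := exists_approx3 n21 n12 n23 n32
  obtain ⟨w₃, hw₃3, hw₃1, hw₃2⟩ := exists_approx3 n31 n13 n32 n23
  have hw₃one : O₃.valuation w₃ = 1 := val_eq_one_of_one_sub_lt hw₃3
  choose c hc1 hc2 hc3 using fun i =>
    exists_adjust3 hw₁1 hw₁2 hw₁3 ((O₁.valuation_le_one_iff (b₁ i)).mpr (hb₁O i))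
  choose c' hc'2 hc'1 hc'3 using fun i =>
    exists_adjust3 hw₂2 hw₂1 hw₂3 ((O₂.valuation_le_one_iff (b₂ i)).mpr (hb₂O i))
  -- the `n₁ + n₂ + 1` elements `w₃, c i, c' j` are linearly independent over `E`
  have hli : LinearIndependent E
      (fun o : Option (Fin n₁ ⊕ Fin n₂) => o.elim w₃ (Sum.elim c c')) := by
    rw [Fintype.linearIndependent_iff]
    intro g hg
    by_contra hex
    push Not at hex
    obtain ⟨j, hj0, hj⟩ := exists_scale (O₁.comap (algebraMap E F)) g hex
    set g' : Option (Fin n₁ ⊕ Fin n₂) → E := fun o => g o / g j with hg'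
    have hg'j : g' j = 1 := by simp only [hg']; exact div_self hj0
    have hrel : algebraMap E F (g' none) * w₃ +
        (∑ i, algebraMap E F (g' (some (Sum.inl i))) * c i +
          ∑ i, algebraMap E F (g' (some (Sum.inr i))) * c' i) = 0 := by
      have h1 : algebraMap E F (g none) * w₃ +
          (∑ i, algebraMap E F (g (some (Sum.inl i))) * c i +
            ∑ i, algebraMap E F (g (some (Sum.inr i))) * c' i) = 0 := by
        rw [Fintype.sum_option, Fintype.sum_sum_type] at hg
        simpa [Algebra.smul_def] using hg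
      have h2 : algebraMap E F (g' none) * w₃ +
          (∑ i, algebraMap E F (g' (some (Sum.inl i))) * c i +
            ∑ i, algebraMap E F (g' (some (Sum.inr i))) * c' i) =
          (algebraMap E F (g j))⁻¹ * (algebraMap E F (g none) * w₃ +
            (∑ i, algebraMap E F (g (some (Sum.inl i))) * c i +
              ∑ i, algebraMap E F (g (some (Sum.inr i))) * c' i)) := by
        rw [mul_add, mul_add, Finset.mul_sum, Finset.mul_sum]
        congr 1
        · simp only [hg', map_div₀]; field_simp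
        · congr 1
          · refine Finset.sum_congr rfl fun i _ => ?_
            simp only [hg', map_div₀]; field_simp
          · refine Finset.sum_congr rfl fun i _ => ?_
            simp only [hg', map_div₀]; field_simp
      rw [h2, h1, mul_zero]
    have hg'1 : ∀ o, O₁.valuation (algebraMap E F (g' o)) ≤ 1 := fun o =>
      (comap_val_le_one_iff O₁ _).mp (hj o)
    have hg'2 : ∀ o, O₂.valuation (algebraMap E F (g' o)) ≤ 1 := fun o => by
      rw [← comap_val_le_one_iff, ← hcomap₂]; exact hj o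
    have hg'3 : ∀ o, O₃.valuation (algebraMap E F (g' o)) ≤ 1 := fun o => by
      rw [← comap_val_le_one_iff, ← hcomap₃]; exact hj o
    -- step 1: reduce modulo `𝔪₁`
    have hsum1 : O₁.valuation (∑ i, algebraMap E F (g' (some (Sum.inl i))) * b₁ i) < 1 := by
      have h3 : ∑ i, algebraMap E F (g' (some (Sum.inl i))) * b₁ i =
          -(algebraMap E F (g' none) * w₃) -
            ∑ i, algebraMap E F (g' (some (Sum.inr i))) * c' i -
            ∑ i, algebraMap E F (g' (some (Sum.inl i))) * (c i - b₁ i) := by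
        have : ∑ i, algebraMap E F (g' (some (Sum.inl i))) * (c i - b₁ i) =
            ∑ i, algebraMap E F (g' (some (Sum.inl i))) * c i -
              ∑ i, algebraMap E F (g' (some (Sum.inl i))) * b₁ i := by
          rw [← Finset.sum_sub_distrib]
          exact Finset.sum_congr rfl fun i _ => by ring
        rw [this]
        linear_combination hrel
      rw [h3]
      refine Valuation.map_sub_lt _ (Valuation.map_sub_lt _ ?_ ?_) ?_
      · rw [Valuation.map_neg, map_mul]
        exact (mul_le_of_le_one_left' (hg'1 none)).trans_lt hw₃1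
      · exact val_sum_mul_lt O₁ _ _ (fun i => hg'1 _) hc'1
      · exact val_sum_mul_lt O₁ _ _ (fun i => hg'1 _) hc1
    have hsmall1 := hb₁ (fun i => g' (some (Sum.inl i))) (fun i => hj _) hsum1
    -- step 2: reduce modulo `𝔪₂`
    have hsum2 : O₂.valuation (∑ i, algebraMap E F (g' (some (Sum.inr i))) * b₂ i) < 1 := by
      have h3 : ∑ i, algebraMap E F (g' (some (Sum.inr i))) * b₂ i =
          -(algebraMap E F (g' none) * w₃) -
            ∑ i, algebraMap E F (g' (some (Sum.inl i))) * c i -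
            ∑ i, algebraMap E F (g' (some (Sum.inr i))) * (c' i - b₂ i) := by
        have : ∑ i, algebraMap E F (g' (some (Sum.inr i))) * (c' i - b₂ i) =
            ∑ i, algebraMap E F (g' (some (Sum.inr i))) * c' i -
              ∑ i, algebraMap E F (g' (some (Sum.inr i))) * b₂ i := by
          rw [← Finset.sum_sub_distrib]
          exact Finset.sum_congr rfl fun i _ => by ring
        rw [this]
        linear_combination hrel
      rw [h3]
      refine Valuation.map_sub_lt _ (Valuation.map_sub_lt _ ?_ ?_) ?_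
      · rw [Valuation.map_neg, map_mul]
        exact (mul_le_of_le_one_left' (hg'2 none)).trans_lt hw₃2
      · exact val_sum_mul_lt O₂ _ _ (fun i => hg'2 _) hc2
      · exact val_sum_mul_lt O₂ _ _ (fun i => hg'2 _) hc'2
    have hsmall2 := hb₂ (fun i => g' (some (Sum.inr i))) (fun i => hj _) hsum2
    -- step 3: reduce modulo `𝔪₃`
    have hsmall3 : (O₁.comap (algebraMap E F)).valuation (g' none) < 1 := by
      have h3 : algebraMap E F (g' none) * w₃ =
          -(∑ i, algebraMap E F (g' (some (Sum.inl i))) * c i) -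
            ∑ i, algebraMap E F (g' (some (Sum.inr i))) * c' i := by
        linear_combination hrel
      have h4 : O₃.valuation (algebraMap E F (g' none) * w₃) < 1 := by
        rw [h3]
        refine Valuation.map_sub_lt _ ?_ ?_
        · rw [Valuation.map_neg]
          exact val_sum_mul_lt O₃ _ _ (fun i => hg'3 _) hc3
        · exact val_sum_mul_lt O₃ _ _ (fun i => hg'3 _) hc'3
      rw [map_mul, hw₃one, mul_one] at h4
      rw [hcomap₃, comap_val_lt_one_iff]
      exact h4
    -- contradiction with `g' j = 1`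
    have hall : ∀ o, (O₁.comap (algebraMap E F)).valuation (g' o) < 1 := by
      rintro (_ | i | i)
      · exact hsmall3
      · exact hsmall1 i
      · exact hsmall2 i
    have := hall j
    rw [hg'j, map_one] at this
    exact lt_irrefl _ this
  have hcard := hli.fintype_card_le_finrank
  rw [Fintype.card_option, Fintype.card_sum, Fintype.card_fin, Fintype.card_fin] at hcard
  omega

/-! ### Both extensions are unramified -/

/-- An element of `𝔪₁` can be moved into `O₂` without changing its `O₁`-valuation. -/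
theorem exists_same_val_mem {O₁ O₂ : ValuationSubring F} {w : F}
    (hw2 : O₂.valuation (1 - w) < 1) (hw1 : O₁.valuation w < 1) {x : F}
    (hx : O₁.valuation x < 1) :
    ∃ y : F, O₁.valuation y = O₁.valuation x ∧ O₂.valuation y ≤ 1 := by
  by_cases hx2 : O₂.valuation x ≤ 1
  · exact ⟨x, rfl, hx2⟩
  rw [not_le] at hx2
  have hw2one : O₂.valuation w = 1 := val_eq_one_of_one_sub_lt hw2
  have h1 : O₁.valuation (1 + x * w) = 1 := by
    refine Valuation.map_one_add_of_lt _ ?_
    rw [map_mul]
    exact (mul_le_of_le_one_left' hx.le).trans_lt hw1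
  have h2 : O₂.valuation (1 + x * w) = O₂.valuation x := by
    have : O₂.valuation (x * w) = O₂.valuation x := by rw [map_mul, hw2one, mul_one]
    rw [Valuation.map_add_eq_of_lt_right _ (by rw [map_one, this]; exact hx2), this]
  have hx0 : x ≠ 0 := by
    rintro rfl; rw [map_zero] at hx2; exact not_lt_of_ge zero_le hx2
  refine ⟨x / (1 + x * w), ?_, ?_⟩
  · rw [map_div₀, h1, div_one]
  · rw [map_div₀, h2, div_self (val_pos O₂ hx0).ne']

/-- **(UNR)**  In the situation of `eq_or_eq_of_residually_independent`, if every element of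
`𝔪_E` has valuation at most that of `ϖ ≠ 0` (e.g. `𝔪_E = ϖ O_E`), then every element of `𝔪₁` has
`O₁`-valuation at most that of `ϖ`: the extension `O₁ / O_E` is unramified (`e₁ = 1`). -/
theorem val_le_of_residually_independent [FiniteDimensional E F] {n₁ n₂ : ℕ}
    (hn : Module.finrank E F ≤ n₁ + n₂) (O₁ O₂ : ValuationSubring F) (h12 : O₁ ≠ O₂)
    (hcomap₂ : O₁.comap (algebraMap E F) = O₂.comap (algebraMap E F))
    (b₁ : Fin n₁ → F) (hb₁O : ∀ i, b₁ i ∈ O₁)
    (hb₁ : ∀ a : Fin n₁ → E, (∀ i, (O₁.comap (algebraMap E F)).valuation (a i) ≤ 1) →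
      O₁.valuation (∑ i, algebraMap E F (a i) * b₁ i) < 1 →
      ∀ i, (O₁.comap (algebraMap E F)).valuation (a i) < 1)
    (b₂ : Fin n₂ → F) (hb₂O : ∀ i, b₂ i ∈ O₂)
    (hb₂ : ∀ a : Fin n₂ → E, (∀ i, (O₁.comap (algebraMap E F)).valuation (a i) ≤ 1) →
      O₂.valuation (∑ i, algebraMap E F (a i) * b₂ i) < 1 →
      ∀ i, (O₁.comap (algebraMap E F)).valuation (a i) < 1)
    {ϖ : E} (hϖ0 : ϖ ≠ 0)
    (hϖ : ∀ a : E, (O₁.comap (algebraMap E F)).valuation a < 1 →
      (O₁.comap (algebraMap E F)).valuation a ≤ (O₁.comap (algebraMap E F)).valuation ϖ)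
    {x : F} (hx : O₁.valuation x < 1) :
    O₁.valuation x ≤ O₁.valuation (algebraMap E F ϖ) := by
  have : Algebra.IsAlgebraic E F := Algebra.IsAlgebraic.of_finite E F
  by_contra hcon
  rw [not_le] at hcon
  -- `n₁ ≠ 0`
  have hn₁ : n₁ ≠ 0 := by
    rintro rfl
    rw [zero_add] at hn
    have hb₂' : ∀ a : Fin n₂ → E, (∀ i, (O₂.comap (algebraMap E F)).valuation (a i) ≤ 1) →
        O₂.valuation (∑ i, algebraMap E F (a i) * b₂ i) < 1 →
        ∀ i, (O₂.comap (algebraMap E F)).valuation (a i) < 1 := by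
      rw [← hcomap₂]; exact hb₂
    exact h12 (eq_of_residually_independent hn O₂ O₁ hcomap₂.symm b₂ hb₂O hb₂')
  have n12 := not_le_of_ne_of_comap_eq h12 hcomap₂
  have n21 := not_le_of_ne_of_comap_eq (Ne.symm h12) hcomap₂.symm
  obtain ⟨w₁, hw₁1, hw₁2⟩ := exists_approx n12 n21
  obtain ⟨w₂, hw₂2, hw₂1⟩ := exists_approx n21 n12
  choose c hc1 hc2 using fun i =>
    exists_adjust hw₁1 hw₁2 ((O₁.valuation_le_one_iff (b₁ i)).mpr (hb₁O i))
  choose c' hc'2 hc'1 using fun i =>
    exists_adjust hw₂2 hw₂1 ((O₂.valuation_le_one_iff (b₂ i)).mpr (hb₂O i))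
  obtain ⟨y, hy1, hy2⟩ := exists_same_val_mem hw₂2 hw₂1 hx
  have hy1lt : O₁.valuation y < 1 := by rw [hy1]; exact hx
  have hϖpos : 0 < O₁.valuation (algebraMap E F ϖ) :=
    val_pos O₁ (fun h => hϖ0 ((map_eq_zero_iff _ (algebraMap E F).injective).mp h))
  have hypos : 0 < O₁.valuation y := lt_trans hϖpos (by rw [hy1]; exact hcon)
  have hc1le : ∀ i, O₁.valuation (c i) ≤ 1 := fun i => by
    have : c i = (c i - b₁ i) + b₁ i := by ring
    rw [this]
    exact (Valuation.map_add _ _ _).trans
      (max_le (hc1 i).le ((O₁.valuation_le_one_iff (b₁ i)).mpr (hb₁O i)))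
  -- small coefficients are divisible by `ϖ`
  have hEF : ∀ a : E, (O₁.comap (algebraMap E F)).valuation a < 1 →
      O₁.valuation (algebraMap E F a) ≤ O₁.valuation (algebraMap E F ϖ) := by
    intro a ha
    have h1 := hϖ a ha
    by_contra h2
    rw [not_le] at h2
    have hapos : a ≠ 0 := by
      rintro rfl; rw [map_zero, map_zero] at h2; exact not_lt_of_ge zero_le h2
    have h3 : (O₁.comap (algebraMap E F)).valuation (ϖ / a) < 1 := by
      rw [comap_val_lt_one_iff, map_div₀, map_div₀]
      exact (div_lt_one₀ (val_pos O₁ (fun h =>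
        hapos ((map_eq_zero_iff _ (algebraMap E F).injective).mp h)))).mpr h2
    rw [map_div₀] at h3
    have h4 := (div_lt_one₀ (val_pos _ hapos)).mp h3
    exact absurd (lt_of_lt_of_le h4 h1) (lt_irrefl _)
  -- the `2 n₁ + n₂` elements `c i, y * c i, c' j` are linearly independent over `E`
  have hli : LinearIndependent E
      (fun o : Fin n₁ ⊕ Fin n₁ ⊕ Fin n₂ =>
        Sum.elim c (Sum.elim (fun i => y * c i) c') o) := by
    rw [Fintype.linearIndependent_iff]
    intro g hg
    by_contra hex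
    push Not at hex
    obtain ⟨j, hj0, hj⟩ := exists_scale (O₁.comap (algebraMap E F)) g hex
    set g' : Fin n₁ ⊕ Fin n₁ ⊕ Fin n₂ → E := fun o => g o / g j with hg'
    have hg'j : g' j = 1 := by simp only [hg']; exact div_self hj0
    have hrel : ∑ i, algebraMap E F (g' (Sum.inl i)) * c i +
        (y * ∑ i, algebraMap E F (g' (Sum.inr (Sum.inl i))) * c i +
          ∑ i, algebraMap E F (g' (Sum.inr (Sum.inr i))) * c' i) = 0 := by
      have h1 : ∑ i, algebraMap E F (g (Sum.inl i)) * c i +
          (y * ∑ i, algebraMap E F (g (Sum.inr (Sum.inl i))) * c i +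
            ∑ i, algebraMap E F (g (Sum.inr (Sum.inr i))) * c' i) = 0 := by
        rw [Fintype.sum_sum_type, Fintype.sum_sum_type] at hg
        rw [Finset.mul_sum]
        simp only [Sum.elim_inl, Sum.elim_inr, Algebra.smul_def] at hg
        rw [← hg]
        congr 2
        refine Finset.sum_congr rfl fun i _ => ?_
        ring
      have h2 : ∑ i, algebraMap E F (g' (Sum.inl i)) * c i +
          (y * ∑ i, algebraMap E F (g' (Sum.inr (Sum.inl i))) * c i +
            ∑ i, algebraMap E F (g' (Sum.inr (Sum.inr i))) * c' i) =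
          (algebraMap E F (g j))⁻¹ * (∑ i, algebraMap E F (g (Sum.inl i)) * c i +
            (y * ∑ i, algebraMap E F (g (Sum.inr (Sum.inl i))) * c i +
              ∑ i, algebraMap E F (g (Sum.inr (Sum.inr i))) * c' i)) := by
        rw [mul_add, mul_add, Finset.mul_sum, Finset.mul_sum, Finset.mul_sum, Finset.mul_sum,
          Finset.mul_sum]
        congr 1
        · refine Finset.sum_congr rfl fun i _ => ?_
          simp only [hg', map_div₀]; field_simp
        · congr 1
          · refine Finset.sum_congr rfl fun i _ => ?_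
            simp only [hg', map_div₀]; field_simp
          · refine Finset.sum_congr rfl fun i _ => ?_
            simp only [hg', map_div₀]; field_simp
      rw [h2, h1, mul_zero]
    have hg'1 : ∀ o, O₁.valuation (algebraMap E F (g' o)) ≤ 1 := fun o =>
      (comap_val_le_one_iff O₁ _).mp (hj o)
    have hg'2 : ∀ o, O₂.valuation (algebraMap E F (g' o)) ≤ 1 := fun o => by
      rw [← comap_val_le_one_iff, ← hcomap₂]; exact hj o
    -- step A: reduce modulo `𝔪₂`
    have hsumA : O₂.valuation (∑ i, algebraMap E F (g' (Sum.inr (Sum.inr i))) * b₂ i) < 1 := by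
      have h3 : ∑ i, algebraMap E F (g' (Sum.inr (Sum.inr i))) * b₂ i =
          -(∑ i, algebraMap E F (g' (Sum.inl i)) * c i) -
            y * ∑ i, algebraMap E F (g' (Sum.inr (Sum.inl i))) * c i -
            ∑ i, algebraMap E F (g' (Sum.inr (Sum.inr i))) * (c' i - b₂ i) := by
        have : ∑ i, algebraMap E F (g' (Sum.inr (Sum.inr i))) * (c' i - b₂ i) =
            ∑ i, algebraMap E F (g' (Sum.inr (Sum.inr i))) * c' i -
              ∑ i, algebraMap E F (g' (Sum.inr (Sum.inr i))) * b₂ i := by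
          rw [← Finset.sum_sub_distrib]
          exact Finset.sum_congr rfl fun i _ => by ring
        rw [this]
        linear_combination hrel
      rw [h3]
      refine Valuation.map_sub_lt _ (Valuation.map_sub_lt _ ?_ ?_) ?_
      · rw [Valuation.map_neg]
        exact val_sum_mul_lt O₂ _ _ (fun i => hg'2 _) hc2
      · rw [map_mul]
        exact (mul_le_of_le_one_left' hy2).trans_lt
          (val_sum_mul_lt O₂ _ _ (fun i => hg'2 _) hc2)
      · exact val_sum_mul_lt O₂ _ _ (fun i => hg'2 _) hc'2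
    have hsmallA := hb₂ (fun i => g' (Sum.inr (Sum.inr i))) (fun i => hj _) hsumA
    have hC : O₁.valuation (∑ i, algebraMap E F (g' (Sum.inr (Sum.inr i))) * c' i) <
        O₁.valuation (algebraMap E F ϖ) := by
      refine Valuation.map_sum_lt _ hϖpos.ne' fun i _ => ?_
      rw [map_mul]
      calc O₁.valuation (algebraMap E F (g' (Sum.inr (Sum.inr i)))) * O₁.valuation (c' i)
          ≤ O₁.valuation (algebraMap E F ϖ) * O₁.valuation (c' i) :=
            mul_le_mul_left (hEF _ (hsmallA i)) _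
        _ < O₁.valuation (algebraMap E F ϖ) * 1 :=
            (mul_lt_mul_iff_of_pos_left hϖpos).mpr (hc'1 i)
        _ = O₁.valuation (algebraMap E F ϖ) := mul_one _
    -- step B: reduce modulo `𝔪₁`
    have hsumB : O₁.valuation (∑ i, algebraMap E F (g' (Sum.inl i)) * b₁ i) < 1 := by
      have h3 : ∑ i, algebraMap E F (g' (Sum.inl i)) * b₁ i =
          -(y * ∑ i, algebraMap E F (g' (Sum.inr (Sum.inl i))) * c i) -
            ∑ i, algebraMap E F (g' (Sum.inr (Sum.inr i))) * c' i -
            ∑ i, algebraMap E F (g' (Sum.inl i)) * (c i - b₁ i) := by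
        have : ∑ i, algebraMap E F (g' (Sum.inl i)) * (c i - b₁ i) =
            ∑ i, algebraMap E F (g' (Sum.inl i)) * c i -
              ∑ i, algebraMap E F (g' (Sum.inl i)) * b₁ i := by
          rw [← Finset.sum_sub_distrib]
          exact Finset.sum_congr rfl fun i _ => by ring
        rw [this]
        linear_combination hrel
      rw [h3]
      refine Valuation.map_sub_lt _ (Valuation.map_sub_lt _ ?_ ?_) ?_
      · rw [Valuation.map_neg, map_mul]
        refine (mul_le_of_le_one_right' ?_).trans_lt hy1lt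
        refine Valuation.map_sum_le _ fun i _ => ?_
        rw [map_mul]
        exact mul_le_one' (hg'1 _) (hc1le i)
      · exact val_sum_mul_lt O₁ _ _ (fun i => hg'1 _) hc'1
      · exact val_sum_mul_lt O₁ _ _ (fun i => hg'1 _) hc1
    have hsmallB := hb₁ (fun i => g' (Sum.inl i)) (fun i => hj _) hsumB
    have hA : O₁.valuation (∑ i, algebraMap E F (g' (Sum.inl i)) * c i) ≤
        O₁.valuation (algebraMap E F ϖ) := by
      refine Valuation.map_sum_le _ fun i _ => ?_
      rw [map_mul]
      calc O₁.valuation (algebraMap E F (g' (Sum.inl i))) * O₁.valuation (c i)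
          ≤ O₁.valuation (algebraMap E F ϖ) * 1 :=
            mul_le_mul' (hEF _ (hsmallB i)) (hc1le i)
        _ = O₁.valuation (algebraMap E F ϖ) := mul_one _
    -- step C: the middle block
    have hmid : O₁.valuation (y * ∑ i, algebraMap E F (g' (Sum.inr (Sum.inl i))) * c i) ≤
        O₁.valuation (algebraMap E F ϖ) := by
      have h3 : y * ∑ i, algebraMap E F (g' (Sum.inr (Sum.inl i))) * c i =
          -(∑ i, algebraMap E F (g' (Sum.inl i)) * c i) -
            ∑ i, algebraMap E F (g' (Sum.inr (Sum.inr i))) * c' i := by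
        linear_combination hrel
      rw [h3]
      refine (Valuation.map_sub _ _ _).trans (max_le ?_ hC.le)
      rw [Valuation.map_neg]; exact hA
    have hS : O₁.valuation (∑ i, algebraMap E F (g' (Sum.inr (Sum.inl i))) * c i) < 1 := by
      by_contra h1
      rw [not_lt] at h1
      rw [map_mul] at hmid
      have h2 : O₁.valuation y ≤ O₁.valuation (algebraMap E F ϖ) :=
        (le_mul_of_one_le_right' h1).trans hmid
      rw [hy1] at h2
      exact absurd (lt_of_lt_of_le hcon h2) (lt_irrefl _)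
    have hsumC : O₁.valuation (∑ i, algebraMap E F (g' (Sum.inr (Sum.inl i))) * b₁ i) < 1 := by
      have h3 : ∑ i, algebraMap E F (g' (Sum.inr (Sum.inl i))) * b₁ i =
          ∑ i, algebraMap E F (g' (Sum.inr (Sum.inl i))) * c i -
            ∑ i, algebraMap E F (g' (Sum.inr (Sum.inl i))) * (c i - b₁ i) := by
        rw [← Finset.sum_sub_distrib]
        exact Finset.sum_congr rfl fun i _ => by ring
      rw [h3]
      exact Valuation.map_sub_lt _ hS (val_sum_mul_lt O₁ _ _ (fun i => hg'1 _) hc1)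
    have hsmallC := hb₁ (fun i => g' (Sum.inr (Sum.inl i))) (fun i => hj _) hsumC
    -- contradiction with `g' j = 1`
    have hall : ∀ o, (O₁.comap (algebraMap E F)).valuation (g' o) < 1 := by
      rintro (i | i | i)
      · exact hsmallB i
      · exact hsmallC i
      · exact hsmallA i
    have := hall j
    rw [hg'j, map_one] at this
    exact lt_irrefl _ this
  have hcard := hli.fintype_card_le_finrank
  rw [Fintype.card_sum, Fintype.card_sum, Fintype.card_fin, Fintype.card_fin] at hcard
  omega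

/-- (UNR) for the second ring. -/
theorem val_le_of_residually_independent' [FiniteDimensional E F] {n₁ n₂ : ℕ}
    (hn : Module.finrank E F ≤ n₁ + n₂) (O₁ O₂ : ValuationSubring F) (h12 : O₁ ≠ O₂)
    (hcomap₂ : O₁.comap (algebraMap E F) = O₂.comap (algebraMap E F))
    (b₁ : Fin n₁ → F) (hb₁O : ∀ i, b₁ i ∈ O₁)
    (hb₁ : ∀ a : Fin n₁ → E, (∀ i, (O₁.comap (algebraMap E F)).valuation (a i) ≤ 1) →
      O₁.valuation (∑ i, algebraMap E F (a i) * b₁ i) < 1 →
      ∀ i, (O₁.comap (algebraMap E F)).valuation (a i) < 1)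
    (b₂ : Fin n₂ → F) (hb₂O : ∀ i, b₂ i ∈ O₂)
    (hb₂ : ∀ a : Fin n₂ → E, (∀ i, (O₁.comap (algebraMap E F)).valuation (a i) ≤ 1) →
      O₂.valuation (∑ i, algebraMap E F (a i) * b₂ i) < 1 →
      ∀ i, (O₁.comap (algebraMap E F)).valuation (a i) < 1)
    {ϖ : E} (hϖ0 : ϖ ≠ 0)
    (hϖ : ∀ a : E, (O₁.comap (algebraMap E F)).valuation a < 1 →
      (O₁.comap (algebraMap E F)).valuation a ≤ (O₁.comap (algebraMap E F)).valuation ϖ)
    {x : F} (hx : O₂.valuation x < 1) :
    O₂.valuation x ≤ O₂.valuation (algebraMap E F ϖ) := by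
  refine val_le_of_residually_independent (n₁ := n₂) (n₂ := n₁) (by omega) O₂ O₁ (Ne.symm h12)
    hcomap₂.symm b₂ hb₂O ?_ b₁ hb₁O ?_ hϖ0 ?_ hx
  · rw [← hcomap₂]; exact hb₂
  · rw [← hcomap₂]; exact hb₁
  · rw [← hcomap₂]; exact hϖ

end Fermat.Agent.ES.N34.TwoExt22
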