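/-
Program N (S34), chapter MODEL, brick (G2-abs) corollaries, helper22.
Mathlib + `RED/PUR/UniqueExt20` + `ES/N34/TwoExt22`.

* `elementwise_of_residue`: the residue-map form of residual independence
  (`red : O →+* κ`, `κE ≤ κ`, `LinearIndependent κE (red ∘ b)`) implies the elementwise form
  consumed by `TwoExt22`.
* `arch_of_comap`: if `O_E = O ∩ E` is archimedean w.r.t. `ϖ` (`∀ a ∈ E, ∃ k, ϖ ^ k * a ∈ O_E`) and
  `F / E` is algebraic, then `O` is archimedean w.r.t. `ϖ`.
* `unif_of_val_le`: the `unif` field (`x ∈ O`, `x⁻¹ ∉ O` ⇒ `x = ϖ c`, `c ∈ O`) from (UNR).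
* `inf_*`: the `Subring F` facts for `O₁ ⊓ O₂` in the literal shape of the hypotheses of
  `RED/CORE/NewtonCech24.exists_global_root` (`hrootOv`, `hpnu`, `hunit`).
-/
import Mathlib
import Fermat.Agent.RED.PUR.UniqueExt20
import Fermat.Agent.ES.N34.TwoExt22

set_option autoImplicit false

namespace Fermat.Agent.ES.N34.TwoExtCor22

open Fermat.Agent.RED.PUR.UniqueExt20 Fermat.Agent.ES.N34.TwoExt22

open scoped Classical

variable {E F : Type*} [Field E] [Field F] [Algebra E F]

/-- Residue-map form ⇒ elementwise form of residual independence. -/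
theorem elementwise_of_residue (O : ValuationSubring F)
    {κ : Type*} [Field κ] (red : O →+* κ)
    (hker : ∀ x : O, red x = 0 ↔ O.valuation (x : F) < 1)
    (κE : Subfield κ)
    (hκE : ∀ (a : E) (ha : algebraMap E F a ∈ O), red ⟨_, ha⟩ ∈ κE)
    {n : ℕ} (b : Fin n → O) (hli : LinearIndependent κE (fun i => red (b i))) :
    ∀ a : Fin n → E, (∀ i, (O.comap (algebraMap E F)).valuation (a i) ≤ 1) →
      O.valuation (∑ i, algebraMap E F (a i) * (b i : F)) < 1 →
      ∀ i, (O.comap (algebraMap E F)).valuation (a i) < 1 := by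
  intro a ha hsum
  have hmem : ∀ i, algebraMap E F (a i) ∈ O := fun i =>
    (O.valuation_le_one_iff _).mp ((comap_val_le_one_iff O _).mp (ha i))
  have hsum' : red (∑ i, (⟨_, hmem i⟩ : O) * b i) = 0 := by
    rw [hker]
    have : ((∑ i, (⟨_, hmem i⟩ : O) * b i : O) : F) =
        ∑ i, algebraMap E F (a i) * (b i : F) := by
      push_cast
      rfl
    rw [this]
    exact hsum
  rw [map_sum] at hsum'
  have hzero : ∀ i, (⟨red ⟨_, hmem i⟩, hκE (a i) (hmem i)⟩ : κE) = 0 := by
    have h2 := Fintype.linearIndependent_iff.mp hli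
      (fun i => (⟨red ⟨_, hmem i⟩, hκE (a i) (hmem i)⟩ : κE)) (by
        rw [← hsum']
        refine Finset.sum_congr rfl fun i _ => ?_
        rw [map_mul]
        rfl)
    exact h2
  intro i
  rw [comap_val_lt_one_iff]
  have h3 : red ⟨_, hmem i⟩ = 0 := congrArg Subtype.val (hzero i)
  exact (hker _).mp h3

/-- The `unif` field from (UNR). -/
theorem unif_of_val_le (O : ValuationSubring F) {p : F} (hp0 : p ≠ 0)
    (h : ∀ x : F, O.valuation x < 1 → O.valuation x ≤ O.valuation p) :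
    ∀ x ∈ O, x⁻¹ ∉ O → ∃ c ∈ O, x = p * c := by
  intro x _ hxinv
  have hx : O.valuation x < 1 := by
    rw [val_lt_one_iff]; exact Or.inr hxinv
  refine ⟨x / p, ?_, by field_simp⟩
  rw [← O.valuation_le_one_iff, map_div₀]
  exact (div_le_one₀ (val_pos O hp0)).mpr (h x hx)

/-- Archimedean property of `O` w.r.t. `ϖ` from the same property of `O ∩ E`, `F / E`
algebraic. -/
theorem arch_of_comap [Algebra.IsAlgebraic E F] (O : ValuationSubring F) (ϖ : E)
    (harch : ∀ a : E, ∃ k : ℕ, ϖ ^ k * a ∈ O.comap (algebraMap E F)) :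
    ∀ x : F, ∃ k : ℕ, algebraMap E F ϖ ^ k * x ∈ O := by
  intro x
  by_cases hxO : x ∈ O
  · exact ⟨0, by simpa using hxO⟩
  have hx0 : x ≠ 0 := fun h0 => hxO (h0 ▸ O.zero_mem)
  -- `y = x⁻¹ ∈ O`
  have hyO : x⁻¹ ∈ O := (O.mem_or_inv_mem x).resolve_left hxO
  set y := x⁻¹ with hy
  have hy0 : y ≠ 0 := inv_ne_zero hx0
  -- an algebraic relation for `y` with non-zero constant term
  have halg : IsAlgebraic E y := Algebra.IsAlgebraic.isAlgebraic y
  have hint : IsIntegral E y := halg.isIntegral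
  set p := minpoly E y with hp
  have hp0 : p.coeff 0 ≠ 0 := minpoly.coeff_zero_ne_zero hint hy0
  set d := p.natDegree with hd
  obtain ⟨j, hj0, hj⟩ := exists_scale (O.comap (algebraMap E F))
    (fun i : Fin (d + 1) => p.coeff i) ⟨0, by simpa using hp0⟩
  set c : ℕ → E := fun i => p.coeff i / p.coeff j with hc
  have hcO : ∀ i, i < d + 1 → algebraMap E F (c i) ∈ O := by
    intro i hi
    exact (O.valuation_le_one_iff _).mp ((comap_val_le_one_iff O _).mp (hj ⟨i, hi⟩))
  have hrel : ∑ i ∈ Finset.range (d + 1), algebraMap E F (c i) * y ^ i = 0 := by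
    have h1 : ∑ i ∈ Finset.range (d + 1), algebraMap E F (p.coeff i) * y ^ i = 0 := by
      rw [← minpoly.aeval E y, Polynomial.aeval_eq_sum_range]
      refine Finset.sum_congr rfl fun i _ => ?_
      rw [Algebra.smul_def]
    have h2 : ∑ i ∈ Finset.range (d + 1), algebraMap E F (c i) * y ^ i =
        (algebraMap E F (p.coeff j))⁻¹ *
          ∑ i ∈ Finset.range (d + 1), algebraMap E F (p.coeff i) * y ^ i := by
      rw [Finset.mul_sum]
      refine Finset.sum_congr rfl fun i _ => ?_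
      rw [hc]
      simp only [map_div₀]
      field_simp
    rw [h2, h1, mul_zero]
  -- `c 0 = - y * (∑_{i ≥ 1} c i y^(i-1))`
  have hc0 : c 0 ≠ 0 := div_ne_zero hp0 hj0
  have hsplit : algebraMap E F (c 0) =
      -(y * ∑ i ∈ Finset.range d, algebraMap E F (c (i + 1)) * y ^ i) := by
    rw [Finset.sum_range_succ'] at hrel
    rw [pow_zero, mul_one] at hrel
    have : ∑ i ∈ Finset.range d, algebraMap E F (c (i + 1)) * y ^ (i + 1) =
        y * ∑ i ∈ Finset.range d, algebraMap E F (c (i + 1)) * y ^ i := by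
      rw [Finset.mul_sum]
      refine Finset.sum_congr rfl fun i _ => ?_
      ring
    rw [this] at hrel
    exact eq_neg_of_add_eq_zero_right hrel
  have hSO : ∑ i ∈ Finset.range d, algebraMap E F (c (i + 1)) * y ^ i ∈ O := by
    refine O.toSubring.sum_mem fun i hi => ?_
    rw [Finset.mem_range] at hi
    exact O.mul_mem _ _ (hcO (i + 1) (by omega)) (pow_mem hyO i)
  -- archimedean property for `(c 0)⁻¹`
  obtain ⟨k, hk⟩ := harch (c 0)⁻¹
  rw [ValuationSubring.mem_comap, map_mul, map_pow, map_inv₀] at hk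
  refine ⟨k, ?_⟩
  have hc0F : algebraMap E F (c 0) ≠ 0 := fun h =>
    hc0 ((map_eq_zero_iff _ (algebraMap E F).injective).mp h)
  have hx : x = -((algebraMap E F (c 0))⁻¹ *
      ∑ i ∈ Finset.range d, algebraMap E F (c (i + 1)) * y ^ i) := by
    have hyx : y * x = 1 := by rw [hy]; exact inv_mul_cancel₀ hx0
    have h1 : algebraMap E F (c 0) * x =
        -(∑ i ∈ Finset.range d, algebraMap E F (c (i + 1)) * y ^ i) := by
      rw [hsplit]
      linear_combination (-(∑ i ∈ Finset.range d, algebraMap E F (c (i + 1)) * y ^ i)) * hyx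
    field_simp
    linear_combination h1
  have : algebraMap E F ϖ ^ k * x = -((algebraMap E F ϖ ^ k * (algebraMap E F (c 0))⁻¹) *
      ∑ i ∈ Finset.range d, algebraMap E F (c (i + 1)) * y ^ i) := by
    rw [hx]; ring
  rw [this]
  exact O.neg_mem _ (O.mul_mem _ _ hk hSO)

/-! ### The subring `O₁ ⊓ O₂` -/

section Inf

variable (O₁ O₂ : ValuationSubring F)

/-- `O₁ ⊓ O₂` as a subring of `F`. -/
def infSubring : Subring F := O₁.toSubring ⊓ O₂.toSubring

variable {O₁ O₂}

theorem mem_infSubring_iff {x : F} : x ∈ infSubring O₁ O₂ ↔ x ∈ O₁ ∧ x ∈ O₂ := by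
  rw [infSubring, Subring.mem_inf]; rfl

theorem root_mem_valuationSubring (O : ValuationSubring F) {m : ℕ} (hm : 0 < m) {x : F}
    (hx : x ^ m ∈ O) : x ∈ O := by
  rw [← O.valuation_le_one_iff, map_pow] at hx
  rw [← O.valuation_le_one_iff]
  exact (pow_le_one_iff_of_nonneg zero_le hm.ne').mp hx

/-- `hrootOv`. -/
theorem inf_root_mem {m : ℕ} (hm : 0 < m) (x : F) (hx : x ^ m ∈ infSubring O₁ O₂) :
    x ∈ infSubring O₁ O₂ := by
  rw [mem_infSubring_iff] at hx ⊢
  exact ⟨root_mem_valuationSubring O₁ hm hx.1, root_mem_valuationSubring O₂ hm hx.2⟩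

/-- `hpnu`. -/
theorem inf_inv_not_mem {p : F} (hp : p⁻¹ ∉ O₁) : p⁻¹ ∉ infSubring O₁ O₂ := fun h =>
  hp (mem_infSubring_iff.mp h).1

theorem one_add_mul_inv_mem (O : ValuationSubring F) {p : F} (hp : O.valuation p < 1) {c : F}
    (hc : c ∈ O) : (1 + p * c)⁻¹ ∈ O := by
  have h1 : O.valuation (p * c) < 1 := by
    rw [map_mul]
    exact (mul_le_of_le_one_right' ((O.valuation_le_one_iff c).mpr hc)).trans_lt hp
  have h2 : O.valuation (1 + p * c) = 1 := Valuation.map_one_add_of_lt _ h1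
  rw [← O.valuation_le_one_iff, map_inv₀, h2, inv_one]

/-- `hunit`. -/
theorem inf_one_add_mul_inv_mem {p : F} (hp₁ : O₁.valuation p < 1) (hp₂ : O₂.valuation p < 1) :
    ∀ c ∈ infSubring O₁ O₂, (1 + p * c)⁻¹ ∈ infSubring O₁ O₂ := by
  intro c hc
  rw [mem_infSubring_iff] at hc ⊢
  exact ⟨one_add_mul_inv_mem O₁ hp₁ hc.1, one_add_mul_inv_mem O₂ hp₂ hc.2⟩

end Inf

end Fermat.Agent.ES.N34.TwoExtCor22
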