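/-
Program N (S34), chapter MODEL, brick (G2-glue), helper22: Gauss valuation rings pulled back
along an ARBITRARY `K`-embedding `ι : F → K((q))`, in the vocabulary of Program H's GAUSS package
(`RED/PUR/GaussGen8`, `KtGauss8`, helper8).

`O ⊂ K` a DVR with uniformiser `π`, `F` a field over `K`, `ι : F →ₐ[K] K((q))` with
`ι(F) ⊂ Frac O((q))`, `V` a valuation subring of `F` with `x ∈ V ↔ ι x ∈ gaussRing O`
(`IsGaussPullback`; e.g. `V = gaussVS … (ι.fieldRange)` pulled back — the lemmas only use the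
membership characterisation, so they apply to ANY definition of `v₁` (expansion at `∞`) and of
`v₂` (expansion at the other cusp / `v₁ ∘ w_q`)).

* `redOf`: the residue map `V → κ((q))`; `redOf_eq_zero_iff`: its kernel is `𝔪_V`.
* `mem_iff_rep`: for `a ∈ K(t) ⊂ F`, `t ∈ V` with `ι t` of transcendental residue:
  `a ∈ V ↔ a = f(t)/h(t)`, `f, h ∈ O[X]`, `h̃ ≠ 0` — a condition that does not involve `ι`; hence
  `comap_eq`: any two Gauss pull-backs have the SAME restriction to `K(t)`.
* `elementwise_of_indep`: `κ(t̃)`-independent residues ⇒ the elementwise independence consumed by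
  `TwoExt22`.
* `center_adjoin`: the centre of `V` on `O[t]` is `(π)` (`hcen` of `SatTwo22.sat_chart₂`).
-/
import Mathlib
import Fermat.Agent.RED.PUR.KtGauss8
import Fermat.Agent.RED.PUR.UniqueExt20
import Fermat.Agent.ES.N34.TwoExtCor22

set_option autoImplicit false
set_option linter.unusedSectionVars false

noncomputable section

open HahnSeries Polynomial

namespace Fermat.Agent.ES.N34.GaussEmb22

open Fermat.Agent.RED.PUR.GaussGen8 Fermat.Agent.RED.PUR.KtGauss8
open Fermat.Agent.RED.PUR.UniqueExt20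

variable {K : Type*} [Field K] (O : ValuationSubring K)
  {F : Type*} [Field F] [Algebra K F]

/-- `V` is the pull-back of the Gauss ring along `ι`. -/
def IsGaussPullback (ι : F →ₐ[K] LaurentSeries K) (V : ValuationSubring F) : Prop :=
  ∀ x : F, x ∈ V ↔ ι x ∈ gaussRing O

variable {O}
variable {ι : F →ₐ[K] LaurentSeries K} {V : ValuationSubring F}

/-- `V → gaussRing O`. -/
def toGauss (hV : IsGaussPullback O ι V) : V →+* ↥(gaussRing O) where
  toFun x := ⟨ι (x : F), (hV x).mp x.2⟩
  map_one' := Subtype.ext (map_one ι)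
  map_mul' x y := Subtype.ext (map_mul ι (x : F) (y : F))
  map_zero' := Subtype.ext (map_zero ι)
  map_add' x y := Subtype.ext (map_add ι (x : F) (y : F))

theorem coe_toGauss (hV : IsGaussPullback O ι V) (x : V) :
    ((toGauss hV x : ↥(gaussRing O)) : LaurentSeries K) = ι (x : F) := rfl

/-- The residue map `V → κ((q))`. -/
def redOf (hV : IsGaussPullback O ι V) : V →+* LaurentSeries (Res O) :=
  (gaussRed O).comp (toGauss hV)

theorem redOf_apply (hV : IsGaussPullback O ι V) (x : V) :
    redOf hV x = gaussRed O (toGauss hV x) := rfl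

/-- The kernel of the residue map is the maximal ideal. -/
theorem redOf_eq_zero_iff (hV : IsGaussPullback O ι V) (x : V) :
    redOf hV x = 0 ↔ V.valuation (x : F) < 1 := by
  rw [Fermat.Agent.RED.PUR.UniqueExt20.val_lt_one_iff, redOf_apply]
  constructor
  · intro h0
    by_cases hx : (x : F) = 0
    · exact Or.inl hx
    · right
      intro hinv
      have h1 : toGauss hV x * toGauss hV ⟨_, hinv⟩ = 1 := by
        rw [← map_mul]
        have : x * (⟨_, hinv⟩ : V) = 1 := Subtype.ext (mul_inv_cancel₀ hx)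
        rw [this, map_one]
      have h2 := congrArg (gaussRed O) h1
      rw [map_mul, h0, zero_mul, map_one] at h2
      exact zero_ne_one h2
  · rintro (hx | hinv)
    · have : x = 0 := Subtype.ext hx
      rw [this, map_zero, map_zero]
    · by_contra hne
      apply hinv
      rw [hV, map_inv₀]
      exact inv_mem_of_gaussRed_ne_zero O (toGauss hV x) hne

variable [IsDiscreteValuationRing ↥O] {π : ↥O}

section Kt

variable {t : F}

theorem map_mem_Kt (ht : ι t ∈ gaussRing O) {a : F} (ha : a ∈ IntermediateField.adjoin K {t}) :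
    ι a ∈ Kt O ⟨ι t, ht⟩ := by
  have h1 : (IntermediateField.adjoin K {t}).map ι = IntermediateField.adjoin K {ι t} := by
    rw [IntermediateField.adjoin_map, Set.image_singleton]
  show ι a ∈ IntermediateField.adjoin K {ι t}
  rw [← h1]
  exact (IntermediateField.mem_map _).mpr ⟨a, ha, rfl⟩

theorem map_aeval (P : (↥O)[X]) :
    ι (aeval t (P.map O.subtype)) = aeval (ι t) (P.map O.subtype) :=
  (Polynomial.aeval_algHom_apply ι t _).symm

/-- **Membership of `K(t)`-elements in `V` does not depend on `ι`.** -/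
theorem mem_iff_rep (hV : IsGaussPullback O ι V) (hπ : Irreducible π) (ht : ι t ∈ gaussRing O)
    (htr : Transcendental (Res O) (gaussRed O ⟨ι t, ht⟩)) {a : F}
    (ha : a ∈ IntermediateField.adjoin K {t}) :
    a ∈ V ↔ ∃ f h : (↥O)[X], h.map (res0 O) ≠ 0 ∧
      a * aeval t (h.map O.subtype) = aeval t (f.map O.subtype) := by
  constructor
  · intro haV
    obtain ⟨f, h, hh, hrel, -⟩ := exists_rep_of_mem_gaussRing hπ htr (map_mem_Kt ht ha)
      ((hV a).mp haV)
    refine ⟨f, h, hh, ?_⟩
    have := congrArg (fun y : ↥(gaussRing O) => (y : LaurentSeries K)) hrel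
    simp only [Subring.coe_mul, coe_polyG] at this
    apply (ι : F →+* LaurentSeries K).injective
    show ι (a * aeval t (h.map O.subtype)) = ι (aeval t (f.map O.subtype))
    rw [map_mul, map_aeval, map_aeval]
    exact this
  · rintro ⟨f, h, hh, hrel⟩
    rw [hV]
    have hrel' : ι a * aeval (ι t) (h.map O.subtype) = aeval (ι t) (f.map O.subtype) := by
      rw [← map_aeval, ← map_aeval, ← map_mul, hrel]
    exact (mem_of_rep (tG := ⟨ι t, ht⟩) htr f h hh hrel').2

/-- **Any two Gauss pull-backs have the same restriction to `K(t)`.** -/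
theorem comap_eq {ι₁ ι₂ : F →ₐ[K] LaurentSeries K} {V₁ V₂ : ValuationSubring F}
    (hV₁ : IsGaussPullback O ι₁ V₁) (hV₂ : IsGaussPullback O ι₂ V₂) (hπ : Irreducible π)
    (ht₁ : ι₁ t ∈ gaussRing O) (htr₁ : Transcendental (Res O) (gaussRed O ⟨ι₁ t, ht₁⟩))
    (ht₂ : ι₂ t ∈ gaussRing O) (htr₂ : Transcendental (Res O) (gaussRed O ⟨ι₂ t, ht₂⟩)) :
    V₁.comap (algebraMap (IntermediateField.adjoin K {t}) F) =
      V₂.comap (algebraMap (IntermediateField.adjoin K {t}) F) := by
  ext a
  rw [ValuationSubring.mem_comap, ValuationSubring.mem_comap]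
  have ha : algebraMap (IntermediateField.adjoin K {t}) F a ∈ IntermediateField.adjoin K {t} :=
    a.2
  rw [mem_iff_rep hV₁ hπ ht₁ htr₁ ha, mem_iff_rep hV₂ hπ ht₂ htr₂ ha]

/-- Residual independence over `κ(t̃)` gives the elementwise independence over `K(t)`. -/
theorem elementwise_of_indep (hV : IsGaussPullback O ι V) (hπ : Irreducible π)
    (ht : ι t ∈ gaussRing O) (htr : Transcendental (Res O) (gaussRed O ⟨ι t, ht⟩))
    {n : ℕ} (b : Fin n → F) (hb : ∀ i, b i ∈ V)
    (hli : LinearIndependent ↥(kt O ⟨ι t, ht⟩) (fun i => redOf hV ⟨b i, hb i⟩)) :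
    ∀ a : Fin n → ↥(IntermediateField.adjoin K {t}),
      (∀ i, (V.comap (algebraMap (IntermediateField.adjoin K {t}) F)).valuation (a i) ≤ 1) →
      V.valuation (∑ i, algebraMap (IntermediateField.adjoin K {t}) F (a i) * b i) < 1 →
      ∀ i, (V.comap (algebraMap (IntermediateField.adjoin K {t}) F)).valuation (a i) < 1 := by
  refine TwoExtCor22.elementwise_of_residue (E := ↥(IntermediateField.adjoin K {t})) V
    (redOf hV) (fun x => redOf_eq_zero_iff hV x) (kt O ⟨ι t, ht⟩).toSubfield ?_
    (fun i => ⟨b i, hb i⟩) hli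
  intro a haV
  exact gaussRed_mem_kt hπ htr (map_mem_Kt ht a.2) ((hV _).mp haV)

end Kt

/-! ### The elementary fields of the model contract -/

section Fields

theorem map_algebraMap (c : K) : ι (algebraMap K F c) = HahnSeries.C c := by
  rw [AlgHom.commutes, Fermat.Agent.RED.PUR.GaussGen8.algebraMap_eq_C]

/-- `O ⊂ V`. -/
theorem algebraMap_mem (hV : IsGaussPullback O ι V) (r : ↥O) : algebraMap K F (r : K) ∈ V := by
  rw [hV, map_algebraMap]
  exact C_mem O r

/-- `π⁻¹ ∉ V`. -/
theorem pi_inv_not_mem (hV : IsGaussPullback O ι V) (hπ : Irreducible π) :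
    (algebraMap K F (π : K))⁻¹ ∉ V := by
  have hu := isUnif_of_irreducible O hπ
  intro h
  have h1 : redOf hV ⟨_, algebraMap_mem hV π⟩ = 0 := by
    rw [redOf_apply]
    have : toGauss hV ⟨_, algebraMap_mem hV π⟩ = constG O π :=
      Subtype.ext (map_algebraMap (π : K))
    rw [this, gaussRed_unif hu]
  rw [redOf_eq_zero_iff, Fermat.Agent.RED.PUR.UniqueExt20.val_lt_one_iff] at h1
  rcases h1 with h0 | h1
  · have : ((π : ↥O) : K) = 0 := (map_eq_zero_iff _ (algebraMap K F).injective).mp h0
    exact hπ.ne_zero (Subtype.ext this)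
  · exact h1 h

/-- `v(π) < 1`. -/
theorem val_pi_lt_one (hV : IsGaussPullback O ι V) (hπ : Irreducible π) :
    V.valuation (algebraMap K F (π : K)) < 1 := by
  rw [Fermat.Agent.RED.PUR.UniqueExt20.val_lt_one_iff]
  exact Or.inr (pi_inv_not_mem hV hπ)

/-- `unif`: `𝔪_V = π V`. -/
theorem unif (hV : IsGaussPullback O ι V) (hπ : Irreducible π) :
    ∀ x ∈ V, x⁻¹ ∉ V → ∃ c ∈ V, x = algebraMap K F (π : K) * c := by
  have hu := isUnif_of_irreducible O hπ
  intro x hx hxinv
  have h1 : redOf hV ⟨x, hx⟩ = 0 := by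
    rw [redOf_eq_zero_iff, Fermat.Agent.RED.PUR.UniqueExt20.val_lt_one_iff]
    exact Or.inr hxinv
  rw [redOf_apply, gaussRed_eq_zero_iff hu] at h1
  obtain ⟨g, hg⟩ := h1
  have hg' : ι x = HahnSeries.C ((π : ↥O) : K) * (g : LaurentSeries K) :=
    congrArg (fun y : ↥(gaussRing O) => (y : LaurentSeries K)) hg
  have hπ0 : algebraMap K F (π : K) ≠ 0 := fun h0 =>
    hπ.ne_zero (Subtype.ext ((map_eq_zero_iff _ (algebraMap K F).injective).mp h0))
  refine ⟨x / algebraMap K F (π : K), ?_, by field_simp⟩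
  rw [hV, map_div₀, map_algebraMap, hg', mul_comm, mul_div_assoc,
    div_self (piK_ne_zero hu), mul_one]
  exact g.2

/-- `arch`: the valuation of `V` is of rank one with uniformiser `π`. -/
theorem arch (hV : IsGaussPullback O ι V) (hπ : Irreducible π) :
    ∀ x : F, ∃ k : ℕ, algebraMap K F (π : K) ^ k * x ∈ V := by
  have hu := isUnif_of_irreducible O hπ
  intro x
  by_cases hx0 : x = 0
  · exact ⟨0, by rw [hx0, mul_zero]; exact V.zero_mem⟩
  have hfrac : ι x ∈ fracField O := by
    rcases V.mem_or_inv_mem x with h | h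
    · exact gaussRing_le_fracField O ((hV x).mp h)
    · have h1 : ι x⁻¹ ∈ fracField O := gaussRing_le_fracField O ((hV _).mp h)
      rw [map_inv₀] at h1
      have h2 := inv_mem h1
      rwa [inv_inv] at h2
  have hιx0 : ι x ≠ 0 := fun h => hx0 ((map_eq_zero_iff _ (ι : F →+* LaurentSeries K).injective).mp h)
  obtain ⟨i, j, u, -, hrel⟩ := exists_unit_rep hu hfrac hιx0
  refine ⟨j, ?_⟩
  rw [hV, map_mul, map_pow, map_algebraMap, mul_comm, hrel]
  exact mul_mem (pow_mem (piK_mem π) i) u.2

variable [Algebra ↥O F] [IsScalarTower ↥O K F]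

theorem algebraMap_O_eq (r : ↥O) : algebraMap ↥O F r = algebraMap K F (r : K) :=
  IsScalarTower.algebraMap_apply ↥O K F r

/-- `hR`. -/
theorem algebraMap_O_mem (hV : IsGaussPullback O ι V) (r : ↥O) : algebraMap ↥O F r ∈ V := by
  rw [algebraMap_O_eq]; exact algebraMap_mem hV r

theorem aeval_O_eq (t : F) (P : (↥O)[X]) : aeval t P = aeval t (P.map O.subtype) := by
  have : O.subtype = algebraMap ↥O K := rfl
  rw [this, Polynomial.aeval_map_algebraMap]

/-- `hcen`: the centre of `V` on `O[t]` is `(π)`. -/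
theorem center_adjoin (hV : IsGaussPullback O ι V) (hπ : Irreducible π) {t : F}
    (ht : ι t ∈ gaussRing O) (htr : Transcendental (Res O) (gaussRed O ⟨ι t, ht⟩)) :
    ∀ p ∈ Algebra.adjoin ↥O {t}, V.valuation p < 1 →
      ∃ p' ∈ Algebra.adjoin ↥O {t}, p = algebraMap ↥O F π * p' := by
  intro p hp hval
  rw [Algebra.adjoin_singleton_eq_range_aeval] at hp
  obtain ⟨P, hP⟩ := hp
  have hP' : p = aeval t P := hP.symm
  subst hP'
  have hpV : (aeval t P : F) ∈ V := by
    rw [← V.valuation_le_one_iff]; exact hval.le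
  have h1 : redOf hV ⟨_, hpV⟩ = 0 := (redOf_eq_zero_iff hV _).mpr hval
  have h2 : toGauss hV ⟨_, hpV⟩ = polyG O ⟨ι t, ht⟩ P := by
    apply Subtype.ext
    rw [coe_toGauss, coe_polyG]
    show ι (aeval t P) = _
    rw [aeval_O_eq, map_aeval]
  rw [redOf_apply, h2, gaussRed_polyG] at h1
  have h3 : P.map (res0 O) = 0 := (transcendental_iff.mp htr) _ h1
  obtain ⟨P', rfl⟩ := (map_res0_eq_zero_iff hπ P).mp h3
  refine ⟨aeval t P', ?_, ?_⟩
  · rw [Algebra.adjoin_singleton_eq_range_aeval]; exact ⟨P', rfl⟩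
  · rw [map_mul, Polynomial.aeval_C]

end Fields

end Fermat.Agent.ES.N34.GaussEmb22
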