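/-
Program N (S34), chapter MODEL, brick S3 "(C) COMPONENTS", Gauss layer (helper16).
`CompHyp16` instantiated in Program H's GAUSS vocabulary (`GaussGen8`, `KtGauss8`, `G1Package8`,
`ChartGeneric22`, `ModelAsm4`, `FibreSurj17`) and helper22's Gauss pull-backs (`GaussEmb22`).

Level `M'` (good): `E_M ≤ Frac O((q))`, `t_M ∈ E_M` with `(DEG)+(IRR)`, smooth chart
`chart O t_M`, Gauss valuation ring `OvE`.
Level `N'` (bad): a field `F` over `K`, `φ : E_M →ₐ[K] F` (`α` resp. `β`), `t : F`, a Gauss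
pull-back `O_j` of `F`.

* Part A `levelM_*`: the level-`M'` hypotheses of `CompHyp16.branchPrincipal_of_data` from
  Program H (`chart ≤ OvE`, saturation, `OvE` = fractions of the chart).
* Part B `rep_of_pullback`: integers of `K(t)` for a Gauss pull-back are `f(t)/h(t)`, `h(t)` a unit.
* Part C `branchPrincipal_gauss`: the assembly.
-/
import Mathlib
import Fermat.Agent.ES.RED.FibreSurj17
import Fermat.Agent.ES.N34.GaussEmb22
import Fermat.Agent.ES.N34.TwoExtDeg22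
import Fermat.Agent.ES.N34.CompHyp16

set_option autoImplicit false
set_option linter.unusedSectionVars false

noncomputable section

open HahnSeries Polynomial IntermediateField

namespace Fermat.Agent.ES.N34.CompGauss16

open Fermat.Agent.RED.PUR.GaussGen8 Fermat.Agent.RED.PUR.KtGauss8 Fermat.Agent.RED.PUR.G1Package8
  Fermat.Agent.RED.PUR.ChartGeneric22 Fermat.Agent.RED.ModelAsm4
  Fermat.Agent.ES.RED.FibreSurj17 Fermat.Agent.ES.N34.CompHyp16

/-! ### Part A: the level-`M'` package -/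

section LevelM

variable {K : Type*} [Field K] [CharZero K] {O : ValuationSubring K} [IsDiscreteValuationRing ↥O]
  {π : ↥O} (hπ : Irreducible π)
  {E : IntermediateField K (LaurentSeries K)} (hE : E ≤ fracField O)
  (t : ↥E) (ht : (t : LaurentSeries K) ∈ gaussRing O)
  (htr : Transcendental (Res O) (gaussRed O ⟨(t : LaurentSeries K), ht⟩))
  {n : ℕ} (hdeg : DegLe O E ⟨(t : LaurentSeries K), ht⟩ n)
  (hirr : Irr O E ⟨(t : LaurentSeries K), ht⟩ n)

include ht in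
theorem levelM_le : ∀ b ∈ chart ↥O t, b ∈ OvE O hπ E hE :=
  fun _ hb => mem_OvE_of_isIntegral hπ hE t ht hb

include htr hdeg hirr in
theorem levelM_sat : ∀ b ∈ chart ↥O t, ∀ c ∈ OvE O hπ E hE,
    b = algebraMap ↥O ↥E π * c → c ∈ chart ↥O t := by
  intro b hb c hc hbc
  rw [mem_chart_iff] at hb ⊢
  exact isIntegral_of_mul hπ hE t ht htr hdeg hirr hc (hbc ▸ hb)

include htr hdeg hirr in
theorem levelM_loc : ∀ z ∈ OvE O hπ E hE, ∃ a b : ↥(chart ↥O t),
    (b : ↥E) ≠ 0 ∧ (b : ↥E)⁻¹ ∈ OvE O hπ E hE ∧ z * (b : ↥E) = (a : ↥E) := by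
  intro z hz
  obtain ⟨h, hh, hb⟩ := exists_aeval_mul_mem_chart hπ hE t ht htr hdeg hirr hz
  have hcoe : ((aeval t h : ↥E) : LaurentSeries K) =
      ((polyG O ⟨(t : LaurentSeries K), ht⟩ h : ↥(gaussRing O)) : LaurentSeries K) := by
    rw [coe_aeval, coe_polyG]
  refine ⟨⟨aeval t h * z, hb⟩,
    ⟨aeval t h, adjoin_le_chart t (Polynomial.aeval_mem_adjoin_singleton _ _)⟩, ?_, ?_, ?_⟩
  · intro h0
    have h0' : (aeval t h : ↥E) = 0 := h0
    have h1 : ((aeval t h : ↥E) : LaurentSeries K) = 0 := by rw [h0']; rfl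
    rw [coe_aeval] at h1
    exact coe_polyG_ne_zero (tG := ⟨(t : LaurentSeries K), ht⟩) htr hh h1
  · rw [mem_OvE_iff]
    show ((aeval t h : ↥E) : LaurentSeries K)⁻¹ ∈ gaussRing O
    rw [hcoe]
    exact inv_mem_of_gaussRed_ne_zero O _ (gaussRed_polyG_ne_zero htr hh)
  · exact mul_comm _ _

end LevelM

/-! ### Part B: integers of `K(t)` for a Gauss pull-back -/

section Rep

open Fermat.Agent.ES.N34.GaussEmb22

variable {K : Type*} [Field K] {O : ValuationSubring K} [IsDiscreteValuationRing ↥O] {π : ↥O}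
  {F : Type*} [Field F] [Algebra K F] [Algebra ↥O F] [IsScalarTower ↥O K F]
  {ι : F →ₐ[K] LaurentSeries K} {V : ValuationSubring F}

/-- `h(t)` is a unit of `V` when `h̃ ≠ 0`. -/
theorem val_aeval_eq_one (hV : IsGaussPullback O ι V) {t : F}
    (ht : ι t ∈ gaussRing O) (htr : Transcendental (Res O) (gaussRed O ⟨ι t, ht⟩))
    {h : (↥O)[X]} (hh : h.map (res0 O) ≠ 0) : V.valuation (aeval t h) = 1 := by
  have hpV : (aeval t h : F) ∈ V := by
    rw [hV, aeval_O_eq, map_aeval]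
    exact aeval_mem_gaussRing O ⟨ι t, ht⟩ h
  refine le_antisymm ((V.valuation_le_one_iff _).mpr hpV) (not_lt.mp fun hval => hh ?_)
  have h1 : redOf hV ⟨_, hpV⟩ = 0 := (redOf_eq_zero_iff hV _).mpr hval
  have h2 : toGauss hV ⟨_, hpV⟩ = polyG O ⟨ι t, ht⟩ h := by
    apply Subtype.ext
    rw [coe_toGauss, coe_polyG]
    show ι (aeval t h) = _
    rw [aeval_O_eq, map_aeval]
  rw [redOf_apply, h2, gaussRed_polyG] at h1
  exact (transcendental_iff.mp htr) _ h1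

/-- The hypothesis `hrep` of `CompHyp16.hE_of_rep` for a Gauss pull-back. -/
theorem rep_of_pullback (hV : IsGaussPullback O ι V) (hπ : Irreducible π) {t : F}
    (ht : ι t ∈ gaussRing O) (htr : Transcendental (Res O) (gaussRed O ⟨ι t, ht⟩)) :
    ∀ a : ↥(IntermediateField.adjoin K {t}),
      (V.comap (algebraMap ↥(IntermediateField.adjoin K {t}) F)).valuation a ≤ 1 →
      ∃ f h : (↥O)[X], V.valuation (aeval t h) = 1 ∧
        algebraMap ↥(IntermediateField.adjoin K {t}) F a * aeval t h = aeval t f := by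
  intro a ha
  have haV : algebraMap ↥(IntermediateField.adjoin K {t}) F a ∈ V :=
    ((V.comap (algebraMap ↥(IntermediateField.adjoin K {t}) F)).valuation_le_one_iff a).mp ha
  obtain ⟨f, h, hh, hrel⟩ := (mem_iff_rep hV hπ ht htr a.2).mp haV
  refine ⟨f, h, val_aeval_eq_one hV ht htr hh, ?_⟩
  rw [aeval_O_eq, aeval_O_eq]
  exact hrel

end Rep

/-! ### Part C: the assembly -/

section Assembly

open Fermat.Agent.ES.N34.GaussEmb22

variable {K : Type*} [Field K] [CharZero K] {O : ValuationSubring K} [IsDiscreteValuationRing ↥O]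
  {π : ↥O} {EM : IntermediateField K (LaurentSeries K)}
  {F : Type*} [Field F] [Algebra K F] [Algebra ↥O F] [IsScalarTower ↥O K F]

/-- `φ` as a homomorphism of `O`-algebras. -/
def restrictO (φ : ↥EM →ₐ[K] F) : ↥EM →ₐ[↥O] F :=
  haveI : IsScalarTower ↥O K ↥EM := Fermat.Agent.RED.NumInst4.isScalarTower_OE O EM
  φ.restrictScalars ↥O

@[simp] theorem restrictO_apply (φ : ↥EM →ₐ[K] F) (z : ↥EM) :
    restrictO (O := O) φ z = φ z := rfl

/-- **`O_j = φ(O_M) + π O_j`** for a Gauss pull-back `O_j`, from the output `hres` of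
`TwoExtDeg22.exists_residue_combination(')` over `E = K(t)`, a family in `φ(O_M)` and
`t ≡ φ w mod π O_j`. -/
theorem hcomb_gauss (hπ : Irreducible π) (hEM : EM ≤ fracField O)
    (φ : ↥EM →ₐ[K] F) {t : F} {ι : F →ₐ[K] LaurentSeries K} {Oj : ValuationSubring F}
    (hOj : IsGaussPullback O ι Oj)
    (ht : ι t ∈ gaussRing O) (htr : Transcendental (Res O) (gaussRed O ⟨ι t, ht⟩))
    (hφO : ∀ z : ↥EM, φ z ∈ Oj ↔ z ∈ OvE O hπ EM hEM)
    (htw : ∃ w ∈ OvE O hπ EM hEM, PiMul π Oj (t - φ w))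
    {n : ℕ} (b : Fin n → F) (hb : ∀ i, ∃ z ∈ OvE O hπ EM hEM, b i = φ z)
    (hres : ∀ x ∈ Oj, ∃ a : Fin n → ↥(IntermediateField.adjoin K {t}),
      (∀ i, (Oj.comap (algebraMap ↥(IntermediateField.adjoin K {t}) F)).valuation (a i) ≤ 1) ∧
      Oj.valuation (x - ∑ i, algebraMap ↥(IntermediateField.adjoin K {t}) F (a i) * b i) < 1) :
    ∀ x ∈ Oj, ∃ z ∈ OvE O hπ EM hEM, ∃ c ∈ Oj, x - φ z = algebraMap ↥O F π * c := by
  have hle : ∀ z ∈ OvE O hπ EM hEM, restrictO (O := O) φ z ∈ Oj := fun z hz => (hφO z).mpr hz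
  have hcomap : ∀ z : ↥EM, restrictO (O := O) φ z ∈ Oj → z ∈ OvE O hπ EM hEM :=
    fun z hz => (hφO z).mp hz
  have hR : ∀ r : ↥O, algebraMap ↥O ↥EM r ∈ OvE O hπ EM hEM := fun r =>
    (mem_OvE_iff O hπ EM hEM _).mpr (Fermat.Agent.RED.PUR.G1Package8.algebraMap_O_mem r)
  have hpi : (algebraMap ↥O F π)⁻¹ ∉ Oj := by
    rw [algebraMap_O_eq]; exact pi_inv_not_mem hOj hπ
  have hunif : ∀ x ∈ Oj, x⁻¹ ∉ Oj → ∃ c ∈ Oj, x = algebraMap ↥O F π * c := by
    intro x hx hxi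
    rw [algebraMap_O_eq]; exact unif hOj hπ x hx hxi
  have htO : t ∈ Oj := (hOj t).mpr ht
  refine hcomb_of_residue_combination (E := ↥(IntermediateField.adjoin K {t})) π
    (restrictO (O := O) φ) (OvE O hπ EM hEM) Oj hunif hle b
    (fun i => by obtain ⟨z, hz, hbz⟩ := hb i; rw [hbz]; exact (hφO z).mpr hz)
    (fun i => by
      obtain ⟨z, hz, hbz⟩ := hb i
      exact ⟨z, hz, by rw [hbz, restrictO_apply, sub_self]; exact PiMul.zero π Oj⟩)
    ?_ hres
  exact hE_of_rep π (restrictO (O := O) φ) (OvE O hπ EM hEM) Oj hcomap hle hR hpi htO htw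
    (rep_of_pullback hOj hπ ht htr)

/-- **(C-prin), Gauss level.**  Conclusion = `SmoothN5.BranchPrincipalVia
(chartHom (restrictO φ) (chart O t_M)) π (chart O t) O_j` unfolded. -/
theorem branchPrincipal_gauss (hπ : Irreducible π) (hEM : EM ≤ fracField O)
    (tM : ↥EM) (htM : (tM : LaurentSeries K) ∈ gaussRing O)
    (htrM : Transcendental (Res O) (gaussRed O ⟨(tM : LaurentSeries K), htM⟩))
    {n' : ℕ} (hn' : relfinrank (Kt O ⟨(tM : LaurentSeries K), htM⟩) EM ≠ 0)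
    (hdegM : DegLe O EM ⟨(tM : LaurentSeries K), htM⟩ n')
    (hirrM : Irr O EM ⟨(tM : LaurentSeries K), htM⟩ n')
    (hsm : SmoothChart O EM π tM)
    (φ : ↥EM →ₐ[K] F) (t : F) {ι : F →ₐ[K] LaurentSeries K} {Oj : ValuationSubring F}
    (hOj : IsGaussPullback O ι Oj)
    (leO : ∀ x ∈ chart ↥O t, x ∈ Oj)
    (hφO : ∀ z : ↥EM, φ z ∈ Oj ↔ z ∈ OvE O hπ EM hEM)
    (hy : φ tM ∈ chart ↥O t)
    (htw : ∃ w : ↥(chart ↥O tM), PiMul π Oj (t - φ (w : ↥EM)))
    (hcomb : ∀ x ∈ Oj, ∃ z ∈ OvE O hπ EM hEM, ∃ c ∈ Oj, x - φ z = algebraMap ↥O F π * c) :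
    ∀ 𝔪 : Ideal ↥(chart ↥O t), 𝔪.IsMaximal → algebraMap ↥O ↥(chart ↥O t) π ∈ 𝔪 →
      ∃ s₀ : ↥(chart ↥O tM),
        ∃ hs : chartHom (restrictO (O := O) φ) (chart ↥O tM) s₀ ∈ chart ↥O t,
        (⟨chartHom (restrictO (O := O) φ) (chart ↥O tM) s₀, hs⟩ : ↥(chart ↥O t)) ∈ 𝔪 ∧
        ∀ y ∈ 𝔪, ∃ d : ↥(chart ↥O t), d ∉ 𝔪 ∧ ∃ b : ↥(chart ↥O t), ∃ c ∈ Oj,
          (d : F) * (y : F) - (b : F) * chartHom (restrictO (O := O) φ) (chart ↥O tM) s₀ =
            algebraMap ↥O F π * c := by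
  have : IsScalarTower ↥O K ↥EM := Fermat.Agent.RED.NumInst4.isScalarTower_OE O EM
  have hpi : (algebraMap ↥O F π)⁻¹ ∉ Oj := by
    rw [algebraMap_O_eq]; exact pi_inv_not_mem hOj hπ
  have hunif : ∀ x ∈ Oj, x⁻¹ ∉ Oj → ∃ c ∈ Oj, x = algebraMap ↥O F π * c := by
    intro x hx hxi
    rw [algebraMap_O_eq]; exact unif hOj hπ x hx hxi
  have hφB : ∀ b : ↥(chart ↥O tM), chartHom (restrictO (O := O) φ) (chart ↥O tM) b ∈ chart ↥O t :=
    hφB_of_chart (restrictO (O := O) φ) (chart ↥O tM) (chart ↥O t) tM t (fun _ hb => hb)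
      (fun _ hy => hy) hy
  have hint := hint_of_chart (chartHom (restrictO (O := O) φ) (chart ↥O tM)) π Oj (chart ↥O t) leO t
    (self_mem_chart t) (fun _ hy => hy) (fun b => leO _ (hφB b))
    (by obtain ⟨w, hw⟩ := htw; exact ⟨w, hw⟩)
  have hD := isDedekindDomain_quotient hπ hEM tM htM htrM hn' hdegM hirrM hsm
  have hprime := isPrime_span_pi hπ hEM tM htM htrM hdegM hirrM
  have hdom : IsDomain (↥(chart ↥O tM) ⧸
      (Ideal.span {algebraMap ↥O ↥(chart ↥O tM) π} : Ideal ↥(chart ↥O tM))) :=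
    Ideal.Quotient.isDomain _
  have hic : IsIntegrallyClosed (↥(chart ↥O tM) ⧸
      (Ideal.span {algebraMap ↥O ↥(chart ↥O tM) π} : Ideal ↥(chart ↥O tM))) :=
    inferInstance
  exact branchPrincipal_of_data π (restrictO (O := O) φ) (chart ↥O tM) (OvE O hπ EM hEM)
    (chart ↥O t) Oj leO hpi hunif hφB hint (fun z hz => (hφO z).mp hz)
    (fun z hz => (hφO z).mpr hz) (levelM_le hπ hEM tM htM)
    (levelM_sat hπ hEM tM htM htrM hdegM hirrM) (levelM_loc hπ hEM tM htM htrM hdegM hirrM)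
    hcomb hsm

end Assembly

/-! ### Part D: residue combinations for two Gauss pull-backs -/

section Res

open Fermat.Agent.ES.N34.GaussEmb22

variable {K : Type*} [Field K] {O : ValuationSubring K} [IsDiscreteValuationRing ↥O] {π : ↥O}
  {F : Type*} [Field F] [Algebra K F]

/-- **(F1-abs) for two Gauss pull-backs** (same hypotheses as `G2Out22.glueOut_of_pullbacks`): the
residues of `b_j` span the residue field of `V_j` over that of `K(t)`. -/
theorem hres_of_pullbacks {ι₁ ι₂ : F →ₐ[K] LaurentSeries K} {V₁ V₂ : ValuationSubring F} {t : F}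
    (hV₁ : IsGaussPullback O ι₁ V₁) (hV₂ : IsGaussPullback O ι₂ V₂)
    (hπ : Irreducible π) (h12 : V₁ ≠ V₂)
    (ht₁ : ι₁ t ∈ gaussRing O) (htr₁ : Transcendental (Res O) (gaussRed O ⟨ι₁ t, ht₁⟩))
    (ht₂ : ι₂ t ∈ gaussRing O) (htr₂ : Transcendental (Res O) (gaussRed O ⟨ι₂ t, ht₂⟩))
    [FiniteDimensional (IntermediateField.adjoin K {t}) F] {n₁ n₂ : ℕ}
    (hn : Module.finrank (IntermediateField.adjoin K {t}) F ≤ n₁ + n₂)
    (b₁ : Fin n₁ → F) (hb₁ : ∀ i, b₁ i ∈ V₁)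
    (hli₁ : LinearIndependent ↥(kt O ⟨ι₁ t, ht₁⟩) (fun i => redOf hV₁ ⟨b₁ i, hb₁ i⟩))
    (b₂ : Fin n₂ → F) (hb₂ : ∀ i, b₂ i ∈ V₂)
    (hli₂ : LinearIndependent ↥(kt O ⟨ι₂ t, ht₂⟩) (fun i => redOf hV₂ ⟨b₂ i, hb₂ i⟩)) :
    (∀ x ∈ V₁, ∃ a : Fin n₁ → ↥(IntermediateField.adjoin K {t}),
      (∀ i, (V₁.comap (algebraMap ↥(IntermediateField.adjoin K {t}) F)).valuation (a i) ≤ 1) ∧
      V₁.valuation (x - ∑ i, algebraMap ↥(IntermediateField.adjoin K {t}) F (a i) * b₁ i) < 1) ∧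
    (∀ x ∈ V₂, ∃ a : Fin n₂ → ↥(IntermediateField.adjoin K {t}),
      (∀ i, (V₂.comap (algebraMap ↥(IntermediateField.adjoin K {t}) F)).valuation (a i) ≤ 1) ∧
      V₂.valuation (x - ∑ i, algebraMap ↥(IntermediateField.adjoin K {t}) F (a i) * b₂ i) < 1) := by
  have hcomap := comap_eq hV₁ hV₂ hπ ht₁ htr₁ ht₂ htr₂
  have he₁ := elementwise_of_indep hV₁ hπ ht₁ htr₁ b₁ hb₁ hli₁
  have he₂ := elementwise_of_indep hV₂ hπ ht₂ htr₂ b₂ hb₂ hli₂
  rw [← hcomap] at he₂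
  refine ⟨fun x hx => ?_, fun x hx => ?_⟩
  · exact TwoExtDeg22.exists_residue_combination hn V₁ V₂ h12 hcomap b₁ hb₁ he₁ b₂ hb₂ he₂ hx
  · have := TwoExtDeg22.exists_residue_combination' hn V₁ V₂ h12 hcomap b₁ hb₁ he₁ b₂ hb₂ he₂ hx
    rw [hcomap] at this
    exact this

end Res

end Fermat.Agent.ES.N34.CompGauss16
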