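/-
Program N (S34), chapter MODEL, brick V3 (G2-glue), helper20.

ABSTRACT glue: from the outputs of V0 (`TwoExt22`, `SatTwo22`), V1 and V2 in their literal shapes
to the valuation fields of `NodalCore13.NodalTwoChartModel` for the charts
`ChartGeneric22.chart R t`, `chart R t⁻¹`.

Setting: `R` a noetherian integrally closed domain (`= A_K`), `K = Frac R`, `F ⊇ K(t)` finite,
`π ∈ R` prime, `O₁ ≠ O₂` valuation subrings of `F` with the same restriction to `K(t)`;
`O₁ ⊇ R`, `t` a unit of `O₁`, `π ∈ 𝔪₁`, the centre of `O₁` on `R[t]` and on `R[t⁻¹]` is `(π)`;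
`n₁` resp. `n₂` residually independent elements in `O₁` resp. `O₂`, `n₁ + n₂ ≥ [F : K(t)]`.

Output (`glue`): `R ⊆ O₂`, `t^{±1} ∈ O₂`, `chart R t^{±1} ⊆ O_j`, `π⁻¹ ∉ O_j`, `unif_j`
(`π` generates `𝔪_j`), `arch_j` (`∀ x, ∃ k, π^k x ∈ O_j`), `sat0`, `sat1` (saturation of the charts
in `π (O₁ ⊓ O₂)`), and (TWO).
-/
import Mathlib
import Fermat.Agent.RED.PUR.UniqueExt20
import Fermat.Agent.RED.PUR.ChartGeneric22
import Fermat.Agent.ES.N34.TwoExt22
import Fermat.Agent.ES.N34.SatTwo22

set_option autoImplicit false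

namespace Fermat.Agent.ES.N34.TwoGlue20

open Polynomial Fermat.Agent.RED.PUR Fermat.Agent.RED.PUR.ChartGeneric22
  Fermat.Agent.RED.PUR.UniqueExt20

/-! ### Transfer along equal restrictions -/

section Transfer

variable {K F : Type*} [Field K] [Field F] [Algebra K F] {E : IntermediateField K F}
  {O₁ O₂ : ValuationSubring F}

theorem mem_of_comap_eq (hcomap : O₁.comap (algebraMap E F) = O₂.comap (algebraMap E F))
    {x : F} (hxE : x ∈ E) (hx : x ∈ O₁) : x ∈ O₂ := by
  have h1 : (⟨x, hxE⟩ : E) ∈ O₁.comap (algebraMap E F) := hx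
  rw [hcomap] at h1
  exact h1

theorem val_lt_one_of_comap_eq (hcomap : O₁.comap (algebraMap E F) = O₂.comap (algebraMap E F))
    {x : F} (hxE : x ∈ E) (hx : O₁.valuation x < 1) : O₂.valuation x < 1 := by
  have h1 : (O₁.comap (algebraMap E F)).valuation (⟨x, hxE⟩ : E) < 1 :=
    (comap_val_lt_one_iff O₁ _).mpr hx
  rw [hcomap] at h1
  exact (comap_val_lt_one_iff O₂ _).mp h1

/-- Comparison of values in the restriction. -/
theorem comap_val_le_comap_val_iff {E' : Type*} [Field E'] [Algebra E' F] (A : ValuationSubring F)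
    (a b : E') :
    (A.comap (algebraMap E' F)).valuation a ≤ (A.comap (algebraMap E' F)).valuation b ↔
      A.valuation (algebraMap E' F a) ≤ A.valuation (algebraMap E' F b) := by
  by_cases hb : b = 0
  · subst hb
    simp only [map_zero, le_zero_iff, map_eq_zero]
  · have hbF : algebraMap E' F b ≠ 0 := fun h0 =>
      hb ((map_eq_zero_iff _ (algebraMap E' F).injective).mp h0)
    rw [← div_le_one₀ (val_pos _ hb), ← div_le_one₀ (val_pos _ hbF), ← map_div₀, ← map_div₀,
      ← map_div₀, comap_val_le_one_iff]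

end Transfer

/-! ### The Gauss valuation of `K(s)`: `π` is a uniformiser -/

section GaussBase

variable {R K F : Type*} [CommRing R] [IsDomain R] [Field K] [Field F] [Algebra R K] [Algebra K F]
  [Algebra R F] [IsScalarTower R K F] [IsFractionRing R K] [IsNoetherianRing R]

omit [IsDomain R] [IsNoetherianRing R] [IsFractionRing R K] in
theorem algebraMap_mem_intermediateField (E : IntermediateField K F) (r : R) :
    algebraMap R F r ∈ E := by
  rw [IsScalarTower.algebraMap_apply R K F]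
  exact E.algebraMap_mem _

omit [IsDomain R] [IsNoetherianRing R] in
theorem adjoin_le_of_mem (O : ValuationSubring F) {s : F}
    (hR : ∀ r : R, algebraMap R F r ∈ O) (hs : s ∈ O) :
    ∀ p ∈ Algebra.adjoin R {s}, p ∈ O := by
  intro p hp
  exact chart_le_valuationSubring O hR hs p (adjoin_le_chart s hp)

omit [IsDomain R] in
/-- The value of a nonzero element of `R[s]` is a power of the value of `π`. -/
theorem exists_val_eq_pow {π : R} {s : F} (O : ValuationSubring F)
    (hR : ∀ r : R, algebraMap R F r ∈ O) (hs : s ∈ O)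
    (hπv : O.valuation (algebraMap R F π) < 1)
    (hcen : ∀ p ∈ Algebra.adjoin R {s}, O.valuation p < 1 →
      ∃ p' ∈ Algebra.adjoin R {s}, p = algebraMap R F π * p')
    {p : F} (hp : p ∈ Algebra.adjoin R {s}) (hp0 : p ≠ 0) :
    ∃ n : ℕ, O.valuation p = O.valuation (algebraMap R F π) ^ n := by
  have hPO := adjoin_le_of_mem O hR hs
  set π' : Algebra.adjoin R {s} := algebraMap R (Algebra.adjoin R {s}) π with hπ'
  have hπ'F : ((π' : Algebra.adjoin R {s}) : F) = algebraMap R F π := rfl
  have hnu : ¬ IsUnit π' := by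
    intro hu
    obtain ⟨u, hu⟩ := hu.exists_right_inv
    have h1 : algebraMap R F π * (u : F) = 1 := by
      have := congrArg (fun z : Algebra.adjoin R {s} => (z : F)) hu
      simp only [MulMemClass.coe_mul, OneMemClass.coe_one, hπ'F] at this
      exact this
    have h2 : O.valuation (algebraMap R F π * (u : F)) < 1 := by
      rw [map_mul]
      exact (mul_le_of_le_one_right' ((O.valuation_le_one_iff _).mpr (hPO _ u.2))).trans_lt hπv
    rw [h1, map_one] at h2
    exact lt_irrefl _ h2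
  have hp0' : (⟨p, hp⟩ : Algebra.adjoin R {s}) ≠ 0 := fun h0 =>
    hp0 (congrArg (fun z : Algebra.adjoin R {s} => (z : F)) h0)
  obtain ⟨n, a, hna, hpa⟩ := WfDvdMonoid.max_power_factor' hp0' hnu
  refine ⟨n, ?_⟩
  have hpa' : p = algebraMap R F π ^ n * (a : F) := by
    have := congrArg (fun z : Algebra.adjoin R {s} => (z : F)) hpa
    simp only [MulMemClass.coe_mul, SubmonoidClass.coe_pow, hπ'F] at this
    exact this
  have ha1 : O.valuation (a : F) = 1 := by
    refine le_antisymm ((O.valuation_le_one_iff _).mpr (hPO _ a.2)) (not_lt.mp fun hlt => hna ?_)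
    obtain ⟨p', hp', hap'⟩ := hcen _ a.2 hlt
    exact ⟨⟨p', hp'⟩, Subtype.ext hap'⟩
  rw [hpa', map_mul, map_pow, ha1, mul_one]

/-- The value of a nonzero element of `E = K(s)` is an integral power of the value of `π`. -/
theorem exists_val_mul_pow_eq_pow {π : R} {s : F} (E : IntermediateField K F) (hsE : s ∈ E)
    (hE : E ≤ IntermediateField.adjoin K {s}) (O : ValuationSubring F)
    (hR : ∀ r : R, algebraMap R F r ∈ O) (hs : s ∈ O)
    (hπv : O.valuation (algebraMap R F π) < 1)
    (hcen : ∀ p ∈ Algebra.adjoin R {s}, O.valuation p < 1 →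
      ∃ p' ∈ Algebra.adjoin R {s}, p = algebraMap R F π * p')
    {x : F} (hx : x ∈ E) (hx0 : x ≠ 0) :
    ∃ n n' : ℕ, O.valuation x * O.valuation (algebraMap R F π) ^ n' =
      O.valuation (algebraMap R F π) ^ n := by
  let _ : Algebra (Algebra.adjoin R {s}) E := (adjoinToField E hsE).toAlgebra
  have : IsFractionRing (Algebra.adjoin R {s}) E := isFractionRing_adjoin E hsE hE
  obtain ⟨a, b, hb, hab⟩ := IsFractionRing.div_surjective (Algebra.adjoin R {s}) (⟨x, hx⟩ : E)
  have hab' : (a : F) / (b : F) = x := by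
    have := congrArg (fun z : E => (z : F)) hab
    rw [IntermediateField.coe_div] at this
    exact this
  have hb0 : (b : F) ≠ 0 := by
    intro h0
    rw [h0, div_zero] at hab'
    exact hx0 hab'.symm
  have ha0 : (a : F) ≠ 0 := by
    intro h0
    rw [h0, zero_div] at hab'
    exact hx0 hab'.symm
  obtain ⟨n, hn⟩ := exists_val_eq_pow O hR hs hπv hcen a.2 ha0
  obtain ⟨n', hn'⟩ := exists_val_eq_pow O hR hs hπv hcen b.2 hb0
  refine ⟨n, n', ?_⟩
  rw [← hn, ← hn', ← map_mul, ← hab', div_mul_cancel₀ _ hb0]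

/-- **`π` is a uniformiser of the restriction of `O` to `K(s)`.** -/
theorem val_le_val_pi {π : R} {s : F} (E : IntermediateField K F) (hsE : s ∈ E)
    (hE : E ≤ IntermediateField.adjoin K {s}) (O : ValuationSubring F)
    (hR : ∀ r : R, algebraMap R F r ∈ O) (hs : s ∈ O)
    (hπF : algebraMap R F π ≠ 0)
    (hπv : O.valuation (algebraMap R F π) < 1)
    (hcen : ∀ p ∈ Algebra.adjoin R {s}, O.valuation p < 1 →
      ∃ p' ∈ Algebra.adjoin R {s}, p = algebraMap R F π * p')
    {x : F} (hx : x ∈ E) (hxlt : O.valuation x < 1) :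
    O.valuation x ≤ O.valuation (algebraMap R F π) := by
  by_cases hx0 : x = 0
  · rw [hx0, map_zero]; exact zero_le
  obtain ⟨n, n', h⟩ := exists_val_mul_pow_eq_pow E hsE hE O hR hs hπv hcen hx hx0
  have hpos : 0 < O.valuation (algebraMap R F π) := val_pos O hπF
  have hpos' : 0 < O.valuation (algebraMap R F π) ^ n' := pow_pos hpos n'
  by_cases hnn : n ≤ n'
  · exfalso
    have h1 : O.valuation (algebraMap R F π) ^ n' ≤ O.valuation (algebraMap R F π) ^ n :=
      pow_le_pow_of_le_one hpos.le hπv.le hnn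
    rw [← h] at h1
    have h2 : (1 : O.ValueGroup) ≤ O.valuation x := by
      by_contra hcon
      rw [not_le] at hcon
      have := mul_lt_mul_of_pos_right hcon hpos'
      rw [one_mul] at this
      exact absurd h1 (not_le.mpr this)
    exact absurd hxlt (not_lt.mpr h2)
  · rw [not_le] at hnn
    have h1 : O.valuation (algebraMap R F π) ^ n ≤ O.valuation (algebraMap R F π) ^ (n' + 1) :=
      pow_le_pow_of_le_one hpos.le hπv.le hnn
    rw [← h, pow_succ, mul_comm (O.valuation (algebraMap R F π) ^ n')] at h1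
    exact le_of_mul_le_mul_right h1 hpos'

/-- **The restriction of `O` to `K(s)` is archimedean with respect to `π`.** -/
theorem exists_pow_mul_val_le_one {π : R} {s : F} (E : IntermediateField K F) (hsE : s ∈ E)
    (hE : E ≤ IntermediateField.adjoin K {s}) (O : ValuationSubring F)
    (hR : ∀ r : R, algebraMap R F r ∈ O) (hs : s ∈ O)
    (hπv : O.valuation (algebraMap R F π) < 1)
    (hcen : ∀ p ∈ Algebra.adjoin R {s}, O.valuation p < 1 →
      ∃ p' ∈ Algebra.adjoin R {s}, p = algebraMap R F π * p')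
    {x : F} (hx : x ∈ E) :
    ∃ k : ℕ, O.valuation (algebraMap R F π ^ k * x) ≤ 1 := by
  by_cases hx0 : x = 0
  · exact ⟨0, by rw [hx0, mul_zero, map_zero]; exact zero_le_one⟩
  obtain ⟨n, n', h⟩ := exists_val_mul_pow_eq_pow E hsE hE O hR hs hπv hcen hx hx0
  refine ⟨n', ?_⟩
  rw [map_mul, map_pow, mul_comm, h]
  exact pow_le_one₀ zero_le hπv.le

end GaussBase

/-! ### The archimedean property passes to an algebraic extension -/

section Arch

variable {K F : Type*} [Field K] [Field F] [Algebra K F]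

theorem exists_pow_mul_mem_of_algebraic (E : IntermediateField K F) [Algebra.IsAlgebraic E F]
    (O : ValuationSubring F) {ϖ : F}
    (harch : ∀ a ∈ E, ∃ k : ℕ, O.valuation (ϖ ^ k * a) ≤ 1) (x : F) :
    ∃ k : ℕ, ϖ ^ k * x ∈ O := by
  by_cases hxO : x ∈ O
  · exact ⟨0, by rwa [pow_zero, one_mul]⟩
  have hx1 : 1 < O.valuation x := by
    rw [← not_le, O.valuation_le_one_iff]; exact hxO
  have hint : IsIntegral E x := (Algebra.IsAlgebraic.isAlgebraic (R := E) x).isIntegral
  have hmonic := minpoly.monic hint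
  set d := (minpoly E x).natDegree with hd
  have hrel : x ^ d + ∑ i ∈ Finset.range d, ((minpoly E x).coeff i : F) * x ^ i = 0 := by
    have h1 := minpoly.aeval E x
    rw [hmonic.as_sum, map_add, map_pow, aeval_X, map_sum] at h1
    rw [← h1, ← hd]
    congr 1
    refine Finset.sum_congr rfl fun i _ => ?_
    rw [map_mul, aeval_C, map_pow, aeval_X]
    rfl
  -- some coefficient dominates `x`
  have hex : ∃ i ∈ Finset.range d, O.valuation x ≤ O.valuation ((minpoly E x).coeff i : F) := by
    by_contra hcon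
    push Not at hcon
    have hxpos : 0 < O.valuation x := lt_trans zero_lt_one hx1
    have hlt : O.valuation (∑ i ∈ Finset.range d, ((minpoly E x).coeff i : F) * x ^ i) <
        O.valuation x ^ d := by
      refine Valuation.map_sum_lt _ (pow_ne_zero _ hxpos.ne') fun i hi => ?_
      rw [map_mul, map_pow]
      have h1 : O.valuation ((minpoly E x).coeff i : F) * O.valuation x ^ i <
          O.valuation x * O.valuation x ^ i :=
        mul_lt_mul_of_pos_right (hcon i hi) (pow_pos hxpos i)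
      refine h1.trans_le ?_
      rw [← pow_succ']
      exact pow_le_pow_right₀ hx1.le (Nat.succ_le_of_lt (Finset.mem_range.mp hi))
    have h2 : x ^ d = -∑ i ∈ Finset.range d, ((minpoly E x).coeff i : F) * x ^ i :=
      eq_neg_of_add_eq_zero_left hrel
    have h3 := congrArg O.valuation h2
    rw [Valuation.map_neg, map_pow] at h3
    rw [← h3] at hlt
    exact lt_irrefl _ hlt
  obtain ⟨i, -, hi⟩ := hex
  obtain ⟨k, hk⟩ := harch _ ((minpoly E x).coeff i).2
  refine ⟨k, (O.valuation_le_one_iff _).mp ?_⟩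
  rw [map_mul] at hk ⊢
  exact (mul_le_mul_right hi _).trans hk

end Arch

/-! ### The glue -/

section Main

variable {R K F : Type*} [CommRing R] [IsDomain R] [Field K] [Field F] [Algebra R K] [Algebra K F]
  [Algebra R F] [IsScalarTower R K F]

/-- The valuation fields of `NodalCore13.NodalTwoChartModel R F π t (chart R t) (chart R t⁻¹) O₁ O₂`
(same names, same literal shapes), plus (TWO) and `R, t ∈ O_j`. -/
structure GlueOut {R F : Type*} [CommRing R] [Field F] [Algebra R F] (K : Type*) [Field K]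
    [Algebra K F] (π : R) (t : F) (O₁ O₂ : ValuationSubring F) : Prop where
  two : ∀ V : ValuationSubring F,
    V.comap (algebraMap (IntermediateField.adjoin K {t}) F) =
      O₁.comap (algebraMap (IntermediateField.adjoin K {t}) F) → V = O₁ ∨ V = O₂
  R_le_O1 : ∀ r : R, algebraMap R F r ∈ O₁
  R_le_O2 : ∀ r : R, algebraMap R F r ∈ O₂
  t_mem_O1 : t ∈ O₁
  t_mem_O2 : t ∈ O₂
  tinv_mem_O1 : t⁻¹ ∈ O₁
  tinv_mem_O2 : t⁻¹ ∈ O₂
  le_O1_0 : ∀ x ∈ chart R t, x ∈ O₁
  le_O2_0 : ∀ x ∈ chart R t, x ∈ O₂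
  le_O1_1 : ∀ x ∈ chart R t⁻¹, x ∈ O₁
  le_O2_1 : ∀ x ∈ chart R t⁻¹, x ∈ O₂
  pi_ne : algebraMap R F π ≠ 0
  pi_nonunit1 : (algebraMap R F π)⁻¹ ∉ O₁
  pi_nonunit2 : (algebraMap R F π)⁻¹ ∉ O₂
  unif1 : ∀ x ∈ O₁, x⁻¹ ∉ O₁ → ∃ c ∈ O₁, x = algebraMap R F π * c
  unif2 : ∀ x ∈ O₂, x⁻¹ ∉ O₂ → ∃ c ∈ O₂, x = algebraMap R F π * c
  arch1 : ∀ x : F, ∃ k : ℕ, algebraMap R F π ^ k * x ∈ O₁
  arch2 : ∀ x : F, ∃ k : ℕ, algebraMap R F π ^ k * x ∈ O₂
  sat0 : ∀ b ∈ chart R t, ∀ c : F, c ∈ O₁ → c ∈ O₂ → b = algebraMap R F π * c → c ∈ chart R t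
  sat1 : ∀ b ∈ chart R t⁻¹, ∀ c : F, c ∈ O₁ → c ∈ O₂ → b = algebraMap R F π * c →
    c ∈ chart R t⁻¹

omit [IsDomain R] in
/-- `π` generates the maximal ideal, from the value inequality. -/
theorem unif_of_val_le {π : R} (O : ValuationSubring F) (hπF : algebraMap R F π ≠ 0)
    (h : ∀ x : F, O.valuation x < 1 → O.valuation x ≤ O.valuation (algebraMap R F π)) :
    ∀ x ∈ O, x⁻¹ ∉ O → ∃ c ∈ O, x = algebraMap R F π * c := by
  intro x _ hxinv
  have hxlt : O.valuation x < 1 := by rw [val_lt_one_iff]; exact Or.inr hxinv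
  refine ⟨x / algebraMap R F π, ?_, by field_simp⟩
  rw [← O.valuation_le_one_iff, map_div₀, div_le_one₀ (val_pos O hπF)]
  exact h x hxlt

variable [IsFractionRing R K] [IsNoetherianRing R] [IsIntegrallyClosed R] [CharZero K]

/-- **Glue, core form**: from (TWO) and the value inequalities `val_j x < 1 → val_j x ≤ val_j π`. -/
theorem glue_core {π : R} (hπ : Prime π) {t : F}
    [FiniteDimensional (IntermediateField.adjoin K {t}) F] (htr : Transcendental K t)
    (O₁ O₂ : ValuationSubring F)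
    (hcomap : O₁.comap (algebraMap (IntermediateField.adjoin K {t}) F) =
      O₂.comap (algebraMap (IntermediateField.adjoin K {t}) F))
    (hR : ∀ r : R, algebraMap R F r ∈ O₁) (ht : t ∈ O₁) (htinv : t⁻¹ ∈ O₁)
    (hπv : O₁.valuation (algebraMap R F π) < 1)
    (hcen0 : ∀ p ∈ Algebra.adjoin R {t}, O₁.valuation p < 1 →
      ∃ p' ∈ Algebra.adjoin R {t}, p = algebraMap R F π * p')
    (hcen1 : ∀ p ∈ Algebra.adjoin R {t⁻¹}, O₁.valuation p < 1 →
      ∃ p' ∈ Algebra.adjoin R {t⁻¹}, p = algebraMap R F π * p')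
    (htwo : ∀ V : ValuationSubring F,
      V.comap (algebraMap (IntermediateField.adjoin K {t}) F) =
        O₁.comap (algebraMap (IntermediateField.adjoin K {t}) F) → V = O₁ ∨ V = O₂)
    (hval1 : ∀ x : F, O₁.valuation x < 1 → O₁.valuation x ≤ O₁.valuation (algebraMap R F π))
    (hval2 : ∀ x : F, O₂.valuation x < 1 → O₂.valuation x ≤ O₂.valuation (algebraMap R F π)) :
    GlueOut K π t O₁ O₂ := by
  have : Algebra.IsAlgebraic (IntermediateField.adjoin K {t}) F :=
    Algebra.IsAlgebraic.of_finite _ F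
  have hmem : t ∈ IntermediateField.adjoin K {t} := IntermediateField.mem_adjoin_simple_self K t
  have hinv_mem : t⁻¹ ∈ IntermediateField.adjoin K {t} := inv_mem hmem
  have hRE : ∀ r : R, algebraMap R F r ∈ IntermediateField.adjoin K {t} :=
    algebraMap_mem_intermediateField _
  have hPE : ∀ p ∈ Algebra.adjoin R {t}, p ∈ IntermediateField.adjoin K {t} := fun p hp =>
    adjoin_le_intermediateField (R := R) _ hmem hp
  have hRK : Function.Injective (algebraMap R K) := IsFractionRing.injective R K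
  have hπF : algebraMap R F π ≠ 0 := by
    rw [IsScalarTower.algebraMap_apply R K F]
    intro h0
    exact hπ.ne_zero (hRK (by
      rw [map_zero]
      exact (map_eq_zero_iff _ (algebraMap K F).injective).mp h0))
  -- facts for `O₂`
  have hR2 : ∀ r : R, algebraMap R F r ∈ O₂ := fun r => mem_of_comap_eq hcomap (hRE r) (hR r)
  have ht2 : t ∈ O₂ := mem_of_comap_eq hcomap hmem ht
  have htinv2 : t⁻¹ ∈ O₂ := mem_of_comap_eq hcomap hinv_mem htinv
  have hπv2 : O₂.valuation (algebraMap R F π) < 1 := val_lt_one_of_comap_eq hcomap (hRE π) hπv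
  have hcen0' : ∀ p ∈ Algebra.adjoin R {t}, O₂.valuation p < 1 →
      ∃ p' ∈ Algebra.adjoin R {t}, p = algebraMap R F π * p' := fun p hp hlt =>
    hcen0 p hp (val_lt_one_of_comap_eq hcomap.symm (hPE p hp) hlt)
  obtain ⟨hs0, hs1⟩ := SatTwo22.sat_both₂ hπ htr O₁ O₂ hR ht htinv hπv hcen0 hcen1 htwo
  exact
    { two := htwo
      R_le_O1 := hR
      R_le_O2 := hR2
      t_mem_O1 := ht
      t_mem_O2 := ht2
      tinv_mem_O1 := htinv
      tinv_mem_O2 := htinv2
      le_O1_0 := chart_le_valuationSubring O₁ hR ht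
      le_O2_0 := chart_le_valuationSubring O₂ hR2 ht2
      le_O1_1 := chart_le_valuationSubring O₁ hR htinv
      le_O2_1 := chart_le_valuationSubring O₂ hR2 htinv2
      pi_ne := hπF
      pi_nonunit1 := fun h => by
        have := (val_lt_one_iff O₁).mp hπv
        exact this.elim hπF (fun h' => h' h)
      pi_nonunit2 := fun h => by
        have := (val_lt_one_iff O₂).mp hπv2
        exact this.elim hπF (fun h' => h' h)
      unif1 := unif_of_val_le O₁ hπF hval1
      unif2 := unif_of_val_le O₂ hπF hval2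
      arch1 := exists_pow_mul_mem_of_algebraic _ O₁ fun a ha =>
        exists_pow_mul_val_le_one _ hmem le_rfl O₁ hR ht hπv hcen0 ha
      arch2 := exists_pow_mul_mem_of_algebraic _ O₂ fun a ha =>
        exists_pow_mul_val_le_one _ hmem le_rfl O₂ hR2 ht2 hπv2 hcen0' ha
      sat0 := hs0
      sat1 := hs1 }

/-- **(G2-glue), families form**: `O₁ ≠ O₂` with the same restriction to `K(t)`, the Gauss
hypotheses for `O₁` (exactly those of `SatTwo22.sat_both₂`), and residually independent families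
in the literal shape of `TwoExt22` with `n₁ + n₂ ≥ [F : K(t)]`. -/
theorem glue {π : R} (hπ : Prime π) {t : F}
    [FiniteDimensional (IntermediateField.adjoin K {t}) F] (htr : Transcendental K t)
    (O₁ O₂ : ValuationSubring F) (hne : O₁ ≠ O₂)
    (hcomap : O₁.comap (algebraMap (IntermediateField.adjoin K {t}) F) =
      O₂.comap (algebraMap (IntermediateField.adjoin K {t}) F))
    (hR : ∀ r : R, algebraMap R F r ∈ O₁) (ht : t ∈ O₁) (htinv : t⁻¹ ∈ O₁)
    (hπv : O₁.valuation (algebraMap R F π) < 1)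
    (hcen0 : ∀ p ∈ Algebra.adjoin R {t}, O₁.valuation p < 1 →
      ∃ p' ∈ Algebra.adjoin R {t}, p = algebraMap R F π * p')
    (hcen1 : ∀ p ∈ Algebra.adjoin R {t⁻¹}, O₁.valuation p < 1 →
      ∃ p' ∈ Algebra.adjoin R {t⁻¹}, p = algebraMap R F π * p')
    {n₁ n₂ : ℕ} (hn : Module.finrank (IntermediateField.adjoin K {t}) F ≤ n₁ + n₂)
    (b₁ : Fin n₁ → F) (hb₁O : ∀ i, b₁ i ∈ O₁)
    (hb₁ : ∀ a : Fin n₁ → IntermediateField.adjoin K {t},
      (∀ i, (O₁.comap (algebraMap (IntermediateField.adjoin K {t}) F)).valuation (a i) ≤ 1) →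
      O₁.valuation (∑ i, algebraMap (IntermediateField.adjoin K {t}) F (a i) * b₁ i) < 1 →
      ∀ i, (O₁.comap (algebraMap (IntermediateField.adjoin K {t}) F)).valuation (a i) < 1)
    (b₂ : Fin n₂ → F) (hb₂O : ∀ i, b₂ i ∈ O₂)
    (hb₂ : ∀ a : Fin n₂ → IntermediateField.adjoin K {t},
      (∀ i, (O₁.comap (algebraMap (IntermediateField.adjoin K {t}) F)).valuation (a i) ≤ 1) →
      O₂.valuation (∑ i, algebraMap (IntermediateField.adjoin K {t}) F (a i) * b₂ i) < 1 →
      ∀ i, (O₁.comap (algebraMap (IntermediateField.adjoin K {t}) F)).valuation (a i) < 1) :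
    GlueOut K π t O₁ O₂ := by
  have hmem : t ∈ IntermediateField.adjoin K {t} := IntermediateField.mem_adjoin_simple_self K t
  have hRE : ∀ r : R, algebraMap R F r ∈ IntermediateField.adjoin K {t} :=
    algebraMap_mem_intermediateField _
  have hRK : Function.Injective (algebraMap R K) := IsFractionRing.injective R K
  have hπF : algebraMap R F π ≠ 0 := by
    rw [IsScalarTower.algebraMap_apply R K F]
    intro h0
    exact hπ.ne_zero (hRK (by
      rw [map_zero]
      exact (map_eq_zero_iff _ (algebraMap K F).injective).mp h0))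
  set ϖ : IntermediateField.adjoin K {t} := ⟨algebraMap R F π, hRE π⟩ with hϖdef
  have hϖF : algebraMap (IntermediateField.adjoin K {t}) F ϖ = algebraMap R F π := rfl
  have hϖ0 : ϖ ≠ 0 := fun h0 => hπF (by rw [← hϖF, h0, map_zero])
  have hϖ : ∀ a : IntermediateField.adjoin K {t},
      (O₁.comap (algebraMap (IntermediateField.adjoin K {t}) F)).valuation a < 1 →
      (O₁.comap (algebraMap (IntermediateField.adjoin K {t}) F)).valuation a ≤
        (O₁.comap (algebraMap (IntermediateField.adjoin K {t}) F)).valuation ϖ := by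
    intro a ha
    rw [comap_val_le_comap_val_iff, hϖF]
    exact val_le_val_pi _ hmem le_rfl O₁ hR ht hπF hπv hcen0 a.2
      ((comap_val_lt_one_iff O₁ a).mp ha)
  refine glue_core hπ htr O₁ O₂ hcomap hR ht htinv hπv hcen0 hcen1 ?_ ?_ ?_
  · intro V hV
    exact TwoExt22.eq_or_eq_of_residually_independent hn O₁ O₂ V hne hcomap hV.symm
      b₁ hb₁O hb₁ b₂ hb₂O hb₂
  · intro x hx
    have := TwoExt22.val_le_of_residually_independent hn O₁ O₂ hne hcomap
      b₁ hb₁O hb₁ b₂ hb₂O hb₂ hϖ0 hϖ hx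
    rwa [hϖF] at this
  · intro x hx
    have := TwoExt22.val_le_of_residually_independent' hn O₁ O₂ hne hcomap
      b₁ hb₁O hb₁ b₂ hb₂O hb₂ hϖ0 hϖ hx
    rwa [hϖF] at this

end Main

end Fermat.Agent.ES.N34.TwoGlue20
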