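/-
Program N (S34), chapter MODEL, brick V3-inst (G2-glue, Gauss vocabulary), helper22:
`TwoGlue20.glue` (helper20) fed by `GaussEmb22`: for TWO Gauss pull-backs `V₁ ≠ V₂` of a field `F`
over `K` (`ι_j : F →ₐ[K] K((q))`, `x ∈ V_j ↔ ι_j x ∈ gaussRing O`), a parameter `t` with
`ι_j t ∈ gaussRing O` of transcendental residue, `[F : K(t)] ≤ n₁ + n₂` and `n_j` elements of `V_j`
with `κ(ι_j t~)`-independent residues: ALL valuation fields of
`NodalCore13.NodalTwoChartModel ↥O F π t (chart ↥O t) (chart ↥O t⁻¹) V₁ V₂` (`TwoGlue20.GlueOut`).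

`glueOut_OvE`: the same at `F := ↥E`, `V₁ := G1Package8.OvE O hπ E hE`, in the
`relfinrank / Irr` vocabulary of `GaussVOne25.g2_v1`.
-/
import Mathlib
import Fermat.Agent.RED.ModelAsm4
import Fermat.Agent.ES.N34.GaussEmb22
import Fermat.Agent.ES.N34.TwoGlue20

set_option autoImplicit false
set_option linter.unusedSectionVars false

noncomputable section

open HahnSeries Polynomial IntermediateField

namespace Fermat.Agent.ES.N34.G2Out22

open Fermat.Agent.RED.PUR.GaussGen8 Fermat.Agent.RED.PUR.KtGauss8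
open Fermat.Agent.RED.PUR.G1Package8 Fermat.Agent.RED.PUR.ChartGeneric22
open Fermat.Agent.ES.N34.GaussEmb22

variable {K : Type*} [Field K] {O : ValuationSubring K} [IsDiscreteValuationRing ↥O] {π : ↥O}

section Inv

variable {F : Type*} [Field F] [Algebra K F]
  {ι : F →ₐ[K] LaurentSeries K} {t : F}

theorem gaussRed_ne_zero_of_transcendental (ht : ι t ∈ gaussRing O)
    (htr : Transcendental (Res O) (gaussRed O ⟨ι t, ht⟩)) : gaussRed O ⟨ι t, ht⟩ ≠ 0 := by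
  intro h0
  apply htr
  rw [h0]
  exact isAlgebraic_zero

theorem map_inv_mem (ht : ι t ∈ gaussRing O)
    (htr : Transcendental (Res O) (gaussRed O ⟨ι t, ht⟩)) : ι t⁻¹ ∈ gaussRing O := by
  rw [map_inv₀]
  exact inv_mem_of_gaussRed_ne_zero O ⟨ι t, ht⟩ (gaussRed_ne_zero_of_transcendental ht htr)

theorem transcendental_inv (ht : ι t ∈ gaussRing O)
    (htr : Transcendental (Res O) (gaussRed O ⟨ι t, ht⟩)) :
    Transcendental (Res O) (gaussRed O ⟨ι t⁻¹, map_inv_mem ht htr⟩) := by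
  have h1 : gaussRed O ⟨ι t⁻¹, map_inv_mem ht htr⟩ = (gaussRed O ⟨ι t, ht⟩)⁻¹ := by
    rw [← gaussRed_inv O ⟨ι t, ht⟩ (gaussRed_ne_zero_of_transcendental ht htr)]
    congr 1
    exact Subtype.ext (map_inv₀ ι t)
  rw [h1]
  exact fun h => htr (IsAlgebraic.inv_iff.1 h)

theorem transcendental_of_map (hπ : Irreducible π) (ht : ι t ∈ gaussRing O)
    (htr : Transcendental (Res O) (gaussRed O ⟨ι t, ht⟩)) : Transcendental K t := by
  intro halg
  exact transcendental_t (tG := ⟨ι t, ht⟩) hπ htr (halg.algHom ι)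

end Inv

variable [CharZero K]

/-- **V3-inst, generic `F`.** -/
theorem glueOut_of_pullbacks {F : Type*} [Field F] [Algebra K F] [Algebra ↥O F]
    [IsScalarTower ↥O K F] {ι₁ ι₂ : F →ₐ[K] LaurentSeries K} {V₁ V₂ : ValuationSubring F} {t : F}
    (hV₁ : IsGaussPullback O ι₁ V₁) (hV₂ : IsGaussPullback O ι₂ V₂)
    (hπ : Irreducible π) (h12 : V₁ ≠ V₂)
    (ht₁ : ι₁ t ∈ gaussRing O) (htr₁ : Transcendental (Res O) (gaussRed O ⟨ι₁ t, ht₁⟩))
    (ht₂ : ι₂ t ∈ gaussRing O) (htr₂ : Transcendental (Res O) (gaussRed O ⟨ι₂ t, ht₂⟩))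
    [FiniteDimensional (IntermediateField.adjoin K {t}) F] {n₁ n₂ : ℕ}
    (hn : Module.finrank (IntermediateField.adjoin K {t}) F ≤ n₁ + n₂)
    (b₁ : Fin n₁ → F) (hb₁ : ∀ i, b₁ i ∈ V₁)
    (hli₁ : LinearIndependent ↥(kt O ⟨ι₁ t, ht₁⟩) (fun i => redOf hV₁ ⟨b₁ i, hb₁ i⟩))
    (b₂ : Fin n₂ → F) (hb₂ : ∀ i, b₂ i ∈ V₂)
    (hli₂ : LinearIndependent ↥(kt O ⟨ι₂ t, ht₂⟩) (fun i => redOf hV₂ ⟨b₂ i, hb₂ i⟩)) :
    TwoGlue20.GlueOut K π t V₁ V₂ := by
  have hcomap := comap_eq hV₁ hV₂ hπ ht₁ htr₁ ht₂ htr₂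
  have he₁ := elementwise_of_indep hV₁ hπ ht₁ htr₁ b₁ hb₁ hli₁
  have he₂ := elementwise_of_indep hV₂ hπ ht₂ htr₂ b₂ hb₂ hli₂
  rw [← hcomap] at he₂
  have hπv : V₁.valuation (algebraMap ↥O F π) < 1 := by
    rw [algebraMap_O_eq]; exact val_pi_lt_one hV₁ hπ
  exact TwoGlue20.glue (R := ↥O) (K := K) (F := F) hπ.prime
    (transcendental_of_map hπ ht₁ htr₁) V₁ V₂ h12 hcomap
    (algebraMap_O_mem hV₁) ((hV₁ t).mpr ht₁) ((hV₁ _).mpr (map_inv_mem ht₁ htr₁)) hπv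
    (center_adjoin hV₁ hπ ht₁ htr₁)
    (center_adjoin hV₁ hπ (map_inv_mem ht₁ htr₁) (transcendental_inv ht₁ htr₁))
    hn b₁ hb₁ he₁ b₂ hb₂ he₂

variable {E : IntermediateField K (LaurentSeries K)}

/-- The Gauss valuation ring of `E` is the Gauss pull-back along the inclusion. -/
theorem isGaussPullback_OvE (hπ : Irreducible π) (hE : E ≤ fracField O) :
    IsGaussPullback O E.val (OvE O hπ E hE) :=
  fun x => mem_OvE_iff O hπ E hE x

/-- **V3-inst at `F := ↥E`, `V₁ := OvE`**, in the vocabulary of `GaussVOne25.g2_v1`. -/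
theorem glueOut_OvE (hπ : Irreducible π) (hE : E ≤ fracField O) (t : ↥E)
    (ht : (t : LaurentSeries K) ∈ gaussRing O)
    (htr : Transcendental (Res O) (gaussRed O ⟨(t : LaurentSeries K), ht⟩))
    {n₁ n₂ : ℕ} (hdeg : relfinrank (Kt O ⟨(t : LaurentSeries K), ht⟩) E = n₁ + n₂)
    (hn : n₁ + n₂ ≠ 0)
    (hirr : Irr O E ⟨(t : LaurentSeries K), ht⟩ n₁)
    {ι₂ : ↥E →ₐ[K] LaurentSeries K} {O2 : ValuationSubring ↥E} (hO2 : IsGaussPullback O ι₂ O2)
    (h12 : OvE O hπ E hE ≠ O2)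
    (ht₂ : ι₂ t ∈ gaussRing O) (htr₂ : Transcendental (Res O) (gaussRed O ⟨ι₂ t, ht₂⟩))
    (b₂ : Fin n₂ → ↥E) (hb₂ : ∀ i, b₂ i ∈ O2)
    (hli₂ : LinearIndependent ↥(kt O ⟨ι₂ t, ht₂⟩) (fun i => redOf hO2 ⟨b₂ i, hb₂ i⟩)) :
    TwoGlue20.GlueOut K π t (OvE O hπ E hE) O2 := by
  have : IsScalarTower ↥O K ↥E := Fermat.Agent.RED.NumInst4.isScalarTower_OE O E
  have hrel : relfinrank (IntermediateField.adjoin K {(t : LaurentSeries K)}) E ≠ 0 := by
    show relfinrank (Kt O ⟨(t : LaurentSeries K), ht⟩) E ≠ 0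
    rw [hdeg]; exact hn
  have : FiniteDimensional ↥(IntermediateField.adjoin K {t}) ↥E :=
    Fermat.Agent.RED.ModelAsm4.finiteDimensional_adjoin t hrel
  have hfin : Module.finrank ↥(IntermediateField.adjoin K {t}) ↥E ≤ n₁ + n₂ := by
    rw [Fermat.Agent.RED.ModelAsm4.finrank_adjoin_eq_relfinrank]
    exact hdeg.le
  obtain ⟨e, heE, hli⟩ := hirr
  exact glueOut_of_pullbacks (isGaussPullback_OvE hπ hE) hO2 hπ h12 (t := t) ht htr ht₂ htr₂ hfin
    (fun i => ⟨(e i : LaurentSeries K), heE i⟩)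
    (fun i => (mem_OvE_iff O hπ E hE _).mpr (e i).2) hli b₂ hb₂ hli₂

end Fermat.Agent.ES.N34.G2Out22
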