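/-
Program N (S34), chapter MODEL, brick S3 (helper26): `hcomb` at `(O1, α)` ALONE.

The first half of `CompTwo16.hcomb_two` (helper16) with ONLY the hypotheses it uses: no condition on
the shape of the `O2`-family (`hb₂β`), no `hβO2`, no `hK0`.  So it applies verbatim to the existential
family of `GaussVTwoInst25.v2_export`; the `(O2, β)` statement then follows by W-transport
(`CombW5.hcomb_O2_of_O1`, ruling r10(1)(B)).

`O1 = α(Ov_M) + π O1`: every `x ∈ O1 = OvE … E_N` is `≡ α z mod π O1` with `z ∈ Ov_M`.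
-/
import Mathlib
import Fermat.Agent.ES.N34.CompGauss16
import Fermat.Agent.ES.N34.G2Out22

set_option autoImplicit false
set_option linter.unusedSectionVars false

noncomputable section

open HahnSeries Polynomial IntermediateField

namespace Fermat.Agent.ES.N34.CombOne26

open Fermat.Agent.RED.PUR.GaussGen8 Fermat.Agent.RED.PUR.KtGauss8 Fermat.Agent.RED.PUR.G1Package8
  Fermat.Agent.RED.PUR.ChartGeneric22 Fermat.Agent.RED.ModelAsm4
  Fermat.Agent.ES.N34.GaussEmb22 Fermat.Agent.ES.N34.CompHyp16 Fermat.Agent.ES.N34.CompGauss16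

variable {K : Type*} [Field K] [CharZero K] {O : ValuationSubring K} [IsDiscreteValuationRing ↥O]
  {π : ↥O} {EM EN : IntermediateField K (LaurentSeries K)}

/-- **`O1 = α(Ov_M) + π O1`**, from V1 (the level-`M'` family, degree `n' + n₂`) and ANY `O2`-family
of `n₂` residually independent elements. -/
theorem hcomb_one (hπ : Irreducible π) (hEM : EM ≤ fracField O) (hEN : EN ≤ fracField O)
    (α : ↥EM →ₐ[K] ↥EN)
    (hα : ∀ z : ↥EM, ((α z : ↥EN) : LaurentSeries K) = (z : LaurentSeries K))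
    (tM : ↥EM) (htM : (tM : LaurentSeries K) ∈ gaussRing O)
    (htrM : Transcendental (Res O) (gaussRed O ⟨(tM : LaurentSeries K), htM⟩))
    {n' n₂ : ℕ} (hirrM : Irr O EM ⟨(tM : LaurentSeries K), htM⟩ n')
    (hdeg : relfinrank (Kt O ⟨(tM : LaurentSeries K), htM⟩) EN = n' + n₂) (hn : n' + n₂ ≠ 0)
    {ι₂ : ↥EN →ₐ[K] LaurentSeries K} {O2 : ValuationSubring ↥EN} (hO2 : IsGaussPullback O ι₂ O2)
    (h12 : OvE O hπ EN hEN ≠ O2)
    (ht₂ : ι₂ (α tM) ∈ gaussRing O)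
    (htr₂ : Transcendental (Res O) (gaussRed O ⟨ι₂ (α tM), ht₂⟩))
    (b₂ : Fin n₂ → ↥EN) (hb₂ : ∀ i, b₂ i ∈ O2)
    (hli₂ : LinearIndependent ↥(kt O ⟨ι₂ (α tM), ht₂⟩) (fun i => redOf hO2 ⟨b₂ i, hb₂ i⟩)) :
    ∀ x ∈ OvE O hπ EN hEN, ∃ z ∈ OvE O hπ EM hEM, ∃ c ∈ OvE O hπ EN hEN,
      x - α z = algebraMap ↥O ↥EN π * c := by
  have : IsScalarTower ↥O K ↥EN := Fermat.Agent.RED.NumInst4.isScalarTower_OE O EN
  have ht₁ : ((α tM : ↥EN) : LaurentSeries K) ∈ gaussRing O := by rw [hα]; exact htM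
  have heq : (⟨((α tM : ↥EN) : LaurentSeries K), ht₁⟩ : ↥(gaussRing O)) =
      ⟨(tM : LaurentSeries K), htM⟩ := Subtype.ext (hα tM)
  have htr₁ : Transcendental (Res O) (gaussRed O ⟨((α tM : ↥EN) : LaurentSeries K), ht₁⟩) := by
    rw [heq]; exact htrM
  have hrel : relfinrank (IntermediateField.adjoin K {((α tM : ↥EN) : LaurentSeries K)}) EN ≠ 0 := by
    show relfinrank (Kt O ⟨((α tM : ↥EN) : LaurentSeries K), ht₁⟩) EN ≠ 0
    rw [heq, hdeg]; exact hn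
  have : FiniteDimensional ↥(IntermediateField.adjoin K {α tM}) ↥EN :=
    finiteDimensional_adjoin (α tM) hrel
  have hfin : Module.finrank ↥(IntermediateField.adjoin K {α tM}) ↥EN ≤ n' + n₂ := by
    rw [finrank_adjoin_eq_relfinrank]
    show relfinrank (Kt O ⟨((α tM : ↥EN) : LaurentSeries K), ht₁⟩) EN ≤ _
    rw [heq, hdeg]
  -- the `O1`-family: the level-`M'` family pushed by `α`
  obtain ⟨e₁, he₁, hli⟩ := hirrM
  set b₁ : Fin n' → ↥EN := fun i => α ⟨(e₁ i : LaurentSeries K), he₁ i⟩ with hb₁def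
  have hb₁ : ∀ i, b₁ i ∈ OvE O hπ EN hEN := by
    intro i
    rw [mem_OvE_iff, hb₁def, hα]
    exact (e₁ i).2
  have hV₁ := G2Out22.isGaussPullback_OvE (π := π) hπ hEN
  have hli₁ : LinearIndependent ↥(kt O ⟨EN.val (α tM), ht₁⟩)
      (fun i => redOf hV₁ ⟨b₁ i, hb₁ i⟩) := by
    have h1 : (fun i => redOf hV₁ ⟨b₁ i, hb₁ i⟩) = fun i => gaussRed O (e₁ i) := by
      funext i
      rw [redOf_apply]
      congr 1
      apply Subtype.ext
      rw [coe_toGauss]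
      exact hα _
    rw [h1]
    have key : ∀ tg : ↥(gaussRing O), tg = ⟨(tM : LaurentSeries K), htM⟩ →
        LinearIndependent ↥(kt O tg) (fun i => gaussRed O (e₁ i)) := by
      rintro _ rfl
      exact hli
    exact key _ heq
  obtain ⟨hres₁, -⟩ := hres_of_pullbacks hV₁ hO2 hπ h12 (t := α tM) ht₁ htr₁ ht₂ htr₂ hfin
    b₁ hb₁ hli₁ b₂ hb₂ hli₂
  have hαO1 : ∀ z : ↥EM, α z ∈ OvE O hπ EN hEN ↔ z ∈ OvE O hπ EM hEM := fun z => by
    rw [mem_OvE_iff, mem_OvE_iff, hα]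
  refine hcomb_gauss hπ hEM α hV₁ ht₁ htr₁ hαO1 ?_ b₁ ?_ hres₁
  · refine ⟨tM, (mem_OvE_iff _ hπ _ hEM _).mpr htM, ?_⟩
    rw [sub_self]
    exact PiMul.zero π _
  · intro i
    exact ⟨⟨(e₁ i : LaurentSeries K), he₁ i⟩, (mem_OvE_iff _ hπ _ hEM _).mpr (e₁ i).2, rfl⟩

end Fermat.Agent.ES.N34.CombOne26
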