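/-
Program N (S34), MODEL, helper25: the `q · n'` residually independent family (count for the SECOND
Gauss valuation), as a statement about Laurent series over the residue field.

`κ` a field of characteristic `q`, `T ∈ κ((X))` nonzero with `ord T` prime to `q`
(e.g. `T = t~` of order `-1`, or `T = (T_S t)~ = c₀ X^{M'/4} + …` with `q ∤ M'`).  If `c_1, …, c_n` are
linearly independent over `κ(T)`, then the `q · n` products `T^i c_j` (`i < q`) are linearly
independent over `κ(T^q)`.

Consequently the residue degree of a valuation whose residue field contains `κ(T)(c_j)` while the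
base parameter reduces to `T^q` (Kronecker: `t ≡ y^q` along the second component) is `≥ q · n`.

Proof: elements of `κ(T^q)` are series in `X^q` (`T^q = (T^φ)(X^q)`, `KronCong24.pow_char`), so their
orders are divisible by `q`; powers `T^i`, `i < q`, have pairwise distinct orders mod `q`
(`SepLaurent25.eq_zero_of_sum_mul_pow_eq_zero`); then the tower argument.
-/
import Mathlib
import Fermat.Agent.RED.PUR.SepLaurent25
import Fermat.Agent.ES.KRON.KronCong24

set_option autoImplicit false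
set_option linter.unusedSectionVars false

noncomputable section

open HahnSeries ModularCurve IntermediateField

namespace Fermat.Agent.ES.N34.FrobFamily25

variable {κ : Type*} [Field κ] (q : ℕ) [hq : Fact q.Prime] [CharP κ q]

/-- The field of series in `X^q`. -/
def vRange : IntermediateField κ (LaurentSeries κ) :=
  haveI : NeZero q := ⟨hq.out.ne_zero⟩
  (qExpandAlgHomC κ q).fieldRange

theorem mem_vRange_iff {z : LaurentSeries κ} :
    z ∈ vRange (κ := κ) q ↔ ∃ z', z = qExpand κ q z' := by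
  have : NeZero q := ⟨hq.out.ne_zero⟩
  constructor
  · rintro ⟨z', rfl⟩
    exact ⟨z', rfl⟩
  · rintro ⟨z', rfl⟩
    exact ⟨z', rfl⟩

/-- `κ(T^q)` consists of series in `X^q`. -/
theorem adjoin_pow_le_vRange (T : LaurentSeries κ) : κ⟮T ^ q⟯ ≤ vRange (κ := κ) q := by
  rw [adjoin_simple_le_iff, mem_vRange_iff]
  exact ⟨_, Fermat.Agent.ES.KRON.KronCong24.pow_char q T⟩

/-- orders of elements of `κ(T^q)` are divisible by `q`. -/
theorem dvd_order_of_mem_adjoin_pow (T : LaurentSeries κ) {z : LaurentSeries κ}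
    (hz : z ∈ κ⟮T ^ q⟯) : (q : ℤ) ∣ z.order := by
  have : NeZero q := ⟨hq.out.ne_zero⟩
  obtain ⟨z', rfl⟩ := (mem_vRange_iff q).mp (adjoin_pow_le_vRange q T hz)
  exact Fermat.Agent.IG.PR.RamDeg25.dvd_order_qExpand q z'

theorem adjoin_pow_le_adjoin (T : LaurentSeries κ) : κ⟮T ^ q⟯ ≤ κ⟮T⟯ := by
  rw [adjoin_simple_le_iff]
  exact pow_mem (mem_adjoin_simple_self κ T) q

/-- **`1, T, …, T^{q-1}` are linearly independent over `κ(T^q)`** (sum form). -/
theorem eq_zero_of_sum_pow {T : LaurentSeries κ} (hT0 : T ≠ 0) (hT : IsCoprime T.order (q : ℤ))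
    (g : Fin q → ↥κ⟮T ^ q⟯) (h : ∑ i, ((g i : ↥κ⟮T ^ q⟯) : LaurentSeries κ) * T ^ (i : ℕ) = 0) :
    ∀ i, g i = 0 := by
  classical
  set c : ℕ → LaurentSeries κ := fun i =>
    if hi : i < q then ((g ⟨i, hi⟩ : ↥κ⟮T ^ q⟯) : LaurentSeries κ) else 0 with hc
  have hcord : ∀ j, (q : ℤ) ∣ (c j).order := by
    intro j
    simp only [hc]
    split_ifs with hj
    · exact dvd_order_of_mem_adjoin_pow q T (g ⟨j, hj⟩).2
    · rw [order_zero]; exact dvd_zero _
  have hsum : ∑ j ∈ Finset.range q, c j * T ^ j = 0 := by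
    rw [← h, Finset.sum_range]
    refine Finset.sum_congr rfl fun i _ => ?_
    simp only [hc, dif_pos i.2, Fin.eta]
  have := Fermat.Agent.RED.PUR.SepLaurent25.eq_zero_of_sum_mul_pow_eq_zero hT0 hT c hcord hsum
  intro i
  have hi := this i i.2
  simp only [hc, dif_pos i.2, Fin.eta] at hi
  exact Subtype.ext hi

/-- **The `q · n` family.** -/
theorem linearIndependent_pow_mul {T : LaurentSeries κ} (hT0 : T ≠ 0)
    (hT : IsCoprime T.order (q : ℤ)) {n : ℕ} (c : Fin n → LaurentSeries κ)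
    (hc : LinearIndependent ↥κ⟮T⟯ c) :
    LinearIndependent ↥κ⟮T ^ q⟯ (fun p : Fin q × Fin n => T ^ (p.1 : ℕ) * c p.2) := by
  classical
  rw [Fintype.linearIndependent_iff]
  intro g hg
  -- regroup
  have hle := adjoin_pow_le_adjoin q T
  set hcoef : Fin n → ↥κ⟮T⟯ := fun j =>
    ⟨∑ i : Fin q, ((g (i, j) : ↥κ⟮T ^ q⟯) : LaurentSeries κ) * T ^ (i : ℕ),
      sum_mem fun i _ => mul_mem (hle (g (i, j)).2) (pow_mem (mem_adjoin_simple_self κ T) _)⟩
    with hcoef_def
  have h1 : ∑ j, hcoef j • c j = 0 := by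
    rw [← hg, Fintype.sum_prod_type, Finset.sum_comm]
    refine Finset.sum_congr rfl fun j _ => ?_
    show (∑ i : Fin q, ((g (i, j) : ↥κ⟮T ^ q⟯) : LaurentSeries κ) * T ^ (i : ℕ)) * c j = _
    rw [Finset.sum_mul]
    refine Finset.sum_congr rfl fun i _ => ?_
    show _ = ((g (i, j) : ↥κ⟮T ^ q⟯) : LaurentSeries κ) * (T ^ (i : ℕ) * c j)
    ring
  have h2 := (Fintype.linearIndependent_iff.mp hc) hcoef h1
  rintro ⟨i, j⟩
  have h3 : ∑ i : Fin q, ((g (i, j) : ↥κ⟮T ^ q⟯) : LaurentSeries κ) * T ^ (i : ℕ) = 0 := by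
    have := congrArg Subtype.val (h2 j)
    simpa [hcoef_def] using this
  exact eq_zero_of_sum_pow q hT0 hT (fun i => g (i, j)) h3 i

/-- Special case `ord T = -1` (a Hauptmodul `t~ = X⁻¹ + …`). -/
theorem linearIndependent_pow_mul_of_order {T : LaurentSeries κ} (hT : T.order = -1) {n : ℕ}
    (c : Fin n → LaurentSeries κ) (hc : LinearIndependent ↥κ⟮T⟯ c) :
    LinearIndependent ↥κ⟮T ^ q⟯ (fun p : Fin q × Fin n => T ^ (p.1 : ℕ) * c p.2) := by
  refine linearIndependent_pow_mul q ?_ ?_ c hc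
  · rintro rfl
    rw [order_zero] at hT
    omega
  · rw [hT]
    exact (isCoprime_one_left (x := (q : ℤ))).neg_left

end Fermat.Agent.ES.N34.FrobFamily25
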