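/-
Program N (S34), MODEL, brick (G2-v1)(3), helper25: the `q · n'` family on the `v1` side, in
Program H's GAUSS vocabulary (`G1Package8.Irr`).

`O` a valuation subring of `K` with residue characteristic `q`; `tG yG : gaussRing O` with
`gaussRed yG = (gaussRed tG) ^ q` (Kronecker: `y = t(𝐪^q) ≡ t^q`), `ord (gaussRed tG)` prime to `q`.
If `e_1, …, e_n ∈ E ∩ gaussRing` have residues independent over `κ(t~)` (`Irr O E tG n`), then the `q · n`
elements `tG ^ i * e_j` (`i < q`) of `E ∩ gaussRing` have residues independent over `κ(y~) = κ(t~^q)`: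
`Irr O E yG (q * n)` (provided `tG ∈ E`).

Concrete instance: `tG = TBridge15.tG O n e` (Program H's Hauptmodul), `yG = yGq O q n e`
(`= t(𝐪^q)`, residue `t~(𝐪^q) = t~^q` because `t` has integer coefficients).
This is the `n₂`-family of (G2) BEFORE transport along `T_S` (owner of the transport: V2).
-/
import Mathlib
import Fermat.Agent.ES.N34.FrobFamily25
import Fermat.Agent.RED.PUR.GaussInstN25
import Fermat.Agent.RED.PUR.TqOrder26

set_option autoImplicit false
set_option linter.unusedSectionVars false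

noncomputable section

open HahnSeries ModularCurve IntermediateField

namespace Fermat.Agent.ES.N34.GaussVOneQ25

open Fermat.Agent.RED.PUR.GaussGen8 Fermat.Agent.RED.PUR.KtGauss8 Fermat.Agent.RED.PUR.G1Package8
open Fermat.Agent.RED.BASE Fermat.Agent.RED.BASE.EtaQuot12

section Abstract

variable {K : Type*} [Field K] (O : ValuationSubring K) (q : ℕ) [hq : Fact q.Prime]
  [CharP (Res O) q]

/-- **The `q · n` family in `Irr` shape.** -/
theorem irr_frob (E : IntermediateField K (LaurentSeries K)) (tG yG : ↥(gaussRing O))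
    (htE : (tG : LaurentSeries K) ∈ E)
    (hy : gaussRed O yG = gaussRed O tG ^ q)
    (hT0 : gaussRed O tG ≠ 0) (hT : IsCoprime (gaussRed O tG).order (q : ℤ))
    {n : ℕ} (hirr : Irr O E tG n) : Irr O E yG (q * n) := by
  obtain ⟨e, heE, hli⟩ := hirr
  have hli' := FrobFamily25.linearIndependent_pow_mul q hT0 hT (fun j => gaussRed O (e j)) hli
  -- reindex `Fin q × Fin n ≃ Fin (q * n)`
  refine ⟨fun k => tG ^ ((finProdFinEquiv.symm k).1 : ℕ) * e (finProdFinEquiv.symm k).2,
    fun k => ?_, ?_⟩
  · push_cast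
    exact mul_mem (pow_mem htE _) (heE _)
  · have hkt : kt O yG = (Res O)⟮gaussRed O tG ^ q⟯ := by
      show (Res O)⟮gaussRed O yG⟯ = _
      rw [hy]
    rw [hkt]
    have := hli'.comp finProdFinEquiv.symm finProdFinEquiv.symm.injective
    convert this using 1
    funext k
    simp only [Function.comp_apply, map_mul, map_pow]

end Abstract

section Concrete

variable {K : Type*} [Field K] (O : ValuationSubring K) (q : ℕ) [hq : Fact q.Prime]
  [CharP (Res O) q] (n e : ℕ) [NeZero n]

/-- `y = t(𝐪^q)` as an element of the Gauss ring. -/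
def yGq : ↥(gaussRing O) :=
  haveI : NeZero q := ⟨hq.out.ne_zero⟩
  ⟨embK O (qExpand ↥O q (tq ↥O n e)), embK_mem O _⟩

theorem coe_yGq :
    haveI : NeZero q := ⟨hq.out.ne_zero⟩
    ((yGq O q n e : ↥(gaussRing O)) : LaurentSeries K) = qExpand K q (tq K n e) := by
  have : NeZero q := ⟨hq.out.ne_zero⟩
  show embK O (qExpand ↥O q (tq ↥O n e)) = _
  rw [embK, ModularCurve.coeffMap_qExpand, coeffMap_tq]

/-- **Kronecker for the Hauptmodul**: `y~ = t~ ^ q`. -/
theorem gaussRed_yGq : gaussRed O (yGq O q n e) = gaussRed O (TBridge15.tG O n e) ^ q := by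
  have : NeZero q := ⟨hq.out.ne_zero⟩
  rw [TBridge15.gaussRed_tG, yGq, gaussRed_embK, redL, ModularCurve.coeffMap_qExpand, coeffMap_tq,
    Fermat.Agent.ES.KRON.KronCong24.pow_char q (tq (Res O) n e), coeffMap_tq]

/-- **(G2-v1)(3), concrete.** -/
theorem irr_frob_tq (E : IntermediateField K (LaurentSeries K)) (htE : tq K n e ∈ E)
    {m : ℕ} (hirr : Irr O E (TBridge15.tG O n e) m) :
    Irr O E (yGq O q n e) (q * m) := by
  refine irr_frob O q E (TBridge15.tG O n e) (yGq O q n e) htE (gaussRed_yGq O q n e) ?_ ?_ hirr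
  · rw [TBridge15.gaussRed_tG]
    exact TBridge15.tq_ne_zero (Res O) n e
  · rw [TBridge15.gaussRed_tG]
    exact Fermat.Agent.RED.PUR.TqOrder26.isCoprime_order_tq (κ := Res O) n e (q : ℤ)

end Concrete

end Fermat.Agent.ES.N34.GaussVOneQ25
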