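/-
Program N (S34), MODEL, brick V2c (helper25): the `q · n'` residually independent family for the
SECOND Gauss valuation `O2` (expansion at the cusp `0`), abstractly in the expansion maps, in the
vocabulary of `GaussEmb22` (`F` a field over `K`, `ι : F →ₐ[K] K((𝐪))`, `IsGaussPullback O ι V`).

* `isRep_qExpand`, `qExpand_mem_gaussRing`, `gaussRed_qExpand`: the Gauss ring is stable under
  `V_q : 𝐪 ↦ 𝐪^q` and the residue map commutes with `V_q`.
* `linearIndependent_qExpand_mul_pow`: `c_j` independent over a subfield `L ⊂ κ((𝐪))`, `ord J` prime to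
  `q` ⊢ the `q · n` series `J^i · V_q(c_j)` (`i < q`) are independent over `V_q(L)` (no hypothesis on the
  characteristic, no rationality of coefficients).
* `indep_of_elementwise`: the converse of `GaussEmb22.elementwise_of_indep`.
* `isometry`: TWO Gauss pull-backs `V₁, V₂` of `F` along `ι₁, ι₂`, `[F : K(t)] ≤ n`, and `n` elements of
  `V₁` with `κ(ι₁ t~)`-independent `ι₁`-residues ⊢ `V₂ = V₁` and the `ι₂`-residues of the same elements
  are `κ(ι₂ t~)`-independent ("the Fricke involution of the good level is a Gauss isometry").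
* `family_sep`: elements `a_j, w ∈ F` with `ι a_j = V_q(c_j)`, `ι t = V_q(s)`, `c_j~` independent over
  `κ(s~)`, `ord (ι w)~` prime to `q` ⊢ the `q · n` elements `w^i · a_j` of `V` have `κ(ι t~)`-independent
  residues — literally the hypothesis `b₂, hb₂, hli₂` of `G2Glue22.sat` / `G2Inst22.sat_OvE`.
* `family_frob`: the variant `y^i · c_j` under the Kronecker hypothesis `(ι t)~ = u · ((ι y)~)^q`.
* `family_two_level`: `isometry` at the good level + `family_sep` at the bad level.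
* `transcendental_of_eq`, `s1_of_param`: (s1) "`ι₂ t` lies in the Gauss ring with transcendental residue" for
  EVERY `t ∈ V₁` of transcendental `ι₁`-residue, from the isometry hypotheses for ONE auxiliary parameter
  `j` (the `j`-invariant: both expansions `j(𝐪)`, `j(Q^{M'})` are explicit, and Program H's (G1) gives
  `DegLe`/`Irr` for `j` with `n = ψ(M')`) — no cusp expansion of the Hauptmodul is needed.
* `family_two_level_of_param`: everything packaged; output = the data `ht₂, htr₂, b₂, hb₂, hli₂` of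
  `G2Glue22.sat` for the bad level.
-/
import Mathlib
import Fermat.Agent.ES.N34.GaussEmb22
import Fermat.Agent.ES.N34.GaussVOneQ25

set_option autoImplicit false
set_option linter.unusedSectionVars false

noncomputable section

open HahnSeries ModularCurve IntermediateField Polynomial

namespace Fermat.Agent.ES.N34.GaussVTwoFam25

open Fermat.Agent.RED.PUR.GaussGen8 Fermat.Agent.RED.PUR.KtGauss8
open Fermat.Agent.ES.N34.GaussEmb22

/-! ### `V_q` and the Gauss ring -/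

section QExp

variable {K : Type*} [Field K] {O : ValuationSubring K} (q : ℕ) [NeZero q]

theorem embK_qExpand (a : LaurentSeries ↥O) :
    embK O (qExpand ↥O q a) = qExpand K q (embK O a) :=
  ModularCurve.coeffMap_qExpand _ q a

theorem redL_qExpand (a : LaurentSeries ↥O) :
    redL O (qExpand ↥O q a) = qExpand (Res O) q (redL O a) :=
  ModularCurve.coeffMap_qExpand _ q a

theorem isRep_qExpand {f : LaurentSeries K} {a s : LaurentSeries ↥O} (h : IsRep O f a s) :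
    IsRep O (qExpand K q f) (qExpand ↥O q a) (qExpand ↥O q s) := by
  refine ⟨?_, ?_⟩
  · rw [redL_qExpand]
    intro h0
    apply h.1
    apply qExpand_injective q
    rw [h0, map_zero]
  · rw [embK_qExpand, embK_qExpand, ← map_mul, h.2]

/-- The Gauss ring is stable under `V_q`. -/
theorem qExpand_mem_gaussRing {f : LaurentSeries K} (hf : f ∈ gaussRing O) :
    qExpand K q f ∈ gaussRing O := by
  obtain ⟨a, s, h⟩ := hf
  exact ⟨_, _, isRep_qExpand q h⟩

/-- The residue map commutes with `V_q`. -/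
theorem gaussRed_qExpand (f : ↥(gaussRing O)) (hf : qExpand K q (f : LaurentSeries K) ∈ gaussRing O) :
    gaussRed O ⟨qExpand K q (f : LaurentSeries K), hf⟩ = qExpand (Res O) q (gaussRed O f) := by
  obtain ⟨a, s, h⟩ := f.2
  rw [gaussRed_eq O (f := ⟨qExpand K q (f : LaurentSeries K), hf⟩) (isRep_qExpand q h),
    gaussRed_eq O h, redL_qExpand, redL_qExpand, map_div₀]

end QExp

/-! ### Separation of the powers of `J` over series in `𝐪^q` -/

section Sep

variable {k : Type*} [Field k] (q : ℕ) [NeZero q]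

/-- `∑_{i<q} V_q(z_i) J^i = 0`, `ord J` prime to `q` ⊢ all `z_i = 0`. -/
theorem eq_zero_of_sum_qExpand_mul_pow {J : LaurentSeries k} (hJ0 : J ≠ 0)
    (hJ : IsCoprime J.order (q : ℤ)) (z : Fin q → LaurentSeries k)
    (h : ∑ i, qExpand k q (z i) * J ^ (i : ℕ) = 0) : ∀ i, z i = 0 := by
  classical
  set c : ℕ → LaurentSeries k := fun i =>
    if hi : i < q then qExpand k q (z ⟨i, hi⟩) else 0 with hc
  have hcord : ∀ j, (q : ℤ) ∣ (c j).order := by
    intro j
    simp only [hc]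
    split_ifs with hj
    · exact Fermat.Agent.IG.PR.RamDeg25.dvd_order_qExpand q _
    · rw [order_zero]; exact dvd_zero _
  have hsum : ∑ j ∈ Finset.range q, c j * J ^ j = 0 := by
    rw [← h, Finset.sum_range]
    refine Finset.sum_congr rfl fun i _ => ?_
    simp only [hc, dif_pos i.2, Fin.eta]
  have := Fermat.Agent.RED.PUR.SepLaurent25.eq_zero_of_sum_mul_pow_eq_zero hJ0 hJ c hcord hsum
  intro i
  have hi := this i i.2
  simp only [hc, dif_pos i.2, Fin.eta] at hi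
  apply qExpand_injective q
  rw [hi, map_zero]

/-- **The `q · n` family, `V_q`-form.** -/
theorem linearIndependent_qExpand_mul_pow (L : IntermediateField k (LaurentSeries k)) {n : ℕ}
    (c : Fin n → LaurentSeries k) (hc : LinearIndependent ↥L c) {J : LaurentSeries k} (hJ0 : J ≠ 0)
    (hJ : IsCoprime J.order (q : ℤ)) :
    LinearIndependent ↥(L.map (qExpandAlgHomC k q))
      (fun p : Fin q × Fin n => J ^ (p.1 : ℕ) * qExpand k q (c p.2)) := by
  classical
  rw [Fintype.linearIndependent_iff]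
  intro g hg
  have hpre : ∀ p, ∃ y : ↥L,
      ((g p : ↥(L.map (qExpandAlgHomC k q))) : LaurentSeries k) = qExpand k q (y : LaurentSeries k) := by
    intro p
    obtain ⟨y, hy, hyx⟩ := (IntermediateField.mem_map _).mp (g p).2
    exact ⟨⟨y, hy⟩, hyx.symm⟩
  choose y hy using hpre
  have h1 : ∑ i : Fin q,
      qExpand k q (∑ j, ((y (i, j) : ↥L) : LaurentSeries k) * c j) * J ^ (i : ℕ) = 0 := by
    rw [← hg, Fintype.sum_prod_type]
    refine Finset.sum_congr rfl fun i _ => ?_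
    rw [map_sum, Finset.sum_mul]
    refine Finset.sum_congr rfl fun j _ => ?_
    rw [map_mul, ← hy]
    show _ = ((g (i, j) : ↥(L.map (qExpandAlgHomC k q))) : LaurentSeries k) *
      (J ^ (i : ℕ) * qExpand k q (c j))
    ring
  have h2 := eq_zero_of_sum_qExpand_mul_pow q hJ0 hJ _ h1
  rintro ⟨i, j⟩
  have h3 : ∑ j, y (i, j) • c j = 0 := h2 i
  have h4 := (Fintype.linearIndependent_iff.mp hc) (fun j => y (i, j)) h3 j
  apply Subtype.ext
  rw [hy, h4]
  simp

theorem map_adjoin_simple (T : LaurentSeries k) :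
    (k⟮T⟯).map (qExpandAlgHomC k q) = k⟮qExpand k q T⟯ := by
  rw [IntermediateField.adjoin_map, Set.image_singleton, qExpandAlgHomC_apply]

theorem transcendental_qExpand {T : LaurentSeries k} (hT : Transcendental k T) :
    Transcendental k (qExpand k q T) := by
  intro h
  apply hT
  have h1 : IsAlgebraic k (qExpandAlgHomC k q T) := h
  exact (isAlgebraic_algHom_iff (qExpandAlgHomC k q) (qExpand_injective q)).mp h1

end Sep

/-! ### Gauss pull-backs -/

variable {K : Type*} [Field K] {O : ValuationSubring K} [IsDiscreteValuationRing ↥O] {π : ↥O}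
  {F : Type*} [Field F] [Algebra K F]

section Pullback

variable {ι : F →ₐ[K] LaurentSeries K} {V : ValuationSubring F} {t : F}

/-- Elements of `K(ι t)` come from `K(t)`. -/
theorem exists_preimage_Kt (ht : ι t ∈ gaussRing O) {c : LaurentSeries K}
    (hc : c ∈ Kt O ⟨ι t, ht⟩) : ∃ a ∈ IntermediateField.adjoin K {t}, ι a = c := by
  have h1 : (IntermediateField.adjoin K {t}).map ι = IntermediateField.adjoin K {ι t} := by
    rw [IntermediateField.adjoin_map, Set.image_singleton]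
  have h2 : c ∈ (IntermediateField.adjoin K {t}).map ι := by
    rw [h1]; exact hc
  obtain ⟨a, ha, hac⟩ := (IntermediateField.mem_map _).mp h2
  exact ⟨a, ha, hac⟩

theorem redOf_mk (hV : IsGaussPullback O ι V) {x : F} (hx : x ∈ V) (hx' : ι x ∈ gaussRing O) :
    redOf hV ⟨x, hx⟩ = gaussRed O ⟨ι x, hx'⟩ := rfl

/-- **Converse of `GaussEmb22.elementwise_of_indep`.** -/
theorem indep_of_elementwise (hV : IsGaussPullback O ι V) (ht : ι t ∈ gaussRing O)
    (htr : Transcendental (Res O) (gaussRed O ⟨ι t, ht⟩)) {n : ℕ} (b : Fin n → F)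
    (hb : ∀ i, b i ∈ V)
    (he : ∀ a : Fin n → ↥(IntermediateField.adjoin K {t}),
      (∀ i, (V.comap (algebraMap (IntermediateField.adjoin K {t}) F)).valuation (a i) ≤ 1) →
      V.valuation (∑ i, algebraMap (IntermediateField.adjoin K {t}) F (a i) * b i) < 1 →
      ∀ i, (V.comap (algebraMap (IntermediateField.adjoin K {t}) F)).valuation (a i) < 1) :
    LinearIndependent ↥(kt O ⟨ι t, ht⟩) (fun i => redOf hV ⟨b i, hb i⟩) := by
  classical
  rw [Fintype.linearIndependent_iff]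
  intro g hg
  have hlift : ∀ i, ∃ a : ↥(IntermediateField.adjoin K {t}), ∃ haV : (a : F) ∈ V,
      redOf hV ⟨(a : F), haV⟩ = ((g i : ↥(kt O ⟨ι t, ht⟩)) : LaurentSeries (Res O)) := by
    intro i
    obtain ⟨c, hcKt, hcg, hred⟩ := exists_gaussRed_eq htr (g i).2
    obtain ⟨a, ha, rfl⟩ := exists_preimage_Kt ht hcKt
    exact ⟨⟨a, ha⟩, (hV a).mpr hcg, hred⟩
  choose a haV hared using hlift
  have h1 : ∀ i, (V.comap (algebraMap (IntermediateField.adjoin K {t}) F)).valuation (a i) ≤ 1 := by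
    intro i
    rw [Fermat.Agent.RED.PUR.UniqueExt20.comap_val_le_one_iff]
    exact (V.valuation_le_one_iff _).mpr (haV i)
  have hsumV : (∑ i, algebraMap (IntermediateField.adjoin K {t}) F (a i) * b i) ∈ V :=
    sum_mem fun i _ => mul_mem (haV i) (hb i)
  have h2 : redOf hV ⟨_, hsumV⟩ = 0 := by
    have hsum : (⟨_, hsumV⟩ : V) = ∑ i, (⟨(a i : F), haV i⟩ : V) * ⟨b i, hb i⟩ := by
      apply Subtype.ext
      push_cast
      rfl
    rw [hsum, map_sum, ← hg]
    refine Finset.sum_congr rfl fun i _ => ?_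
    rw [map_mul, hared]
    rfl
  have h3 := he a h1 ((redOf_eq_zero_iff hV _).mp h2)
  intro i
  have h4 : V.valuation ((a i : ↥(IntermediateField.adjoin K {t})) : F) < 1 :=
    (Fermat.Agent.RED.PUR.UniqueExt20.comap_val_lt_one_iff V _).mp (h3 i)
  have h5 : redOf hV ⟨_, haV i⟩ = 0 := (redOf_eq_zero_iff hV _).mpr h4
  apply Subtype.ext
  rw [← hared i, h5]
  rfl

end Pullback

/-! ### The isometry -/

section Isometry

variable {ι₁ ι₂ : F →ₐ[K] LaurentSeries K} {V₁ V₂ : ValuationSubring F} {t : F}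

/-- **(ISOMETRY)**: if `[F : K(t)] ≤ n` and `V₁` contains `n` elements with `κ(ι₁ t~)`-independent residues,
every other Gauss pull-back `V₂` (with `ι₂ t` in the Gauss ring, of transcendental residue) equals
`V₁`, and the `ι₂`-residues of the same elements are `κ(ι₂ t~)`-independent. -/
theorem isometry (hV₁ : IsGaussPullback O ι₁ V₁) (hV₂ : IsGaussPullback O ι₂ V₂)
    (hπ : Irreducible π)
    (ht₁ : ι₁ t ∈ gaussRing O) (htr₁ : Transcendental (Res O) (gaussRed O ⟨ι₁ t, ht₁⟩))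
    (ht₂ : ι₂ t ∈ gaussRing O) (htr₂ : Transcendental (Res O) (gaussRed O ⟨ι₂ t, ht₂⟩))
    [FiniteDimensional (IntermediateField.adjoin K {t}) F] {n : ℕ}
    (hn : Module.finrank (IntermediateField.adjoin K {t}) F ≤ n)
    (b : Fin n → F) (hb : ∀ i, b i ∈ V₁)
    (hli : LinearIndependent ↥(kt O ⟨ι₁ t, ht₁⟩) (fun i => redOf hV₁ ⟨b i, hb i⟩)) :
    V₂ = V₁ ∧ ∀ hb₂ : (∀ i, b i ∈ V₂),
      LinearIndependent ↥(kt O ⟨ι₂ t, ht₂⟩) (fun i => redOf hV₂ ⟨b i, hb₂ i⟩) := by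
  have hcomap := comap_eq hV₁ hV₂ hπ ht₁ htr₁ ht₂ htr₂
  have he := elementwise_of_indep hV₁ hπ ht₁ htr₁ b hb hli
  have heq : V₂ = V₁ :=
    Fermat.Agent.RED.PUR.UniqueExt20.eq_of_residually_independent hn V₁ V₂ hcomap b hb he
  refine ⟨heq, fun hb₂ => ?_⟩
  subst heq
  exact indep_of_elementwise hV₂ ht₂ htr₂ b hb₂ he

/-- Membership form of the isometry. -/
theorem isometry_mem_iff (hV₁ : IsGaussPullback O ι₁ V₁) (hV₂ : IsGaussPullback O ι₂ V₂)
    (hπ : Irreducible π)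
    (ht₁ : ι₁ t ∈ gaussRing O) (htr₁ : Transcendental (Res O) (gaussRed O ⟨ι₁ t, ht₁⟩))
    (ht₂ : ι₂ t ∈ gaussRing O) (htr₂ : Transcendental (Res O) (gaussRed O ⟨ι₂ t, ht₂⟩))
    [FiniteDimensional (IntermediateField.adjoin K {t}) F] {n : ℕ}
    (hn : Module.finrank (IntermediateField.adjoin K {t}) F ≤ n)
    (b : Fin n → F) (hb : ∀ i, b i ∈ V₁)
    (hli : LinearIndependent ↥(kt O ⟨ι₁ t, ht₁⟩) (fun i => redOf hV₁ ⟨b i, hb i⟩)) (x : F) :
    ι₁ x ∈ gaussRing O ↔ ι₂ x ∈ gaussRing O := by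
  have h := (isometry hV₁ hV₂ hπ ht₁ htr₁ ht₂ htr₂ hn b hb hli).1
  rw [← hV₁ x, ← hV₂ x, h]

/-- Transcendence of the residue does not depend on the expansion map (same valuation ring). -/
theorem transcendental_of_eq {V : ValuationSubring F} (hV₁ : IsGaussPullback O ι₁ V)
    (hV₂ : IsGaussPullback O ι₂ V) {x : F}
    (hx₁ : ι₁ x ∈ gaussRing O) (htr₁ : Transcendental (Res O) (gaussRed O ⟨ι₁ x, hx₁⟩))
    (hx₂ : ι₂ x ∈ gaussRing O) : Transcendental (Res O) (gaussRed O ⟨ι₂ x, hx₂⟩) := by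
  intro halg
  obtain ⟨P', hP'0, hP'⟩ := halg
  obtain ⟨P, rfl⟩ := Polynomial.map_surjective (res0 O) IsLocalRing.residue_surjective P'
  set z : F := aeval x (P.map O.subtype) with hz
  have hz₂ : ι₂ z = ((polyG O ⟨ι₂ x, hx₂⟩ P : ↥(gaussRing O)) : LaurentSeries K) := by
    rw [coe_polyG, hz, map_aeval]
  have hz₁ : ι₁ z = ((polyG O ⟨ι₁ x, hx₁⟩ P : ↥(gaussRing O)) : LaurentSeries K) := by
    rw [coe_polyG, hz, map_aeval]
  have hzV : z ∈ V := by
    rw [hV₂ z, hz₂]; exact (polyG O ⟨ι₂ x, hx₂⟩ P).2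
  have h2 : redOf hV₂ ⟨z, hzV⟩ = 0 := by
    have h3 : toGauss hV₂ ⟨z, hzV⟩ = polyG O ⟨ι₂ x, hx₂⟩ P := Subtype.ext hz₂
    rw [redOf_apply, h3, gaussRed_polyG]
    exact hP'
  have h1 : redOf hV₁ ⟨z, hzV⟩ = 0 :=
    (redOf_eq_zero_iff hV₁ _).mpr ((redOf_eq_zero_iff hV₂ _).mp h2)
  have h4 : toGauss hV₁ ⟨z, hzV⟩ = polyG O ⟨ι₁ x, hx₁⟩ P := Subtype.ext hz₁
  rw [redOf_apply, h4, gaussRed_polyG] at h1
  exact htr₁ ⟨P.map (res0 O), hP'0, h1⟩

/-- **(s1) from a parameter `j`**: if the isometry hypotheses hold for SOME parameter `j` (e.g. the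
`j`-invariant, whose two expansions are explicit), then every `t` whose `ι₁`-expansion lies in the Gauss
ring with transcendental residue has the same property for `ι₂`. -/
theorem s1_of_param (hV₁ : IsGaussPullback O ι₁ V₁) (hV₂ : IsGaussPullback O ι₂ V₂)
    (hπ : Irreducible π) {j : F}
    (hj₁ : ι₁ j ∈ gaussRing O) (hjtr₁ : Transcendental (Res O) (gaussRed O ⟨ι₁ j, hj₁⟩))
    (hj₂ : ι₂ j ∈ gaussRing O) (hjtr₂ : Transcendental (Res O) (gaussRed O ⟨ι₂ j, hj₂⟩))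
    [FiniteDimensional (IntermediateField.adjoin K {j}) F] {m : ℕ}
    (hm : Module.finrank (IntermediateField.adjoin K {j}) F ≤ m)
    (bj : Fin m → F) (hbj : ∀ i, bj i ∈ V₁)
    (hlij : LinearIndependent ↥(kt O ⟨ι₁ j, hj₁⟩) (fun i => redOf hV₁ ⟨bj i, hbj i⟩))
    (ht₁ : ι₁ t ∈ gaussRing O) (htr₁ : Transcendental (Res O) (gaussRed O ⟨ι₁ t, ht₁⟩)) :
    ∃ ht₂ : ι₂ t ∈ gaussRing O, Transcendental (Res O) (gaussRed O ⟨ι₂ t, ht₂⟩) := by
  obtain ⟨heq, -⟩ := isometry hV₁ hV₂ hπ hj₁ hjtr₁ hj₂ hjtr₂ hm bj hbj hlij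
  subst heq
  have ht₂ : ι₂ t ∈ gaussRing O := (hV₂ t).mp ((hV₁ t).mpr ht₁)
  exact ⟨ht₂, transcendental_of_eq hV₁ hV₂ ht₁ htr₁ ht₂⟩

end Isometry

/-! ### The `q · n` family of a Gauss pull-back -/

section Family

variable {ι : F →ₐ[K] LaurentSeries K} {V : ValuationSubring F} {t : F}

/-- **(FAMILY), `V_q`-form.**  `ι t = V_q(s)`, `ι (a j) = V_q(c j)` with `c j~` independent over `κ(s~)`,
`ι w` in the Gauss ring with residue of order prime to `q`: the `q · n` elements `w^i · a_j` of `V`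
have `κ(ι t~)`-independent residues. -/
theorem family_sep (q : ℕ) [NeZero q] (hV : IsGaussPullback O ι V) (sG : ↥(gaussRing O))
    (hts : ι t = qExpand K q (sG : LaurentSeries K)) (ht : ι t ∈ gaussRing O)
    {w : F} (hw : ι w ∈ gaussRing O) (hJ0 : gaussRed O ⟨ι w, hw⟩ ≠ 0)
    (hJ : IsCoprime (gaussRed O ⟨ι w, hw⟩).order (q : ℤ))
    {n : ℕ} (c : Fin n → ↥(gaussRing O))
    (hli : LinearIndependent ↥(kt O sG) (fun j => gaussRed O (c j)))
    (a : Fin n → F) (ha : ∀ j, ι (a j) = qExpand K q (c j : LaurentSeries K)) :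
    ∃ hb : ∀ p : Fin q × Fin n, w ^ (p.1 : ℕ) * a p.2 ∈ V,
      LinearIndependent ↥(kt O ⟨ι t, ht⟩)
        (fun p : Fin q × Fin n => redOf hV ⟨w ^ (p.1 : ℕ) * a p.2, hb p⟩) := by
  have haV : ∀ j, a j ∈ V := fun j => by
    rw [hV, ha]; exact qExpand_mem_gaussRing q (c j).2
  have hwV : w ∈ V := (hV w).mpr hw
  have hb : ∀ p : Fin q × Fin n, w ^ (p.1 : ℕ) * a p.2 ∈ V := fun p =>
    mul_mem (pow_mem hwV _) (haV _)
  refine ⟨hb, ?_⟩
  have hli' := linearIndependent_qExpand_mul_pow q (kt O sG) (fun j => gaussRed O (c j)) hli hJ0 hJ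
  have hkt : kt O ⟨ι t, ht⟩ = (kt O sG).map (qExpandAlgHomC (Res O) q) := by
    show (Res O)⟮gaussRed O ⟨ι t, ht⟩⟯ = ((Res O)⟮gaussRed O sG⟯).map (qExpandAlgHomC (Res O) q)
    rw [map_adjoin_simple]
    congr 2
    have h1 : (⟨ι t, ht⟩ : ↥(gaussRing O)) =
        ⟨qExpand K q (sG : LaurentSeries K), qExpand_mem_gaussRing q sG.2⟩ := Subtype.ext hts
    rw [h1, gaussRed_qExpand]
  rw [hkt]
  convert hli' using 1
  funext p
  have h2 : redOf hV ⟨w ^ (p.1 : ℕ) * a p.2, hb p⟩ =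
      redOf hV ⟨w, hwV⟩ ^ (p.1 : ℕ) * redOf hV ⟨a p.2, haV p.2⟩ := by
    rw [← map_pow, ← map_mul]
    rfl
  rw [h2]
  congr 1
  have h3 : toGauss hV ⟨a p.2, haV p.2⟩ =
      ⟨qExpand K q (c p.2 : LaurentSeries K), qExpand_mem_gaussRing q (c p.2).2⟩ :=
    Subtype.ext (ha p.2)
  rw [redOf_apply, h3, gaussRed_qExpand]

/-- `family_sep`, reindexed by `Fin (q * n)`: literally `b₂, hb₂, hli₂` of `G2Glue22.sat`. -/
theorem family_sep_fin (q : ℕ) [NeZero q] (hV : IsGaussPullback O ι V) (sG : ↥(gaussRing O))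
    (hts : ι t = qExpand K q (sG : LaurentSeries K)) (ht : ι t ∈ gaussRing O)
    {w : F} (hw : ι w ∈ gaussRing O) (hJ0 : gaussRed O ⟨ι w, hw⟩ ≠ 0)
    (hJ : IsCoprime (gaussRed O ⟨ι w, hw⟩).order (q : ℤ))
    {n : ℕ} (c : Fin n → ↥(gaussRing O))
    (hli : LinearIndependent ↥(kt O sG) (fun j => gaussRed O (c j)))
    (a : Fin n → F) (ha : ∀ j, ι (a j) = qExpand K q (c j : LaurentSeries K)) :
    ∃ hb : ∀ k : Fin (q * n),
        w ^ ((finProdFinEquiv.symm k).1 : ℕ) * a (finProdFinEquiv.symm k).2 ∈ V,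
      LinearIndependent ↥(kt O ⟨ι t, ht⟩)
        (fun k : Fin (q * n) =>
          redOf hV ⟨w ^ ((finProdFinEquiv.symm k).1 : ℕ) * a (finProdFinEquiv.symm k).2, hb k⟩) := by
  obtain ⟨hb, hli'⟩ := family_sep q hV sG hts ht hw hJ0 hJ c hli a ha
  exact ⟨fun k => hb (finProdFinEquiv.symm k),
    hli'.comp finProdFinEquiv.symm finProdFinEquiv.symm.injective⟩

/-- **(FAMILY), Frobenius form.**  `(ι t)~ = u · ((ι y)~)^q` with `u ∈ κ^×`, `ord (ι y)~` prime to `q`,
`c_j ∈ V` with residues independent over `κ((ι y)~)`: the `q · n` elements `y^i · c_j` of `V` have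
`κ(ι t~)`-independent residues. -/
theorem family_frob (q : ℕ) [hq : Fact q.Prime] [CharP (Res O) q] (hV : IsGaussPullback O ι V)
    (ht : ι t ∈ gaussRing O) {y : F} (hy : ι y ∈ gaussRing O) {u : Res O} (hu : u ≠ 0)
    (hfrob : gaussRed O ⟨ι t, ht⟩ = HahnSeries.C u * gaussRed O ⟨ι y, hy⟩ ^ q)
    (hT0 : gaussRed O ⟨ι y, hy⟩ ≠ 0) (hT : IsCoprime (gaussRed O ⟨ι y, hy⟩).order (q : ℤ))
    {n : ℕ} (c : Fin n → F) (hc : ∀ j, c j ∈ V)
    (hli : LinearIndependent ↥(kt O ⟨ι y, hy⟩) (fun j => redOf hV ⟨c j, hc j⟩)) :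
    ∃ hb : ∀ p : Fin q × Fin n, y ^ (p.1 : ℕ) * c p.2 ∈ V,
      LinearIndependent ↥(kt O ⟨ι t, ht⟩)
        (fun p : Fin q × Fin n => redOf hV ⟨y ^ (p.1 : ℕ) * c p.2, hb p⟩) := by
  have hyV : y ∈ V := (hV y).mpr hy
  have hb : ∀ p : Fin q × Fin n, y ^ (p.1 : ℕ) * c p.2 ∈ V := fun p =>
    mul_mem (pow_mem hyV _) (hc _)
  refine ⟨hb, ?_⟩
  have hli' := FrobFamily25.linearIndependent_pow_mul q hT0 hT
    (fun j => redOf hV ⟨c j, hc j⟩) hli
  have hkt : kt O ⟨ι t, ht⟩ = (Res O)⟮gaussRed O ⟨ι y, hy⟩ ^ q⟯ := by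
    show (Res O)⟮gaussRed O ⟨ι t, ht⟩⟯ = _
    have hC : (HahnSeries.C u : LaurentSeries (Res O)) = algebraMap (Res O) _ u :=
      (algebraMap_eq_C u).symm
    rw [hfrob, hC]
    apply le_antisymm
    · rw [adjoin_simple_le_iff]
      exact mul_mem (IntermediateField.algebraMap_mem _ u) (mem_adjoin_simple_self _ _)
    · rw [adjoin_simple_le_iff]
      have hmem := mul_mem
        (IntermediateField.algebraMap_mem
          (Res O)⟮algebraMap (Res O) (LaurentSeries (Res O)) u * gaussRed O ⟨ι y, hy⟩ ^ q⟯ u⁻¹)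
        (mem_adjoin_simple_self (Res O)
          (algebraMap (Res O) (LaurentSeries (Res O)) u * gaussRed O ⟨ι y, hy⟩ ^ q))
      rwa [← mul_assoc, ← map_mul, inv_mul_cancel₀ hu, map_one, one_mul] at hmem
  rw [hkt]
  convert hli' using 1
  funext p
  have h2 : redOf hV ⟨y ^ (p.1 : ℕ) * c p.2, hb p⟩ =
      redOf hV ⟨y, hyV⟩ ^ (p.1 : ℕ) * redOf hV ⟨c p.2, hc p.2⟩ := by
    rw [← map_pow, ← map_mul]
    rfl
  rw [h2]
  rfl

end Family

/-! ### Two levels -/

section TwoLevel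

variable {FM : Type*} [Field FM] [Algebra K FM]
  {ι₁ ι₂ : FM →ₐ[K] LaurentSeries K} {V₁ V₂ : ValuationSubring FM} {tM : FM}
  {ι : F →ₐ[K] LaurentSeries K} {V : ValuationSubring F}

/-- **(V2c)**: good level `FM` with its two expansions `ι₁` (at `∞`), `ι₂` (at `0`); bad level `F` with
the expansion `ι` at `0`; `α : FM → F` with `ι (α x) = V_q (ι₂ x)`; an `Irr`-family `b` of the good
level for `ι₁` of full size `n ≥ [FM : K(tM)]`; `w ∈ F` with `ι w` in the Gauss ring of residue order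
prime to `q`.  Then the `q · n` elements `w^i · α(b_j)` lie in `V` and their residues are independent
over `κ((ι (α tM))~)`. -/
theorem family_two_level (q : ℕ) [NeZero q] (hπ : Irreducible π)
    (hV₁ : IsGaussPullback O ι₁ V₁) (hV₂ : IsGaussPullback O ι₂ V₂)
    (ht₁ : ι₁ tM ∈ gaussRing O) (htr₁ : Transcendental (Res O) (gaussRed O ⟨ι₁ tM, ht₁⟩))
    (ht₂ : ι₂ tM ∈ gaussRing O) (htr₂ : Transcendental (Res O) (gaussRed O ⟨ι₂ tM, ht₂⟩))
    [FiniteDimensional (IntermediateField.adjoin K {tM}) FM] {n : ℕ}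
    (hn : Module.finrank (IntermediateField.adjoin K {tM}) FM ≤ n)
    (b : Fin n → FM) (hb : ∀ i, b i ∈ V₁)
    (hli : LinearIndependent ↥(kt O ⟨ι₁ tM, ht₁⟩) (fun i => redOf hV₁ ⟨b i, hb i⟩))
    (hV : IsGaussPullback O ι V) (α : FM → F)
    (hα : ∀ x : FM, ι (α x) = qExpand K q (ι₂ x))
    (ht : ι (α tM) ∈ gaussRing O)
    {w : F} (hw : ι w ∈ gaussRing O) (hJ0 : gaussRed O ⟨ι w, hw⟩ ≠ 0)
    (hJ : IsCoprime (gaussRed O ⟨ι w, hw⟩).order (q : ℤ)) :
    ∃ hb₂ : ∀ k : Fin (q * n),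
        w ^ ((finProdFinEquiv.symm k).1 : ℕ) * α (b (finProdFinEquiv.symm k).2) ∈ V,
      LinearIndependent ↥(kt O ⟨ι (α tM), ht⟩)
        (fun k : Fin (q * n) =>
          redOf hV ⟨w ^ ((finProdFinEquiv.symm k).1 : ℕ) * α (b (finProdFinEquiv.symm k).2),
            hb₂ k⟩) := by
  obtain ⟨heq, hind⟩ := isometry hV₁ hV₂ hπ ht₁ htr₁ ht₂ htr₂ hn b hb hli
  have hb₂ : ∀ i, b i ∈ V₂ := fun i => by rw [heq]; exact hb i
  have hli₂ := hind hb₂
  exact family_sep_fin q hV ⟨ι₂ tM, ht₂⟩ (hα tM) ht hw hJ0 hJ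
    (fun j => toGauss hV₂ ⟨b j, hb₂ j⟩) hli₂ (fun j => α (b j)) (fun j => hα (b j))

/-- **(V2c), packaged**: as `family_two_level`, but (s1) for `tM` is DERIVED from the isometry hypotheses
for an auxiliary parameter `j` of the good level; the output contains everything `G2Glue22.sat`
needs about the second Gauss pull-back of the bad level (`ht₂`, `htr₂`, `b₂`, `hb₂`, `hli₂`). -/
theorem family_two_level_of_param (q : ℕ) [NeZero q] (hπ : Irreducible π)
    (hV₁ : IsGaussPullback O ι₁ V₁) (hV₂ : IsGaussPullback O ι₂ V₂) {j : FM}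
    (hj₁ : ι₁ j ∈ gaussRing O) (hjtr₁ : Transcendental (Res O) (gaussRed O ⟨ι₁ j, hj₁⟩))
    (hj₂ : ι₂ j ∈ gaussRing O) (hjtr₂ : Transcendental (Res O) (gaussRed O ⟨ι₂ j, hj₂⟩))
    [FiniteDimensional (IntermediateField.adjoin K {j}) FM] {m : ℕ}
    (hm : Module.finrank (IntermediateField.adjoin K {j}) FM ≤ m)
    (bj : Fin m → FM) (hbj : ∀ i, bj i ∈ V₁)
    (hlij : LinearIndependent ↥(kt O ⟨ι₁ j, hj₁⟩) (fun i => redOf hV₁ ⟨bj i, hbj i⟩))
    (ht₁ : ι₁ tM ∈ gaussRing O) (htr₁ : Transcendental (Res O) (gaussRed O ⟨ι₁ tM, ht₁⟩))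
    [FiniteDimensional (IntermediateField.adjoin K {tM}) FM] {n : ℕ}
    (hn : Module.finrank (IntermediateField.adjoin K {tM}) FM ≤ n)
    (b : Fin n → FM) (hb : ∀ i, b i ∈ V₁)
    (hli : LinearIndependent ↥(kt O ⟨ι₁ tM, ht₁⟩) (fun i => redOf hV₁ ⟨b i, hb i⟩))
    (hV : IsGaussPullback O ι V) (α : FM → F)
    (hα : ∀ x : FM, ι (α x) = qExpand K q (ι₂ x))
    {w : F} (hw : ι w ∈ gaussRing O) (hJ0 : gaussRed O ⟨ι w, hw⟩ ≠ 0)
    (hJ : IsCoprime (gaussRed O ⟨ι w, hw⟩).order (q : ℤ)) :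
    ∃ (ht : ι (α tM) ∈ gaussRing O)
      (_ : Transcendental (Res O) (gaussRed O ⟨ι (α tM), ht⟩))
      (hb₂ : ∀ k : Fin (q * n),
        w ^ ((finProdFinEquiv.symm k).1 : ℕ) * α (b (finProdFinEquiv.symm k).2) ∈ V),
      LinearIndependent ↥(kt O ⟨ι (α tM), ht⟩)
        (fun k : Fin (q * n) =>
          redOf hV ⟨w ^ ((finProdFinEquiv.symm k).1 : ℕ) * α (b (finProdFinEquiv.symm k).2),
            hb₂ k⟩) := by
  obtain ⟨ht₂, htr₂⟩ := s1_of_param hV₁ hV₂ hπ hj₁ hjtr₁ hj₂ hjtr₂ hm bj hbj hlij ht₁ htr₁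
  have ht : ι (α tM) ∈ gaussRing O := by
    rw [hα]; exact qExpand_mem_gaussRing q ht₂
  have htr : Transcendental (Res O) (gaussRed O ⟨ι (α tM), ht⟩) := by
    have h1 : (⟨ι (α tM), ht⟩ : ↥(gaussRing O)) =
        ⟨qExpand K q ((⟨ι₂ tM, ht₂⟩ : ↥(gaussRing O)) : LaurentSeries K),
          qExpand_mem_gaussRing q ht₂⟩ := Subtype.ext (hα tM)
    rw [h1, gaussRed_qExpand]
    exact transcendental_qExpand q htr₂
  obtain ⟨hb₂, hli₂⟩ := family_two_level q hπ hV₁ hV₂ ht₁ htr₁ ht₂ htr₂ hn b hb hli hV α hα ht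
    hw hJ0 hJ
  exact ⟨ht, htr, hb₂, hli₂⟩

end TwoLevel

end Fermat.Agent.ES.N34.GaussVTwoFam25
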