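/-
Program N (S34), MODEL, brick V2 / (ISO) (helper25): **the Fricke involution of a GOOD level is a Gauss
isometry.**

`A` a valuation subring of `ℚ̄`, `K ⊂ ℚ̄`, `O := AK A K` a DVR with uniformiser `π` and residue
characteristic `q`, `M` a level with `q ∤ M`, `W_M := FrickeFK8.frickeFK M K` the `K`-rational Fricke
involution of `FK M K = K(j(𝐪^d) : d ∣ M) ⊂ K((𝐪))`.  Then for every `x : FK M K`

  `isoM : ↑x ∈ gaussRing O ↔ ↑(W_M x) ∈ gaussRing O`

(no `K₀`, no other hypothesis), `gaussRed_frickeFK_eq_zero_iff` (the maximal ideals correspond) and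
`transcendental_frickeFK` (transcendence of the residue is preserved).

Proof: `GaussVTwoFam25.isometry` (`UniqueExt20` + `GaussEmb22.comap_eq`) for the parameter `j = x_1`:
`ι₁ j = j(𝐪)`, `ι₂ j = ↑(W_M x_1) = j(𝐪^M)` (`frickeFK_xdL`) lie in the Gauss ring with transcendental
residues `j~(𝐪)`, `j~(𝐪^M)`, and Program H's (G1) at the parameter `j`
(`GaussInstN25.degLe_irr_laurentBaseChange`, Igusa: `[κ(j~(𝐪^d)) : κ(j~)] = ψ(M) = [FK M K : K(j)]`) gives
`ψ(M)` elements of the Gauss ring of `FK M K` with `κ(j~)`-independent residues.  No cusp expansion of a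
Hauptmodul is needed.

Also exported (for `GaussVTwoInst25`): `iotaAlg` (`= val ∘ W_M` as a `K`-algebra hom, any level),
`O2N`, `isGaussPullback_O1N/O2N`, `jN`, `jTop` and their two expansions, residues of `j(𝐪^d)`.
-/
import Mathlib
import Fermat.Agent.ES.N34.FrickeFK8
import Fermat.Agent.ES.N34.GaussVTwoFam25
import Fermat.Agent.ES.N34.G2Out22
import Fermat.Agent.RED.PUR.GaussInstN25

set_option autoImplicit false
set_option linter.unusedSectionVars false

noncomputable section

open HahnSeries ModularCurve IntermediateField Polynomial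

namespace Fermat.Agent.ES.N34.IsoM25

open Fermat.Agent.RED.Interface4 Fermat.Agent.RED.PUR.GaussGen8 Fermat.Agent.RED.PUR.KtGauss8
open Fermat.Agent.RED.PUR.G1Package8 Fermat.Agent.RED.PUR.GaussBridge10
open Fermat.Agent.ES.N34.GaussEmb22 Fermat.Agent.ES.N34.FrickeFK8

set_option synthInstance.maxHeartbeats 400000
set_option maxHeartbeats 1000000

/-! ### The cusp-`0` expansion as a `K`-algebra homomorphism, any level -/

section Level

variable (N : ℕ) [NeZero N] (K : IntermediateField ℚ Qbar)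

/-- `iotaTwo` as a `K`-algebra homomorphism. -/
def iotaAlg : FK N K →ₐ[K] LaurentSeries K := (FK N K).val.comp (frickeFK N K)

theorem iotaAlg_apply (x : FK N K) :
    iotaAlg N K x = ((frickeFK N K x : FK N K) : LaurentSeries K) := rfl

theorem iotaAlg_eq_iotaTwo (x : FK N K) : iotaAlg N K x = iotaTwo N K x := rfl

theorem iotaAlg_xdL (d e : ℕ) [NeZero d] [NeZero e] (hde : d * e = N) :
    iotaAlg N K (xdL N K d (Dvd.intro _ hde)) = qExpand K e (jqModC K) :=
  iotaTwo_xdL N K d e hde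

variable (A : ValuationSubring Qbar) {π : ↥(AK A K)}

/-- The second Gauss valuation ring at level `N`: `W_N⁻¹` of the first. -/
def O2N (hπ : IsUnif (AK A K) π) : ValuationSubring ↥(FK N K) :=
  (gaussVS hπ (FK N K) (FK_le_fracField A K N)).comap (frickeFK N K).toRingHom

theorem isGaussPullback_O2N (hπ : IsUnif (AK A K) π) :
    IsGaussPullback (AK A K) (iotaAlg N K) (O2N N K A hπ) := fun _ => Iff.rfl

theorem isGaussPullback_O1N (hπ : IsUnif (AK A K) π) :
    IsGaussPullback (AK A K) (FK N K).val (gaussVS hπ (FK N K) (FK_le_fracField A K N)) :=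
  fun _ => Iff.rfl

end Level

/-! ### From `DegLe`/`Irr` to the hypotheses of `GaussVTwoFam25` -/

section Convert

variable {L : Type*} [Field L] [CharZero L] {O : ValuationSubring L} [IsDiscreteValuationRing ↥O]
  {π : ↥O}
  {E : IntermediateField L (LaurentSeries L)}

/-- The `Irr`-family as a family of elements of `OvE` with independent residues. -/
theorem exists_family_of_irr (hπ : Irreducible π) (hE : E ≤ fracField O) (t : ↥E)
    (ht : (t : LaurentSeries L) ∈ gaussRing O) {n : ℕ}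
    (hirr : Irr O E ⟨(t : LaurentSeries L), ht⟩ n) :
    ∃ (b : Fin n → ↥E) (hb : ∀ i, b i ∈ OvE O hπ E hE),
      LinearIndependent ↥(kt O ⟨E.val t, ht⟩)
        (fun i => redOf (G2Out22.isGaussPullback_OvE hπ hE) ⟨b i, hb i⟩) := by
  obtain ⟨e, heE, hli⟩ := hirr
  exact ⟨fun i => ⟨(e i : LaurentSeries L), heE i⟩,
    fun i => (mem_OvE_iff O hπ E hE _).mpr (e i).2, hli⟩

theorem finite_of_relfinrank (t : ↥E) (ht : (t : LaurentSeries L) ∈ gaussRing O)
    (hn : relfinrank (Kt O ⟨(t : LaurentSeries L), ht⟩) E ≠ 0) :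
    FiniteDimensional ↥(IntermediateField.adjoin L {t}) ↥E :=
  Fermat.Agent.RED.ModelAsm4.finiteDimensional_adjoin t hn

theorem finrank_eq_relfinrank (t : ↥E) (ht : (t : LaurentSeries L) ∈ gaussRing O) :
    Module.finrank ↥(IntermediateField.adjoin L {t}) ↥E =
      relfinrank (Kt O ⟨(t : LaurentSeries L), ht⟩) E :=
  Fermat.Agent.RED.ModelAsm4.finrank_adjoin_eq_relfinrank t

end Convert

/-! ### The generator `j` and its two expansions -/

section JGen

variable (K : IntermediateField ℚ Qbar) (N : ℕ) [NeZero N]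

/-- `j = x_1` as an element of `FK N K`. -/
def jN : FK N K := xdL N K 1 (one_dvd N)

theorem val_jN : (FK N K).val (jN K N) = qExpand K 1 (jqModC K) := rfl

theorem iotaAlg_jN : iotaAlg N K (jN K N) = qExpand K N (jqModC K) :=
  iotaAlg_xdL N K 1 N (one_mul N)

/-- `x_N = j(𝐪^N)` as an element of `FK N K`. -/
def jTop : FK N K := xdL N K N (dvd_refl N)

theorem val_jTop : (FK N K).val (jTop K N) = qExpand K N (jqModC K) := rfl

theorem iotaAlg_jTop : iotaAlg N K (jTop K N) = qExpand K 1 (jqModC K) :=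
  iotaAlg_xdL N K N 1 (mul_one N)

end JGen

section Residues

variable {L : Type*} [Field L] (O : ValuationSubring L)

theorem transcendental_gaussRed_jqd (d : ℕ) [NeZero d] :
    Transcendental (Res O) (gaussRed O ⟨qExpand L d (jqModC L), jqd_mem_gaussRing O d⟩) := by
  rw [gaussRed_jqd]
  exact GaussVTwoFam25.transcendental_qExpand d
    (Fermat.Agent.IG.VAL.OvBasics22.transcendental_jqModC (Res O))

theorem order_gaussRed_jqd (d : ℕ) [NeZero d] :
    (gaussRed O ⟨qExpand L d (jqModC L), jqd_mem_gaussRing O d⟩).order = -(d : ℤ) := by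
  rw [gaussRed_jqd, Fermat.Agent.IG.PR.ThetaV1.order_qExpand,
    Fermat.Agent.IG.AN.ModPoly3.order_jqModC]
  ring

theorem gaussRed_jqd_ne_zero (d : ℕ) [NeZero d] :
    gaussRed O ⟨qExpand L d (jqModC L), jqd_mem_gaussRing O d⟩ ≠ 0 := by
  intro h
  have := order_gaussRed_jqd O d
  rw [h, order_zero] at this
  have hd : (d : ℤ) ≠ 0 := by exact_mod_cast NeZero.ne d
  omega

end Residues

/-! ### The isometry -/

section Iso

variable (A : ValuationSubring Qbar) (K : IntermediateField ℚ Qbar) (M q : ℕ) [NeZero M]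
  [hq : Fact q.Prime] [IsDiscreteValuationRing ↥(AK A K)] [CharP (Res (AK A K)) q]
  {π : ↥(AK A K)}

/-- **The two Gauss valuation rings of a good level coincide.** -/
theorem O2N_eq_OvE (hπ : Irreducible π) (hqM : ¬ q ∣ M) :
    O2N M K A (isUnif_of_irreducible (AK A K) hπ) =
      OvE (AK A K) hπ (FK M K) (FK_le_fracField A K M) := by
  classical
  have hπu := isUnif_of_irreducible (AK A K) hπ
  have hEM := FK_le_fracField A K M
  have hV₁ : IsGaussPullback (AK A K) (FK M K).val (OvE (AK A K) hπ (FK M K) hEM) :=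
    G2Out22.isGaussPullback_OvE hπ hEM
  have hV₂ := isGaussPullback_O2N M K A hπu
  have hj₁ : (FK M K).val (jN K M) ∈ gaussRing (AK A K) := jqd_mem_gaussRing (AK A K) 1
  have hjtr₁ : Transcendental (Res (AK A K))
      (gaussRed (AK A K) ⟨(FK M K).val (jN K M), hj₁⟩) :=
    transcendental_gaussRed_jqd (AK A K) 1
  have hj₂ : iotaAlg M K (jN K M) ∈ gaussRing (AK A K) := by
    rw [iotaAlg_jN]; exact jqd_mem_gaussRing (AK A K) M
  have hjtr₂ : Transcendental (Res (AK A K))
      (gaussRed (AK A K) ⟨iotaAlg M K (jN K M), hj₂⟩) := by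
    have h1 : (⟨iotaAlg M K (jN K M), hj₂⟩ : ↥(gaussRing (AK A K))) =
        ⟨qExpand K M (jqModC K), jqd_mem_gaussRing (AK A K) M⟩ :=
      Subtype.ext (iotaAlg_jN K M)
    rw [h1]
    exact transcendental_gaussRed_jqd (AK A K) M
  have hjj : jqModC (↥K) ∈
      Kt (AK A K) ⟨qExpand K 1 (jqModC K), jqd_mem_gaussRing (AK A K) 1⟩ := by
    show jqModC (↥K) ∈ (↥K)⟮qExpand K 1 (jqModC K)⟯
    rw [qExpand_one_apply]
    exact mem_adjoin_simple_self _ _
  obtain ⟨hmj0, -, hirrj⟩ := Fermat.Agent.RED.PUR.GaussInstN25.degLe_irr_laurentBaseChange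
    (AK A K) hπ q M hqM ⟨qExpand K 1 (jqModC K), jqd_mem_gaussRing (AK A K) 1⟩ (jN K M).2 hjj
  have := finite_of_relfinrank (jN K M) hj₁ hmj0
  have hmj := (finrank_eq_relfinrank (O := AK A K) (jN K M) hj₁).le
  obtain ⟨bj, hbj, hlij⟩ := exists_family_of_irr hπ hEM (jN K M) hj₁ hirrj
  exact (GaussVTwoFam25.isometry hV₁ hV₂ hπ hj₁ hjtr₁ hj₂ hjtr₂ hmj bj hbj hlij).1

/-- **(ISO)**: `W_M` preserves the Gauss ring. -/
theorem isoM (hπ : Irreducible π) (hqM : ¬ q ∣ M) (x : FK M K) :
    (x : LaurentSeries K) ∈ gaussRing (AK A K) ↔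
      ((frickeFK M K x : FK M K) : LaurentSeries K) ∈ gaussRing (AK A K) := by
  have h := O2N_eq_OvE A K M q hπ hqM
  have h1 : x ∈ OvE (AK A K) hπ (FK M K) (FK_le_fracField A K M) ↔
      x ∈ O2N M K A (isUnif_of_irreducible (AK A K) hπ) := by rw [h]
  exact h1

/-- `IsGaussPullback` of the first ring along the SECOND expansion. -/
theorem isGaussPullback_OvE_iotaAlg (hπ : Irreducible π) (hqM : ¬ q ∣ M) :
    IsGaussPullback (AK A K) (iotaAlg M K) (OvE (AK A K) hπ (FK M K) (FK_le_fracField A K M)) := by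
  rw [← O2N_eq_OvE A K M q hπ hqM]
  exact isGaussPullback_O2N M K A _

/-- The maximal ideals correspond. -/
theorem gaussRed_frickeFK_eq_zero_iff (hπ : Irreducible π) (hqM : ¬ q ∣ M) (x : FK M K)
    (hx : (x : LaurentSeries K) ∈ gaussRing (AK A K))
    (hx' : ((frickeFK M K x : FK M K) : LaurentSeries K) ∈ gaussRing (AK A K)) :
    gaussRed (AK A K) ⟨(x : LaurentSeries K), hx⟩ = 0 ↔
      gaussRed (AK A K) ⟨((frickeFK M K x : FK M K) : LaurentSeries K), hx'⟩ = 0 := by
  have hV₁ : IsGaussPullback (AK A K) (FK M K).val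
      (OvE (AK A K) hπ (FK M K) (FK_le_fracField A K M)) :=
    G2Out22.isGaussPullback_OvE hπ _
  have hV₂ := isGaussPullback_OvE_iotaAlg A K M q hπ hqM
  have hxV : x ∈ OvE (AK A K) hπ (FK M K) (FK_le_fracField A K M) := (hV₁ x).mpr hx
  exact (redOf_eq_zero_iff hV₁ ⟨x, hxV⟩).trans (redOf_eq_zero_iff hV₂ ⟨x, hxV⟩).symm

/-- Transcendence of the residue is preserved by `W_M`. -/
theorem transcendental_frickeFK (hπ : Irreducible π) (hqM : ¬ q ∣ M) (x : FK M K)
    (hx : (x : LaurentSeries K) ∈ gaussRing (AK A K))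
    (htr : Transcendental (Res (AK A K)) (gaussRed (AK A K) ⟨(x : LaurentSeries K), hx⟩))
    (hx' : ((frickeFK M K x : FK M K) : LaurentSeries K) ∈ gaussRing (AK A K)) :
    Transcendental (Res (AK A K))
      (gaussRed (AK A K) ⟨((frickeFK M K x : FK M K) : LaurentSeries K), hx'⟩) := by
  have hV₁ : IsGaussPullback (AK A K) (FK M K).val
      (OvE (AK A K) hπ (FK M K) (FK_le_fracField A K M)) :=
    G2Out22.isGaussPullback_OvE hπ _
  have hV₂ := isGaussPullback_OvE_iotaAlg A K M q hπ hqM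
  exact GaussVTwoFam25.transcendental_of_eq hV₁ hV₂ (x := x) hx htr hx'

end Iso

end Fermat.Agent.ES.N34.IsoM25
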