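/-
Program N (S34), MODEL, brick (G2-v1), helper25.

The FIRST Gauss valuation `v1` (q-expansion at `∞`) at the BAD level `N' = M * q`, `q` prime,
`q ∤ M`, residue characteristic `q`, in Program H's GAUSS vocabulary
(`GaussGen8` / `KtGauss8` / `G1Package8`, `GaussInstN25`):

* `relfinrank_level_mul` : `[F_{Mq} : K(t)] = [F_M : K(t)] * (q + 1)` for `t ∈ F_M`;
* `degLe_level_mul`      : the `(DEG)` bound `DegLe O F_{Mq} t (n' * (q + 1))`, `n' = [F_M : K(t)]`;
* `irr_mono`             : `Irr` is monotone in the field;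
* `g2_v1`                : the package: degree, `n' ≠ 0`, `(DEG)` with `n' (q+1)`, and an `Irr`-family of
  `n'` elements of `gaussRing O ∩ F_M ⊂ F_{Mq}` with `κ(t~)`-independent residues
  (`GaussInstN25.degLe_irr_fullC` at the GOOD level `M`): the residue degree of `v1` on `F_{Mq}` is
  `≥ n'`; the missing `q n'` belongs to the second valuation `v2 = v1 ∘ w_q`.
-/
import Mathlib
import Fermat.Agent.RED.PUR.GaussInstN25
import Fermat.Agent.ES.HECKE.DegreeL25

set_option autoImplicit false
set_option linter.unusedSectionVars false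

noncomputable section

open HahnSeries ModularCurve IntermediateField

namespace Fermat.Agent.ES.N34.GaussVOne25

open Fermat.Agent.RED.PUR.GaussGen8 Fermat.Agent.RED.PUR.KtGauss8 Fermat.Agent.RED.PUR.G1Package8
open Fermat.Agent.RED.PUR Fermat.Agent.IG.PR

section Degree

variable {K : Type} [Field K] [CharZero K] (O : ValuationSubring K)

/-- `K(t) ≤ F_M` for `t ∈ F_M`. -/
theorem Kt_le_fullC (M : ℕ) (tG : ↥(gaussRing O))
    (htE : (tG : LaurentSeries K) ∈ modularFunctionFieldFullC K M) :
    Kt O tG ≤ modularFunctionFieldFullC K M :=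
  adjoin_simple_le_iff.mpr htE

/-- **(a)** `[F_{Mq} : K(t)] = [F_M : K(t)] * (q + 1)`. -/
theorem relfinrank_level_mul (M q : ℕ) [NeZero M] [NeZero q] (hq : q.Prime) (hqM : ¬ q ∣ M)
    (tG : ↥(gaussRing O)) (htE : (tG : LaurentSeries K) ∈ modularFunctionFieldFullC K M) :
    relfinrank (Kt O tG) (modularFunctionFieldFullC K (M * q)) =
      relfinrank (Kt O tG) (modularFunctionFieldFullC K M) * (q + 1) := by
  have h := relfinrank_mul_relfinrank (Kt_le_fullC O M tG htE)
    (full_degeneracyC_le K (dvd_mul_right M q))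
  rw [← h, Fermat.Agent.ES.HECKE.DegreeL25.relfinrank_alpha K M q hq hqM]

/-- `(DEG)` at level `M q`. -/
theorem degLe_level_mul (M q : ℕ) [NeZero M] [NeZero q] (hq : q.Prime) (hqM : ¬ q ∣ M)
    (tG : ↥(gaussRing O)) (htE : (tG : LaurentSeries K) ∈ modularFunctionFieldFullC K M)
    (hn : relfinrank (Kt O tG) (modularFunctionFieldFullC K M) ≠ 0) :
    DegLe O (modularFunctionFieldFullC K (M * q)) tG
      (relfinrank (Kt O tG) (modularFunctionFieldFullC K M) * (q + 1)) := by
  intro m c hc hli
  have hle : Kt O tG ≤ modularFunctionFieldFullC K (M * q) :=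
    (Kt_le_fullC O M tG htE).trans (full_degeneracyC_le K (dvd_mul_right M q))
  have hne : relfinrank (Kt O tG) (modularFunctionFieldFullC K (M * q)) ≠ 0 := by
    rw [relfinrank_level_mul O M q hq hqM tG htE]
    exact Nat.mul_ne_zero hn (Nat.succ_ne_zero q)
  have := FamilyForm20.le_relfinrank_of_family hle m hne c hc hli
  rwa [relfinrank_level_mul O M q hq hqM tG htE] at this

end Degree

section Irr

variable {K : Type*} [Field K] (O : ValuationSubring K) [IsDiscreteValuationRing ↥O]

/-- `Irr` is monotone in the field. -/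
theorem irr_mono {E E' : IntermediateField K (LaurentSeries K)} (h : E ≤ E')
    (tG : ↥(gaussRing O)) {n : ℕ} (hirr : Irr O E tG n) : Irr O E' tG n := by
  obtain ⟨e, he, hli⟩ := hirr
  exact ⟨e, fun i => h (he i), hli⟩

end Irr

section Package

variable {K : Type} [Field K] [CharZero K] (O : ValuationSubring K) [IsDiscreteValuationRing ↥O]
  {π : ↥O}

/-- **(G2-v1).**  At the bad level `M q` (`q` prime, `q ∤ M`, residue characteristic `q`), for a
parameter `t ∈ F_M ∩ gaussRing` with `j ∈ K(t)`: with `n' = [F_M : K(t)]`,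
`[F_{Mq} : K(t)] = n' (q + 1)`, `n' ≠ 0`, `(DEG)` holds with `n' (q + 1)`, and there are `n'` elements
of `F_M ∩ gaussRing ⊂ F_{Mq}` whose residues are linearly independent over `κ(t~)`. -/
theorem g2_v1 (hπ : Irreducible π) (q : ℕ) [Fact q.Prime] [CharP (Res O) q]
    (M : ℕ) [NeZero M] (hqM : ¬ q ∣ M) (tG : ↥(gaussRing O))
    (htE : (tG : LaurentSeries K) ∈ modularFunctionFieldFullC K M)
    (hjt : jqModC K ∈ Kt O tG) :
    relfinrank (Kt O tG) (modularFunctionFieldFullC K (M * q)) =
        relfinrank (Kt O tG) (modularFunctionFieldFullC K M) * (q + 1) ∧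
      relfinrank (Kt O tG) (modularFunctionFieldFullC K M) ≠ 0 ∧
      DegLe O (modularFunctionFieldFullC K (M * q)) tG
        (relfinrank (Kt O tG) (modularFunctionFieldFullC K M) * (q + 1)) ∧
      Irr O (modularFunctionFieldFullC K (M * q)) tG
        (relfinrank (Kt O tG) (modularFunctionFieldFullC K M)) ∧
      Irr O (modularFunctionFieldFullC K M) tG
        (relfinrank (Kt O tG) (modularFunctionFieldFullC K M)) := by
  have hq : q.Prime := Fact.out
  have : NeZero q := ⟨hq.ne_zero⟩
  obtain ⟨hn0, -, hirr⟩ := GaussInstN25.degLe_irr_fullC O hπ q M hqM tG htE hjt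
  exact ⟨relfinrank_level_mul O M q hq hqM tG htE, hn0,
    degLe_level_mul O M q hq hqM tG htE hn0,
    irr_mono O (full_degeneracyC_le K (dvd_mul_right M q)) tG hirr, hirr⟩

end Package

end Fermat.Agent.ES.N34.GaussVOne25
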