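/-
Program N (S34), chapter MODEL, brick V3-inst for the `ModelDefs9` data, helper22.

For `(A, K, M', q)`, `R := AK A K` a DVR with uniformiser `π`, `F := FK (M' * q) K`, `t := tN q ht`,
`O1`, `O2 := O1.comap W_{N'}` of `ModelDefs9`:

* `iota2Alg` : the expansion at the cusp `0` as a `K`-ALGEBRA hom `F →ₐ[K] K((𝐪))`
  (`= val ∘ W_{N'}`, `coe_iota2Alg : iota2Alg x = iota2 x`);
* `isGaussPullback_O1`, `isGaussPullback_O2` (`Iff.rfl`): `O1`, `O2` are the Gauss pull-backs along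
  `val`, `iota2Alg` (`GaussEmb22.IsGaussPullback`);
* `glueOut_model` : ALL valuation fields of
  `NodalCore13.NodalTwoChartModel R F π t (B0 …) (B1 …) O1 O2` (`TwoGlue20.GlueOut`) from V1's outputs
  (`GaussVOne25.g2_v1`: degree `n₁ + n₂`, `Irr … n₁`) and V2's items (`O1 ≠ O2`, `iota2 t ∈ gaussRing`
  with transcendental residue, `n₂` elements of `O2` with `κ(iota2 t~)`-independent residues).
-/
import Mathlib
import Fermat.Agent.ES.N34.ModelDefs9
import Fermat.Agent.ES.N34.G2Out22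
import Fermat.Agent.ES.N34.GaussVOne25
import Fermat.Agent.RED.BASE.TBridge15

set_option autoImplicit false
set_option linter.unusedSectionVars false

noncomputable section

open HahnSeries ModularCurve

namespace Fermat.Agent.ES.N34.ModelGlue22

open Fermat.Agent.RED.Interface4 Fermat.Agent.RED.PUR.GaussGen8 Fermat.Agent.RED.PUR.KtGauss8
  Fermat.Agent.RED.PUR.G1Package8 Fermat.Agent.RED.PUR.ChartGeneric22
  Fermat.Agent.RED.BASE.EtaQuot12 Fermat.Agent.ES.N34.FrickeFK8 Fermat.Agent.ES.N34.ModelDefs9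
  Fermat.Agent.ES.N34.GaussEmb22

variable {A : ValuationSubring Qbar} (K : IntermediateField ℚ Qbar) (M' q : ℕ) [NeZero M']
  [NeZero q]

/-- The expansion at the cusp `0` as a `K`-algebra homomorphism. -/
def iota2Alg : FK (M' * q) K →ₐ[K] LaurentSeries (↥K) :=
  (FK (M' * q) K).val.comp (wN K M' q)

theorem coe_iota2Alg (x : FK (M' * q) K) : iota2Alg K M' q x = iota2 K M' q x := rfl

theorem iota2Alg_apply (x : FK (M' * q) K) :
    iota2Alg K M' q x = ((wN K M' q x : FK (M' * q) K) : LaurentSeries K) := rfl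

variable {K}

theorem isGaussPullback_O1 {π : ↥(AK A K)} (hπ : IsUnif (AK A K) π)
    (hE : FK (M' * q) K ≤ fracField (AK A K)) :
    IsGaussPullback (AK A K) (FK (M' * q) K).val (O1 M' q hπ hE) :=
  fun _ => Iff.rfl

theorem isGaussPullback_O2 {π : ↥(AK A K)} (hπ : IsUnif (AK A K) π)
    (hE : FK (M' * q) K ≤ fracField (AK A K)) :
    IsGaussPullback (AK A K) (iota2Alg K M' q) (O2 M' q hπ hE) :=
  fun _ => Iff.rfl

variable [IsDiscreteValuationRing ↥(AK A K)] {π : ↥(AK A K)} {n e : ℕ} [NeZero n]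

/-- **V3-inst for the `ModelDefs9` data.** -/
theorem glueOut_model (hπ : Irreducible π) (hE : FK (M' * q) K ≤ fracField (AK A K))
    (ht : tq (↥K) n e ∈ FK M' K)
    (ht₁ : ((tN q ht : FK (M' * q) K) : LaurentSeries K) ∈ gaussRing (AK A K))
    (htr₁ : Transcendental (Res (AK A K))
      (gaussRed (AK A K) ⟨((tN q ht : FK (M' * q) K) : LaurentSeries K), ht₁⟩))
    {n₁ n₂ : ℕ}
    (hdeg : IntermediateField.relfinrank
      (Kt (AK A K) ⟨((tN q ht : FK (M' * q) K) : LaurentSeries K), ht₁⟩) (FK (M' * q) K) = n₁ + n₂)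
    (hn : n₁ + n₂ ≠ 0)
    (hirr : Irr (AK A K) (FK (M' * q) K)
      ⟨((tN q ht : FK (M' * q) K) : LaurentSeries K), ht₁⟩ n₁)
    (h12 : O1 M' q (isUnif_of_irreducible (AK A K) hπ) hE ≠
      O2 M' q (isUnif_of_irreducible (AK A K) hπ) hE)
    (ht₂ : iota2Alg K M' q (tN q ht) ∈ gaussRing (AK A K))
    (htr₂ : Transcendental (Res (AK A K))
      (gaussRed (AK A K) ⟨iota2Alg K M' q (tN q ht), ht₂⟩))
    (b₂ : Fin n₂ → FK (M' * q) K)
    (hb₂ : ∀ i, b₂ i ∈ O2 M' q (isUnif_of_irreducible (AK A K) hπ) hE)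
    (hli₂ : LinearIndependent ↥(kt (AK A K) ⟨iota2Alg K M' q (tN q ht), ht₂⟩)
      (fun i => redOf (isGaussPullback_O2 M' q (isUnif_of_irreducible (AK A K) hπ) hE)
        ⟨b₂ i, hb₂ i⟩)) :
    TwoGlue20.GlueOut (↥K) π (tN q ht) (O1 M' q (isUnif_of_irreducible (AK A K) hπ) hE)
      (O2 M' q (isUnif_of_irreducible (AK A K) hπ) hE) :=
  G2Out22.glueOut_OvE hπ hE (tN q ht) ht₁ htr₁ hdeg hn hirr
    (isGaussPullback_O2 M' q (isUnif_of_irreducible (AK A K) hπ) hE) h12 ht₂ htr₂ b₂ hb₂ hli₂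

/-- The Gauss-ring element of `tN` is Program H's `TBridge15.tG`. -/
theorem tN_eq_tG (ht : tq (↥K) n e ∈ FK M' K)
    (ht₁ : ((tN q ht : FK (M' * q) K) : LaurentSeries K) ∈ gaussRing (AK A K)) :
    (⟨((tN q ht : FK (M' * q) K) : LaurentSeries K), ht₁⟩ : ↥(gaussRing (AK A K))) =
      Fermat.Agent.RED.BASE.TBridge15.tG (AK A K) n e :=
  Subtype.ext (coe_tN q ht)

theorem tN_mem_gaussRing (ht : tq (↥K) n e ∈ FK M' K) :
    ((tN q ht : FK (M' * q) K) : LaurentSeries K) ∈ gaussRing (AK A K) := by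
  rw [coe_tN]
  exact Fermat.Agent.RED.BASE.TBridge15.tq_mem_gaussRing (AK A K) n e

/-- **V3-inst for the `ModelDefs9` data, V1 side discharged** (`GaussVOne25.g2_v1` +
`TBridge15`): only V2's items remain as hypotheses; `n' := [FK M' K : K(t)]`, `n₂ = q * n'`. -/
theorem glueOut_model_tq (hπ : Irreducible π) (hE : FK (M' * q) K ≤ fracField (AK A K))
    [Fact q.Prime] [CharP (Res (AK A K)) q] (hqM : ¬ q ∣ M')
    (ht : tq (↥K) n e ∈ FK M' K)
    (hjt : jqModC (↥K) ∈ Kt (AK A K) (Fermat.Agent.RED.BASE.TBridge15.tG (AK A K) n e))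
    (h12 : O1 M' q (isUnif_of_irreducible (AK A K) hπ) hE ≠
      O2 M' q (isUnif_of_irreducible (AK A K) hπ) hE)
    (ht₂ : iota2Alg K M' q (tN q ht) ∈ gaussRing (AK A K))
    (htr₂ : Transcendental (Res (AK A K))
      (gaussRed (AK A K) ⟨iota2Alg K M' q (tN q ht), ht₂⟩))
    (b₂ : Fin (q * IntermediateField.relfinrank
      (Kt (AK A K) (Fermat.Agent.RED.BASE.TBridge15.tG (AK A K) n e)) (FK M' K)) →
        FK (M' * q) K)
    (hb₂ : ∀ i, b₂ i ∈ O2 M' q (isUnif_of_irreducible (AK A K) hπ) hE)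
    (hli₂ : LinearIndependent ↥(kt (AK A K) ⟨iota2Alg K M' q (tN q ht), ht₂⟩)
      (fun i => redOf (isGaussPullback_O2 M' q (isUnif_of_irreducible (AK A K) hπ) hE)
        ⟨b₂ i, hb₂ i⟩)) :
    TwoGlue20.GlueOut (↥K) π (tN q ht) (O1 M' q (isUnif_of_irreducible (AK A K) hπ) hE)
      (O2 M' q (isUnif_of_irreducible (AK A K) hπ) hE) := by
  have hFKM : FK M' K = modularFunctionFieldFullC (↥K) M' :=
    Fermat.Agent.RED.PUR.DegBaseChange25.laurentBaseChange_full_eq (L := ↥K) M'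
  have hFKN : FK (M' * q) K = modularFunctionFieldFullC (↥K) (M' * q) :=
    Fermat.Agent.RED.PUR.DegBaseChange25.laurentBaseChange_full_eq (L := ↥K) (M' * q)
  have htE : ((Fermat.Agent.RED.BASE.TBridge15.tG (AK A K) n e : ↥(gaussRing (AK A K))) :
      LaurentSeries K) ∈ modularFunctionFieldFullC (↥K) M' := by
    rw [← hFKM]; exact ht
  obtain ⟨hdeg, hn0, -, hirr, -⟩ :=
    GaussVOne25.g2_v1 (AK A K) hπ q M' hqM (Fermat.Agent.RED.BASE.TBridge15.tG (AK A K) n e) htE hjt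
  rw [← hFKN, ← hFKM] at hdeg
  rw [← hFKN, ← hFKM] at hirr
  rw [← hFKM] at hn0
  have ht₁ := tN_mem_gaussRing (A := A) M' q ht
  have heq := tN_eq_tG (A := A) M' q ht ht₁
  refine glueOut_model M' q hπ hE ht ht₁ ?_ (n₁ := IntermediateField.relfinrank
      (Kt (AK A K) (Fermat.Agent.RED.BASE.TBridge15.tG (AK A K) n e)) (FK M' K)) ?_ ?_ ?_
    h12 ht₂ htr₂ b₂ hb₂ hli₂
  · rw [heq]
    exact Fermat.Agent.RED.BASE.TBridge15.transcendental_gaussRed_tG (AK A K) n e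
  · rw [heq, hdeg]; ring
  · exact fun h => hn0 (by omega)
  · rw [heq]; exact hirr

end Fermat.Agent.ES.N34.ModelGlue22
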