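/-
Program N (S34), chapter MODEL, brick V2 / `h12` (helper3): **the two Gauss valuation rings differ**,

  `O1 M' q hπ hE ≠ O2 M' q hπ hE`      (`ModelDefs9` vocabulary; the hypothesis `h12` of
                                         `ModelGlue22.glueOut_model_tq`).

Witness `z := (x_q - x_1^q) / π`, `x_d = j(𝐪^d)`:
* `z ∈ O1`: `j(𝐪^q) - j(𝐪)^q ∈ π · gaussRing` because `j` has integer coefficients, so its reduction is
  fixed by the coefficientwise Frobenius and `j̃(𝐪)^q = j̃(𝐪^q)` in characteristic `q`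
  (`KronCong24.pow_char`);
* `z ∉ O2 = W⁻¹(O1)`: `W x_q = x_{M'}`, `W x_1 = x_{M' q}` (`FrickeFK8.frickeFK_xdL`), and the reduction of
  `j(𝐪^{M'}) - j(𝐪^{M' q})^q` has coefficient `1` at `𝐪^{-M'}`, so it is not in `π · gaussRing`.
-/
import Mathlib
import Fermat.Agent.ES.N34.ModelDefs9
import Fermat.Agent.ES.KRON.KronCong24
import Fermat.Agent.X0.CuspGood

set_option autoImplicit false
set_option linter.unusedSectionVars false

noncomputable section

open HahnSeries ModularCurve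

namespace Fermat.Agent.ES.N34.OneNeTwo3

open Fermat.Agent.RED.Interface4 Fermat.Agent.RED.PUR.GaussGen8 Fermat.Agent.ES.N34.FrickeFK8
  Fermat.Agent.ES.N34.ModelDefs9

/-! ### Abstract Gauss-ring part -/

section Abstract

variable {K : Type*} [Field K] (O : ValuationSubring K)

theorem embK_qExpand (n : ℕ) [NeZero n] (a : LaurentSeries ↥O) :
    embK O (qExpand ↥O n a) = qExpand K n (embK O a) :=
  Fermat.Agent.X0.CuspGood.coeffMap_qExpand _ n a

theorem redL_qExpand (n : ℕ) [NeZero n] (a : LaurentSeries ↥O) :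
    redL O (qExpand ↥O n a) = qExpand (Res O) n (redL O a) :=
  Fermat.Agent.X0.CuspGood.coeffMap_qExpand _ n a

theorem embK_jqModC : embK O (jqModC ↥O) = jqModC K := coeffMap_jqModC _

theorem redL_jqModC : redL O (jqModC ↥O) = jqModC (Res O) := coeffMap_jqModC _

variable (q : ℕ) [hq : Fact q.Prime] [CharP (Res O) q]

/-- Frobenius on the reduction of `j`: `j̃(𝐪^d)^q = j̃(𝐪^{q d})`. -/
theorem jq_pow_char (d : ℕ) [NeZero d] :
    (qExpand (Res O) d (jqModC (Res O))) ^ q = qExpand (Res O) (q * d) (jqModC (Res O)) := by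
  have : NeZero q := ⟨hq.out.ne_zero⟩
  rw [Fermat.Agent.ES.KRON.KronCong24.pow_char q, Fermat.Agent.X0.CuspGood.coeffMap_qExpand,
    coeffMap_jqModC, qExpand_qExpand]

variable {O}

/-- **(a)** `j(𝐪^q) - j(𝐪)^q ∈ π · gaussRing`. -/
theorem kron_j {π : ↥O} (hπ : IsUnif O π) [NeZero q] :
    ∃ g ∈ gaussRing O, qExpand K q (jqModC K) - (jqModC K) ^ q = piK π * g := by
  set a : LaurentSeries ↥O := qExpand ↥O q (jqModC ↥O) - (jqModC ↥O) ^ q with ha
  have h0 : redL O a = 0 := by
    have h1 := jq_pow_char O q 1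
    rw [qExpand_one_apply] at h1
    rw [ha, map_sub, map_pow, redL_qExpand, redL_jqModC, h1]
    rw [qExpand_congr (mul_one q), sub_self]
  obtain ⟨a', ha'⟩ := (redL_eq_zero_iff hπ a).mp h0
  refine ⟨embK O a', embK_mem O a', ?_⟩
  have h2 : embK O a = qExpand K q (jqModC K) - (jqModC K) ^ q := by
    rw [ha, map_sub, map_pow, embK_qExpand, embK_jqModC]
  rw [← h2, ha', map_mul, embK_C]

/-- **(b)** `j(𝐪^{M'}) - j(𝐪^{M' q})^q ∉ π · gaussRing`. -/
theorem not_kron_j {π : ↥O} (hπ : IsUnif O π) (M' : ℕ) [NeZero M'] [NeZero q] :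
    ¬ ∃ g ∈ gaussRing O,
      qExpand K M' (jqModC K) - (qExpand K (M' * q) (jqModC K)) ^ q = piK π * g := by
  rintro ⟨g, hg, h⟩
  set b : LaurentSeries ↥O :=
    qExpand ↥O M' (jqModC ↥O) - (qExpand ↥O (M' * q) (jqModC ↥O)) ^ q with hb
  have h2 : embK O b = qExpand K M' (jqModC K) - (qExpand K (M' * q) (jqModC K)) ^ q := by
    rw [hb, map_sub, map_pow, embK_qExpand, embK_qExpand, embK_jqModC]
  -- the reduction of `b` vanishes
  have h0 : redL O b = 0 := by
    have h3 : (⟨embK O b, embK_mem O b⟩ : gaussRing O) = constG O π * ⟨g, hg⟩ := by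
      apply Subtype.ext
      show embK O b = HahnSeries.C ((π : ↥O) : K) * g
      rw [h2, h]
    rw [← gaussRed_embK, h3, map_mul, gaussRed_unif hπ, zero_mul]
  -- but its coefficient at `-M'` is `1`
  have h4 : redL O b = qExpand (Res O) M' (jqModC (Res O)) -
      qExpand (Res O) (q * (M' * q)) (jqModC (Res O)) := by
    rw [hb, map_sub, map_pow, redL_qExpand, redL_qExpand, redL_jqModC, jq_pow_char]
  have h5 := congrArg (fun x => HahnSeries.coeff x ((M' : ℤ) * (-1))) h0
  simp only [h4, HahnSeries.coeff_sub, HahnSeries.coeff_zero, qExpand_coeff_mul,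
    coeff_jqModC_neg_one] at h5
  have h6 : (qExpand (Res O) (q * (M' * q)) (jqModC (Res O))).coeff ((M' : ℤ) * (-1)) = 0 := by
    apply qExpand_coeff_of_not_dvd
    rintro ⟨c, hc⟩
    have hM : (M' : ℤ) ≠ 0 := by exact_mod_cast NeZero.ne M'
    have hq2 : (2 : ℤ) ≤ q := by exact_mod_cast hq.out.two_le
    push_cast at hc
    -- `-1 = q * q * c`
    have h7 : (-1 : ℤ) = (q : ℤ) * q * c := by
      apply mul_left_cancel₀ hM
      rw [hc]; ring
    have h8 : (q : ℤ) ∣ 1 := ⟨-(q * c), by linarith⟩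
    have h9 := Int.le_of_dvd one_pos h8
    linarith
  rw [h6, sub_zero] at h5
  exact one_ne_zero h5

end Abstract

/-! ### The concrete statement -/

section Concrete

variable {A : ValuationSubring Qbar} {K : IntermediateField ℚ Qbar} (M' q : ℕ) [NeZero M'] [NeZero q]

/-- **The two Gauss valuation rings of the nodal model are different.** -/
theorem o1_ne_o2 [hq : Fact q.Prime] [CharP (Res (AK A K)) q] {π : ↥(AK A K)}
    (hπ : IsUnif (AK A K) π) (hE : FK (M' * q) K ≤ fracField (AK A K)) :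
    O1 M' q hπ hE ≠ O2 M' q hπ hE := by
  intro h12
  have hπ0 : piK π ≠ 0 := piK_ne_zero hπ
  -- the generators
  set x1 : FK (M' * q) K := xdL (M' * q) K 1 (one_dvd _) with hx1
  set xq : FK (M' * q) K := xdL (M' * q) K q (Dvd.intro_left M' rfl) with hxq
  set xM : FK (M' * q) K := xdL (M' * q) K M' (Dvd.intro q rfl) with hxM
  set xN : FK (M' * q) K := xdL (M' * q) K (M' * q) dvd_rfl with hxN
  have hWq : wN K M' q xq = xM := frickeFK_xdL (M' * q) K q M' (Nat.mul_comm q M')
  have hW1 : wN K M' q x1 = xN := frickeFK_xdL (M' * q) K 1 (M' * q) (Nat.one_mul _)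
  -- the witness
  set z : FK (M' * q) K := (algebraMap K (FK (M' * q) K) (π : K))⁻¹ * (xq - x1 ^ q) with hz
  -- `z ∈ O1`
  have hz1 : z ∈ O1 M' q hπ hE := by
    rw [mem_O1_iff]
    obtain ⟨g, hg, hgeq⟩ := kron_j (O := AK A K) q hπ
    have hcoe : ((z : FK (M' * q) K) : LaurentSeries K) =
        (piK π)⁻¹ * (qExpand K q (jqModC K) - (jqModC K) ^ q) := by
      rw [hz]
      push_cast
      rw [algebraMap_eq_C, hxq, hx1, coe_xdL, coe_xdL, qExpand_one_apply]
    rw [hcoe, hgeq, ← mul_assoc, inv_mul_cancel₀ hπ0, one_mul]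
    exact hg
  -- `z ∉ O2`
  have hz2 : z ∉ O2 M' q hπ hE := by
    rw [mem_O2_iff_wN_mem_O1, mem_O1_iff]
    intro hmem
    have hWz : wN K M' q z = (algebraMap K (FK (M' * q) K) (π : K))⁻¹ * (xM - xN ^ q) := by
      rw [hz, map_mul, map_inv₀, (wN K M' q).commutes, map_sub, map_pow, hWq, hW1]
    have hcoe : ((wN K M' q z : FK (M' * q) K) : LaurentSeries K) =
        (piK π)⁻¹ * (qExpand K M' (jqModC K) - (qExpand K (M' * q) (jqModC K)) ^ q) := by
      rw [hWz]
      push_cast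
      rw [algebraMap_eq_C, hxM, hxN, coe_xdL, coe_xdL]
    refine not_kron_j (O := AK A K) q hπ M' ⟨_, hmem, ?_⟩
    rw [hcoe, ← mul_assoc, mul_inv_cancel₀ hπ0, one_mul]
  exact hz2 (h12 ▸ hz1)

end Concrete

end Fermat.Agent.ES.N34.OneNeTwo3
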