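/-
Program N (S34), MODEL, brick V2, concrete half (helper25): the items V2 owes to
`ModelGlue22.glueOut_model_tq` for the `ModelDefs9` data, in its LITERAL argument shapes, and the
closed corollary.

Data: `A`, `K ⊂ ℚ̄`, `O := AK A K` a DVR with uniformiser `π` and residue characteristic `q`, `q` prime,
`q ∤ M'`, `t = tq K n e ∈ FK M' K` with `j ∈ K(t)`, `n' := [FK M' K : K(t)]`.

* `v2_export` : `∃ ht₂ htr₂ (b₂ : Fin (q * n') → FK (M' * q) K) hb₂, hli₂` — `iota2Alg (tN q ht)` lies in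
  the Gauss ring with transcendental residue, and `q · n'` elements of `O2` have residues independent over
  `κ((iota2Alg (tN q ht))~)`.
  Proof: `IsoM25` (the Fricke involution of the good level `M'` is a Gauss isometry) gives (s1) for `tM`;
  `GaussVTwoFam25.family_two_level` with `α := alpha`, `ι (α x) = V_q (ι₂ x)` (`FrickeV11.iota2_alpha`),
  `w := x_{N'}` (`ι w = j(𝐪)`, residue of order `−1`) gives the family `w^i · alpha (b_j)`.
* `glueOut_tq` : `TwoGlue20.GlueOut ↥K π (tN q ht) O1 O2` — ALL valuation fields of the nodal two-chart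
  contract for the `ModelDefs9` data, with NO V2 hypothesis left (`h12` = `OneNeTwo3.o1_ne_o2`).
* `v2Items_of`, `v2Items_large` : the six items in the literal text of helper4's `ModelTop4.V2Items` (for every
  number field `K` with `j ∈ K(t)`; resp. for all large `K`, from `ModelTargets4.JTarget n e`), with the DVR /
  residue-characteristic instances derived from `A.LiesOverPrime q`.
-/
import Mathlib
import Fermat.Agent.ES.N34.IsoM25
import Fermat.Agent.ES.N34.FrickeV11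
import Fermat.Agent.ES.N34.ModelGlue22
import Fermat.Agent.ES.N34.OneNeTwo3
import Fermat.Agent.RED.DESC.NumberFieldDVR27
import Fermat.Agent.RED.ModelTargets4

set_option autoImplicit false
set_option linter.unusedSectionVars false

noncomputable section

open HahnSeries ModularCurve IntermediateField Polynomial

namespace Fermat.Agent.ES.N34.GaussVTwoInst25

open Fermat.Agent.RED.Interface4 Fermat.Agent.RED.PUR.GaussGen8 Fermat.Agent.RED.PUR.KtGauss8
open Fermat.Agent.RED.PUR.G1Package8 Fermat.Agent.RED.PUR.GaussBridge10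
open Fermat.Agent.ES.N34.GaussEmb22 Fermat.Agent.ES.N34.FrickeFK8 Fermat.Agent.ES.N34.ModelDefs9
open Fermat.Agent.ES.N34.ModelGlue22 Fermat.Agent.ES.N34.IsoM25
open Fermat.Agent.RED.BASE Fermat.Agent.RED.BASE.EtaQuot12

set_option synthInstance.maxHeartbeats 400000
set_option maxHeartbeats 1000000

variable {A : ValuationSubring Qbar} {K : IntermediateField ℚ Qbar} (M' q : ℕ) [NeZero M']
  [NeZero q] [hq : Fact q.Prime] [IsDiscreteValuationRing ↥(AK A K)] [CharP (Res (AK A K)) q]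
  {π : ↥(AK A K)} {n e : ℕ} [NeZero n]

/-- (s1) at the good level: `ι₂^{M'} tM` lies in the Gauss ring, with transcendental residue. -/
theorem s1_tM (hπ : Irreducible π) (hqM : ¬ q ∣ M') (ht : tq (↥K) n e ∈ FK M' K) :
    ∃ ht₂ : iotaAlg M' K (tM ht) ∈ gaussRing (AK A K),
      Transcendental (Res (AK A K)) (gaussRed (AK A K) ⟨iotaAlg M' K (tM ht), ht₂⟩) := by
  have ht₁ : ((tM ht : FK M' K) : LaurentSeries K) ∈ gaussRing (AK A K) :=
    TBridge15.tq_mem_gaussRing (AK A K) n e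
  have htr₁ : Transcendental (Res (AK A K))
      (gaussRed (AK A K) ⟨((tM ht : FK M' K) : LaurentSeries K), ht₁⟩) :=
    TBridge15.transcendental_gaussRed_tG (AK A K) n e
  have ht₂ := (isoM A K M' q hπ hqM (tM ht)).mp ht₁
  exact ⟨ht₂, transcendental_frickeFK A K M' q hπ hqM (tM ht) ht₁ htr₁ ht₂⟩

/-- **(V2) export**: `ht₂, htr₂, b₂, hb₂, hli₂` of `ModelGlue22.glueOut_model_tq`. -/
theorem v2_export (hπ : Irreducible π) (hE : FK (M' * q) K ≤ fracField (AK A K))
    (hqM : ¬ q ∣ M') (ht : tq (↥K) n e ∈ FK M' K)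
    (hjt : jqModC (↥K) ∈ Kt (AK A K) (TBridge15.tG (AK A K) n e)) :
    ∃ (ht₂ : iota2Alg K M' q (tN q ht) ∈ gaussRing (AK A K))
      (_ : Transcendental (Res (AK A K))
        (gaussRed (AK A K) ⟨iota2Alg K M' q (tN q ht), ht₂⟩))
      (b₂ : Fin (q * IntermediateField.relfinrank
        (Kt (AK A K) (TBridge15.tG (AK A K) n e)) (FK M' K)) → FK (M' * q) K)
      (hb₂ : ∀ i, b₂ i ∈ O2 M' q (isUnif_of_irreducible (AK A K) hπ) hE),
      LinearIndependent ↥(kt (AK A K) ⟨iota2Alg K M' q (tN q ht), ht₂⟩)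
        (fun i => redOf (isGaussPullback_O2 M' q (isUnif_of_irreducible (AK A K) hπ) hE)
          ⟨b₂ i, hb₂ i⟩) := by
  classical
  have hπu := isUnif_of_irreducible (AK A K) hπ
  have hEM := FK_le_fracField A K M'
  -- the two Gauss pull-backs of the good level
  have hV₁ : IsGaussPullback (AK A K) (FK M' K).val (OvE (AK A K) hπ (FK M' K) hEM) :=
    G2Out22.isGaussPullback_OvE hπ hEM
  have hV₂ := isGaussPullback_O2N M' K A hπu
  -- `t`-data of the good level
  have ht₁ : (FK M' K).val (tM ht) ∈ gaussRing (AK A K) := TBridge15.tq_mem_gaussRing (AK A K) n e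
  have htr₁ : Transcendental (Res (AK A K))
      (gaussRed (AK A K) ⟨(FK M' K).val (tM ht), ht₁⟩) :=
    TBridge15.transcendental_gaussRed_tG (AK A K) n e
  obtain ⟨ht₂M, htr₂M⟩ := s1_tM (A := A) M' q hπ hqM ht
  obtain ⟨hn0, -, hirrt⟩ := Fermat.Agent.RED.PUR.GaussInstN25.degLe_irr_tq
    (AK A K) hπ q M' hqM n e ht hjt
  have := finite_of_relfinrank (tM ht) ht₁ hn0
  have hn := (finrank_eq_relfinrank (O := AK A K) (tM ht) ht₁).le
  obtain ⟨b, hb, hli⟩ := exists_family_of_irr hπ hEM (tM ht) ht₁ hirrt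
  -- the bad level
  have hV := isGaussPullback_O2 (A := A) (K := K) M' q hπu hE
  have hα : ∀ x : FK M' K,
      iota2Alg K M' q (alpha K M' q x) = qExpand (↥K) q (iotaAlg M' K x) := fun x =>
    FrickeV11.iota2_alpha K M' q x
  have htN : iota2Alg K M' q (alpha K M' q (tM ht)) ∈ gaussRing (AK A K) := by
    rw [hα]; exact GaussVTwoFam25.qExpand_mem_gaussRing q ht₂M
  have htrN : Transcendental (Res (AK A K))
      (gaussRed (AK A K) ⟨iota2Alg K M' q (alpha K M' q (tM ht)), htN⟩) := by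
    have h1 : (⟨iota2Alg K M' q (alpha K M' q (tM ht)), htN⟩ : ↥(gaussRing (AK A K))) =
        ⟨qExpand (↥K) q ((⟨iotaAlg M' K (tM ht), ht₂M⟩ : ↥(gaussRing (AK A K))) : LaurentSeries K),
          GaussVTwoFam25.qExpand_mem_gaussRing q ht₂M⟩ := Subtype.ext (hα (tM ht))
    rw [h1, GaussVTwoFam25.gaussRed_qExpand]
    exact GaussVTwoFam25.transcendental_qExpand q htr₂M
  have hw : iota2Alg K M' q (jTop K (M' * q)) ∈ gaussRing (AK A K) := by
    show iotaAlg (M' * q) K (jTop K (M' * q)) ∈ gaussRing (AK A K)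
    rw [iotaAlg_jTop]; exact jqd_mem_gaussRing (AK A K) 1
  have hwe : (⟨iota2Alg K M' q (jTop K (M' * q)), hw⟩ : ↥(gaussRing (AK A K))) =
      ⟨qExpand K 1 (jqModC K), jqd_mem_gaussRing (AK A K) 1⟩ :=
    Subtype.ext (iotaAlg_jTop K (M' * q))
  have hJ0 : gaussRed (AK A K) ⟨iota2Alg K M' q (jTop K (M' * q)), hw⟩ ≠ 0 := by
    rw [hwe]; exact gaussRed_jqd_ne_zero (AK A K) 1
  have hJ : IsCoprime
      (gaussRed (AK A K) ⟨iota2Alg K M' q (jTop K (M' * q)), hw⟩).order (q : ℤ) := by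
    rw [hwe, order_gaussRed_jqd]
    simp only [Nat.cast_one]
    exact (isCoprime_one_left (x := (q : ℤ))).neg_left
  obtain ⟨hb₂, hli₂⟩ := GaussVTwoFam25.family_two_level q hπ hV₁ hV₂ ht₁ htr₁ ht₂M htr₂M hn b hb
    hli hV (alpha K M' q) hα htN hw hJ0 hJ
  exact ⟨htN, htrN, _, hb₂, hli₂⟩

/-- **(V2) + (V3) closed**: all valuation fields of the nodal two-chart contract for the `ModelDefs9`
data (`TwoGlue20.GlueOut`). -/
theorem glueOut_tq (hπ : Irreducible π) (hE : FK (M' * q) K ≤ fracField (AK A K))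
    (hqM : ¬ q ∣ M') (ht : tq (↥K) n e ∈ FK M' K)
    (hjt : jqModC (↥K) ∈ Kt (AK A K) (TBridge15.tG (AK A K) n e)) :
    TwoGlue20.GlueOut (↥K) π (tN q ht) (O1 M' q (isUnif_of_irreducible (AK A K) hπ) hE)
      (O2 M' q (isUnif_of_irreducible (AK A K) hπ) hE) := by
  obtain ⟨ht₂, htr₂, b₂, hb₂, hli₂⟩ := v2_export (A := A) M' q hπ hE hqM ht hjt
  exact glueOut_model_tq M' q hπ hE hqM ht hjt
    (OneNeTwo3.o1_ne_o2 M' q (isUnif_of_irreducible (AK A K) hπ) hE) ht₂ htr₂ b₂ hb₂ hli₂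

/-! ### The literal text of `ModelTop4.V2Items` -/

section Items

variable (A : ValuationSubring Qbar) (K : IntermediateField ℚ Qbar) (M' q : ℕ) [NeZero M'] [NeZero q]
  (n e : ℕ) [NeZero n]

/-- **V2's six items at `K`** (body of `ModelTop4.V2Items n e q M' A K`), for every number field `K`
with `j ∈ K(t)`. -/
theorem v2Items_of (hq : q.Prime) (hqM : ¬ q ∣ M') (hA : A.LiesOverPrime q)
    [FiniteDimensional ℚ K]
    (hjt : jqModC (↥K) ∈ IntermediateField.adjoin (↥K) {tq (↥K) n e}) :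
    ∀ (ht : tq (↥K) n e ∈ FK M' K) (hE : FK (M' * q) K ≤ fracField (AK A K))
      (π : ↥(AK A K)) (hπ : IsUnif (AK A K) π),
      O1 M' q hπ hE ≠ O2 M' q hπ hE ∧
      ∃ ht₂ : iota2Alg K M' q (tN q ht) ∈ gaussRing (AK A K),
        Transcendental (Res (AK A K)) (gaussRed (AK A K) ⟨iota2Alg K M' q (tN q ht), ht₂⟩) ∧
        ∃ (b₂ : Fin (q * IntermediateField.relfinrank
              (Kt (AK A K) (TBridge15.tG (AK A K) n e)) (FK M' K)) → FK (M' * q) K)
          (hb₂ : ∀ i, b₂ i ∈ O2 M' q hπ hE),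
          LinearIndependent ↥(kt (AK A K) ⟨iota2Alg K M' q (tN q ht), ht₂⟩)
            (fun i => redOf (isGaussPullback_O2 M' q hπ hE) ⟨b₂ i, hb₂ i⟩) := by
  intro ht hE π hπ
  have hdvr : IsDiscreteValuationRing ↥(AK A K) :=
    Fermat.Agent.RED.DESC.NumberFieldDVR27.isDiscreteValuationRing_AK A K hq.ne_zero hA
  have hirr : Irreducible π := (IsDiscreteValuationRing.irreducible_iff_uniformizer π).mpr hπ.max_eq
  have : Fact q.Prime := ⟨hq⟩
  have : CharP (Res (AK A K)) q :=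
    Fermat.Agent.RED.DESC.NumberFieldDVR27.charP_residueField_AK A K hq hA
  obtain ⟨ht₂, htr₂, b₂, hb₂, hli₂⟩ := v2_export (A := A) M' q hirr hE hqM ht hjt
  exact ⟨OneNeTwo3.o1_ne_o2 M' q hπ hE, ht₂, htr₂, b₂, hb₂, hli₂⟩

/-- **V2's six items for all large `K`** (unfolded `ModelN4.Large (ModelTop4.V2Items n e q M' A)`). -/
theorem v2Items_large (hq : q.Prime) (hqM : ¬ q ∣ M') (hA : A.LiesOverPrime q)
    (hJ : Fermat.Agent.RED.ModelTargets4.JTarget n e) :
    ∃ K₀ : IntermediateField ℚ Qbar, FiniteDimensional ℚ K₀ ∧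
      ∀ (K : IntermediateField ℚ Qbar) [Normal ℚ K], FiniteDimensional ℚ K → K₀ ≤ K →
        ∀ (ht : tq (↥K) n e ∈ FK M' K) (hE : FK (M' * q) K ≤ fracField (AK A K))
          (π : ↥(AK A K)) (hπ : IsUnif (AK A K) π),
          O1 M' q hπ hE ≠ O2 M' q hπ hE ∧
          ∃ ht₂ : iota2Alg K M' q (tN q ht) ∈ gaussRing (AK A K),
            Transcendental (Res (AK A K))
              (gaussRed (AK A K) ⟨iota2Alg K M' q (tN q ht), ht₂⟩) ∧
            ∃ (b₂ : Fin (q * IntermediateField.relfinrank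
                  (Kt (AK A K) (TBridge15.tG (AK A K) n e)) (FK M' K)) → FK (M' * q) K)
              (hb₂ : ∀ i, b₂ i ∈ O2 M' q hπ hE),
              LinearIndependent ↥(kt (AK A K) ⟨iota2Alg K M' q (tN q ht), ht₂⟩)
                (fun i => redOf (isGaussPullback_O2 M' q hπ hE) ⟨b₂ i, hb₂ i⟩) := by
  obtain ⟨K₁, hK₁, hJ⟩ := hJ
  refine ⟨K₁, hK₁, fun K _ hfd hle => ?_⟩
  exact v2Items_of A K M' q n e hq hqM hA (hJ K hfd hle)

end Items

end Fermat.Agent.ES.N34.GaussVTwoInst25
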