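/-
Program N (S34), chapter MODEL, brick S3i, `hcomb` at `(O1, alpha)` (helper26).

**`O1 = alpha(Ov_{M'}) + π O1`** at the `ModelDefs9` data: every `x ∈ O1` (Gauss valuation ring of the bad
level `M' q`) is congruent mod `π O1` to `alpha z` with `z` in the Gauss ring of the good level `M'`.
This is the body of `PrinItems12.HcombItems n e q M' A K` (helper12), literally, and the only open input
of `PrinItems12.prinItems_four/_nine`.

Proof: `CombOne26.hcomb_one` (first half of helper16's `CompTwo16.hcomb_two`) at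
`O := AK A K`, `EM := FK M' K`, `EN := FK (M' * q) K`, `α := alpha K M' q`, `tM := tM ht`, with
* V1: `GaussVOne25.g2_v1` (degree `n' (q + 1)`, the level-`M'` `Irr` family of size `n'`);
* V2: `GaussVTwoInst25.v2Items_of` (`O1 ≠ O2`, `ι₂ tN ∈ gaussRing` with transcendental residue, ANY
  `O2`-family of `q n'` residually independent elements), `ι₂ := ModelGlue22.iota2Alg`.
-/
import Mathlib
import Fermat.Agent.ES.N34.CombOne26
import Fermat.Agent.ES.N34.GaussVTwoInst25
import Fermat.Agent.ES.N34.ModelN4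
import Fermat.Agent.RED.ModelFinal4

set_option autoImplicit false
set_option synthInstance.maxHeartbeats 400000
set_option linter.unusedSectionVars false

noncomputable section

open HahnSeries ModularCurve IntermediateField

namespace Fermat.Agent.ES.N34.CombA26

open Fermat.Agent.RED.Interface4 Fermat.Agent.RED.PUR.GaussGen8 Fermat.Agent.RED.PUR.KtGauss8
  Fermat.Agent.RED.PUR.G1Package8 Fermat.Agent.RED.PUR.GaussBridge10
  Fermat.Agent.RED.BASE Fermat.Agent.RED.BASE.EtaQuot12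
  Fermat.Agent.ES.N34.GaussEmb22 Fermat.Agent.ES.N34.ModelDefs9 Fermat.Agent.ES.N34.ModelGlue22
  Fermat.Agent.ES.N34.ModelN4

variable (n e q M' : ℕ) [NeZero n] [NeZero M'] [NeZero q] (A : ValuationSubring Qbar)

/-- `hcomb` at `(O1, alpha)` at `K` (verbatim the body of `PrinItems12.HcombItems`). -/
def HcombAt (K : IntermediateField ℚ Qbar) : Prop :=
  ∀ (_ht : tq (↥K) n e ∈ FK M' K) (hE : FK (M' * q) K ≤ fracField (AK A K))
    (π : ↥(AK A K)) (hπ : IsUnif (AK A K) π),
    ∀ x ∈ O1 M' q hπ hE, ∃ z : FK M' K, (z : LaurentSeries ↥K) ∈ gaussRing (AK A K) ∧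
      ∃ c ∈ O1 M' q hπ hE,
        x - alpha K M' q z = algebraMap ↥(AK A K) ↥(FK (M' * q) K) π * c

variable {n e q M' A}

set_option maxHeartbeats 4000000 in
/-- **`hcomb` at `(O1, alpha)` at one number field `K`** with `j ∈ K(t)`. -/
theorem hcombAt_of (hq : q.Prime) (hqM : ¬ q ∣ M') (hA : A.LiesOverPrime q)
    (K : IntermediateField ℚ Qbar) [FiniteDimensional ℚ K]
    (hjt : jqModC (↥K) ∈ IntermediateField.adjoin (↥K) {tq (↥K) n e}) :
    HcombAt n e q M' A K := by
  intro ht hE π hπ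
  have hdvr : IsDiscreteValuationRing ↥(AK A K) :=
    Fermat.Agent.RED.DESC.NumberFieldDVR27.isDiscreteValuationRing_AK A K hq.ne_zero hA
  have hirr : Irreducible π := (IsDiscreteValuationRing.irreducible_iff_uniformizer π).mpr hπ.max_eq
  have : Fact q.Prime := ⟨hq⟩
  have : CharP (Res (AK A K)) q :=
    Fermat.Agent.RED.DESC.NumberFieldDVR27.charP_residueField_AK A K hq hA
  -- V2
  obtain ⟨h12, ht₂, htr₂, b₂, hb₂, hli₂⟩ :=
    GaussVTwoInst25.v2Items_of A K M' q n e hq hqM hA hjt ht hE π hπ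
  -- V1
  have hjt' : jqModC (↥K) ∈ Kt (AK A K) (TBridge15.tG (AK A K) n e) := hjt
  have hFKM : FK M' K = modularFunctionFieldFullC (↥K) M' :=
    Fermat.Agent.RED.PUR.DegBaseChange25.laurentBaseChange_full_eq (L := ↥K) M'
  have hFKN : FK (M' * q) K = modularFunctionFieldFullC (↥K) (M' * q) :=
    Fermat.Agent.RED.PUR.DegBaseChange25.laurentBaseChange_full_eq (L := ↥K) (M' * q)
  have htE : ((TBridge15.tG (AK A K) n e : ↥(gaussRing (AK A K))) : LaurentSeries K) ∈
      modularFunctionFieldFullC (↥K) M' := by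
    rw [← hFKM]; exact ht
  obtain ⟨hdeg, hn0, -, -, hirrM⟩ :=
    GaussVOne25.g2_v1 (AK A K) hirr q M' hqM (TBridge15.tG (AK A K) n e) htE hjt'
  rw [← hFKN, ← hFKM] at hdeg
  rw [← hFKM] at hirrM hn0
  have hEM : FK M' K ≤ fracField (AK A K) := FK_le_fracField A K M'
  have htM : ((tM ht : ↥(FK M' K)) : LaurentSeries K) ∈ gaussRing (AK A K) :=
    TBridge15.tq_mem_gaussRing (AK A K) n e
  have htrM : Transcendental (Res (AK A K))
      (gaussRed (AK A K) ⟨((tM ht : ↥(FK M' K)) : LaurentSeries K), htM⟩) :=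
    TBridge15.transcendental_gaussRed_tG (AK A K) n e
  have hdeg' : relfinrank (Kt (AK A K) ⟨((tM ht : ↥(FK M' K)) : LaurentSeries K), htM⟩)
      (FK (M' * q) K) =
      relfinrank (Kt (AK A K) (TBridge15.tG (AK A K) n e)) (FK M' K) +
        q * relfinrank (Kt (AK A K) (TBridge15.tG (AK A K) n e)) (FK M' K) := by
    rw [show (⟨((tM ht : ↥(FK M' K)) : LaurentSeries K), htM⟩ : ↥(gaussRing (AK A K))) =
      TBridge15.tG (AK A K) n e from rfl, hdeg]
    ring
  have hn : relfinrank (Kt (AK A K) (TBridge15.tG (AK A K) n e)) (FK M' K) +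
      q * relfinrank (Kt (AK A K) (TBridge15.tG (AK A K) n e)) (FK M' K) ≠ 0 :=
    fun h => hn0 (by omega)
  have key := CombOne26.hcomb_one hirr hEM hE (alpha K M' q) (coe_alpha K M' q) (tM ht) htM htrM
    hirrM hdeg' hn (isGaussPullback_O2 M' q hπ hE) h12 ht₂ htr₂ b₂ hb₂ hli₂
  intro x hx
  obtain ⟨z, hz, c, hc, h⟩ := key x hx
  exact ⟨z, (mem_OvE_iff (AK A K) hirr (FK M' K) hEM z).mp hz, c, hc, h⟩

/-- **`hcomb` at `(O1, alpha)` for all large number fields** (`JTarget`: `j ∈ K(t)` for large `K`). -/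
theorem hcomb_large (hq : q.Prime) (hqM : ¬ q ∣ M') (hA : A.LiesOverPrime q)
    (hJ : Fermat.Agent.RED.ModelTargets4.JTarget n e) :
    Large (HcombAt n e q M' A) := by
  obtain ⟨K₁, hK₁, hJ⟩ := hJ
  refine ⟨K₁, hK₁, fun K _ hfd hle => ?_⟩
  have := hfd
  exact hcombAt_of hq hqM hA K (hJ K hfd hle)

/-- `q` odd: `4 ∣ M'`, Hauptmodul `tq · 4 8`. -/
theorem hcomb_four (hq : q.Prime) (hqM : ¬ q ∣ M') (hM : 4 ∣ M') (hA : A.LiesOverPrime q) :
    Large (HcombAt 4 8 q M' A) :=
  hcomb_large hq hqM hA (Fermat.Agent.RED.ModelFinal4.jTarget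
    (Fermat.Agent.RED.BASE.MainCusp12.base_four M' hM).1.genBase)

/-- `q = 2`: `9 ∣ M'`, Hauptmodul `tq · 9 3`. -/
theorem hcomb_nine (hq : q.Prime) (hqM : ¬ q ∣ M') (hM : 9 ∣ M') (hA : A.LiesOverPrime q) :
    Large (HcombAt 9 3 q M' A) :=
  hcomb_large hq hqM hA (Fermat.Agent.RED.ModelFinal4.jTarget
    (Fermat.Agent.RED.BASE.MainCusp12.base_nine M' hM).1.genBase)

end Fermat.Agent.ES.N34.CombA26
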