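/-
Program N (S34), chapter MODEL, brick V2-a (helper11): **Fricke versus the degeneracy maps** on the
`K`-rational function fields `FK N K = K(x_d : d ∣ N)`.

For `x : FK N₁ K` and `N = N₁ c`, with `W_N = FrickeFK8.frickeFK N K` (`x_d ↦ x_{N/d}`),
`α_c = heckeAlphaBar` (inclusion) and `β_c = heckeBetaBar` (`𝐪 ↦ 𝐪^c`):

* `frickeFK_beta`  : `W_{N₁ c} (β_c x) = α_c (W_{N₁} x)`;
* `frickeFK_alpha` : `W_{N₁ c} (α_c x) = β_c (W_{N₁} x)`;
* `iotaTwo_beta`   : `ι₂^{N₁ c} (β_c x) = ι₂^{N₁} x`;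
* `iotaTwo_alpha`  : `ι₂^{N₁ c} (α_c x) = V_c (ι₂^{N₁} x)`   (`V_c = qExpand c`);
* the same in `ModelDefs9` vocabulary (`wN_beta`, `wN_alpha`, `iota2_beta`, `iota2_alpha`,
  `coe_wN_beta`, `coe_wN_alpha`).

Proof: on the generators `x_d` both sides are `x_{N₁/d}` resp. `x_{c N₁/d}` (`frickeFK_xdL`); then
`FK_induction`.
-/
import Mathlib
import Fermat.Agent.ES.N34.ModelDefs9

set_option autoImplicit false
set_option linter.unusedSectionVars false

noncomputable section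

open HahnSeries ModularCurve

namespace Fermat.Agent.ES.N34.FrickeV11

open Fermat.Agent.RED.Interface4 Fermat.Agent.ES.N34.FrickeFK8 Fermat.Agent.ES.N34.ModelDefs9

section FD

variable (N₁ c : ℕ) [NeZero N₁] [NeZero c] (K : IntermediateField ℚ Qbar)

theorem beta_xdL (d : ℕ) [NeZero d] (hd : d ∣ N₁) :
    heckeBetaBar (↥K) N₁ c (xdL N₁ K d hd) =
      xdL (N₁ * c) K (c * d) (by rw [mul_comm N₁ c]; exact mul_dvd_mul_left c hd) := by
  apply Subtype.ext
  rw [coe_heckeBetaBar, coe_xdL, coe_xdL, qExpand_qExpand]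

theorem alpha_xdL (d : ℕ) [NeZero d] (hd : d ∣ N₁) :
    heckeAlphaBar (↥K) N₁ c (xdL N₁ K d hd) = xdL (N₁ * c) K d (Dvd.dvd.mul_right hd c) := by
  apply Subtype.ext
  rw [coe_heckeAlphaBar, coe_xdL, coe_xdL]

/-- **(FD-β)** `W_{N₁ c} ∘ β_c = α_c ∘ W_{N₁}`. -/
theorem frickeFK_beta (x : FK N₁ K) :
    frickeFK (N₁ * c) K (heckeBetaBar (↥K) N₁ c x) = heckeAlphaBar (↥K) N₁ c (frickeFK N₁ K x) := by
  induction x using FK_induction with
  | hx d hd =>
      obtain ⟨e', hde⟩ := hd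
      have he0 : e' ≠ 0 := by
        rintro rfl
        exact NeZero.ne N₁ (by rw [hde, mul_zero])
      have : NeZero e' := ⟨he0⟩
      have h1 : (c * d) * e' = N₁ * c := by rw [hde]; ring
      rw [beta_xdL, frickeFK_xdL N₁ K d e' hde.symm, alpha_xdL]
      exact frickeFK_xdL (N₁ * c) K (c * d) e' h1
  | hc a => rw [AlgHom.commutes, AlgHom.commutes, AlgHom.commutes, AlgHom.commutes]
  | hadd f g hf hg => rw [map_add, map_add, hf, hg, map_add, map_add]
  | hmul f g hf hg => rw [map_mul, map_mul, hf, hg, map_mul, map_mul]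
  | hinv f hf => rw [map_inv₀, map_inv₀, hf, map_inv₀, map_inv₀]

/-- **(FD-α)** `W_{N₁ c} ∘ α_c = β_c ∘ W_{N₁}`. -/
theorem frickeFK_alpha (x : FK N₁ K) :
    frickeFK (N₁ * c) K (heckeAlphaBar (↥K) N₁ c x) = heckeBetaBar (↥K) N₁ c (frickeFK N₁ K x) := by
  induction x using FK_induction with
  | hx d hd =>
      obtain ⟨e', hde⟩ := hd
      have he0 : e' ≠ 0 := by
        rintro rfl
        exact NeZero.ne N₁ (by rw [hde, mul_zero])
      have : NeZero e' := ⟨he0⟩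
      have h1 : d * (c * e') = N₁ * c := by rw [hde]; ring
      rw [alpha_xdL, frickeFK_xdL N₁ K d e' hde.symm, beta_xdL]
      exact frickeFK_xdL (N₁ * c) K d (c * e') h1
  | hc a => rw [AlgHom.commutes, AlgHom.commutes, AlgHom.commutes, AlgHom.commutes]
  | hadd f g hf hg => rw [map_add, map_add, hf, hg, map_add, map_add]
  | hmul f g hf hg => rw [map_mul, map_mul, hf, hg, map_mul, map_mul]
  | hinv f hf => rw [map_inv₀, map_inv₀, hf, map_inv₀, map_inv₀]

/-- `ι₂^{N₁ c} (β_c x) = ι₂^{N₁} x`. -/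
theorem iotaTwo_beta (x : FK N₁ K) :
    iotaTwo (N₁ * c) K (heckeBetaBar (↥K) N₁ c x) = iotaTwo N₁ K x := by
  rw [iotaTwo_apply, frickeFK_beta, coe_heckeAlphaBar, iotaTwo_apply]

/-- `ι₂^{N₁ c} (α_c x) = V_c (ι₂^{N₁} x)`. -/
theorem iotaTwo_alpha (x : FK N₁ K) :
    iotaTwo (N₁ * c) K (heckeAlphaBar (↥K) N₁ c x) = qExpand (↥K) c (iotaTwo N₁ K x) := by
  rw [iotaTwo_apply, frickeFK_alpha, coe_heckeBetaBar, iotaTwo_apply]

end FD

/-! ### In `ModelDefs9` vocabulary (`N₁ = M'`, `c = q`) -/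

section Model

variable (K : IntermediateField ℚ Qbar) (M' q : ℕ) [NeZero M'] [NeZero q]

/-- `W_{N'} ∘ β = α ∘ W_{M'}`. -/
theorem wN_beta (x : FK M' K) :
    wN K M' q (beta K M' q x) = alpha K M' q (frickeFK M' K x) :=
  frickeFK_beta M' q K x

/-- `W_{N'} ∘ α = β ∘ W_{M'}`. -/
theorem wN_alpha (x : FK M' K) :
    wN K M' q (alpha K M' q x) = beta K M' q (frickeFK M' K x) :=
  frickeFK_alpha M' q K x

theorem coe_wN_beta (x : FK M' K) :
    ((wN K M' q (beta K M' q x) : FK (M' * q) K) : LaurentSeries K)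
      = ((frickeFK M' K x : FK M' K) : LaurentSeries K) := by
  rw [wN_beta, coe_alpha]

theorem coe_wN_alpha (x : FK M' K) :
    ((wN K M' q (alpha K M' q x) : FK (M' * q) K) : LaurentSeries K)
      = qExpand (↥K) q ((frickeFK M' K x : FK M' K) : LaurentSeries K) := by
  rw [wN_alpha, coe_beta]

theorem iota2_beta (x : FK M' K) :
    iota2 K M' q (beta K M' q x) = iotaTwo M' K x :=
  iotaTwo_beta M' q K x

theorem iota2_alpha (x : FK M' K) :
    iota2 K M' q (alpha K M' q x) = qExpand (↥K) q (iotaTwo M' K x) :=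
  iotaTwo_alpha M' q K x

end Model

end Fermat.Agent.ES.N34.FrickeV11
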