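/-
Program N (S34), chapter MODEL, brick S3 helper file (helper5): **W-transport of "residue degree
one"** (helper9's option (B), ruling r10(1)/r17(2)).

`O1 = alpha(Ov_{M'}) + π O1` implies `O2 = beta(Ov_{M'}) + π O2`:
`x ∈ O2 ⇒ W x ∈ O1 ⇒ W x - alpha z = π c  (z ∈ Ov_{M'}, c ∈ O1)  ⇒  x - beta (W' z) = π (W c)`,
with `W c ∈ O2` (`W ∘ W = id`), `W' z ∈ Ov_{M'}` (level-`M'` isometry, a hypothesis),
`W ∘ alpha = beta ∘ W'` (V2-a, `FrickeV11.wN_alpha`), `W π = π`.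
So the `hcomb` hypothesis of `CompGauss16.branchPrincipal_gauss` at `(O2, beta)` follows from the
one at `(O1, alpha)`, with NO condition on the `O2`-family of V2.
(`z ∈ Ov_{M'}` is written `↑z ∈ gaussRing (AK A K)`; convert with `G1Package8.mem_OvE_iff`.)
-/
import Mathlib
import Fermat.Agent.ES.N34.ModelDefs9
import Fermat.Agent.ES.N34.FrickeV11

set_option autoImplicit false
set_option linter.unusedSectionVars false
set_option synthInstance.maxHeartbeats 400000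

noncomputable section

open HahnSeries ModularCurve

namespace Fermat.Agent.ES.N34.CombW5

open Fermat.Agent.RED.Interface4 Fermat.Agent.RED.PUR.GaussGen8
  Fermat.Agent.ES.N34.FrickeFK8 Fermat.Agent.ES.N34.ModelDefs9

variable {A : ValuationSubring Qbar} {K : IntermediateField ℚ Qbar} (M' q : ℕ) [NeZero M'] [NeZero q]
  {π : ↥(AK A K)} (hu : IsUnif (AK A K) π) (hE : FK (M' * q) K ≤ fracField (AK A K))

/-- `W_{N'}` fixes the constants of `AK A K` (it is `K`-linear); in particular `W π = π`. -/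
theorem wN_algebraMap_AK (r : ↥(AK A K)) :
    wN K M' q (algebraMap ↥(AK A K) ↥(FK (M' * q) K) r)
      = algebraMap ↥(AK A K) ↥(FK (M' * q) K) r := by
  have h : algebraMap ↥(AK A K) ↥(FK (M' * q) K) r
      = algebraMap ↥K ↥(FK (M' * q) K) ((r : ↥(AK A K)) : ↥K) := rfl
  rw [h, AlgHom.commutes]

/-- **W-transport**: `O1 = alpha(Ov_{M'}) + π O1` implies `O2 = beta(Ov_{M'}) + π O2`. -/
theorem hcomb_O2_of_O1
    (hiso : ∀ x : FK M' K, (x : LaurentSeries ↥K) ∈ gaussRing (AK A K) ↔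
      ((frickeFK M' K x : FK M' K) : LaurentSeries ↥K) ∈ gaussRing (AK A K))
    (h1 : ∀ x ∈ O1 M' q hu hE, ∃ z : FK M' K, (z : LaurentSeries ↥K) ∈ gaussRing (AK A K) ∧
      ∃ c ∈ O1 M' q hu hE, x - alpha K M' q z = algebraMap ↥(AK A K) ↥(FK (M' * q) K) π * c) :
    ∀ x ∈ O2 M' q hu hE, ∃ z : FK M' K, (z : LaurentSeries ↥K) ∈ gaussRing (AK A K) ∧
      ∃ c ∈ O2 M' q hu hE, x - beta K M' q z = algebraMap ↥(AK A K) ↥(FK (M' * q) K) π * c := by
  intro x hx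
  obtain ⟨z, hz, c, hc, hxz⟩ := h1 (wN K M' q x) ((mem_O2_iff_wN_mem_O1 M' q hu hE x).mp hx)
  refine ⟨frickeFK M' K z, (hiso z).mp hz, wN K M' q c,
    (wN_mem_O2_iff M' q hu hE c).mpr hc, ?_⟩
  have h2 := congrArg (wN K M' q) hxz
  rw [map_sub, map_mul, wN_wN, FrickeV11.wN_alpha, wN_algebraMap_AK] at h2
  exact h2

/-- The same with the roles exchanged (`O2 = beta(Ov) + π O2 ⇒ O1 = alpha(Ov) + π O1`). -/
theorem hcomb_O1_of_O2
    (hiso : ∀ x : FK M' K, (x : LaurentSeries ↥K) ∈ gaussRing (AK A K) ↔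
      ((frickeFK M' K x : FK M' K) : LaurentSeries ↥K) ∈ gaussRing (AK A K))
    (h2 : ∀ x ∈ O2 M' q hu hE, ∃ z : FK M' K, (z : LaurentSeries ↥K) ∈ gaussRing (AK A K) ∧
      ∃ c ∈ O2 M' q hu hE, x - beta K M' q z = algebraMap ↥(AK A K) ↥(FK (M' * q) K) π * c) :
    ∀ x ∈ O1 M' q hu hE, ∃ z : FK M' K, (z : LaurentSeries ↥K) ∈ gaussRing (AK A K) ∧
      ∃ c ∈ O1 M' q hu hE, x - alpha K M' q z = algebraMap ↥(AK A K) ↥(FK (M' * q) K) π * c := by
  intro x hx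
  obtain ⟨z, hz, c, hc, hxz⟩ := h2 (wN K M' q x) ((wN_mem_O2_iff M' q hu hE x).mpr hx)
  refine ⟨frickeFK M' K z, (hiso z).mp hz, wN K M' q c,
    (mem_O2_iff_wN_mem_O1 M' q hu hE c).mp hc, ?_⟩
  have h3 := congrArg (wN K M' q) hxz
  rw [map_sub, map_mul, wN_wN, FrickeV11.wN_beta, wN_algebraMap_AK] at h3
  exact h3

end Fermat.Agent.ES.N34.CombW5
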