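/-
Program N (S34), chapter NODAL START at SMOOTH points (helper13).

A maximal ideal `𝔪 ∋ π` of a chart `B` of the nodal model lying on exactly ONE component (say the one
with Gauss valuation ring `O1`; witness `OffBranch π B O2 𝔪` for the other) at which the local ring
is smooth (`𝔪 B_𝔪 = (π, s)`).  Then Program H's step (D) START applies to the LOCALISED chart
`B_𝔪 ⊂ F` (an `R`-subalgebra of `F`, `locSub B 𝔪`) with `Ov := O1`: its chart hypotheses hold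
(local saturation `B_𝔪 ∩ π O1 = π B_𝔪` comes from the global saturation in `O1 ⊓ O2` and the
off-branch multiplier), and `StartChart28.start_chart` is used as a black box.

`locStart_of_smooth` : (U1) `u ≡ 1 mod π O1` and (U2) `m ∣ ord_v u` for all places give
`NodalCore13.LocStart π B O1 O2 m u 𝔪`; `locStart_of_smooth'` is the mirror statement.
-/
import Mathlib
import Fermat.Agent.RED.CORE.StartChart28
import Fermat.Agent.ES.N34.NodalCore13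

set_option autoImplicit false

namespace Fermat.Agent.ES.N34.NodalSmooth13

open Fermat.Agent.RED.CORE Fermat.Agent.ES.N34.NodalCore13

section LocSub

variable {R F : Type*} [CommRing R] [Field F] [Algebra R F]

/-- `B_𝔪 ⊂ F` as an `R`-subalgebra of `F`. -/
def locSub (B : Subalgebra R F) (𝔪 : Ideal B) [h𝔪 : 𝔪.IsPrime] : Subalgebra R F where
  carrier := {x | ∃ a d : B, d ∉ 𝔪 ∧ x * (d : F) = (a : F)}
  mul_mem' := by
    rintro x y ⟨a, d, hd, h⟩ ⟨a', d', hd', h'⟩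
    exact ⟨a * a', d * d', fun hh => (h𝔪.mem_or_mem hh).elim hd hd', by
      push_cast; rw [← h, ← h']; ring⟩
  one_mem' := ⟨1, 1, fun h1 => h𝔪.ne_top ((Ideal.eq_top_iff_one 𝔪).mpr h1), by simp⟩
  add_mem' := by
    rintro x y ⟨a, d, hd, h⟩ ⟨a', d', hd', h'⟩
    exact ⟨a * d' + a' * d, d * d', fun hh => (h𝔪.mem_or_mem hh).elim hd hd', by
      push_cast; rw [← h, ← h']; ring⟩
  zero_mem' := ⟨0, 1, fun h1 => h𝔪.ne_top ((Ideal.eq_top_iff_one 𝔪).mpr h1), by simp⟩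
  algebraMap_mem' := fun r =>
    ⟨algebraMap R B r, 1, fun h1 => h𝔪.ne_top ((Ideal.eq_top_iff_one 𝔪).mpr h1), by simp⟩

variable (B : Subalgebra R F) (𝔪 : Ideal B) [h𝔪 : 𝔪.IsPrime]

theorem mem_locSub {x : F} :
    x ∈ locSub B 𝔪 ↔ ∃ a d : B, d ∉ 𝔪 ∧ x * (d : F) = (a : F) := Iff.rfl

theorem le_locSub : B ≤ locSub B 𝔪 := fun x hx =>
  ⟨⟨x, hx⟩, 1, fun h1 => h𝔪.ne_top ((Ideal.eq_top_iff_one 𝔪).mpr h1), by simp⟩

omit h𝔪 in
theorem coe_ne_zero_of_notMem {d : B} (hd : d ∉ 𝔪) : (d : F) ≠ 0 := by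
  intro h0
  apply hd
  have : d = 0 := Subtype.ext h0
  rw [this]; exact 𝔪.zero_mem

theorem inv_mem_locSub {d : B} (hd : d ∉ 𝔪) : ((d : F))⁻¹ ∈ locSub B 𝔪 :=
  ⟨1, d, hd, by simp [inv_mul_cancel₀ (coe_ne_zero_of_notMem B 𝔪 hd)]⟩

/-- `B → B_𝔪`. -/
instance algLoc : Algebra ↥B ↥(locSub B 𝔪) :=
  (Subalgebra.inclusion (le_locSub B 𝔪)).toRingHom.toAlgebra

theorem coe_algebraMap_loc (b : B) :
    ((algebraMap ↥B ↥(locSub B 𝔪) b : ↥(locSub B 𝔪)) : F) = (b : F) := rfl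

instance isLocalization_locSub : IsLocalization.AtPrime ↥(locSub B 𝔪) 𝔪 := by
  rw [IsLocalization.AtPrime, isLocalization_iff]
  refine ⟨?_, ?_, ?_⟩
  · rintro ⟨d, hd⟩
    have hd' : d ∉ 𝔪 := hd
    refine ⟨⟨algebraMap ↥B ↥(locSub B 𝔪) d, ⟨(d : F)⁻¹, inv_mem_locSub B 𝔪 hd'⟩, ?_, ?_⟩, rfl⟩
    · apply Subtype.ext
      show (d : F) * (d : F)⁻¹ = 1
      exact mul_inv_cancel₀ (coe_ne_zero_of_notMem B 𝔪 hd')
    · apply Subtype.ext
      show (d : F)⁻¹ * (d : F) = 1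
      exact inv_mul_cancel₀ (coe_ne_zero_of_notMem B 𝔪 hd')
  · rintro ⟨z, a, d, hd, h⟩
    exact ⟨(a, ⟨d, hd⟩), Subtype.ext h⟩
  · intro x y hxy
    refine ⟨1, ?_⟩
    have : (x : F) = (y : F) := congrArg (fun z : ↥(locSub B 𝔪) => (z : F)) hxy
    rw [Subtype.ext this]

instance : IsLocalRing ↥(locSub B 𝔪) := IsLocalization.AtPrime.isLocalRing _ 𝔪

/-- nonunits of `B_𝔪` have numerators in `𝔪`. -/
theorem num_mem_of_not_isUnit {z : ↥(locSub B 𝔪)} (hz : ¬ IsUnit z) {a d : B} (hd : d ∉ 𝔪)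
    (h : (z : F) * (d : F) = (a : F)) : a ∈ 𝔪 := by
  by_contra ha
  apply hz
  have ha0 := coe_ne_zero_of_notMem B 𝔪 ha
  have hd0 := coe_ne_zero_of_notMem B 𝔪 hd
  have hzF : (z : F) = (a : F) * (d : F)⁻¹ := by
    rw [← h]; field_simp
  refine ⟨⟨z, ⟨(d : F) * (a : F)⁻¹, ⟨d, a, ha, by field_simp⟩⟩, ?_, ?_⟩, rfl⟩
  · apply Subtype.ext
    show (z : F) * ((d : F) * (a : F)⁻¹) = 1
    rw [hzF]; field_simp
  · apply Subtype.ext
    show ((d : F) * (a : F)⁻¹) * (z : F) = 1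
    rw [hzF]; field_simp

/-- elements of `𝔪` are nonunits of `B_𝔪`. -/
theorem not_isUnit_of_mem {s : B} (hs : s ∈ 𝔪) :
    ¬ IsUnit (algebraMap ↥B ↥(locSub B 𝔪) s) := by
  intro hu
  have := (IsLocalization.AtPrime.isUnit_to_map_iff ↥(locSub B 𝔪) 𝔪 s).mp hu
  exact this hs

end LocSub

section Smooth

variable {R K F : Type*} [CommRing R] [Field K] [Field F] [Algebra R K] [Algebra K F]
  [Algebra R F] [IsScalarTower R K F]

/-- **START at a smooth point on the `O1`-component of a nodal chart.** -/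
theorem locStart_of_smooth (π : R) (B : Subalgebra R F) (O1 O2 : ValuationSubring F)
    (noethB : IsNoetherianRing B) (fracR : IsFractionRing R K)
    (dvrR : ∀ r : R, r ≠ 0 → ∃ (k : ℕ) (v : Rˣ), r = π ^ k * v)
    (intcl : ∀ x : F, IsIntegral B x → x ∈ B)
    (frac : ∀ x : F, ∃ a ∈ B, ∃ b ∈ B, b ≠ 0 ∧ x * b = a)
    (leO1 : ∀ x ∈ B, x ∈ O1) (leO2 : ∀ x ∈ B, x ∈ O2)
    (pi_ne : algebraMap R F π ≠ 0) (pi_nonunit1 : (algebraMap R F π)⁻¹ ∉ O1)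
    (unif1 : ∀ x ∈ O1, x⁻¹ ∉ O1 → ∃ c ∈ O1, x = algebraMap R F π * c)
    (arch2 : ∀ x : F, ∃ k : ℕ, algebraMap R F π ^ k * x ∈ O2)
    (sat : ∀ b ∈ B, ∀ c : F, c ∈ O1 → c ∈ O2 → b = algebraMap R F π * c → c ∈ B)
    (𝔪 : Ideal B) (h𝔪 : 𝔪.IsMaximal) (_hπ𝔪 : algebraMap R B π ∈ 𝔪)
    (hon : ∀ b : B, (∃ c ∈ O1, (b : F) = algebraMap R F π * c) → b ∈ 𝔪)
    (hoff : OffBranch π B O2 𝔪)
    (hsm : ∃ s ∈ 𝔪, ∀ y ∈ 𝔪, ∃ d : B, d ∉ 𝔪 ∧ d * y ∈ Ideal.span {algebraMap R B π, s})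
    (m : ℕ) (hm : 0 < m) (u : F) (hu1 : ∃ c ∈ O1, u - 1 = algebraMap R F π * c)
    (hu2 : ∀ v : AlgebraicCurve.Place K F, (m : ℤ) ∣ v.ord u) :
    LocStart π B O1 O2 m u 𝔪 := by
  classical
  have h𝔪p : 𝔪.IsPrime := h𝔪.isPrime
  set p : F := algebraMap R F π with hp
  set C : Subalgebra R F := locSub B 𝔪 with hC
  have hfracB : IsFractionRing ↥B F := by
    refine IsFractionRing.of_field ↥B F fun z => ?_
    obtain ⟨a, ha, b, hb, hb0, hab⟩ := frac z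
    refine ⟨⟨a, ha⟩, ⟨b, hb⟩, ?_⟩
    show z = a / b
    rw [eq_div_iff hb0, hab]
  have hdomB : IsDomain ↥B := inferInstance
  -- `d ∉ 𝔪` is a unit of `O1`
  have hinvO1 : ∀ d : B, d ∉ 𝔪 → ((d : F))⁻¹ ∈ O1 := by
    intro d hd
    by_contra hcon
    obtain ⟨c, hc, hdc⟩ := unif1 _ (leO1 _ d.2) hcon
    exact hd (hon d ⟨c, hc, hdc⟩)
  -- `C ⊆ O1`
  have hCO1 : ∀ x ∈ C, x ∈ O1 := by
    rintro x ⟨a, d, hd, h⟩
    have hd0 := coe_ne_zero_of_notMem B 𝔪 hd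
    have : x = (a : F) * (d : F)⁻¹ := by rw [← h]; field_simp
    rw [this]
    exact O1.mul_mem _ _ (leO1 _ a.2) (hinvO1 d hd)
  -- local saturation
  have hsatC : ∀ b ∈ C, ∀ c ∈ O1, b = p * c → c ∈ C := by
    rintro b ⟨a, d, hd, h⟩ c hc hbc
    obtain ⟨e, he, o, ho, heo⟩ := hoff
    obtain ⟨k, hk⟩ := arch2 (c * (d : F))
    -- `e^(k+1) a = π (c d e^(k+1))`, with `c d e^(k+1) ∈ O1 ⊓ O2`
    have hmem : c * (d : F) * (e : F) ^ (k + 1) ∈ B := by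
      refine sat ((e : F) ^ (k + 1) * (a : F)) (B.mul_mem (B.pow_mem e.2 _) a.2) _ ?_ ?_ ?_
      · exact O1.mul_mem _ _ (O1.mul_mem _ _ hc (leO1 _ d.2)) (pow_mem (leO1 _ e.2) _)
      · have : c * (d : F) * (e : F) ^ (k + 1) = (e : F) * o ^ k * (p ^ k * (c * (d : F))) := by
          rw [heo]; ring
        rw [this]
        exact O2.mul_mem _ _ (O2.mul_mem _ _ (leO2 _ e.2) (pow_mem ho _)) hk
      · rw [← h, hbc]; ring
    refine ⟨⟨_, hmem⟩, d * e ^ (k + 1), fun hh => (h𝔪p.mem_or_mem hh).elim hd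
      (fun h' => he (h𝔪p.mem_of_pow_mem _ h')), ?_⟩
    push_cast; ring
  -- `C` noetherian, integrally closed
  have hnoethC : IsNoetherianRing ↥C := IsLocalization.isNoetherianRing 𝔪.primeCompl _ noethB
  have hfracC : ∀ x : F, ∃ a ∈ C, ∃ b ∈ C, b ≠ 0 ∧ x * b = a := by
    intro x
    obtain ⟨a, ha, b, hb, hb0, hab⟩ := frac x
    exact ⟨a, le_locSub B 𝔪 ha, b, le_locSub B 𝔪 hb, hb0, hab⟩
  have hfracC' : IsFractionRing ↥C F := by
    refine IsFractionRing.of_field ↥C F fun z => ?_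
    obtain ⟨a, ha, b, hb, hb0, hab⟩ := hfracC z
    refine ⟨⟨a, ha⟩, ⟨b, hb⟩, ?_⟩
    show z = a / b
    rw [eq_div_iff hb0, hab]
  have hicB : IsIntegrallyClosed ↥B := by
    refine (isIntegrallyClosed_iff F).mpr fun {x} hx => ?_
    exact ⟨⟨x, intcl x hx⟩, rfl⟩
  have hicC : IsIntegrallyClosed ↥C :=
    isIntegrallyClosed_of_isLocalization ↥C 𝔪.primeCompl 𝔪.primeCompl_le_nonZeroDivisors
  have hintclC : ∀ x : F, IsIntegral ↥C x → x ∈ C := by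
    intro x hx
    obtain ⟨y, hy⟩ := (isIntegrallyClosed_iff F).mp hicC hx
    rw [← hy]; exact y.2
  -- smoothness of `C`
  have hsmC : ∀ x : Ideal ↥C, x.IsMaximal → algebraMap R ↥C π ∈ x →
      ∃ s ∈ x, ∀ y ∈ x, ∃ d : ↥C, d ∉ x ∧ d * y ∈ Ideal.span {algebraMap R ↥C π, s} := by
    intro x hx _
    obtain ⟨s, hs, hgen⟩ := hsm
    have hxmax : x = IsLocalRing.maximalIdeal ↥C := IsLocalRing.eq_maximalIdeal hx
    refine ⟨algebraMap ↥B ↥C s, ?_, ?_⟩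
    · rw [hxmax, IsLocalRing.mem_maximalIdeal, mem_nonunits_iff]
      exact not_isUnit_of_mem B 𝔪 hs
    · intro y hy
      have hynu : ¬ IsUnit y := by
        rw [hxmax, IsLocalRing.mem_maximalIdeal, mem_nonunits_iff] at hy
        exact hy
      obtain ⟨a, d, hd, had⟩ := y.2
      have ha𝔪 : a ∈ 𝔪 := num_mem_of_not_isUnit B 𝔪 hynu hd had
      obtain ⟨d', hd', hspan⟩ := hgen a ha𝔪
      obtain ⟨b₁, b₂, hb⟩ := Ideal.mem_span_pair.mp hspan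
      have hd0 := coe_ne_zero_of_notMem B 𝔪 hd
      refine ⟨algebraMap ↥B ↥C d', ?_, ?_⟩
      · rw [hxmax, IsLocalRing.mem_maximalIdeal, mem_nonunits_iff, not_not]
        exact (IsLocalization.AtPrime.isUnit_to_map_iff ↥C 𝔪 d').mpr hd'
      · rw [Ideal.mem_span_pair]
        refine ⟨⟨(b₁ : F) * (d : F)⁻¹, (locSub B 𝔪).mul_mem (le_locSub B 𝔪 b₁.2)
          (inv_mem_locSub B 𝔪 hd)⟩, ⟨(b₂ : F) * (d : F)⁻¹, (locSub B 𝔪).mul_mem
          (le_locSub B 𝔪 b₂.2) (inv_mem_locSub B 𝔪 hd)⟩, ?_⟩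
        apply Subtype.ext
        show (b₁ : F) * (d : F)⁻¹ * p + (b₂ : F) * (d : F)⁻¹ * (s : F) = (d' : F) * (y : F)
        have hbF : (b₁ : F) * p + (b₂ : F) * (s : F) = (d' : F) * (a : F) := by
          have := congrArg (Subtype.val) hb
          simpa using this
        have hyF : (y : F) = (a : F) * (d : F)⁻¹ := by rw [← had]; field_simp
        rw [hyF]
        field_simp
        linear_combination hbF
  -- Program H's START on the chart `C`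
  obtain ⟨g, hgC, c, hc, hgc⟩ := StartChart28.start_chart (R := R) (K := K) (F := F) π C O1
    hnoethC fracR dvrR hintclC hfracC hCO1 pi_ne pi_nonunit1 unif1 hsatC hsmC m hm u hu1 hu2
  obtain ⟨a, d, hd, had⟩ := hgC
  exact ⟨g, ⟨a, d, hd, had⟩, Or.inl ⟨c, hc, hgc⟩, Or.inr hoff⟩

/-- `LocStart` is symmetric in the two components. -/
theorem locStart_symm {π : R} {B : Subalgebra R F} {O1 O2 : ValuationSubring F} {m : ℕ} {u : F}
    {𝔪 : Ideal B} (h : LocStart π B O1 O2 m u 𝔪) : LocStart π B O2 O1 m u 𝔪 := by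
  obtain ⟨g, h0, h1, h2⟩ := h
  exact ⟨g, h0, h2, h1⟩

/-- **START at a smooth point on the `O2`-component of a nodal chart** (mirror statement). -/
theorem locStart_of_smooth' (π : R) (B : Subalgebra R F) (O1 O2 : ValuationSubring F)
    (noethB : IsNoetherianRing B) (fracR : IsFractionRing R K)
    (dvrR : ∀ r : R, r ≠ 0 → ∃ (k : ℕ) (v : Rˣ), r = π ^ k * v)
    (intcl : ∀ x : F, IsIntegral B x → x ∈ B)
    (frac : ∀ x : F, ∃ a ∈ B, ∃ b ∈ B, b ≠ 0 ∧ x * b = a)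
    (leO1 : ∀ x ∈ B, x ∈ O1) (leO2 : ∀ x ∈ B, x ∈ O2)
    (pi_ne : algebraMap R F π ≠ 0) (pi_nonunit2 : (algebraMap R F π)⁻¹ ∉ O2)
    (unif2 : ∀ x ∈ O2, x⁻¹ ∉ O2 → ∃ c ∈ O2, x = algebraMap R F π * c)
    (arch1 : ∀ x : F, ∃ k : ℕ, algebraMap R F π ^ k * x ∈ O1)
    (sat : ∀ b ∈ B, ∀ c : F, c ∈ O1 → c ∈ O2 → b = algebraMap R F π * c → c ∈ B)
    (𝔪 : Ideal B) (h𝔪 : 𝔪.IsMaximal) (hπ𝔪 : algebraMap R B π ∈ 𝔪)
    (hon : ∀ b : B, (∃ c ∈ O2, (b : F) = algebraMap R F π * c) → b ∈ 𝔪)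
    (hoff : OffBranch π B O1 𝔪)
    (hsm : ∃ s ∈ 𝔪, ∀ y ∈ 𝔪, ∃ d : B, d ∉ 𝔪 ∧ d * y ∈ Ideal.span {algebraMap R B π, s})
    (m : ℕ) (hm : 0 < m) (u : F) (hu1 : ∃ c ∈ O2, u - 1 = algebraMap R F π * c)
    (hu2 : ∀ v : AlgebraicCurve.Place K F, (m : ℤ) ∣ v.ord u) :
    LocStart π B O1 O2 m u 𝔪 :=
  locStart_symm (locStart_of_smooth (K := K) π B O2 O1 noethB fracR dvrR intcl frac leO2 leO1 pi_ne
    pi_nonunit2 unif2 arch1 (fun b hb c h2 h1 e => sat b hb c h1 h2 e) 𝔪 h𝔪 hπ𝔪 hon hoff hsm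
    m hm u hu1 hu2)

end Smooth

end Fermat.Agent.ES.N34.NodalSmooth13
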