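/-
Program N (S34), chapter NODAL START (helper13), on top of `NodalCore13`
(the abstract core for a two-chart model with reduced two-component special fibre).

* `exists_den_of_horizontal` (L1a) : Krull-type membership: if `ε ∈ B_𝔭` for every nonzero
  "horizontal" prime `𝔭 ≤ 𝔪` (`π ∉ 𝔭`) and `ε ∈ O_j` on the branches through `𝔪`, then `ε ∈ B_𝔪`
  (uses only `π`-saturation of `B` in `O1 ⊓ O2`; no UFD, no Krull domains, no completion).
* `locStart_of_horizontal` : the form in which the S34 top supplies `NodalCore13.LocStart`: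
  an explicit `g` (inverse of the local generator `h_z`), `g ≡ 1` on the branches through `𝔪`,
  `g ^ m * u ∈ B_𝔭` at the horizontal primes through `𝔪`.
* `integrallyClosed_of_reduced` (L2) : `B / π B` reduced and `B[1/π]` integrally closed in `F`
  imply `B` integrally closed in `F` (normality of `S_i ⊗ A'` without Serre's criterion).
-/
import Mathlib
import Fermat.Agent.ES.N34.NodalCore13

set_option autoImplicit false

namespace Fermat.Agent.ES.N34.NodalStart13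

open Polynomial Fermat.Agent.ES.N34.NodalCore13

section Krull

variable {R F : Type*} [CommRing R] [Field F] [Algebra R F]

/-- iterated saturation w.r.t. `O1 ⊓ O2`. -/
theorem sat_pow (π : R) (B : Subalgebra R F) (O1 O2 : ValuationSubring F)
    (leO1 : ∀ x ∈ B, x ∈ O1) (leO2 : ∀ x ∈ B, x ∈ O2)
    (sat : ∀ b ∈ B, ∀ c : F, c ∈ O1 → c ∈ O2 → b = algebraMap R F π * c → c ∈ B) :
    ∀ (k : ℕ), ∀ b ∈ B, ∀ c : F, c ∈ O1 → c ∈ O2 → b = algebraMap R F π ^ k * c → c ∈ B := by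
  intro k
  induction k with
  | zero => intro b hb c _ _ h; rw [pow_zero, one_mul] at h; rw [← h]; exact hb
  | succ k ih =>
    intro b hb c hc1 hc2 h
    have hp1 : algebraMap R F π ∈ O1 := leO1 _ (B.algebraMap_mem π)
    have hp2 : algebraMap R F π ∈ O2 := leO2 _ (B.algebraMap_mem π)
    have h1 : algebraMap R F π ^ k * c ∈ B :=
      sat b hb _ (O1.mul_mem _ _ (pow_mem hp1 k) hc1) (O2.mul_mem _ _ (pow_mem hp2 k) hc2)
        (by rw [h, pow_succ]; ring)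
    exact ih _ h1 c hc1 hc2 rfl

/-- **Membership from the generic fibre.**  If `ε ∈ B_𝔪[1/π]` (i.e. `π ^ k * ε * d ∈ B` for some
`k` and some `d ∉ 𝔪`) and, for each `j`, `ε ∈ O_j` or the component `j` misses `𝔪`, then `ε ∈ B_𝔪`:
the power of `π` is removed by saturation. -/
theorem exists_den_of_away (π : R) (B : Subalgebra R F) (O1 O2 : ValuationSubring F)
    (leO1 : ∀ x ∈ B, x ∈ O1) (leO2 : ∀ x ∈ B, x ∈ O2)
    (arch1 : ∀ x : F, ∃ k : ℕ, algebraMap R F π ^ k * x ∈ O1)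
    (arch2 : ∀ x : F, ∃ k : ℕ, algebraMap R F π ^ k * x ∈ O2)
    (sat : ∀ b ∈ B, ∀ c : F, c ∈ O1 → c ∈ O2 → b = algebraMap R F π * c → c ∈ B)
    (𝔪 : Ideal B) [𝔪.IsPrime] (ε : F)
    (haway : ∃ (k : ℕ) (a b : B), b ∉ 𝔪 ∧ algebraMap R F π ^ k * ε * (b : F) = (a : F))
    (hG1 : ε ∈ O1 ∨ OffBranch π B O1 𝔪) (hG2 : ε ∈ O2 ∨ OffBranch π B O2 𝔪) :
    ∃ a d : B, d ∉ 𝔪 ∧ ε * (d : F) = (a : F) := by
  set p : F := algebraMap R F π with hp
  obtain ⟨k, a, b, hb𝔪, hk⟩ := haway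
  obtain ⟨c1, hc1, hc1O⟩ := exists_multiplier_mem π B O1 arch1 𝔪 ε hG1
  obtain ⟨c2, hc2, hc2O⟩ := exists_multiplier_mem π B O2 arch2 𝔪 ε hG2
  have hcd : c1 * c2 * b ∉ 𝔪 := fun h =>
    (‹𝔪.IsPrime›.mem_or_mem h).elim
      (fun h' => (‹𝔪.IsPrime›.mem_or_mem h').elim hc1 hc2) hb𝔪
  have hmemB : ε * ((c1 * c2 * b : B) : F) ∈ B := by
    refine sat_pow π B O1 O2 leO1 leO2 sat k
      ((c1 : F) * (c2 : F) * (a : F))
      (B.mul_mem (B.mul_mem c1.2 c2.2) a.2) _ ?_ ?_ ?_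
    · have : ε * ((c1 * c2 * b : B) : F) = (c2 : F) * (b : F) * ((c1 : F) * ε) := by
        push_cast; ring
      rw [this]
      exact O1.mul_mem _ _ (O1.mul_mem _ _ (leO1 _ c2.2) (leO1 _ b.2)) hc1O
    · have : ε * ((c1 * c2 * b : B) : F) = (c1 : F) * (b : F) * ((c2 : F) * ε) := by
        push_cast; ring
      rw [this]
      exact O2.mul_mem _ _ (O2.mul_mem _ _ (leO2 _ c1.2) (leO2 _ b.2)) hc2O
    · rw [← hk]; push_cast; ring
  exact ⟨⟨_, hmemB⟩, c1 * c2 * b, hcd, rfl⟩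

/-- **(L1a) Krull-type membership.**  `B ⊂ F` a chart, `π`-saturated in `O1 ⊓ O2`, `𝔪 ∋ π` a prime.
If `ε ∈ B_𝔭` for every nonzero prime `𝔭 ≤ 𝔪` with `π ∉ 𝔭` (the horizontal primes through `𝔪`) and,
for each `j`, `ε ∈ O_j` or the component `j` misses `𝔪`, then `ε ∈ B_𝔪`. -/
theorem exists_den_of_horizontal (π : R) (B : Subalgebra R F) (O1 O2 : ValuationSubring F)
    (leO1 : ∀ x ∈ B, x ∈ O1) (leO2 : ∀ x ∈ B, x ∈ O2)
    (arch1 : ∀ x : F, ∃ k : ℕ, algebraMap R F π ^ k * x ∈ O1)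
    (arch2 : ∀ x : F, ∃ k : ℕ, algebraMap R F π ^ k * x ∈ O2)
    (sat : ∀ b ∈ B, ∀ c : F, c ∈ O1 → c ∈ O2 → b = algebraMap R F π * c → c ∈ B)
    (frac : ∀ x : F, ∃ a ∈ B, ∃ b ∈ B, b ≠ 0 ∧ x * b = a)
    (𝔪 : Ideal B) [𝔪.IsPrime] (ε : F)
    (hhor : ∀ 𝔭 : Ideal B, 𝔭.IsPrime → 𝔭 ≠ ⊥ → 𝔭 ≤ 𝔪 → algebraMap R B π ∉ 𝔭 →
      ∃ a s : B, s ∉ 𝔭 ∧ ε * (s : F) = (a : F))
    (hG1 : ε ∈ O1 ∨ OffBranch π B O1 𝔪) (hG2 : ε ∈ O2 ∨ OffBranch π B O2 𝔪) :
    ∃ a d : B, d ∉ 𝔪 ∧ ε * (d : F) = (a : F) := by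
  classical
  set p : F := algebraMap R F π with hp
  have hpB : p ∈ B := B.algebraMap_mem π
  -- the denominator ideal of `ε` relative to `B[1/π]`
  let I : Ideal B :=
    { carrier := {b | ∃ k : ℕ, p ^ k * ((b : F) * ε) ∈ B}
      zero_mem' := ⟨0, by simp [B.zero_mem]⟩
      add_mem' := by
        rintro b₁ b₂ ⟨k₁, h₁⟩ ⟨k₂, h₂⟩
        refine ⟨k₁ + k₂, ?_⟩
        have : p ^ (k₁ + k₂) * (((b₁ + b₂ : B) : F) * ε)
            = p ^ k₂ * (p ^ k₁ * ((b₁ : F) * ε)) + p ^ k₁ * (p ^ k₂ * ((b₂ : F) * ε)) := by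
          push_cast; ring
        rw [this]
        exact B.add_mem (B.mul_mem (B.pow_mem hpB _) h₁) (B.mul_mem (B.pow_mem hpB _) h₂)
      smul_mem' := by
        rintro c b ⟨k, h⟩
        refine ⟨k, ?_⟩
        have : p ^ k * (((c • b : B) : F) * ε) = (c : F) * (p ^ k * ((b : F) * ε)) := by
          rw [smul_eq_mul]; push_cast; ring
        rw [this]
        exact B.mul_mem c.2 h }
  have memI : ∀ b : B, b ∈ I ↔ ∃ k : ℕ, p ^ k * ((b : F) * ε) ∈ B := fun b => Iff.rfl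
  by_cases hI : I ≤ 𝔪
  · -- impossible: a minimal prime over `I` inside `𝔪` is horizontal, and `ε ∈ B_𝔭`
    exfalso
    obtain ⟨𝔭, h𝔭, h𝔭𝔪⟩ := Ideal.exists_minimalPrimes_le hI
    have h𝔭prime : 𝔭.IsPrime := h𝔭.1.1
    have hI𝔭 : I ≤ 𝔭 := h𝔭.1.2
    -- `I ≠ ⊥`
    obtain ⟨a, ha, b, hb, hb0, hab⟩ := frac ε
    have hbI : (⟨b, hb⟩ : B) ∈ I := ⟨0, by
      rw [pow_zero, one_mul, mul_comm, hab]; exact ha⟩
    have h𝔭bot : 𝔭 ≠ ⊥ := by
      intro h0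
      have : (⟨b, hb⟩ : B) ∈ 𝔭 := hI𝔭 hbI
      rw [h0, Ideal.mem_bot] at this
      exact hb0 (congrArg Subtype.val this)
    -- `π ∉ 𝔭`
    have hπ𝔭 : algebraMap R B π ∉ 𝔭 := by
      intro hmem
      obtain ⟨y, hyI, hxy⟩ := Ideal.exists_mul_mem_of_mem_minimalPrimes h𝔭 hmem
      apply hyI
      obtain ⟨k, hk⟩ := hxy
      refine ⟨k + 1, ?_⟩
      have : p ^ (k + 1) * ((y : F) * ε) = p ^ k * (((algebraMap R B π * y : B) : F) * ε) := by
        have h1 : (((algebraMap R B π * y : B)) : F) = p * (y : F) := rfl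
        rw [h1]; ring
      rw [this]; exact hk
    obtain ⟨a', s, hs, has⟩ := hhor 𝔭 h𝔭prime h𝔭bot h𝔭𝔪 hπ𝔭
    apply hs
    apply hI𝔭
    exact ⟨0, by rw [pow_zero, one_mul, mul_comm, has]; exact a'.2⟩
  · -- `b ∉ 𝔪` with `π ^ k b ε ∈ B`; remove `π ^ k` by saturation
    obtain ⟨b, hbI, hb𝔪⟩ := Set.not_subset.mp hI
    obtain ⟨k, hk⟩ := hbI
    exact exists_den_of_away π B O1 O2 leO1 leO2 arch1 arch2 sat 𝔪 ε
      ⟨k, ⟨_, hk⟩, b, hb𝔪, by ring⟩ hG1 hG2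

/-- **The form in which the S34 top supplies local starts**: an explicit `g` (the inverse of the
local generator `h_z`) with `g ≡ 1` on the branches through `𝔪`, `u ∈ O1 ⊓ O2`, and
`g ^ m * u ∈ B_𝔭` for all horizontal primes `𝔭 ≤ 𝔪`. -/
theorem locStart_of_horizontal (π : R) (B : Subalgebra R F) (O1 O2 : ValuationSubring F)
    (leO1 : ∀ x ∈ B, x ∈ O1) (leO2 : ∀ x ∈ B, x ∈ O2)
    (arch1 : ∀ x : F, ∃ k : ℕ, algebraMap R F π ^ k * x ∈ O1)
    (arch2 : ∀ x : F, ∃ k : ℕ, algebraMap R F π ^ k * x ∈ O2)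
    (sat : ∀ b ∈ B, ∀ c : F, c ∈ O1 → c ∈ O2 → b = algebraMap R F π * c → c ∈ B)
    (frac : ∀ x : F, ∃ a ∈ B, ∃ b ∈ B, b ≠ 0 ∧ x * b = a)
    (𝔪 : Ideal B) [𝔪.IsPrime] (m : ℕ) (u g : F) (hu1 : u ∈ O1) (hu2 : u ∈ O2)
    (hg1 : (∃ c ∈ O1, g - 1 = algebraMap R F π * c) ∨ OffBranch π B O1 𝔪)
    (hg2 : (∃ c ∈ O2, g - 1 = algebraMap R F π * c) ∨ OffBranch π B O2 𝔪)
    (hhor : ∀ 𝔭 : Ideal B, 𝔭.IsPrime → 𝔭 ≠ ⊥ → 𝔭 ≤ 𝔪 → algebraMap R B π ∉ 𝔭 →
      ∃ a s : B, s ∉ 𝔭 ∧ g ^ m * u * (s : F) = (a : F)) :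
    LocStart π B O1 O2 m u 𝔪 := by
  have hgO : ∀ (Oj : ValuationSubring F), (∀ x ∈ B, x ∈ Oj) → u ∈ Oj →
      ((∃ c ∈ Oj, g - 1 = algebraMap R F π * c) ∨ OffBranch π B Oj 𝔪) →
      (g ^ m * u ∈ Oj ∨ OffBranch π B Oj 𝔪) := by
    intro Oj leO hu h
    rcases h with ⟨c, hc, hgc⟩ | h
    · left
      have hgmem : g ∈ Oj := by
        have : g = 1 + algebraMap R F π * c := by rw [← hgc]; ring
        rw [this]
        exact Oj.add_mem _ _ Oj.one_mem (Oj.mul_mem _ _ (leO _ (B.algebraMap_mem π)) hc)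
      exact Oj.mul_mem _ _ (pow_mem hgmem m) hu
    · right; exact h
  obtain ⟨a, d, hd, had⟩ := exists_den_of_horizontal π B O1 O2 leO1 leO2 arch1 arch2 sat frac 𝔪
    (g ^ m * u) hhor (hgO O1 leO1 hu1 hg1) (hgO O2 leO2 hu2 hg2)
  exact ⟨g, ⟨a, d, hd, had⟩, hg1, hg2⟩

/-- The same with the generic-fibre hypothesis in the form `g ^ m * u ∈ B_𝔪[1/π]`
(e.g. `u = f ^ m * z`, `g = f⁻¹`-type data with `z` a unit of `B_𝔪[1/π]`). -/
theorem locStart_of_away (π : R) (B : Subalgebra R F) (O1 O2 : ValuationSubring F)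
    (leO1 : ∀ x ∈ B, x ∈ O1) (leO2 : ∀ x ∈ B, x ∈ O2)
    (arch1 : ∀ x : F, ∃ k : ℕ, algebraMap R F π ^ k * x ∈ O1)
    (arch2 : ∀ x : F, ∃ k : ℕ, algebraMap R F π ^ k * x ∈ O2)
    (sat : ∀ b ∈ B, ∀ c : F, c ∈ O1 → c ∈ O2 → b = algebraMap R F π * c → c ∈ B)
    (𝔪 : Ideal B) [𝔪.IsPrime] (m : ℕ) (u g : F) (hu1 : u ∈ O1) (hu2 : u ∈ O2)
    (hg1 : (∃ c ∈ O1, g - 1 = algebraMap R F π * c) ∨ OffBranch π B O1 𝔪)
    (hg2 : (∃ c ∈ O2, g - 1 = algebraMap R F π * c) ∨ OffBranch π B O2 𝔪)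
    (haway : ∃ (k : ℕ) (a b : B), b ∉ 𝔪 ∧
      algebraMap R F π ^ k * (g ^ m * u) * (b : F) = (a : F)) :
    LocStart π B O1 O2 m u 𝔪 := by
  have hgO : ∀ (Oj : ValuationSubring F), (∀ x ∈ B, x ∈ Oj) → u ∈ Oj →
      ((∃ c ∈ Oj, g - 1 = algebraMap R F π * c) ∨ OffBranch π B Oj 𝔪) →
      (g ^ m * u ∈ Oj ∨ OffBranch π B Oj 𝔪) := by
    intro Oj leO hu h
    rcases h with ⟨c, hc, hgc⟩ | h
    · left
      have hgmem : g ∈ Oj := by
        have : g = 1 + algebraMap R F π * c := by rw [← hgc]; ring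
        rw [this]
        exact Oj.add_mem _ _ Oj.one_mem (Oj.mul_mem _ _ (leO _ (B.algebraMap_mem π)) hc)
      exact Oj.mul_mem _ _ (pow_mem hgmem m) hu
    · right; exact h
  obtain ⟨a, d, hd, had⟩ := exists_den_of_away π B O1 O2 leO1 leO2 arch1 arch2 sat 𝔪
    (g ^ m * u) haway (hgO O1 leO1 hu1 hg1) (hgO O2 leO2 hu2 hg2)
  exact ⟨g, ⟨a, d, hd, had⟩, hg1, hg2⟩

end Krull

section Normal

variable {F : Type*} [Field F]

/-- **(L2)** `B ⊂ F` a subring, `π ∈ B` nonzero with `B / π B` reduced, and every element of `F`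
integral over `B` has a `π`-power multiple in `B` (e.g. `B[1/π]` integrally closed in `F`).
Then `B` is integrally closed in `F`. -/
theorem integrallyClosed_of_reduced (B : Subring F) (π : F) (hπ : π ∈ B) (hπ0 : π ≠ 0)
    (hred : ∀ b ∈ B, ∀ n : ℕ, (∃ c ∈ B, b ^ n = π * c) → ∃ c ∈ B, b = π * c)
    (hgen : ∀ x : F, IsIntegral B x → ∃ k : ℕ, π ^ k * x ∈ B) :
    ∀ x : F, IsIntegral B x → x ∈ B := by
  -- the case `k = 1`
  have key : ∀ y : F, IsIntegral B y → π * y ∈ B → y ∈ B := by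
    intro y hy hb
    obtain ⟨P, hPm, hP⟩ := hy
    set n := P.natDegree with hn
    -- `(π y)^n ∈ π B`
    have hsum : (π * y) ^ n = π * -(∑ i ∈ Finset.range n,
        ((P.coeff i : B) : F) * π ^ (n - 1 - i) * (π * y) ^ i) := by
      have h0 : ∑ i ∈ Finset.range (n + 1), ((P.coeff i : B) : F) * y ^ i = 0 := by
        have := hP
        rw [eval₂_eq_sum_range] at this
        exact this
      rw [Finset.sum_range_succ] at h0
      have hlead : ((P.coeff n : B) : F) = 1 := by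
        have : P.coeff n = 1 := hPm
        rw [this]; rfl
      rw [hlead, one_mul] at h0
      have h1 : y ^ n = -∑ i ∈ Finset.range n, ((P.coeff i : B) : F) * y ^ i := by
        linear_combination h0
      rw [mul_pow, h1, mul_neg, mul_neg, Finset.mul_sum, Finset.mul_sum]
      congr 1
      refine Finset.sum_congr rfl fun i hi => ?_
      have hi' : i < n := Finset.mem_range.mp hi
      have : π ^ n = π * π ^ (n - 1 - i) * π ^ i := by
        rw [← pow_succ', ← pow_add]; congr 1; omega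
      rw [this, mul_pow]; ring
    have hmemB : -(∑ i ∈ Finset.range n,
        ((P.coeff i : B) : F) * π ^ (n - 1 - i) * (π * y) ^ i) ∈ B := by
      refine B.neg_mem (B.sum_mem fun i _ => ?_)
      exact B.mul_mem (B.mul_mem (P.coeff i).2 (B.pow_mem hπ _)) (B.pow_mem hb _)
    obtain ⟨c, hc, hbc⟩ := hred (π * y) hb n ⟨_, hmemB, hsum⟩
    have : y = c := mul_left_cancel₀ hπ0 hbc
    rw [this]; exact hc
  have main : ∀ k : ℕ, ∀ x : F, IsIntegral B x → π ^ k * x ∈ B → x ∈ B := by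
    intro k
    induction k with
    | zero => intro x _ h; simpa using h
    | succ k ih =>
      intro x hx h
      have hπint : IsIntegral B (π ^ k) := by
        have : π ^ k = algebraMap B F ⟨π ^ k, B.pow_mem hπ k⟩ := rfl
        rw [this]; exact isIntegral_algebraMap
      have h1 : π ^ k * x ∈ B := key _ (hπint.mul hx) (by rw [← mul_assoc, ← pow_succ']; exact h)
      exact ih x hx h1
  intro x hx
  obtain ⟨k, hk⟩ := hgen x hx
  exact main k x hx hk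

end Normal

end Fermat.Agent.ES.N34.NodalStart13
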