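/-
Program N (S34), chapter (CL-nodal) (helper13): the ASSEMBLED injectivity theorem of N_NOTE27 §4.

HYP: the nodal two-chart model `NodalTwoChartModel` (M1); at every closed point of the special fibre
lying on exactly ONE component the smoothness field of Program H (M2); `m` invertible in `R`;
(U1) `u ≡ 1 mod π (O1 ⊓ O2)`; (U2) `m ∣ ord_v u` at all places of `F / K`; (U3) at every closed
point lying on BOTH components (a node) an explicit `g ∈ F` with `g ≡ 1 mod π (O1 ⊓ O2)` and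
`g ^ m * u ∈ (B_i)_𝔪[1/π]`.
CONCL: `u = c⁻¹ · s ^ m` with `c ∈ K^×` (if `K` is algebraically closed in `F`).

A closed point `𝔪 ∋ π` lies on the component `j` iff `¬ OffBranch π B O_j 𝔪`; it cannot be off both
(`not_offBranch_both`, from saturation).
-/
import Mathlib
import Fermat.Agent.ES.N34.NodalStart13
import Fermat.Agent.ES.N34.NodalSmooth13

set_option autoImplicit false

namespace Fermat.Agent.ES.N34.NodalCL13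

open Fermat.Agent.ES.N34.NodalCore13 Fermat.Agent.ES.N34.NodalStart13
  Fermat.Agent.ES.N34.NodalSmooth13

section Branches

variable {R F : Type*} [CommRing R] [Field F] [Algebra R F]

/-- A prime `𝔪 ∋ π` of a saturated chart cannot be off both components. -/
theorem not_offBranch_both (π : R) (B : Subalgebra R F) (O1 O2 : ValuationSubring F)
    (leO1 : ∀ x ∈ B, x ∈ O1) (leO2 : ∀ x ∈ B, x ∈ O2)
    (sat : ∀ b ∈ B, ∀ c : F, c ∈ O1 → c ∈ O2 → b = algebraMap R F π * c → c ∈ B)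
    (pi_ne : algebraMap R F π ≠ 0)
    (𝔪 : Ideal B) [h𝔪 : 𝔪.IsPrime] (hπ𝔪 : algebraMap R B π ∈ 𝔪)
    (h1 : OffBranch π B O1 𝔪) (h2 : OffBranch π B O2 𝔪) : False := by
  obtain ⟨e1, he1, c1, hc1, hec1⟩ := h1
  obtain ⟨e2, he2, c2, hc2, hec2⟩ := h2
  -- `e1 e2 = π c` with `c = c1 e2 = e1 c2 ∈ O1 ⊓ O2`
  have hcB : c1 * (e2 : F) ∈ B := by
    refine sat ((e1 : F) * (e2 : F)) (B.mul_mem e1.2 e2.2) _ ?_ ?_ ?_
    · exact O1.mul_mem _ _ hc1 (leO1 _ e2.2)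
    · have : c1 * (e2 : F) = (e1 : F) * c2 := by
        apply mul_left_cancel₀ pi_ne
        rw [← mul_assoc, ← hec1, hec2]; ring
      rw [this]
      exact O2.mul_mem _ _ (leO2 _ e1.2) hc2
    · rw [hec1]; ring
  have hmem : e1 * e2 ∈ 𝔪 := by
    have : e1 * e2 = algebraMap R B π * ⟨_, hcB⟩ := by
      apply Subtype.ext
      show (e1 : F) * (e2 : F) = algebraMap R F π * (c1 * (e2 : F))
      rw [hec1]; ring
    rw [this]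
    exact 𝔪.mul_mem_right _ hπ𝔪
  exact (h𝔪.mem_or_mem hmem).elim he1 he2

end Branches

section CL

variable {R K F : Type*} [CommRing R] [Field K] [Field F] [Algebra R K] [Algebra K F]
  [Algebra R F] [IsScalarTower R K F]

/-- The smoothness field of Program H's contract at the maximal ideal `𝔪`. -/
def SmoothAt (π : R) (B : Subalgebra R F) (𝔪 : Ideal B) : Prop :=
  ∃ s ∈ 𝔪, ∀ y ∈ 𝔪, ∃ d : B, d ∉ 𝔪 ∧ d * y ∈ Ideal.span {algebraMap R B π, s}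

/-- **(M2) one component ⇒ smooth.**  If the component `O2` misses `𝔪` and the maximal ideal of
the branch `(B / 𝔭_1)_𝔪` is principal, generated by (the image of) `s ∈ 𝔪`
(`𝔭_1 = B ∩ π O1`; true when `B / 𝔭_1` is Dedekind), then Program H's smoothness field holds at `𝔪`:
`𝔭_1 B_𝔪 = π B_𝔪` by saturation. -/
theorem smoothAt_of_branch_principal (π : R) (B : Subalgebra R F) (O1 O2 : ValuationSubring F)
    (leO1 : ∀ x ∈ B, x ∈ O1) (leO2 : ∀ x ∈ B, x ∈ O2)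
    (arch2 : ∀ x : F, ∃ k : ℕ, algebraMap R F π ^ k * x ∈ O2)
    (sat : ∀ b ∈ B, ∀ c : F, c ∈ O1 → c ∈ O2 → b = algebraMap R F π * c → c ∈ B)
    (𝔪 : Ideal B) [h𝔪 : 𝔪.IsPrime] (hoff : OffBranch π B O2 𝔪)
    (s : B) (hs : s ∈ 𝔪)
    (hgen : ∀ y ∈ 𝔪, ∃ d : B, d ∉ 𝔪 ∧ ∃ b : B, ∃ c ∈ O1,
      (d : F) * (y : F) - (b : F) * (s : F) = algebraMap R F π * c) :
    SmoothAt π B 𝔪 := by
  refine ⟨s, hs, fun y hy => ?_⟩
  obtain ⟨d, hd, b, c, hc, hdy⟩ := hgen y hy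
  obtain ⟨e, he, o, ho, heo⟩ := hoff
  obtain ⟨k, hk⟩ := arch2 c
  -- `e^(k+1) (d y - b s) = π (c e^(k+1))` with `c e^(k+1) ∈ O1 ⊓ O2`
  have hmem : c * (e : F) ^ (k + 1) ∈ B := by
    refine sat ((e : F) ^ (k + 1) * ((d : F) * (y : F) - (b : F) * (s : F)))
      (B.mul_mem (B.pow_mem e.2 _) (B.sub_mem (B.mul_mem d.2 y.2) (B.mul_mem b.2 s.2))) _ ?_ ?_ ?_
    · exact O1.mul_mem _ _ hc (pow_mem (leO1 _ e.2) _)
    · have : c * (e : F) ^ (k + 1) = (e : F) * o ^ k * (algebraMap R F π ^ k * c) := by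
        rw [heo]; ring
      rw [this]
      exact O2.mul_mem _ _ (O2.mul_mem _ _ (leO2 _ e.2) (pow_mem ho _)) hk
    · rw [hdy]; ring
  refine ⟨e ^ (k + 1) * d, fun hh => (h𝔪.mem_or_mem hh).elim
    (fun h' => he (h𝔪.mem_of_pow_mem _ h')) hd, ?_⟩
  rw [Ideal.mem_span_pair]
  refine ⟨⟨_, hmem⟩, e ^ (k + 1) * b, ?_⟩
  apply Subtype.ext
  show c * (e : F) ^ (k + 1) * algebraMap R F π + ((e ^ (k + 1) * b : B) : F) * (s : F)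
    = ((e ^ (k + 1) * d : B) : F) * (y : F)
  push_cast
  linear_combination (-(e : F) ^ (k + 1)) * hdy

/-- Mirror statement: the component `O1` misses `𝔪` and the branch `(B / 𝔭_2)_𝔪` has principal
maximal ideal. -/
theorem smoothAt_of_branch_principal' (π : R) (B : Subalgebra R F) (O1 O2 : ValuationSubring F)
    (leO1 : ∀ x ∈ B, x ∈ O1) (leO2 : ∀ x ∈ B, x ∈ O2)
    (arch1 : ∀ x : F, ∃ k : ℕ, algebraMap R F π ^ k * x ∈ O1)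
    (sat : ∀ b ∈ B, ∀ c : F, c ∈ O1 → c ∈ O2 → b = algebraMap R F π * c → c ∈ B)
    (𝔪 : Ideal B) [h𝔪 : 𝔪.IsPrime] (hoff : OffBranch π B O1 𝔪)
    (s : B) (hs : s ∈ 𝔪)
    (hgen : ∀ y ∈ 𝔪, ∃ d : B, d ∉ 𝔪 ∧ ∃ b : B, ∃ c ∈ O2,
      (d : F) * (y : F) - (b : F) * (s : F) = algebraMap R F π * c) :
    SmoothAt π B 𝔪 :=
  smoothAt_of_branch_principal π B O2 O1 leO2 leO1 arch1
    (fun b hb c h2 h1 e => sat b hb c h1 h2 e) 𝔪 hoff s hs hgen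

/-- (U3) at the maximal ideal `𝔪`: an explicit `g ≡ 1 mod π (O1 ⊓ O2)` with
`g ^ m * u ∈ B_𝔪[1/π]`. -/
def NodeDatum (π : R) (B : Subalgebra R F) (O1 O2 : ValuationSubring F) (m : ℕ) (u : F)
    (𝔪 : Ideal B) : Prop :=
  ∃ g : F, PiO π O1 O2 (g - 1) ∧
    ∃ (k : ℕ) (a b : B), b ∉ 𝔪 ∧ algebraMap R F π ^ k * (g ^ m * u) * (b : F) = (a : F)

/-- START at every closed point of one chart from (M2), (U1), (U2), (U3). -/
theorem locStart_of_data (π : R) (B : Subalgebra R F) (O1 O2 : ValuationSubring F)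
    (noethB : IsNoetherianRing B) (fracR : IsFractionRing R K)
    (dvrR : ∀ r : R, r ≠ 0 → ∃ (k : ℕ) (v : Rˣ), r = π ^ k * v)
    (intcl : ∀ x : F, IsIntegral B x → x ∈ B)
    (frac : ∀ x : F, ∃ a ∈ B, ∃ b ∈ B, b ≠ 0 ∧ x * b = a)
    (leO1 : ∀ x ∈ B, x ∈ O1) (leO2 : ∀ x ∈ B, x ∈ O2)
    (pi_ne : algebraMap R F π ≠ 0)
    (pi_nonunit1 : (algebraMap R F π)⁻¹ ∉ O1) (pi_nonunit2 : (algebraMap R F π)⁻¹ ∉ O2)
    (unif1 : ∀ x ∈ O1, x⁻¹ ∉ O1 → ∃ c ∈ O1, x = algebraMap R F π * c)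
    (unif2 : ∀ x ∈ O2, x⁻¹ ∉ O2 → ∃ c ∈ O2, x = algebraMap R F π * c)
    (arch1 : ∀ x : F, ∃ k : ℕ, algebraMap R F π ^ k * x ∈ O1)
    (arch2 : ∀ x : F, ∃ k : ℕ, algebraMap R F π ^ k * x ∈ O2)
    (sat : ∀ b ∈ B, ∀ c : F, c ∈ O1 → c ∈ O2 → b = algebraMap R F π * c → c ∈ B)
    (m : ℕ) (hm : 0 < m) (u : F) (hu1 : PiO π O1 O2 (u - 1))
    (hu2 : ∀ v : AlgebraicCurve.Place K F, (m : ℤ) ∣ v.ord u)
    (𝔪 : Ideal B) (h𝔪 : 𝔪.IsMaximal) (hπ𝔪 : algebraMap R B π ∈ 𝔪)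
    (hM2 : OffBranch π B O1 𝔪 ∨ OffBranch π B O2 𝔪 → SmoothAt π B 𝔪)
    (hU3 : ¬ OffBranch π B O1 𝔪 → ¬ OffBranch π B O2 𝔪 → NodeDatum π B O1 O2 m u 𝔪) :
    LocStart π B O1 O2 m u 𝔪 := by
  have h𝔪p : 𝔪.IsPrime := h𝔪.isPrime
  obtain ⟨cu, hcu1, hcu2, hcu⟩ := hu1
  have huO : ∀ Oj : ValuationSubring F, (∀ x ∈ B, x ∈ Oj) → cu ∈ Oj → u ∈ Oj := by
    intro Oj leO hc
    have : u = 1 + algebraMap R F π * cu := by rw [← hcu]; ring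
    rw [this]
    exact Oj.add_mem _ _ Oj.one_mem (Oj.mul_mem _ _ (leO _ (B.algebraMap_mem π)) hc)
  by_cases h1 : OffBranch π B O1 𝔪
  · -- on the `O2`-component only
    have h2 : ¬ OffBranch π B O2 𝔪 := fun h2 =>
      not_offBranch_both π B O1 O2 leO1 leO2 sat pi_ne 𝔪 hπ𝔪 h1 h2
    have hon : ∀ b : B, (∃ c ∈ O2, (b : F) = algebraMap R F π * c) → b ∈ 𝔪 := by
      intro b hb
      by_contra hb𝔪
      exact h2 ⟨b, hb𝔪, hb⟩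
    exact locStart_of_smooth' (K := K) π B O1 O2 noethB fracR dvrR intcl frac leO1 leO2 pi_ne
      pi_nonunit2 unif2 arch1 sat 𝔪 h𝔪 hπ𝔪 hon h1 (hM2 (Or.inl h1)) m hm u ⟨cu, hcu2, hcu⟩ hu2
  · by_cases h2 : OffBranch π B O2 𝔪
    · -- on the `O1`-component only
      have hon : ∀ b : B, (∃ c ∈ O1, (b : F) = algebraMap R F π * c) → b ∈ 𝔪 := by
        intro b hb
        by_contra hb𝔪
        exact h1 ⟨b, hb𝔪, hb⟩
      exact locStart_of_smooth (K := K) π B O1 O2 noethB fracR dvrR intcl frac leO1 leO2 pi_ne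
        pi_nonunit1 unif1 arch2 sat 𝔪 h𝔪 hπ𝔪 hon h2 (hM2 (Or.inr h2)) m hm u ⟨cu, hcu1, hcu⟩ hu2
    · -- a node
      obtain ⟨g, ⟨cg, hcg1, hcg2, hcg⟩, haway⟩ := hU3 h1 h2
      exact locStart_of_away π B O1 O2 leO1 leO2 arch1 arch2 sat 𝔪 m u g
        (huO O1 leO1 hcu1) (huO O2 leO2 hcu2) (Or.inl ⟨cg, hcg1, hcg⟩) (Or.inl ⟨cg, hcg2, hcg⟩)
        haway

/-- **(CL-nodal)**, N_NOTE27 §4. -/
theorem cl_nodal (π : R) (t : F) (B0 B1 : Subalgebra R F) (O1 O2 : ValuationSubring F)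
    (M : NodalTwoChartModel R F π t B0 B1 O1 O2)
    (noeth0 : IsNoetherianRing B0) (noeth1 : IsNoetherianRing B1)
    (frac0 : ∀ x : F, ∃ a ∈ B0, ∃ b ∈ B0, b ≠ 0 ∧ x * b = a)
    (frac1 : ∀ x : F, ∃ a ∈ B1, ∃ b ∈ B1, b ≠ 0 ∧ x * b = a)
    (fracR : IsFractionRing R K)
    (dvrR : ∀ r : R, r ≠ 0 → ∃ (k : ℕ) (v : Rˣ), r = π ^ k * v)
    (hM2_0 : ∀ 𝔪 : Ideal B0, 𝔪.IsMaximal → algebraMap R B0 π ∈ 𝔪 →
      OffBranch π B0 O1 𝔪 ∨ OffBranch π B0 O2 𝔪 → SmoothAt π B0 𝔪)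
    (hM2_1 : ∀ 𝔪 : Ideal B1, 𝔪.IsMaximal → algebraMap R B1 π ∈ 𝔪 →
      OffBranch π B1 O1 𝔪 ∨ OffBranch π B1 O2 𝔪 → SmoothAt π B1 𝔪)
    (m : ℕ) (hm : 0 < m) (minv : R) (hminv : (m : R) * minv = 1) (u : F)
    (hu1 : PiO π O1 O2 (u - 1))
    (hu2 : ∀ v : AlgebraicCurve.Place K F, (m : ℤ) ∣ v.ord u)
    (hU3_0 : ∀ 𝔪 : Ideal B0, 𝔪.IsMaximal → algebraMap R B0 π ∈ 𝔪 →
      ¬ OffBranch π B0 O1 𝔪 → ¬ OffBranch π B0 O2 𝔪 → NodeDatum π B0 O1 O2 m u 𝔪)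
    (hU3_1 : ∀ 𝔪 : Ideal B1, 𝔪.IsMaximal → algebraMap R B1 π ∈ 𝔪 →
      ¬ OffBranch π B1 O1 𝔪 → ¬ OffBranch π B1 O2 𝔪 → NodeDatum π B1 O1 O2 m u 𝔪)
    (hKF : ∀ y : F, IsAlgebraic K y → ∃ c : K, algebraMap K F c = y) :
    ∃ s : F, s ≠ 0 ∧ ∃ c : K, c ≠ 0 ∧ s ^ m = algebraMap K F c * u := by
  refine nodal_core_const (K := K) π t B0 B1 O1 O2 M m hm minv hminv u hu1 ?_ ?_ hKF
  · intro 𝔪 h𝔪 hπ𝔪
    exact locStart_of_data (K := K) π B0 O1 O2 noeth0 fracR dvrR M.intcl0 frac0 M.le_O1_0 M.le_O2_0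
      M.pi_ne M.pi_nonunit1 M.pi_nonunit2 M.unif1 M.unif2 M.arch1 M.arch2 M.sat0 m hm u hu1 hu2
      𝔪 h𝔪 hπ𝔪 (hM2_0 𝔪 h𝔪 hπ𝔪) (hU3_0 𝔪 h𝔪 hπ𝔪)
  · intro 𝔪 h𝔪 hπ𝔪
    exact locStart_of_data (K := K) π B1 O1 O2 noeth1 fracR dvrR M.intcl1 frac1 M.le_O1_1 M.le_O2_1
      M.pi_ne M.pi_nonunit1 M.pi_nonunit2 M.unif1 M.unif2 M.arch1 M.arch2 M.sat1 m hm u hu1 hu2
      𝔪 h𝔪 hπ𝔪 (hM2_1 𝔪 h𝔪 hπ𝔪) (hU3_1 𝔪 h𝔪 hπ𝔪)

end CL

end Fermat.Agent.ES.N34.NodalCL13
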