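/-
Program N (S34), brick S4 = (M2) (helper5): Program H's smoothness field `NodalCL13.SmoothAt` at the
closed points of the special fibre lying on exactly ONE component, from the output (C-prin) of
brick S3 (`CompN16`): "the maximal ideal of the branch `(B / 𝔭_j)_𝔪` is principal".

`BranchPrincipal π B Oj` is LITERALLY the `∃ s ∈ 𝔪, hgen` input of
`NodalCL13.smoothAt_of_branch_principal(')`, quantified over all maximal ideals `𝔪 ∋ π` of the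
chart `B` (no branch hypothesis: off the branch `j` it is trivially true, see
`branchPrincipalAt_of_offBranch`).  `BranchPrincipalVia` is the same with the generator of the
form `φ s⁰`, `φ : B⁰ → F` (= `α` resp. `β` restricted to the level-`M'` chart), as S3 exports it.

Output: the hypotheses `hM2_0`, `hM2_1` of `NodalCL13.cl_nodal`, literally
(`hM2`, `hM2_of_model`).
-/
import Mathlib
import Fermat.Agent.ES.N34.NodalCL13

set_option autoImplicit false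

namespace Fermat.Agent.ES.N34.SmoothN5

open Fermat.Agent.ES.N34.NodalCore13 Fermat.Agent.ES.N34.NodalCL13

variable {R F : Type*} [CommRing R] [Field F] [Algebra R F]

/-- (C-prin) at one maximal ideal `𝔪` of the chart `B`, for the branch `Oj`: some `s ∈ 𝔪`
generates `𝔪` modulo `𝔭_j = B ∩ π Oj`, locally at `𝔪`. -/
def BranchPrincipalAt (π : R) (B : Subalgebra R F) (Oj : ValuationSubring F) (𝔪 : Ideal B) : Prop :=
  ∃ s ∈ 𝔪, ∀ y ∈ 𝔪, ∃ d : B, d ∉ 𝔪 ∧ ∃ b : B, ∃ c ∈ Oj,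
    (d : F) * (y : F) - (b : F) * (s : F) = algebraMap R F π * c

/-- (C-prin) for the branch `Oj` of the chart `B`: at every closed point of the special fibre. -/
def BranchPrincipal (π : R) (B : Subalgebra R F) (Oj : ValuationSubring F) : Prop :=
  ∀ 𝔪 : Ideal B, 𝔪.IsMaximal → algebraMap R B π ∈ 𝔪 → BranchPrincipalAt π B Oj 𝔪

/-- (C-prin) in the form exported by S3: the generator is `φ s⁰` with `s⁰` in the level-`M'`
chart `B⁰` (any type) and `φ : B⁰ → F` with values in `B`. -/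
def BranchPrincipalVia {B₀ : Type*} (φ : B₀ → F) (π : R) (B : Subalgebra R F)
    (Oj : ValuationSubring F) : Prop :=
  ∀ 𝔪 : Ideal B, 𝔪.IsMaximal → algebraMap R B π ∈ 𝔪 →
    ∃ s₀ : B₀, ∃ hs : φ s₀ ∈ B, (⟨φ s₀, hs⟩ : B) ∈ 𝔪 ∧ ∀ y ∈ 𝔪, ∃ d : B, d ∉ 𝔪 ∧ ∃ b : B,
      ∃ c ∈ Oj, (d : F) * (y : F) - (b : F) * φ s₀ = algebraMap R F π * c

theorem BranchPrincipalVia.branchPrincipal {B₀ : Type*} {φ : B₀ → F} {π : R}
    {B : Subalgebra R F} {Oj : ValuationSubring F} (h : BranchPrincipalVia φ π B Oj) :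
    BranchPrincipal π B Oj := by
  intro 𝔪 h𝔪 hπ
  obtain ⟨s₀, hs, hmem, hgen⟩ := h 𝔪 h𝔪 hπ
  exact ⟨⟨φ s₀, hs⟩, hmem, hgen⟩

/-- Off the branch `j` (C-prin) holds trivially, with ANY `s ∈ 𝔪`: take `d := e ∈ 𝔭_j ∖ 𝔪`. -/
theorem branchPrincipalAt_of_offBranch (π : R) (B : Subalgebra R F) (Oj : ValuationSubring F)
    (leO : ∀ x ∈ B, x ∈ Oj) (𝔪 : Ideal B) (hoff : OffBranch π B Oj 𝔪) (s : B) (hs : s ∈ 𝔪) :
    BranchPrincipalAt π B Oj 𝔪 := by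
  obtain ⟨e, he, o, ho, heo⟩ := hoff
  refine ⟨s, hs, fun y _ => ⟨e, he, 0, o * (y : F), Oj.mul_mem _ _ ho (leO _ y.2), ?_⟩⟩
  rw [heo]
  push_cast
  ring

/-- (M2) at one maximal ideal: off the branch `O2`, (C-prin) for `O1` gives `SmoothAt`. -/
theorem smoothAt_of_off2 (π : R) (B : Subalgebra R F) (O1 O2 : ValuationSubring F)
    (leO1 : ∀ x ∈ B, x ∈ O1) (leO2 : ∀ x ∈ B, x ∈ O2)
    (arch2 : ∀ x : F, ∃ k : ℕ, algebraMap R F π ^ k * x ∈ O2)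
    (sat : ∀ b ∈ B, ∀ c : F, c ∈ O1 → c ∈ O2 → b = algebraMap R F π * c → c ∈ B)
    (𝔪 : Ideal B) [𝔪.IsPrime] (hoff : OffBranch π B O2 𝔪)
    (h1 : BranchPrincipalAt π B O1 𝔪) : SmoothAt π B 𝔪 := by
  obtain ⟨s, hs, hgen⟩ := h1
  exact smoothAt_of_branch_principal π B O1 O2 leO1 leO2 arch2 sat 𝔪 hoff s hs hgen

/-- (M2) at one maximal ideal: off the branch `O1`, (C-prin) for `O2` gives `SmoothAt`. -/
theorem smoothAt_of_off1 (π : R) (B : Subalgebra R F) (O1 O2 : ValuationSubring F)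
    (leO1 : ∀ x ∈ B, x ∈ O1) (leO2 : ∀ x ∈ B, x ∈ O2)
    (arch1 : ∀ x : F, ∃ k : ℕ, algebraMap R F π ^ k * x ∈ O1)
    (sat : ∀ b ∈ B, ∀ c : F, c ∈ O1 → c ∈ O2 → b = algebraMap R F π * c → c ∈ B)
    (𝔪 : Ideal B) [𝔪.IsPrime] (hoff : OffBranch π B O1 𝔪)
    (h2 : BranchPrincipalAt π B O2 𝔪) : SmoothAt π B 𝔪 := by
  obtain ⟨s, hs, hgen⟩ := h2
  exact smoothAt_of_branch_principal' π B O1 O2 leO1 leO2 arch1 sat 𝔪 hoff s hs hgen

/-- **(M2)** for one chart: LITERALLY the hypothesis `hM2_0` / `hM2_1` of `NodalCL13.cl_nodal`. -/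
theorem hM2 (π : R) (B : Subalgebra R F) (O1 O2 : ValuationSubring F)
    (leO1 : ∀ x ∈ B, x ∈ O1) (leO2 : ∀ x ∈ B, x ∈ O2)
    (arch1 : ∀ x : F, ∃ k : ℕ, algebraMap R F π ^ k * x ∈ O1)
    (arch2 : ∀ x : F, ∃ k : ℕ, algebraMap R F π ^ k * x ∈ O2)
    (sat : ∀ b ∈ B, ∀ c : F, c ∈ O1 → c ∈ O2 → b = algebraMap R F π * c → c ∈ B)
    (h1 : BranchPrincipal π B O1) (h2 : BranchPrincipal π B O2) :
    ∀ 𝔪 : Ideal B, 𝔪.IsMaximal → algebraMap R B π ∈ 𝔪 →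
      OffBranch π B O1 𝔪 ∨ OffBranch π B O2 𝔪 → SmoothAt π B 𝔪 := by
  intro 𝔪 h𝔪 hπ hoff
  have : 𝔪.IsPrime := h𝔪.isPrime
  rcases hoff with hoff | hoff
  · exact smoothAt_of_off1 π B O1 O2 leO1 leO2 arch1 sat 𝔪 hoff (h2 𝔪 h𝔪 hπ)
  · exact smoothAt_of_off2 π B O1 O2 leO1 leO2 arch2 sat 𝔪 hoff (h1 𝔪 h𝔪 hπ)

/-- **(M2)** for both charts of a nodal two-chart model: the pair `hM2_0`, `hM2_1` of
`NodalCL13.cl_nodal`. -/
theorem hM2_of_model {π : R} {t : F} {B0 B1 : Subalgebra R F} {O1 O2 : ValuationSubring F}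
    (M : NodalTwoChartModel R F π t B0 B1 O1 O2)
    (h01 : BranchPrincipal π B0 O1) (h02 : BranchPrincipal π B0 O2)
    (h11 : BranchPrincipal π B1 O1) (h12 : BranchPrincipal π B1 O2) :
    (∀ 𝔪 : Ideal B0, 𝔪.IsMaximal → algebraMap R B0 π ∈ 𝔪 →
      OffBranch π B0 O1 𝔪 ∨ OffBranch π B0 O2 𝔪 → SmoothAt π B0 𝔪) ∧
    (∀ 𝔪 : Ideal B1, 𝔪.IsMaximal → algebraMap R B1 π ∈ 𝔪 →
      OffBranch π B1 O1 𝔪 ∨ OffBranch π B1 O2 𝔪 → SmoothAt π B1 𝔪) :=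
  ⟨hM2 π B0 O1 O2 M.le_O1_0 M.le_O2_0 M.arch1 M.arch2 M.sat0 h01 h02,
    hM2 π B1 O1 O2 M.le_O1_1 M.le_O2_1 M.arch1 M.arch2 M.sat1 h11 h12⟩

/-- The same from the S3 export shape (generators `φ s⁰`). -/
theorem hM2_of_model_via {π : R} {t : F} {B0 B1 : Subalgebra R F} {O1 O2 : ValuationSubring F}
    (M : NodalTwoChartModel R F π t B0 B1 O1 O2)
    {A01 A02 A11 A12 : Type*} {φ01 : A01 → F} {φ02 : A02 → F} {φ11 : A11 → F} {φ12 : A12 → F}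
    (h01 : BranchPrincipalVia φ01 π B0 O1) (h02 : BranchPrincipalVia φ02 π B0 O2)
    (h11 : BranchPrincipalVia φ11 π B1 O1) (h12 : BranchPrincipalVia φ12 π B1 O2) :
    (∀ 𝔪 : Ideal B0, 𝔪.IsMaximal → algebraMap R B0 π ∈ 𝔪 →
      OffBranch π B0 O1 𝔪 ∨ OffBranch π B0 O2 𝔪 → SmoothAt π B0 𝔪) ∧
    (∀ 𝔪 : Ideal B1, 𝔪.IsMaximal → algebraMap R B1 π ∈ 𝔪 →
      OffBranch π B1 O1 𝔪 ∨ OffBranch π B1 O2 𝔪 → SmoothAt π B1 𝔪) :=
  hM2_of_model M h01.branchPrincipal h02.branchPrincipal h11.branchPrincipal h12.branchPrincipal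

end Fermat.Agent.ES.N34.SmoothN5
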