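/-
Program N (S34), chapter MODEL, brick S3i, chart `1` (helper12; split of `CompInst16` per r13(3)).

Generic Gauss layer (helper4's `ModelN4.TwoLevelInputs` vocabulary: a field `K`, a DVR `O ⊂ K`,
`EM, E ≤ K((𝐪))` the levels `M'` and `M' q`, `a b : ↥EM →ₐ[K] ↥E` the two degeneracy maps, `tM : ↥EM`):

* `branchPrincipalVia_of_gauss` : `CompGauss16.branchPrincipal_gauss` repacked into the literal shape
  `SmoothN5.BranchPrincipalVia (fun x : ↥(chart ↥O s) => φ ↑x) π (chart ↥O t) Oj` consumed by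
  `ModelN4.twoLevelInputs_of` (any level-`M'` parameter `s`, any `t : ↥E`);
* `prin11` : the field `prin11` of `TwoLevelInputs` (chart `1`, branch `O1`, `φ = a`):
  `hy` is `map_inv₀` + `self_mem_chart`, `htw` is `w := tM⁻¹` with difference `0`;
* `prin12` : the field `prin12` (chart `1`, branch `O2`, `φ = b`) from S2 (`(b tM)⁻¹ ∈ chart (a tM)⁻¹`)
  and the single Kronecker congruence `hK1` (`(a tM)⁻¹ ≡ b w mod π O2`, `w` in the level-`M'` chart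
  of `tM⁻¹`).

The hypotheses `hcomb` (`O_j = φ(O_M) + π O_j`) do not depend on the chart: they are the ones of
chart `0`.
-/
import Mathlib
import Fermat.Agent.ES.N34.CompGauss16
import Fermat.Agent.ES.N34.SmoothN5

set_option autoImplicit false
set_option linter.unusedSectionVars false

noncomputable section

open HahnSeries IntermediateField

namespace Fermat.Agent.ES.N34.CompInstB12

open Fermat.Agent.RED.PUR.GaussGen8 Fermat.Agent.RED.PUR.KtGauss8 Fermat.Agent.RED.PUR.G1Package8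
  Fermat.Agent.RED.PUR.ChartGeneric22 Fermat.Agent.RED.ModelAsm4
  Fermat.Agent.ES.N34.CompHyp16 Fermat.Agent.ES.N34.CompGauss16 Fermat.Agent.ES.N34.GaussEmb22
  Fermat.Agent.ES.N34.SmoothN5

variable {K : Type*} [Field K] [CharZero K] {O : ValuationSubring K} [IsDiscreteValuationRing ↥O]
  {π : ↥O} {EM E : IntermediateField K (LaurentSeries K)}

/-- **(C-prin), Gauss level, in the literal shape of `ModelN4.TwoLevelInputs.prin*`.** -/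
theorem branchPrincipalVia_of_gauss (hπ : Irreducible π) (hEM : EM ≤ fracField O)
    (s : ↥EM) (hs : (s : LaurentSeries K) ∈ gaussRing O)
    (htrs : Transcendental (Res O) (gaussRed O ⟨(s : LaurentSeries K), hs⟩))
    {n' : ℕ} (hn' : relfinrank (Kt O ⟨(s : LaurentSeries K), hs⟩) EM ≠ 0)
    (hdegM : DegLe O EM ⟨(s : LaurentSeries K), hs⟩ n')
    (hirrM : Irr O EM ⟨(s : LaurentSeries K), hs⟩ n')
    (hsm : SmoothChart O EM π s)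
    (φ : ↥EM →ₐ[K] ↥E) (t : ↥E) {ι : ↥E →ₐ[K] LaurentSeries K} {Oj : ValuationSubring ↥E}
    (hOj : IsGaussPullback O ι Oj)
    (leO : ∀ x ∈ chart ↥O t, x ∈ Oj)
    (hφO : ∀ z : ↥EM, φ z ∈ Oj ↔ z ∈ OvE O hπ EM hEM)
    (hy : φ s ∈ chart ↥O t)
    (htw : ∃ w : ↥(chart ↥O s), ∃ o ∈ Oj, t - φ (w : ↥EM) = algebraMap ↥O ↥E π * o)
    (hcomb : ∀ x ∈ Oj, ∃ z ∈ OvE O hπ EM hEM, ∃ c ∈ Oj, x - φ z = algebraMap ↥O ↥E π * c) :
    BranchPrincipalVia (fun x : ↥(chart ↥O s) => φ (x : ↥EM)) π (chart ↥O t) Oj := by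
  have : IsScalarTower ↥O K ↥E := Fermat.Agent.RED.NumInst4.isScalarTower_OE O E
  intro 𝔪 h𝔪 hπ𝔪
  obtain ⟨s₀, hs₀, hmem, hgen⟩ :=
    branchPrincipal_gauss hπ hEM s hs htrs hn' hdegM hirrM hsm φ t hOj leO hφO hy
      (by obtain ⟨w, o, ho, hw⟩ := htw; exact ⟨w, o, ho, hw⟩) hcomb 𝔪 h𝔪 hπ𝔪
  exact ⟨s₀, hs₀, hmem, hgen⟩

/-- **`prin11`**: chart `1`, branch `O1`, via `a` (the inclusion-type degeneracy map). -/
theorem prin11 (hπ : Irreducible π) (hEM : EM ≤ fracField O)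
    (tM : ↥EM) (hti : ((tM⁻¹ : ↥EM) : LaurentSeries K) ∈ gaussRing O)
    (htri : Transcendental (Res O) (gaussRed O ⟨((tM⁻¹ : ↥EM) : LaurentSeries K), hti⟩))
    {n' : ℕ} (hn' : relfinrank (Kt O ⟨((tM⁻¹ : ↥EM) : LaurentSeries K), hti⟩) EM ≠ 0)
    (hdegM : DegLe O EM ⟨((tM⁻¹ : ↥EM) : LaurentSeries K), hti⟩ n')
    (hirrM : Irr O EM ⟨((tM⁻¹ : ↥EM) : LaurentSeries K), hti⟩ n')
    (hsm : SmoothChart O EM π tM⁻¹)
    (a : ↥EM →ₐ[K] ↥E) {ι : ↥E →ₐ[K] LaurentSeries K} {O1 : ValuationSubring ↥E}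
    (hO1 : IsGaussPullback O ι O1)
    (leO : ∀ x ∈ chart ↥O (a tM)⁻¹, x ∈ O1)
    (haO : ∀ z : ↥EM, a z ∈ O1 ↔ z ∈ OvE O hπ EM hEM)
    (hcomb : ∀ x ∈ O1, ∃ z ∈ OvE O hπ EM hEM, ∃ c ∈ O1, x - a z = algebraMap ↥O ↥E π * c) :
    BranchPrincipalVia (fun x : ↥(chart ↥O tM⁻¹) => a (x : ↥EM)) π (chart ↥O (a tM)⁻¹) O1 := by
  refine branchPrincipalVia_of_gauss hπ hEM tM⁻¹ hti htri hn' hdegM hirrM hsm a (a tM)⁻¹ hO1 leO haO
    ?_ ?_ hcomb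
  · rw [map_inv₀]
    exact self_mem_chart _
  · refine ⟨⟨tM⁻¹, self_mem_chart _⟩, 0, O1.zero_mem, ?_⟩
    rw [map_inv₀, sub_self, mul_zero]

/-- **`prin12`**: chart `1`, branch `O2`, via `b` (`𝐪 ↦ 𝐪^q`). -/
theorem prin12 (hπ : Irreducible π) (hEM : EM ≤ fracField O)
    (tM : ↥EM) (hti : ((tM⁻¹ : ↥EM) : LaurentSeries K) ∈ gaussRing O)
    (htri : Transcendental (Res O) (gaussRed O ⟨((tM⁻¹ : ↥EM) : LaurentSeries K), hti⟩))
    {n' : ℕ} (hn' : relfinrank (Kt O ⟨((tM⁻¹ : ↥EM) : LaurentSeries K), hti⟩) EM ≠ 0)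
    (hdegM : DegLe O EM ⟨((tM⁻¹ : ↥EM) : LaurentSeries K), hti⟩ n')
    (hirrM : Irr O EM ⟨((tM⁻¹ : ↥EM) : LaurentSeries K), hti⟩ n')
    (hsm : SmoothChart O EM π tM⁻¹)
    (a b : ↥EM →ₐ[K] ↥E) {ι : ↥E →ₐ[K] LaurentSeries K} {O2 : ValuationSubring ↥E}
    (hO2 : IsGaussPullback O ι O2)
    (leO : ∀ x ∈ chart ↥O (a tM)⁻¹, x ∈ O2)
    (hbO : ∀ z : ↥EM, b z ∈ O2 ↔ z ∈ OvE O hπ EM hEM)
    (hy1 : (b tM)⁻¹ ∈ chart ↥O (a tM)⁻¹)
    (hK1 : ∃ w : ↥(chart ↥O tM⁻¹), ∃ o ∈ O2,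
      (a tM)⁻¹ - b (w : ↥EM) = algebraMap ↥O ↥E π * o)
    (hcomb : ∀ x ∈ O2, ∃ z ∈ OvE O hπ EM hEM, ∃ c ∈ O2, x - b z = algebraMap ↥O ↥E π * c) :
    BranchPrincipalVia (fun x : ↥(chart ↥O tM⁻¹) => b (x : ↥EM)) π (chart ↥O (a tM)⁻¹) O2 := by
  refine branchPrincipalVia_of_gauss hπ hEM tM⁻¹ hti htri hn' hdegM hirrM hsm b (a tM)⁻¹ hO2 leO hbO
    ?_ hK1 hcomb
  rw [map_inv₀]
  exact hy1

/-- chart `0` twins, for completeness (same proof): `prin01`. -/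
theorem prin01 (hπ : Irreducible π) (hEM : EM ≤ fracField O)
    (tM : ↥EM) (ht : (tM : LaurentSeries K) ∈ gaussRing O)
    (htr : Transcendental (Res O) (gaussRed O ⟨(tM : LaurentSeries K), ht⟩))
    {n' : ℕ} (hn' : relfinrank (Kt O ⟨(tM : LaurentSeries K), ht⟩) EM ≠ 0)
    (hdegM : DegLe O EM ⟨(tM : LaurentSeries K), ht⟩ n')
    (hirrM : Irr O EM ⟨(tM : LaurentSeries K), ht⟩ n')
    (hsm : SmoothChart O EM π tM)
    (a : ↥EM →ₐ[K] ↥E) {ι : ↥E →ₐ[K] LaurentSeries K} {O1 : ValuationSubring ↥E}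
    (hO1 : IsGaussPullback O ι O1)
    (leO : ∀ x ∈ chart ↥O (a tM), x ∈ O1)
    (haO : ∀ z : ↥EM, a z ∈ O1 ↔ z ∈ OvE O hπ EM hEM)
    (hcomb : ∀ x ∈ O1, ∃ z ∈ OvE O hπ EM hEM, ∃ c ∈ O1, x - a z = algebraMap ↥O ↥E π * c) :
    BranchPrincipalVia (fun x : ↥(chart ↥O tM) => a (x : ↥EM)) π (chart ↥O (a tM)) O1 := by
  refine branchPrincipalVia_of_gauss hπ hEM tM ht htr hn' hdegM hirrM hsm a (a tM) hO1 leO haO
    (self_mem_chart _) ?_ hcomb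
  refine ⟨⟨tM, self_mem_chart _⟩, 0, O1.zero_mem, ?_⟩
  rw [sub_self, mul_zero]

/-- chart `0`, branch `O2`, via `b`: `prin02`. -/
theorem prin02 (hπ : Irreducible π) (hEM : EM ≤ fracField O)
    (tM : ↥EM) (ht : (tM : LaurentSeries K) ∈ gaussRing O)
    (htr : Transcendental (Res O) (gaussRed O ⟨(tM : LaurentSeries K), ht⟩))
    {n' : ℕ} (hn' : relfinrank (Kt O ⟨(tM : LaurentSeries K), ht⟩) EM ≠ 0)
    (hdegM : DegLe O EM ⟨(tM : LaurentSeries K), ht⟩ n')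
    (hirrM : Irr O EM ⟨(tM : LaurentSeries K), ht⟩ n')
    (hsm : SmoothChart O EM π tM)
    (a b : ↥EM →ₐ[K] ↥E) {ι : ↥E →ₐ[K] LaurentSeries K} {O2 : ValuationSubring ↥E}
    (hO2 : IsGaussPullback O ι O2)
    (leO : ∀ x ∈ chart ↥O (a tM), x ∈ O2)
    (hbO : ∀ z : ↥EM, b z ∈ O2 ↔ z ∈ OvE O hπ EM hEM)
    (hy0 : b tM ∈ chart ↥O (a tM))
    (hK0 : ∃ w : ↥(chart ↥O tM), ∃ o ∈ O2, a tM - b (w : ↥EM) = algebraMap ↥O ↥E π * o)
    (hcomb : ∀ x ∈ O2, ∃ z ∈ OvE O hπ EM hEM, ∃ c ∈ O2, x - b z = algebraMap ↥O ↥E π * c) :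
    BranchPrincipalVia (fun x : ↥(chart ↥O tM) => b (x : ↥EM)) π (chart ↥O (a tM)) O2 :=
  branchPrincipalVia_of_gauss hπ hEM tM ht htr hn' hdegM hirrM hsm b (a tM) hO2 leO hbO hy0 hK0 hcomb

end Fermat.Agent.ES.N34.CompInstB12
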