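/-
Program N (S34), chapter GAL (G-b), helper1: **places and the second difference**.

`K` a field, `F / K` a function field, `g, g' : SemilinearAut K F` (the Prelude's semilinear
automorphisms; in the application the coefficientwise Galois action on `K·F_{N'}`).

* `fd g f = g f / f`, `sd g g' f = g'(g f / f) / (g f / f)` : first and second difference;
* `ord_smul_eq` : `ord_v (g f) = ord_{g⁻¹ v} f`;
* `dvd_ord_fd`, `dvd_ord_sd` : if `m ∣ ord_v f` at ALL places then the same holds for the
  differences (this is (U2) of `N_NOTE27` §5: `div f = m D` gives `div (sd f) = m (g'−1)(g−1) D`);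
* `dvd_ord_secondDiff` : the same with the second difference written with `toRingAut` (unfolds to
  `GalGauss21.secondDiff`); `u2_sd` : the same in the CORE shape `CoreIface24.U2`;
* `sd_self` : `sd g g f = g g f * f / (g f)^2`;
* `ord_fd`, `ord_sd` : the divisor of the differences in terms of `ord f` on the translated places.
-/
import Mathlib
import Fermat.Prelude.Def_AlgebraicCurve_BaseChangeGalois
import Fermat.Agent.RED.CORE.U2Bridge15

set_option autoImplicit false

noncomputable section

namespace Fermat.Agent.ES.N34.GalPlaces1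

open AlgebraicCurve

variable {K F : Type*} [Field K] [Field F] [Algebra K F]

/-- first difference `g f / f`. -/
def fd (g : SemilinearAut K F) (f : F) : F := g • f / f

/-- second difference `g'(g f / f) / (g f / f)`. -/
def sd (g g' : SemilinearAut K F) (f : F) : F := fd g' (fd g f)

theorem fd_def (g : SemilinearAut K F) (f : F) : fd g f = g • f / f := rfl

theorem sd_def (g g' : SemilinearAut K F) (f : F) :
    sd g g' f = g' • (g • f / f) / (g • f / f) := rfl

theorem smul_ne_zero {g : SemilinearAut K F} {f : F} (hf : f ≠ 0) : g • f ≠ 0 := by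
  rw [SemilinearAut.smul_def]
  exact (map_ne_zero_iff _ (SemilinearAut.toRingAut g).injective).mpr hf

theorem fd_ne_zero {g : SemilinearAut K F} {f : F} (hf : f ≠ 0) : fd g f ≠ 0 :=
  div_ne_zero (smul_ne_zero hf) hf

theorem sd_ne_zero {g g' : SemilinearAut K F} {f : F} (hf : f ≠ 0) : sd g g' f ≠ 0 :=
  fd_ne_zero (fd_ne_zero hf)

/-- `ord_v (g f) = ord_{g⁻¹ v} f`. -/
theorem ord_smul_eq (g : SemilinearAut K F) (v : Place K F) (f : F) :
    v.ord (g • f) = (g⁻¹ • v).ord f := by
  have h := SemilinearAut.ord_smul g (g⁻¹ • v) f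
  rwa [smul_inv_smul] at h

/-- the divisor of the first difference. -/
theorem ord_fd (g : SemilinearAut K F) (v : Place K F) {f : F} (hf : f ≠ 0) :
    v.ord (fd g f) = (g⁻¹ • v).ord f - v.ord f := by
  rw [fd_def, div_eq_mul_inv, v.ord_mul (smul_ne_zero hf) (inv_ne_zero hf), v.ord_inv,
    ord_smul_eq, sub_eq_add_neg]

/-- the divisor of the second difference. -/
theorem ord_sd (g g' : SemilinearAut K F) (v : Place K F) {f : F} (hf : f ≠ 0) :
    v.ord (sd g g' f) =
      ((g⁻¹ • g'⁻¹ • v).ord f - (g'⁻¹ • v).ord f) - ((g⁻¹ • v).ord f - v.ord f) := by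
  rw [sd, ord_fd g' v (fd_ne_zero hf), ord_fd g _ hf, ord_fd g _ hf]

/-- **(U2) for the first difference.** -/
theorem dvd_ord_fd (g : SemilinearAut K F) (m : ℤ) {f : F} (hf : f ≠ 0)
    (h : ∀ v : Place K F, m ∣ v.ord f) (v : Place K F) : m ∣ v.ord (fd g f) := by
  rw [ord_fd g v hf]
  exact dvd_sub (h _) (h _)

/-- **(U2) for the second difference.** -/
theorem dvd_ord_sd (g g' : SemilinearAut K F) (m : ℤ) {f : F} (hf : f ≠ 0)
    (h : ∀ v : Place K F, m ∣ v.ord f) (v : Place K F) : m ∣ v.ord (sd g g' f) :=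
  dvd_ord_fd g' m (fd_ne_zero hf) (dvd_ord_fd g m hf h) v

/-- **(U2) for the second difference, ring-automorphism form**: the expression is, by unfolding,
`GalGauss21.secondDiff (toRingAut g) (toRingAut g') f` of the `(U1)` calculus. -/
theorem dvd_ord_secondDiff (g g' : SemilinearAut K F) (m : ℤ) {f : F} (hf : f ≠ 0)
    (h : ∀ v : Place K F, m ∣ v.ord f) (v : Place K F) :
    m ∣ v.ord (SemilinearAut.toRingAut g' (SemilinearAut.toRingAut g f / f) /
      (SemilinearAut.toRingAut g f / f)) :=
  dvd_ord_sd g g' m hf h v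

/-- **(U2) for the second difference, CORE shape.** -/
theorem u2_sd (g g' : SemilinearAut K F) (m : ℕ) {f : F} (hf : f ≠ 0)
    (h : ∀ v : Place K F, (m : ℤ) ∣ v.ord f) :
    Fermat.Agent.RED.CORE.CoreIface24.U2 K F m (sd g g' f) :=
  Fermat.Agent.RED.CORE.U2Bridge15.u2_of_places m _ (sd_ne_zero hf)
    (fun v => dvd_ord_sd g g' (m : ℤ) hf h v)

/-- the second difference for `g' = g`. -/
theorem sd_self (g : SemilinearAut K F) {f : F} (hf : f ≠ 0) :
    sd g g f = g • g • f * f / (g • f) ^ 2 := by
  have h1 : g • f ≠ 0 := smul_ne_zero hf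
  have h2 : g • g • f ≠ 0 := smul_ne_zero h1
  rw [sd_def, smul_div₀' , div_div_div_eq]
  rw [pow_two]

/-- `sd g g f = c * s^m * ...`: the multiplicative form used by the TOP bridge. -/
theorem sd_self_mul (g : SemilinearAut K F) {f : F} (hf : f ≠ 0) :
    sd g g f * (g • f) ^ 2 = g • g • f * f := by
  rw [sd_self g hf, div_mul_cancel₀]
  exact pow_ne_zero 2 (smul_ne_zero hf)

/-- the general second difference, multiplicative form. -/
theorem sd_mul (g g' : SemilinearAut K F) {f : F} (hf : f ≠ 0) :
    sd g g' f * (g • f * g' • f) = g' • g • f * f := by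
  have h1 : g • f ≠ 0 := smul_ne_zero hf
  have h2 : g' • f ≠ 0 := smul_ne_zero hf
  rw [sd_def, smul_div₀', div_div_div_eq, div_mul_eq_mul_div, div_eq_iff (mul_ne_zero h2 h1)]
  ring

end Fermat.Agent.ES.N34.GalPlaces1
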