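/-
Program N (S34), chapter GAL (G-b), helper1: **rational places** and rationality by Galois descent.

* `IsRational w` : the residue field of the place `w` of `F / K` is `K` (`algebraMap` onto);
  `IsRational.deg_eq_one`, `IsRational.valueHom : O_w →ₐ[K] K` ("`f ↦ f(w)`") with kernel the
  maximal ideal, `isRational_smul_iff` (semilinear automorphisms preserve rationality);
* `isRational_of_values` (abstract): `ι : FK → FL` over `K → L`, `L` algebraically closed,
  `v` a place of `FL / L` above the place `w` of `FK / K`; if the values at `v` of the elements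
  of `O_w` all lie in `K`, then `w` is rational;
* `mem_of_fixed` : an element of `ℚ̄` fixed by `Gal(ℚ̄ / K)` lies in `K`;
* `isRational_of_fixed` (concrete): `K ⊂ ℚ̄`, `v` a place of `ℚ̄·F_M` fixed by every
  `σ ∈ Gal(ℚ̄/ℚ)` that fixes `K` pointwise, `w` a place of `K·F_M` below `v`: then `w` is rational.
-/
import Mathlib
import Fermat.Agent.Lib.FrobeniusExists
import Fermat.Agent.ES.RED.PlaceValue13
import Fermat.Agent.RED.DESC.PlaceExtend27
import Fermat.Prelude.Def_ModularCurve_ArithmeticGalois

set_option autoImplicit false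
set_option linter.unusedSectionVars false

noncomputable section

namespace Fermat.Agent.ES.N34.GalRational1

open AlgebraicCurve IsLocalRing ModularCurve HahnSeries
open Fermat.Agent.X0 Fermat.Agent.X0.FF Fermat.Agent.ES.RED.PlaceValue13
open Fermat.Agent.RED.Interface4 Fermat.Agent.RED.DESC Fermat.Agent.ES.RED

/-! ### Rational places -/

section Rational

variable {K F : Type*} [Field K] [Field F] [Algebra K F]

/-- a place of `F / K` with residue field `K`. -/
def IsRational (w : Place K F) : Prop := Function.Surjective (algebraMap K w.ResidueField)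

namespace IsRational

variable {w : Place K F} (hw : IsRational w)

include hw in
theorem bijective : Function.Bijective (algebraMap K w.ResidueField) :=
  ⟨(algebraMap K w.ResidueField).injective, hw⟩

include hw in
theorem deg_eq_one : w.deg = 1 := by
  let e : K ≃ₗ[K] w.ResidueField :=
    LinearEquiv.ofBijective (Algebra.linearMap K w.ResidueField) hw.bijective
  rw [Place.deg, ← e.finrank_eq, Module.finrank_self]

/-- `K ≃ κ(w)`. -/
def residueEquiv : K ≃+* w.ResidueField :=
  RingEquiv.ofBijective (algebraMap K w.ResidueField) hw.bijective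

/-- **the value map** `f ↦ f(w)` at a rational place. -/
def valueHom : w.toValuationSubring →ₐ[K] K :=
  { ((hw.residueEquiv.symm : w.ResidueField →+* K).comp (residue w.toValuationSubring)) with
    commutes' := fun c => by
      show hw.residueEquiv.symm (hw.residueEquiv c) = c
      exact RingEquiv.symm_apply_apply _ _ }

theorem algebraMap_valueHom (f : w.toValuationSubring) :
    algebraMap K w.ResidueField (hw.valueHom f) = residue w.toValuationSubring f :=
  hw.residueEquiv.apply_symm_apply _

theorem valueHom_eq_zero_iff (f : w.toValuationSubring) :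
    hw.valueHom f = 0 ↔ f ∈ maximalIdeal w.toValuationSubring := by
  rw [← residue_eq_zero_iff, ← hw.algebraMap_valueHom f]
  exact ⟨fun h => by rw [h, map_zero], fun h => (map_eq_zero _).mp h⟩

theorem sub_valueHom_mem (f : w.toValuationSubring) :
    f - algebraMap K w.toValuationSubring (hw.valueHom f) ∈ maximalIdeal w.toValuationSubring := by
  rw [← hw.valueHom_eq_zero_iff, map_sub, AlgHom.commutes]
  exact sub_self _

end IsRational

/-- rationality is preserved by semilinear automorphisms. -/
theorem IsRational.smul {w : Place K F} (hw : IsRational w) (g : SemilinearAut K F) :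
    IsRational (g • w) := by
  intro y
  obtain ⟨z, rfl⟩ := (SemilinearAut.smulResidueRingEquiv g w).surjective y
  obtain ⟨c, rfl⟩ := hw z
  exact ⟨SemilinearAut.baseAut g c, (SemilinearAut.smulResidueRingEquiv_algebraMap g w c).symm⟩

theorem isRational_smul_iff (g : SemilinearAut K F) (w : Place K F) :
    IsRational (g • w) ↔ IsRational w := by
  refine ⟨fun h => ?_, fun h => h.smul g⟩
  have := h.smul g⁻¹
  rwa [inv_smul_smul] at this

end Rational

/-! ### Rationality from values in the small field -/

section Abstract

variable {K L FK FL : Type*} [Field K] [Field L] [Field FK] [Field FL]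
  [Algebra K FK] [Algebra L FL] [Algebra K L] [IsAlgClosed L]
  (ι : FK →+* FL) (hι : ∀ c : K, ι (algebraMap K FK c) = algebraMap L FL (algebraMap K L c))

include hι in
/-- **rationality from values.**  If `v` lies above `w` and the values at `v` of all elements
of `O_w` lie in `K`, then `w` is rational. -/
theorem isRational_of_values {x : FL} (hx : IsGen L x) (w : Place K FK) (v : Place L FL)
    (hmem : ∀ f : FK, ι f ∈ v.toValuationSubring ↔ f ∈ w.toValuationSubring)
    (hval : ∀ f : w.toValuationSubring,
      PlaceValue13.valueHom hx v ⟨ι f, (hmem f).2 f.2⟩ ∈ (algebraMap K L).range) :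
    IsRational w := by
  intro y
  obtain ⟨g, rfl⟩ := residue_surjective y
  obtain ⟨c, hc⟩ := hval g
  refine ⟨c, ?_⟩
  have hres : algebraMap K w.ResidueField c =
      residue w.toValuationSubring (algebraMap K w.toValuationSubring c) := rfl
  rw [hres]
  symm
  rw [← sub_eq_zero, ← map_sub, residue_eq_zero_iff]
  -- `h := g - c` has value `0` at `v`
  set h : w.toValuationSubring := g - algebraMap K w.toValuationSubring c with hh
  by_contra hnot
  have hunit : IsUnit h := by
    rwa [mem_maximalIdeal, mem_nonunits_iff, not_not] at hnot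
  obtain ⟨u, hu⟩ := hunit
  have hιh : ι (h : FK) = ι (g : FK) - algebraMap L FL (algebraMap K L c) := by
    rw [hh]
    show ι ((g : FK) - ((algebraMap K w.toValuationSubring c : w.toValuationSubring) : FK)) = _
    rw [Place.coe_algebraMap, map_sub, hι]
  have hv0 : PlaceValue13.valueHom hx v ⟨ι (h : FK), (hmem h).2 h.2⟩ = 0 := by
    have e : (⟨ι (h : FK), (hmem h).2 h.2⟩ : v.toValuationSubring) =
        ⟨ι (g : FK), (hmem g).2 g.2⟩ - algebraMap L v.toValuationSubring (algebraMap K L c) := by
      apply Subtype.ext
      show ι (h : FK) = ι (g : FK) -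
        ((algebraMap L v.toValuationSubring (algebraMap K L c) : v.toValuationSubring) : FL)
      rw [Place.coe_algebraMap, hιh]
    rw [e, map_sub, AlgHom.commutes, ← hc]
    exact sub_self _
  rw [PlaceValue13.valueHom_eq_zero_iff, mem_maximalIdeal, mem_nonunits_iff] at hv0
  apply hv0
  -- but `ι h` is a unit of `O_v`
  have h1 : ((u : w.toValuationSubring) : FK) * (((u⁻¹ : w.toValuationSubringˣ) :
      w.toValuationSubring) : FK) = 1 := congrArg Subtype.val u.mul_inv
  refine isUnit_iff_exists_inv.mpr
    ⟨⟨ι (((u⁻¹ : w.toValuationSubringˣ) : w.toValuationSubring) : FK), (hmem _).2 (Subtype.prop _)⟩, ?_⟩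
  apply Subtype.ext
  show ι (h : FK) * ι (((u⁻¹ : w.toValuationSubringˣ) : w.toValuationSubring) : FK) = 1
  rw [← hu, ← map_mul, h1, map_one]

end Abstract

/-! ### The concrete case `K·F_M ⊂ ℚ̄·F_M` -/

section Concrete

/-- an element of `ℚ̄` fixed by `Gal(ℚ̄ / K)` lies in `K`. -/
theorem mem_of_fixed (K : IntermediateField ℚ Qbar) (x : Qbar)
    (h : ∀ σ : Qbar ≃ₐ[ℚ] Qbar, (∀ a ∈ K, σ a = a) → σ x = x) : x ∈ K := by
  have := Fermat.Agent.Lib.FrobeniusExists.isGalois_Qbar
  have h1 := InfiniteGalois.fixedField_fixingSubgroup (k := ℚ) (K := Qbar) K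
  rw [← h1]
  intro σ
  exact h σ.1 (fun a ha => σ.2 ⟨a, ha⟩)

variable (M : ℕ) [NeZero M] (K : IntermediateField ℚ Qbar)

/-- the base change of an element of `K·F_M` is fixed by `Gal(ℚ̄ / K)`. -/
theorem smul_baseChangeHom_of_fixed (σ : Qbar ≃ₐ[ℚ] Qbar) (hσ : ∀ a ∈ K, σ a = a) (f : FK M K) :
    arithmeticGalois (modularFunctionFieldFull M) σ • PlaceExtend27.baseChangeHom M K f =
      PlaceExtend27.baseChangeHom M K f := by
  apply Subtype.ext
  rw [coe_arithmeticGalois_smul, PlaceExtend27.coe_baseChangeHom, coeffMap_coeffMap]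
  exact coeffMap_congr (RingHom.ext fun a => hσ _ a.2) _

theorem valueHom_congr_place {x : Fbar M} (hx : IsGen Qbar x) {v v' : Place Qbar (Fbar M)}
    (h : v' = v) (y : Fbar M) (hy : y ∈ v.toValuationSubring) (hy' : y ∈ v'.toValuationSubring) :
    PlaceValue13.valueHom hx v' ⟨y, hy'⟩ = PlaceValue13.valueHom hx v ⟨y, hy⟩ := by
  subst h
  rfl

/-- **rationality by Galois descent.**  A place of `K·F_M` below a `Gal(ℚ̄/K)`-fixed place of
`ℚ̄·F_M` is rational. -/
theorem isRational_of_fixed (w : Place K (FK M K)) (v : Place Qbar (Fbar M))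
    (hmem : ∀ f : FK M K, PlaceExtend27.baseChangeHom M K f ∈ v.toValuationSubring ↔
      f ∈ w.toValuationSubring)
    (hfix : ∀ σ : Qbar ≃ₐ[ℚ] Qbar, (∀ a ∈ K, σ a = a) →
      arithmeticGalois (modularFunctionFieldFull M) σ • v = v) :
    IsRational w := by
  have hx := Fermat.Agent.RED.TOP.FbarFacts20.isGen_j M
  refine isRational_of_values (PlaceExtend27.baseChangeHom M K)
    (PlaceExtend27.baseChangeHom_algebraMap M K) hx w v hmem fun f => ?_
  have hK : PlaceValue13.valueHom hx v
      ⟨PlaceExtend27.baseChangeHom M K f, (hmem f).2 f.2⟩ ∈ K := by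
    refine mem_of_fixed K _ fun σ hσ => ?_
    have h1 := PlaceValue13.valueHom_smul' hx (arithmeticGalois (modularFunctionFieldFull M) σ) v
      ((hmem f).2 f.2)
    rw [baseAut_arithmeticGalois] at h1
    show σ.toRingEquiv _ = _
    rw [← h1]
    have h2 := smul_baseChangeHom_of_fixed M K σ hσ f
    have h3 : PlaceValue13.valueHom hx (arithmeticGalois (modularFunctionFieldFull M) σ • v)
        ⟨arithmeticGalois (modularFunctionFieldFull M) σ • PlaceExtend27.baseChangeHom M K f,
          PlaceValue13.smul_mem_smul _ v ((hmem f).2 f.2)⟩ =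
        PlaceValue13.valueHom hx (arithmeticGalois (modularFunctionFieldFull M) σ • v)
        ⟨PlaceExtend27.baseChangeHom M K f, by
          have := PlaceValue13.smul_mem_smul (arithmeticGalois (modularFunctionFieldFull M) σ) v
            ((hmem f).2 f.2)
          rwa [h2] at this⟩ := by
      congr 1
      exact Subtype.ext h2
    rw [h3]
    exact valueHom_congr_place M hx (hfix σ hσ) _ _ _
  exact ⟨⟨_, hK⟩, rfl⟩

end Concrete

end Fermat.Agent.ES.N34.GalRational1
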