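/-
Program N (S34), brick T3 (DESC-N), helper1: **the descent package** — the shape-independent content
of the descent from `ℚ̄` to number fields with RATIONAL support.

* `gal M K τ`, `galBar M τ` : the Prelude's coefficientwise Galois actions (`SemilinearAut`) on
  `K·F_M` and `ℚ̄·F_M`;
* `baseChangeHom_smul`, `baseChangeHom_fd`, `baseChangeHom_sd` : the coefficientwise base change
  `K·F_M → ℚ̄·F_M` is equivariant for `τ ↦ τ.restrictNormal K` (`K` normal over `ℚ`), hence commutes
  with first and second differences;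
* `exists_rational_descent` : a nonzero `f ∈ ℚ̄·F_M` with `m ∣ ord_v f` at all places descends to a
  finite NORMAL number field `K ⊇ K₀` such that `m ∣ ord_w f_K` at all places of `K·F_M / K` and
  every place in the support of `div f_K` is rational (`GalRational1.IsRational`).
  Proof: `f` and uniformisers at the finitely many places of `supp div f` descend to a common number
  field (`DescMain27.exists_common_descent`) containing `K₀` and a field of definition of these
  places (`OpenStab12.hasLevel_place`); pass to the normal closure; `e = 1` on the support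
  (uniformisers), rationality by `GalRational1.isRational_of_fixed`.
-/
import Mathlib
import Fermat.Agent.ES.N34.GalPlaces1
import Fermat.Agent.ES.N34.GalRational1
import Fermat.Agent.ES.GAL.OpenStab12
import Fermat.Agent.RED.DESC.DescMain27

set_option autoImplicit false
set_option linter.unusedSectionVars false

noncomputable section

namespace Fermat.Agent.ES.N34.GalDescent1

open AlgebraicCurve ModularCurve HahnSeries
open Fermat.Agent.X0 Fermat.Agent.RED.Interface4 Fermat.Agent.RED.DESC Fermat.Agent.RED.TOP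
open Fermat.Agent.ES.N34.GalPlaces1 Fermat.Agent.ES.N34.GalRational1

/-- the arithmetic Galois action on `K·F_M` (Prelude's `arithmeticGalois`). -/
abbrev gal (M : ℕ) (K : IntermediateField ℚ Qbar) (τ : K ≃ₐ[ℚ] K) : SemilinearAut K (FK M K) :=
  arithmeticGalois (modularFunctionFieldFull M) τ

/-- the arithmetic Galois action on `ℚ̄·F_M`. -/
abbrev galBar (M : ℕ) (τ : Qbar ≃ₐ[ℚ] Qbar) : SemilinearAut Qbar (Fbar M) :=
  arithmeticGalois (modularFunctionFieldFull M) τ

section Equivariance

variable (M : ℕ) (K : IntermediateField ℚ Qbar) [Normal ℚ K]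

/-- the base change `K·F_M → ℚ̄·F_M` is Galois-equivariant. -/
theorem baseChangeHom_smul (τ : Qbar ≃ₐ[ℚ] Qbar) (x : FK M K) :
    PlaceExtend27.baseChangeHom M K (gal M K (τ.restrictNormal K) • x) =
      galBar M τ • PlaceExtend27.baseChangeHom M K x := by
  apply Subtype.ext
  rw [coe_arithmeticGalois_smul, PlaceExtend27.coe_baseChangeHom,
    PlaceExtend27.coe_baseChangeHom, coe_arithmeticGalois_smul, coeffMap_coeffMap,
    coeffMap_coeffMap]
  refine coeffMap_congr (RingHom.ext fun a => ?_) _
  exact AlgEquiv.restrictNormal_commutes τ K a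

theorem baseChangeHom_fd (τ : Qbar ≃ₐ[ℚ] Qbar) (x : FK M K) :
    PlaceExtend27.baseChangeHom M K (fd (gal M K (τ.restrictNormal K)) x) =
      fd (galBar M τ) (PlaceExtend27.baseChangeHom M K x) := by
  rw [fd_def, fd_def, map_div₀, baseChangeHom_smul]

theorem baseChangeHom_sd (τ τ' : Qbar ≃ₐ[ℚ] Qbar) (x : FK M K) :
    PlaceExtend27.baseChangeHom M K
        (sd (gal M K (τ.restrictNormal K)) (gal M K (τ'.restrictNormal K)) x) =
      sd (galBar M τ) (galBar M τ') (PlaceExtend27.baseChangeHom M K x) := by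
  rw [sd, sd, baseChangeHom_fd, baseChangeHom_fd]

end Equivariance

/-- **The descent package** (shape-independent content of DESC-N): a nonzero `f ∈ ℚ̄·F_M` with
`m ∣ ord_v f` at all places descends to a finite NORMAL number field `K ⊇ K₀` such that
`m ∣ ord_w f_K` at all places of `K·F_M` and every place in the support of `div f_K` is rational. -/
theorem exists_rational_descent (M : ℕ) [NeZero M] (K₀ : IntermediateField ℚ Qbar)
    [FiniteDimensional ℚ K₀] {f : Fbar M} (hf : f ≠ 0) (m : ℕ)
    (hord : ∀ v : Place Qbar (Fbar M), (m : ℤ) ∣ v.ord f) :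
    ∃ K : IntermediateField ℚ Qbar, FiniteDimensional ℚ K ∧ Normal ℚ K ∧ K₀ ≤ K ∧
      ∃ fK : FK M K, PlaceExtend27.baseChangeHom M K fK = f ∧ fK ≠ 0 ∧
        (∀ w : Place K (FK M K), (m : ℤ) ∣ w.ord fK) ∧
        ∀ w : Place K (FK M K), w.ord fK ≠ 0 → IsRational w := by
  classical
  -- the support of `div f`
  obtain ⟨D, hD, -⟩ := FbarFacts20.exists_divisor_bar M hf
  let S : Finset (Place Qbar (Fbar M)) := D.support
  have hS : ∀ v, v ∉ S → v.ord f = 0 := by
    intro v hv
    simp only [S, Finsupp.mem_support_iff, not_not] at hv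
    rw [← hD v, hv]
  -- a field of definition of the places of the support
  obtain ⟨L₁, hL₁, hfixS⟩ := Fermat.Agent.ES.GAL.OpenStab12.hasLevel_forall_finset S
    (fun v σ => galBar M σ • v = v)
    (fun v _ => Fermat.Agent.ES.GAL.OpenStab12.hasLevel_place M v)
  have := hL₁
  -- uniformisers
  let unif : Place Qbar (Fbar M) → Fbar M := fun v =>
    (((FF.ffp_exists_irreducible v).choose : v.toValuationSubring) : Fbar M)
  have hunif : ∀ v : Place Qbar (Fbar M), v.ord (unif v) = 1 := by
    intro v
    exact v.ord_coe_irreducible (FF.ffp_exists_irreducible v).choose_spec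
  let T : Finset (LaurentSeries Qbar) :=
    insert (f : LaurentSeries Qbar) (S.image (fun v => ((unif v : Fbar M) : LaurentSeries Qbar)))
  have hT : ∀ x ∈ T, x ∈ Fbar M := by
    intro x hx
    simp only [T, Finset.mem_insert, Finset.mem_image] at hx
    rcases hx with rfl | ⟨v, -, rfl⟩
    · exact f.2
    · exact (unif v).2
  obtain ⟨K₁, hK₁, hfin₁, hdesc₁⟩ := DescMain27.exists_common_descent M (K₀ ⊔ L₁) T hT
  have := hfin₁
  -- the normal closure
  have hgal : IsGalois ℚ Qbar := Fermat.Agent.Lib.FrobeniusExists.isGalois_Qbar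
  have hnorQ : Normal ℚ Qbar := hgal.to_normal
  have halgQ : Algebra.IsAlgebraic ℚ Qbar := NumberFieldDVR27.isAlgebraic_Qbar
  let K : IntermediateField ℚ Qbar := IntermediateField.normalClosure ℚ K₁ Qbar
  have hK₁K : K₁ ≤ K := IntermediateField.le_normalClosure K₁
  have hfinK : FiniteDimensional ℚ K := normalClosure.is_finiteDimensional ℚ K₁ Qbar
  have hnorK : Normal ℚ K := normalClosure.normal ℚ K₁ Qbar
  have hK₀K : K₀ ≤ K := (le_sup_left.trans hK₁).trans hK₁K
  have hL₁K : L₁ ≤ K := (le_sup_right.trans hK₁).trans hK₁K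
  have hdesc : ∀ x ∈ T, ∃ x' : FK M K,
      ((PlaceExtend27.baseChangeHom M K x' : Fbar M) : LaurentSeries Qbar) = x := by
    intro x hx
    obtain ⟨x₁, hx₁, hxx₁⟩ := hdesc₁ x hx
    obtain ⟨x₂, hx₂, hxx₂⟩ := CoeffDescent1.exists_lift_of_le hK₁K hx₁
    exact ⟨⟨x₂, hx₂⟩, hxx₂.trans hxx₁⟩
  obtain ⟨fK, hfK⟩ := hdesc (f : LaurentSeries Qbar) (by simp [T])
  have hbf : PlaceExtend27.baseChangeHom M K fK = f := Subtype.ext hfK
  have hfK0 : fK ≠ 0 := by
    rintro rfl
    rw [map_zero] at hbf
    exact hf hbf.symm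
  -- places of `K·F_M` in the support
  have hplace : ∀ w : Place K (FK M K), w.ord fK ≠ 0 →
      ∃ v ∈ S, (∀ x : FK M K, v.ord (PlaceExtend27.baseChangeHom M K x) = w.ord x) ∧
        ∀ x : FK M K, PlaceExtend27.baseChangeHom M K x ∈ v.toValuationSubring ↔
          x ∈ w.toValuationSubring := by
    intro w hw
    obtain ⟨v, e, he, hve, hmem⟩ := PlaceExtend27.exists_place_above_mem M K w
    have he' : (e : ℤ) ≠ 0 := by exact_mod_cast he.ne'
    have hvS : v ∈ S := by
      by_contra hv
      have h1 := hve fK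
      rw [hbf, hS v hv] at h1
      exact hw ((mul_eq_zero.mp h1.symm).resolve_left he')
    obtain ⟨xu, hxu⟩ := hdesc ((unif v : Fbar M) : LaurentSeries Qbar) (by
      simp only [T, Finset.mem_insert, Finset.mem_image]
      exact Or.inr ⟨v, hvS, rfl⟩)
    have h3 := hve xu
    have h4 : PlaceExtend27.baseChangeHom M K xu = unif v := Subtype.ext hxu
    rw [h4, hunif v] at h3
    have he1 : (e : ℤ) = 1 := Int.eq_one_of_mul_eq_one_right (by positivity) h3.symm
    refine ⟨v, hvS, fun x => ?_, hmem⟩
    rw [hve x, he1, one_mul]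
  refine ⟨K, hfinK, hnorK, hK₀K, fK, hbf, hfK0, ?_, ?_⟩
  · intro w
    by_cases hw : w.ord fK = 0
    · rw [hw]
      exact dvd_zero _
    · obtain ⟨v, -, hve, -⟩ := hplace w hw
      rw [← hve fK, hbf]
      exact hord v
  · intro w hw
    obtain ⟨v, hvS, -, hmem⟩ := hplace w hw
    exact isRational_of_fixed M K w v hmem
      (fun σ hσ => hfixS σ (fun a ha => hσ a (hL₁K ha)) v hvS)

end Fermat.Agent.ES.N34.GalDescent1
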