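/-
Program N (S34: inertia at `q ∥ N` acts unipotently), brick I0 — helper4 (interface integrator).

Literal cross-chapter contracts of `N_PLAN27.md` and the (trivial) chain theorem

  InertiaTors  ⇐(TOP-N)  `∀ UBar q N A`  ⇐(LVL-N)  `UBar q N' A`, `N' = auxLevel q N = M'·q`
               ⇐(DESC-N) `∃ K₀, ∀ K ⊇ K₀ finite normal, UNum q N' A K`  ⇐(NUM)  CORE-nodal + MODEL + GAL + (INV)

Field form everywhere: no divisor, no Picard group crosses a chapter boundary (as in `RED/Interface4`).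
Vocabulary of `RED/Interface4`: `Qbar`, `Fbar N = ℚ̄·F_N`, `FK N K = K·F_N`, `AK A K = A ∩ K`, `auxLevel`.

* `gB N σ` : `σ ∈ Gal(ℚ̄/ℚ)` acting on `Fbar N` (coefficientwise on `q`-expansions; this is the action
  defining `σ • y` on `JZero N`).
* `gK N K σ` : `σ ∈ Gal(K/ℚ)` acting on `FK N K`.
* `UBar q N A` : for `τ` in the inertia group of `A`, `f ∈ Fbar N` with all orders divisible by `m`
  (`q ∤ m`), the second difference `τ²f·f/(τf)²` is an `m`-th power in `Fbar N`.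
* `UNum q N A K` : the same over a finite normal `K ⊂ ℚ̄`, up to a constant of `K`, for `f` whose
  support consists of `K`-rational places.  The rationality side condition is spelled out as
  `Function.Surjective (algebraMap K v.ResidueField)` (this is `GalRational1.IsRational v`, by `Iff.rfl`).
-/
import Mathlib
import Fermat.Agent.RED.Interface4
import Fermat.Prelude.Def_ModularCurve_ArithmeticGalois
import Fermat.Prelude.Def_FLTPrelim_Ramification

set_option autoImplicit false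
set_option synthInstance.maxHeartbeats 400000

open HahnSeries AlgebraicCurve ModularCurve

noncomputable section

namespace Fermat.Agent.ES.N34.IfaceN4

open Fermat.Agent.RED.Interface4

/-- `σ ∈ Gal(ℚ̄/ℚ)` acting on `ℚ̄·F_N`, coefficientwise on `q`-expansions. -/
abbrev gB (N : ℕ) (σ : Qbar ≃ₐ[ℚ] Qbar) : Fbar N ≃+* Fbar N :=
  arithmeticRingAut (modularFunctionFieldFull N) σ

/-- `σ ∈ Gal(K/ℚ)` acting on `K·F_N`, coefficientwise on `q`-expansions. -/
abbrev gK (N : ℕ) (K : IntermediateField ℚ Qbar) (σ : K ≃ₐ[ℚ] K) : FK N K ≃+* FK N K :=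
  arithmeticRingAut (modularFunctionFieldFull N) σ

/-- **The geometric input of S34** (helper12's TOP consumes exactly this): for `q ∥ N`, every `τ` in an
inertia group at `q` satisfies `(τ - 1)² y = 0` on the prime-to-`q` torsion of `J₀(N)(ℚ̄)`. -/
def InertiaTors : Prop :=
  ∀ (N : ℕ) [NeZero N] (q : ℕ), q.Prime → q ∣ N → ¬ q ^ 2 ∣ N →
    ∀ P : ValuationSubring Qbar, P.LiesOverPrime q →
      ∀ τ ∈ P.inertiaSubgroupIn ℚ, ∀ m : ℕ, ¬ q ∣ m → ∀ y : JZero N, m • y = 0 →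
        τ • τ • y + y = τ • y + τ • y

/-- **(U) over `ℚ̄` at level `N`, Kummer form.** -/
def UBar (q N : ℕ) (A : ValuationSubring Qbar) : Prop :=
  ∀ τ ∈ A.inertiaSubgroupIn ℚ, ∀ m : ℕ, ¬ q ∣ m → ∀ f : Fbar N, f ≠ 0 →
    (∀ v : Place Qbar (Fbar N), (m : ℤ) ∣ v.ord f) →
    ∃ s : Fbar N, s ^ m * (gB N τ f) ^ 2 = gB N τ (gB N τ f) * f

/-- **(U) over a finite normal `K ⊂ ℚ̄`**, conclusion up to a nonzero constant of `K`; the support of
`div f` consists of `K`-rational places. -/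
def UNum (q N : ℕ) (A : ValuationSubring Qbar) (K : IntermediateField ℚ Qbar) [Normal ℚ K] : Prop :=
  ∀ τ ∈ A.inertiaSubgroupIn ℚ, ∀ m : ℕ, ¬ q ∣ m → ∀ f : FK N K, f ≠ 0 →
    (∀ v : Place K (FK N K), (m : ℤ) ∣ v.ord f) →
    (∀ v : Place K (FK N K), v.ord f ≠ 0 → Function.Surjective (algebraMap K v.ResidueField)) →
    ∃ (c : K) (s : FK N K), c ≠ 0 ∧
      s ^ m * (gK N K (τ.restrictNormal K) f) ^ 2 =
        c • (gK N K (τ.restrictNormal K) (gK N K (τ.restrictNormal K) f) * f)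

/-- `UNum` over all sufficiently large finite normal subfields of `ℚ̄`. -/
def UNumLarge (q N : ℕ) (A : ValuationSubring Qbar) : Prop :=
  ∃ K₀ : IntermediateField ℚ Qbar, FiniteDimensional ℚ K₀ ∧
    ∀ (K : IntermediateField ℚ Qbar) [Normal ℚ K], FiniteDimensional ℚ K → K₀ ≤ K → UNum q N A K

/-- **Chapter TOP-N** (Kummer ⇄ `JZero`). -/
def TopStep : Prop :=
  (∀ (N : ℕ) [NeZero N] (q : ℕ), q.Prime → q ∣ N → ¬ q ^ 2 ∣ N →
    ∀ A : ValuationSubring Qbar, A.LiesOverPrime q → UBar q N A) → InertiaTors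

/-- **Chapter LVL-N** (level change `N ∣ auxLevel q N`). -/
def LvlStep (q N : ℕ) (A : ValuationSubring Qbar) : Prop :=
  UBar q (auxLevel q N) A → UBar q N A

/-- **Chapter DESC-N** (descent to number fields, incl. (RAT)). -/
def DescStep (q N : ℕ) (A : ValuationSubring Qbar) : Prop :=
  UNumLarge q N A → UBar q N A

/-- **Chapter NUM** (CORE-nodal + MODEL + GAL + (INV)) at the levels `M'·q`, `q ∤ M'`, `M'` divisible by
the auxiliary base level (`4` for odd `q`, `9` for `q = 2`). -/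
def NumStep : Prop :=
  ∀ (q M' : ℕ) (A : ValuationSubring Qbar), q.Prime → ¬ q ∣ M' →
    (if q = 2 then 9 ∣ M' else 4 ∣ M') → A.LiesOverPrime q → UNumLarge q (M' * q) A

/-- For `q ∥ N` the auxiliary level is `M'·q` with `q ∤ M'` and `M'` divisible by the auxiliary base
level. -/
theorem auxLevel_eq_mul {q N : ℕ} (hq : q.Prime) (hqN : q ∣ N) (hq2 : ¬ q ^ 2 ∣ N) :
    ∃ M' : ℕ, auxLevel q N = M' * q ∧ ¬ q ∣ M' ∧ (if q = 2 then 9 ∣ M' else 4 ∣ M') := by
  -- the auxiliary base level `c`, coprime to `q`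
  obtain ⟨c, hc, hcop, hite⟩ : ∃ c : ℕ, auxLevel q N = Nat.lcm N c ∧ Nat.Coprime q c ∧
      ∀ M' : ℕ, c ∣ M' → (if q = 2 then 9 ∣ M' else 4 ∣ M') := by
    unfold auxLevel
    split_ifs with h2
    · exact ⟨9, rfl, by subst h2; decide, fun M' h => h⟩
    · refine ⟨4, rfl, ?_, fun M' h => h⟩
      have : Nat.Coprime q 2 := (Nat.coprime_primes hq Nat.prime_two).mpr h2
      exact Nat.Coprime.pow_right 2 this
  obtain ⟨M', hM'⟩ : q ∣ auxLevel q N := hqN.trans (dvd_auxLevel q N)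
  refine ⟨M', by rw [hM', mul_comm], ?_, hite M' ?_⟩
  · -- `q ∤ M'`
    intro hqM'
    apply hq2
    have h1 : q ^ 2 ∣ Nat.lcm N c := by
      rw [← hc, hM', pow_two]
      exact mul_dvd_mul_left q hqM'
    have h2 : q ^ 2 ∣ N * c := h1.trans (Nat.lcm_dvd_mul N c)
    exact (Nat.Coprime.pow_left 2 hcop).dvd_of_dvd_mul_right h2
  · -- `c ∣ M'`
    have h1 : c ∣ q * M' := by
      rw [← hM', hc]
      exact Nat.dvd_lcm_right N c
    exact hcop.symm.dvd_of_dvd_mul_left h1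

/-- **The chain.** -/
theorem inertiaTors_of_chain (htop : TopStep)
    (hlvl : ∀ (N : ℕ) [NeZero N] (q : ℕ), q.Prime → q ∣ N → ¬ q ^ 2 ∣ N →
      ∀ A : ValuationSubring Qbar, A.LiesOverPrime q → LvlStep q N A)
    (hdesc : ∀ (q M' : ℕ) (A : ValuationSubring Qbar), q.Prime → ¬ q ∣ M' →
      (if q = 2 then 9 ∣ M' else 4 ∣ M') → A.LiesOverPrime q → DescStep q (M' * q) A)
    (hnum : NumStep) : InertiaTors := by
  refine htop fun N _ q hq hqN hq2 A hA => hlvl N q hq hqN hq2 A hA ?_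
  obtain ⟨M', hM', hqM', hc⟩ := auxLevel_eq_mul hq hqN hq2
  rw [hM']
  exact hdesc q M' A hq hqM' hc hA (hnum q M' A hq hqM' hc hA)

end Fermat.Agent.ES.N34.IfaceN4
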