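/-
Program N (S34), brick T3 (DESC-N), helper1: **`IfaceN4.DescStep q N A`** for every level `N ≠ 0`
and every valuation subring `A` of `ℚ̄` — the literal contract of `N_PLAN27.md` / `IfaceN4`.

`UNumLarge q N A → UBar q N A`: given `τ`, `m`, `f ∈ ℚ̄·F_N` with `m ∣ ord_v f` everywhere, the
descent package `GalDescent1.exists_rational_descent` produces a finite normal `K ⊇ K₀` with
`f = bc(f_K)`, `m ∣ ord_w f_K` at all places of `K·F_N` and rational support; `UNum` gives
`s^m (τ f_K)^2 = c · τ²f_K · f_K` over `K`; base change is Galois equivariant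
(`GalDescent1.baseChangeHom_smul`) and `c` is an `m`-th power in `ℚ̄`.
-/
import Mathlib
import Fermat.Agent.ES.N34.IfaceN4
import Fermat.Agent.ES.N34.GalDescent1

set_option autoImplicit false
set_option linter.unusedSectionVars false

noncomputable section

namespace Fermat.Agent.ES.N34.DescN1

open AlgebraicCurve ModularCurve HahnSeries
open Fermat.Agent.RED.Interface4 Fermat.Agent.RED.DESC
open Fermat.Agent.ES.N34.IfaceN4 Fermat.Agent.ES.N34.GalRational1 Fermat.Agent.ES.N34.GalDescent1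

/-- **DESC-N**, general level. -/
theorem descStep (q N : ℕ) [NeZero N] (A : ValuationSubring Qbar) : IfaceN4.DescStep q N A := by
  rintro ⟨K₀, hK₀, hnum⟩
  intro τ hτ m hm f hf hord
  have hm0 : 0 < m := Nat.pos_of_ne_zero (fun h => hm (h ▸ dvd_zero q))
  obtain ⟨K, hfinK, hnorK, hK₀K, fK, hbf, hfK0, hdiv, hrat⟩ :=
    exists_rational_descent N K₀ hf m hord
  obtain ⟨c, s, hc, hs⟩ := hnum K hfinK hK₀K τ hτ m hm fK hfK0 hdiv hrat
  -- an `m`-th root of the constant
  have hcQ : ((c : K) : Qbar) ≠ 0 := fun h => hc (Subtype.ext h)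
  obtain ⟨d, hd⟩ := IsAlgClosed.exists_pow_nat_eq (((c : K) : Qbar)) hm0
  have hd0 : d ≠ 0 := by
    rintro rfl
    rw [zero_pow hm0.ne'] at hd
    exact hcQ hd.symm
  have hdF : algebraMap Qbar (Fbar N) d ≠ 0 := (map_ne_zero _).mpr hd0
  have hg : ∀ x : FK N K, PlaceExtend27.baseChangeHom N K (gK N K (τ.restrictNormal K) x) =
      gB N τ (PlaceExtend27.baseChangeHom N K x) := fun x => baseChangeHom_smul N K τ x
  have h5 := congrArg (PlaceExtend27.baseChangeHom N K) hs
  rw [Algebra.smul_def, map_mul, map_mul, map_mul, map_pow, map_pow, hg, hg, hg, hbf,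
    PlaceExtend27.baseChangeHom_algebraMap, ← hd, map_pow] at h5
  refine ⟨(algebraMap Qbar (Fbar N) d)⁻¹ * PlaceExtend27.baseChangeHom N K s, ?_⟩
  rw [mul_pow, inv_pow, mul_assoc, h5, ← mul_assoc, inv_mul_cancel₀ (pow_ne_zero m hdF), one_mul]

/-- **DESC-N in the literal shape consumed by `IfaceN4.inertiaTors_of_chain`.** -/
theorem descStep_chain (q M' : ℕ) (A : ValuationSubring Qbar) (hq : q.Prime) (hqM' : ¬ q ∣ M')
    (_hc : if q = 2 then 9 ∣ M' else 4 ∣ M') (_hA : A.LiesOverPrime q) :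
    IfaceN4.DescStep q (M' * q) A := by
  have hM' : M' ≠ 0 := fun h => hqM' (h ▸ dvd_zero q)
  have : NeZero (M' * q) := ⟨mul_ne_zero hM' hq.ne_zero⟩
  exact descStep q (M' * q) A

end Fermat.Agent.ES.N34.DescN1
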