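/-
Program N (S34), chapter GAL (helper21): **Galois bookkeeping, base layer.**

Setting of Program H: `A : ValuationSubring Qbar`, `K : IntermediateField ℚ Qbar` NORMAL over `ℚ`,
`A_K := AK A K = A ∩ K`, `F_K := FK M K ⊂ K((q))`.  For `σ ∈ Gal(ℚ̄/ℚ)` put `σ_K := σ|_K`
(`resK K σ`); it acts on `F_K` coefficientwise by the Prelude's
`arithmeticGalois (modularFunctionFieldFull M) σ_K` (which is stated for every field `L` with
`Algebra ℚ L`).

* `baseChangeHom_smul` : the base change `F_K → ℚ̄·F_M` intertwines `σ_K` and `σ` (so the action on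
  `F_K` is the restriction of the action that defines `σ • y` on `JZero M`).
* `resK_mem_AK`, `resK_sub_mem_maximalIdeal` : `τ ∈ I_A` preserves `A_K` and is the identity
  modulo the maximal ideal of `A_K` (`τ_K π = π · unit` is `GalGauss21.IsInertial.map_p`, proved in
  `GalGaussInst21.isInertial_of_expansion`).
-/
import Mathlib
import Fermat.Agent.RED.Interface4
import Fermat.Agent.RED.DESC.NumberFieldDVR27
import Fermat.Agent.RED.DESC.PlaceExtend27
import Fermat.Agent.ES.RED.GaloisRed21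

set_option autoImplicit false
set_option linter.unusedSectionVars false

noncomputable section

open HahnSeries AlgebraicCurve ModularCurve

namespace Fermat.Agent.ES.N34.GalBase21

open Fermat.Agent.RED.Interface4 Fermat.Agent.RED.DESC Fermat.Agent.ES.RED.GaloisRed21

/-! ### Restriction to a normal subfield -/

section Restrict

variable (K : IntermediateField ℚ Qbar) [Normal ℚ K]

/-- `σ|_K` for `K/ℚ` normal. -/
def resK (σ : Qbar ≃ₐ[ℚ] Qbar) : K ≃ₐ[ℚ] K := σ.restrictNormal K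

theorem coe_resK (σ : Qbar ≃ₐ[ℚ] Qbar) (a : K) : ((resK K σ a : K) : Qbar) = σ (a : Qbar) :=
  AlgEquiv.restrictNormal_commutes σ K a

theorem resK_one : resK K 1 = 1 := by
  ext a
  rw [coe_resK]
  rfl

theorem resK_mul (σ τ : Qbar ≃ₐ[ℚ] Qbar) : resK K (σ * τ) = resK K σ * resK K τ := by
  ext a
  rw [coe_resK, AlgEquiv.mul_apply, AlgEquiv.mul_apply, coe_resK, coe_resK]

/-- `σ ↦ σ|_K` as a group homomorphism. -/
def resKHom : (Qbar ≃ₐ[ℚ] Qbar) →* (K ≃ₐ[ℚ] K) where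
  toFun := resK K
  map_one' := resK_one K
  map_mul' := resK_mul K

theorem resK_inv (σ : Qbar ≃ₐ[ℚ] Qbar) : resK K σ⁻¹ = (resK K σ)⁻¹ := map_inv (resKHom K) σ

theorem algebraMap_comp_resK (σ : Qbar ≃ₐ[ℚ] Qbar) :
    (algebraMap K Qbar).comp ((resK K σ : K ≃ₐ[ℚ] K) : K →+* K) =
      ((σ : Qbar ≃ₐ[ℚ] Qbar) : Qbar →+* Qbar).comp (algebraMap K Qbar) :=
  RingHom.ext fun a => coe_resK K σ a

/-- coefficientwise: `(σ_K x)_{ℚ̄} = σ (x_{ℚ̄})`. -/
theorem coeffMap_algebraMap_resK (σ : Qbar ≃ₐ[ℚ] Qbar) (x : LaurentSeries K) :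
    coeffMap (algebraMap K Qbar) (coeffMap ((resK K σ : K ≃ₐ[ℚ] K) : K →+* K) x) =
      coeffMap ((σ : Qbar ≃ₐ[ℚ] Qbar) : Qbar →+* Qbar) (coeffMap (algebraMap K Qbar) x) := by
  rw [coeffMap_coeffMap, coeffMap_coeffMap, algebraMap_comp_resK]

variable (M : ℕ)

/-- the action of `σ` on `F_K = K·F_M`. -/
def galK (σ : Qbar ≃ₐ[ℚ] Qbar) : SemilinearAut K (FK M K) :=
  arithmeticGalois (modularFunctionFieldFull M) (resK K σ)

theorem galK_one : galK K M 1 = 1 := by
  unfold galK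
  rw [resK_one, map_one]

theorem galK_mul (σ τ : Qbar ≃ₐ[ℚ] Qbar) : galK K M (σ * τ) = galK K M σ * galK K M τ := by
  unfold galK
  rw [resK_mul, map_mul]

theorem coe_galK_smul (σ : Qbar ≃ₐ[ℚ] Qbar) (x : FK M K) :
    ((galK K M σ • x : FK M K) : LaurentSeries K) =
      coeffMap ((resK K σ : K ≃ₐ[ℚ] K) : K →+* K) (x : LaurentSeries K) := rfl

theorem coeff_galK_smul (σ : Qbar ≃ₐ[ℚ] Qbar) (x : FK M K) (n : ℤ) :
    ((galK K M σ • x : FK M K) : LaurentSeries K).coeff n =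
      resK K σ ((x : LaurentSeries K).coeff n) := by
  rw [coe_galK_smul, coeffMap_coeff]
  rfl

/-- **the base change `F_K → ℚ̄·F_M` is Galois equivariant.** -/
theorem baseChangeHom_smul (σ : Qbar ≃ₐ[ℚ] Qbar) (x : FK M K) :
    PlaceExtend27.baseChangeHom M K (galK K M σ • x) =
      arithmeticGalois (modularFunctionFieldFull M) σ • PlaceExtend27.baseChangeHom M K x := by
  apply Subtype.ext
  rw [PlaceExtend27.coe_baseChangeHom, coe_galK_smul, coe_arithmeticGalois_smul,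
    PlaceExtend27.coe_baseChangeHom]
  exact coeffMap_algebraMap_resK K σ _

end Restrict

/-! ### Inertia on `A ∩ K` -/

section Inertia

variable (A : ValuationSubring Qbar) (K : IntermediateField ℚ Qbar) [Normal ℚ K]

/-- the decomposition group preserves `A ∩ K`. -/
theorem resK_mem_AK {σ : Qbar ≃ₐ[ℚ] Qbar} (hσ : σ ∈ A.decompositionSubgroup ℚ) {a : K}
    (ha : a ∈ AK A K) : resK K σ a ∈ AK A K := by
  rw [NumberFieldDVR27.mem_AK_iff] at ha ⊢
  rw [coe_resK]
  exact (sigmaA A ⟨σ, hσ⟩ ⟨(a : Qbar), ha⟩).2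

theorem mem_decomposition_of_mem_inertia {τ : Qbar ≃ₐ[ℚ] Qbar}
    (hτ : τ ∈ A.inertiaSubgroupIn ℚ) : τ ∈ A.decompositionSubgroup ℚ := by
  obtain ⟨h, -⟩ := psiRes_eq_one_of_mem_inertia A hτ
  exact h

/-- inertia is the identity modulo the maximal ideal of `A` … -/
theorem sub_mem_maximalIdeal_of_mem_inertia {τ : Qbar ≃ₐ[ℚ] Qbar}
    (hτ : τ ∈ A.inertiaSubgroupIn ℚ) (a : A) :
    sigmaA A ⟨τ, mem_decomposition_of_mem_inertia A hτ⟩ a - a ∈ IsLocalRing.maximalIdeal A := by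
  obtain ⟨h, h1⟩ := psiRes_eq_one_of_mem_inertia A hτ
  have h2 := psiRes_residue A ⟨τ, h⟩ a
  rw [h1] at h2
  rw [← Ideal.Quotient.eq_zero_iff_mem, map_sub, sub_eq_zero]
  exact h2.symm

/-- … hence modulo the maximal ideal of `A ∩ K`. -/
theorem resK_sub_mem_maximalIdeal {τ : Qbar ≃ₐ[ℚ] Qbar} (hτ : τ ∈ A.inertiaSubgroupIn ℚ)
    (a : AK A K) :
    (⟨resK K τ (a : K), resK_mem_AK A K (mem_decomposition_of_mem_inertia A hτ) a.2⟩ : AK A K) - a
      ∈ IsLocalRing.maximalIdeal (AK A K) := by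
  rw [NumberFieldDVR27.mem_maximalIdeal_iff]
  have h := sub_mem_maximalIdeal_of_mem_inertia A hτ (NumberFieldDVR27.incl A K a)
  have e : NumberFieldDVR27.incl A K
      ((⟨resK K τ (a : K), resK_mem_AK A K (mem_decomposition_of_mem_inertia A hτ) a.2⟩ :
        AK A K) - a) =
      sigmaA A ⟨τ, mem_decomposition_of_mem_inertia A hτ⟩ (NumberFieldDVR27.incl A K a) -
        NumberFieldDVR27.incl A K a := by
    rw [map_sub]
    congr 1
    apply Subtype.ext
    rw [NumberFieldDVR27.coe_incl, coe_sigmaA, NumberFieldDVR27.coe_incl]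
    exact coe_resK K τ _
  rw [e]
  exact h

end Inertia

end Fermat.Agent.ES.N34.GalBase21
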