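/-
Program N (S34), chapter GAL (helper21): **`SigmaData`** — everything the chain needs to know about
an inertia automorphism `σ` of `F`, relative to a nodal two-chart model `(π, t, B0, B1, O1, O2)`
(`NodalCore13.NodalTwoChartModel`).

`SigmaData` has five fields: `σ` and `σ⁻¹` map `R` into `R`, `σ t = t`, and `σ` is
`GalGauss21.IsInertial` for `O1` and for `O2`.  Consequences (all from the model's fields):
* `mem_B0_iff`, `mem_B1_iff` : `σ x ∈ B_i ↔ x ∈ B_i` (the charts are the integral closures of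
  `R[t]`, `R[t⁻¹]`);
* `mem_O1_iff`, `mem_O2_iff`, `piO_sub` : `PiO π O1 O2 (σ x - x)` for `x ∈ O1 ⊓ O2`;
* `sub_mem_B0`, `sub_mem_B1` : `σ b - b ∈ π B_i` for `b ∈ B_i` (saturation), hence
  `mem_ideal_iff0/1` : every ideal `𝔪 ∋ π` of a chart is `σ`-stable;
* `u1` : **(U1)** `PiO π O1 O2 (secondDiff σ σ' f - 1)`.
Also more `secondDiff` calculus: `secondDiff_div/_zpow/_prod/_self/_self_mul/_inv_pow_mul`.
-/
import Mathlib
import Fermat.Agent.ES.N34.NodalCore13
import Fermat.Agent.ES.N34.GalGauss21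

set_option autoImplicit false
set_option linter.unusedSectionVars false

noncomputable section

open Polynomial

namespace Fermat.Agent.ES.N34.GalChart21

open Fermat.Agent.ES.N34.NodalCore13 Fermat.Agent.ES.N34.GalGauss21

section Integral

variable {R F : Type*} [CommRing R] [Field F] [Algebra R F]

/-- a ring automorphism preserving a subalgebra preserves integrality over it. -/
theorem isIntegral_map (S : Subalgebra R F) (σ : F ≃+* F) (hS : ∀ y ∈ S, σ y ∈ S) {x : F}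
    (hx : IsIntegral S x) : IsIntegral S (σ x) := by
  obtain ⟨P, hP, hPx⟩ := hx
  let σS : S →+* S := (σ : F →+* F).restrict S.toSubring S.toSubring hS
  refine ⟨P.map σS, hP.map σS, ?_⟩
  rw [eval₂_map]
  have hcomp : (algebraMap S F).comp σS = (σ : F →+* F).comp (algebraMap S F) :=
    RingHom.ext fun _ => rfl
  have hx' : σ x = (σ : F →+* F) x := rfl
  rw [hcomp, hx', ← hom_eval₂, hPx, map_zero]

/-- a semilinear automorphism fixing `t` preserves `R[t]`. -/
theorem map_mem_adjoin (σ : F ≃+* F)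
    (hσ : ∀ r : R, ∃ r' : R, σ (algebraMap R F r) = algebraMap R F r') {t : F} (ht : σ t = t)
    {y : F} (hy : y ∈ Algebra.adjoin R {t}) : σ y ∈ Algebra.adjoin R {t} := by
  induction hy using Algebra.adjoin_induction with
  | mem x hx =>
    rw [Set.mem_singleton_iff] at hx
    subst hx
    rw [ht]
    exact Algebra.self_mem_adjoin_singleton R _
  | algebraMap r =>
    obtain ⟨r', hr'⟩ := hσ r
    rw [hr']
    exact Subalgebra.algebraMap_mem _ _
  | add x y _ _ hx hy =>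
    rw [map_add]
    exact add_mem hx hy
  | mul x y _ _ hx hy =>
    rw [map_mul]
    exact mul_mem hx hy

/-- integrality over a smaller subalgebra. -/
theorem isIntegral_of_le {S T : Subalgebra R F} (h : S ≤ T) {x : F} (hx : IsIntegral S x) :
    IsIntegral T x := by
  obtain ⟨P, hP, hPx⟩ := hx
  refine ⟨P.map (Subalgebra.inclusion h : S →+* T), hP.map _, ?_⟩
  rw [eval₂_map]
  have hcomp : (algebraMap T F).comp (Subalgebra.inclusion h : S →+* T) = algebraMap S F :=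
    RingHom.ext fun _ => rfl
  rw [hcomp, hPx]

/-- a chart = the integral closure of `R[t]`: stable under semilinear automorphisms fixing `t`. -/
theorem map_mem_chart (B : Subalgebra R F) {t : F} (ht : t ∈ B)
    (intcl : ∀ x : F, IsIntegral B x → x ∈ B)
    (int : ∀ x ∈ B, IsIntegral (Algebra.adjoin R {t}) x) (σ : F ≃+* F)
    (hσ : ∀ r : R, ∃ r' : R, σ (algebraMap R F r) = algebraMap R F r') (hσt : σ t = t)
    {x : F} (hx : x ∈ B) : σ x ∈ B := by
  have hle : Algebra.adjoin R {t} ≤ B := Algebra.adjoin_le (Set.singleton_subset_iff.mpr ht)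
  exact intcl _ (isIntegral_of_le hle
    (isIntegral_map _ σ (fun y hy => map_mem_adjoin σ hσ hσt hy) (int x hx)))

end Integral

/-! ### More `secondDiff` calculus -/

section Calculus

variable {F : Type*} [Field F]

theorem secondDiff_div (g g' : F ≃+* F) (f₁ f₂ : F) :
    secondDiff g g' (f₁ / f₂) = secondDiff g g' f₁ / secondDiff g g' f₂ := by
  rw [div_eq_mul_inv, secondDiff_mul, secondDiff_inv, ← div_eq_mul_inv]

theorem secondDiff_zpow (g g' : F ≃+* F) (f : F) (n : ℤ) :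
    secondDiff g g' (f ^ n) = secondDiff g g' f ^ n := by
  rcases Int.eq_nat_or_neg n with ⟨k, rfl | rfl⟩
  · rw [zpow_natCast, zpow_natCast, secondDiff_pow]
  · rw [zpow_neg, zpow_neg, zpow_natCast, zpow_natCast, secondDiff_inv, secondDiff_pow]

theorem secondDiff_prod (g g' : F ≃+* F) {ι : Type*} (T : Finset ι) (ξ : ι → F) :
    secondDiff g g' (∏ i ∈ T, ξ i) = ∏ i ∈ T, secondDiff g g' (ξ i) := by
  classical
  induction T using Finset.induction_on with
  | empty => simp [secondDiff_one]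
  | insert a T ha ih => rw [Finset.prod_insert ha, Finset.prod_insert ha, secondDiff_mul, ih]

/-- `secondDiff σ σ f = σ (σ f) * f / (σ f) ^ 2`. -/
theorem secondDiff_self (g : F ≃+* F) (f : F) :
    secondDiff g g f = g (g f) * f / (g f) ^ 2 := by
  unfold secondDiff
  rw [map_div₀, div_div_div_eq, pow_two]

/-- multiplicative form (the shape of `IfaceN4.UNum`). -/
theorem secondDiff_self_mul (g : F ≃+* F) {f : F} (hf : f ≠ 0) :
    secondDiff g g f * (g f) ^ 2 = g (g f) * f := by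
  rw [secondDiff_self, div_mul_cancel₀]
  exact pow_ne_zero 2 ((map_ne_zero_iff g g.injective).mpr hf)

/-- `g₀ ^ m * u = secondDiff (f / Ξ ^ m)` for `g₀ := secondDiff Ξ⁻¹`, `u := secondDiff f`. -/
theorem secondDiff_inv_pow_mul (g g' : F ≃+* F) (f Ξ : F) (m : ℕ) :
    secondDiff g g' Ξ⁻¹ ^ m * secondDiff g g' f = secondDiff g g' (f / Ξ ^ m) := by
  rw [div_eq_mul_inv, secondDiff_mul, ← inv_pow, secondDiff_pow, mul_comm]

end Calculus

section Data

variable {R F : Type*} [CommRing R] [Field F] [Algebra R F]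

/-- the data of an inertia automorphism relative to a nodal two-chart model. -/
structure SigmaData (π : R) (t : F) (O1 O2 : ValuationSubring F) (σ : F ≃+* F) : Prop where
  semilin : ∀ r : R, ∃ r' : R, σ (algebraMap R F r) = algebraMap R F r'
  semilin_symm : ∀ r : R, ∃ r' : R, σ.symm (algebraMap R F r) = algebraMap R F r'
  map_t : σ t = t
  inert1 : IsInertial O1 (algebraMap R F π) σ
  inert2 : IsInertial O2 (algebraMap R F π) σ

variable {π : R} {t : F} {B0 B1 : Subalgebra R F} {O1 O2 : ValuationSubring F} {σ : F ≃+* F}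

theorem SigmaData.symm_map_t (h : SigmaData π t O1 O2 σ) : σ.symm t = t := by
  rw [RingEquiv.symm_apply_eq, h.map_t]

theorem SigmaData.map_tinv (h : SigmaData π t O1 O2 σ) : σ t⁻¹ = t⁻¹ := by
  rw [map_inv₀, h.map_t]

theorem SigmaData.symm_map_tinv (h : SigmaData π t O1 O2 σ) : σ.symm t⁻¹ = t⁻¹ := by
  rw [map_inv₀, h.symm_map_t]

theorem SigmaData.mem_O1_iff (h : SigmaData π t O1 O2 σ) (x : F) : σ x ∈ O1 ↔ x ∈ O1 :=
  ⟨fun hx => by simpa using h.inert1.symm_mem _ hx, h.inert1.map_mem x⟩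

theorem SigmaData.mem_O2_iff (h : SigmaData π t O1 O2 σ) (x : F) : σ x ∈ O2 ↔ x ∈ O2 :=
  ⟨fun hx => by simpa using h.inert2.symm_mem _ hx, h.inert2.map_mem x⟩

/-- `σ ≡ id mod π (O1 ⊓ O2)` on `O1 ⊓ O2`. -/
theorem SigmaData.piO_sub (h : SigmaData π t O1 O2 σ) (pi_ne : algebraMap R F π ≠ 0) {x : F}
    (h1 : x ∈ O1) (h2 : x ∈ O2) : PiO π O1 O2 (σ x - x) := by
  obtain ⟨c1, hc1, e1⟩ := h.inert1.sub_mem x h1
  obtain ⟨c2, hc2, e2⟩ := h.inert2.sub_mem x h2
  have : c1 = c2 := mul_left_cancel₀ pi_ne (e1.symm.trans e2)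
  subst this
  exact ⟨c1, hc1, hc2, e1⟩

variable (M : NodalTwoChartModel R F π t B0 B1 O1 O2)
include M

theorem SigmaData.map_mem_B0 (h : SigmaData π t O1 O2 σ) {x : F} (hx : x ∈ B0) : σ x ∈ B0 :=
  map_mem_chart B0 M.t_mem M.intcl0 M.int0 σ h.semilin h.map_t hx

theorem SigmaData.symm_mem_B0 (h : SigmaData π t O1 O2 σ) {x : F} (hx : x ∈ B0) :
    σ.symm x ∈ B0 :=
  map_mem_chart B0 M.t_mem M.intcl0 M.int0 σ.symm h.semilin_symm h.symm_map_t hx

theorem SigmaData.map_mem_B1 (h : SigmaData π t O1 O2 σ) {x : F} (hx : x ∈ B1) : σ x ∈ B1 :=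
  map_mem_chart B1 M.tinv_mem M.intcl1 M.int1 σ h.semilin h.map_tinv hx

theorem SigmaData.symm_mem_B1 (h : SigmaData π t O1 O2 σ) {x : F} (hx : x ∈ B1) :
    σ.symm x ∈ B1 :=
  map_mem_chart B1 M.tinv_mem M.intcl1 M.int1 σ.symm h.semilin_symm h.symm_map_tinv hx

theorem SigmaData.mem_B0_iff (h : SigmaData π t O1 O2 σ) (x : F) : σ x ∈ B0 ↔ x ∈ B0 :=
  ⟨fun hx => by simpa using h.symm_mem_B0 M hx, h.map_mem_B0 M⟩

theorem SigmaData.mem_B1_iff (h : SigmaData π t O1 O2 σ) (x : F) : σ x ∈ B1 ↔ x ∈ B1 :=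
  ⟨fun hx => by simpa using h.symm_mem_B1 M hx, h.map_mem_B1 M⟩

/-- `σ ≡ id mod π B0` on `B0`. -/
theorem SigmaData.sub_mem_B0 (h : SigmaData π t O1 O2 σ) {b : F} (hb : b ∈ B0) :
    ∃ c ∈ B0, σ b - b = algebraMap R F π * c := by
  obtain ⟨c, hc1, hc2, e⟩ := h.piO_sub M.pi_ne (M.le_O1_0 b hb) (M.le_O2_0 b hb)
  exact ⟨c, M.sat0 _ (B0.sub_mem (h.map_mem_B0 M hb) hb) c hc1 hc2 e, e⟩

/-- `σ ≡ id mod π B1` on `B1`. -/
theorem SigmaData.sub_mem_B1 (h : SigmaData π t O1 O2 σ) {b : F} (hb : b ∈ B1) :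
    ∃ c ∈ B1, σ b - b = algebraMap R F π * c := by
  obtain ⟨c, hc1, hc2, e⟩ := h.piO_sub M.pi_ne (M.le_O1_1 b hb) (M.le_O2_1 b hb)
  exact ⟨c, M.sat1 _ (B1.sub_mem (h.map_mem_B1 M hb) hb) c hc1 hc2 e, e⟩

/-- every ideal `𝔪 ∋ π` of `B0` is `σ`-stable. -/
theorem SigmaData.mem_ideal_iff0 (h : SigmaData π t O1 O2 σ) (𝔪 : Ideal B0)
    (hπ : algebraMap R B0 π ∈ 𝔪) (b : B0) :
    (⟨σ (b : F), h.map_mem_B0 M b.2⟩ : B0) ∈ 𝔪 ↔ b ∈ 𝔪 := by
  obtain ⟨c, hc, e⟩ := h.sub_mem_B0 M b.2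
  have key : (⟨σ (b : F), h.map_mem_B0 M b.2⟩ : B0) - b = algebraMap R B0 π * ⟨c, hc⟩ :=
    Subtype.ext e
  have hmem : (⟨σ (b : F), h.map_mem_B0 M b.2⟩ : B0) - b ∈ 𝔪 := by
    rw [key]; exact 𝔪.mul_mem_right _ hπ
  constructor
  · intro h1
    have := 𝔪.sub_mem h1 hmem
    rwa [sub_sub_cancel] at this
  · intro h1
    have := 𝔪.add_mem hmem h1
    rwa [sub_add_cancel] at this

/-- every ideal `𝔪 ∋ π` of `B1` is `σ`-stable. -/
theorem SigmaData.mem_ideal_iff1 (h : SigmaData π t O1 O2 σ) (𝔪 : Ideal B1)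
    (hπ : algebraMap R B1 π ∈ 𝔪) (b : B1) :
    (⟨σ (b : F), h.map_mem_B1 M b.2⟩ : B1) ∈ 𝔪 ↔ b ∈ 𝔪 := by
  obtain ⟨c, hc, e⟩ := h.sub_mem_B1 M b.2
  have key : (⟨σ (b : F), h.map_mem_B1 M b.2⟩ : B1) - b = algebraMap R B1 π * ⟨c, hc⟩ :=
    Subtype.ext e
  have hmem : (⟨σ (b : F), h.map_mem_B1 M b.2⟩ : B1) - b ∈ 𝔪 := by
    rw [key]; exact 𝔪.mul_mem_right _ hπ
  constructor
  · intro h1
    have := 𝔪.sub_mem h1 hmem
    rwa [sub_sub_cancel] at this
  · intro h1
    have := 𝔪.add_mem hmem h1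
    rwa [sub_add_cancel] at this

/-- **(U1)** for the second difference of any `f ≠ 0`. -/
theorem SigmaData.u1 {σ' : F ≃+* F} (h : SigmaData π t O1 O2 σ) (h' : SigmaData π t O1 O2 σ')
    {f : F} (hf : f ≠ 0) : PiO π O1 O2 (secondDiff σ σ' f - 1) :=
  secondDiff_sub_one_two π O1 O2 h.inert1 h'.inert1 h.inert2 h'.inert2 M.pi_ne M.unif1 M.unif2
    M.arch1 M.arch2 hf

end Data

end Fermat.Agent.ES.N34.GalChart21
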