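/-
Program N (S34), chapter GAL (helper21): **abstract Gauss-ring lemmas and (U1).**

* `SecondDiff` section: `O : ValuationSubring F` discrete with uniformiser `p` (in the elementary
  form `unif`/`arch` of `NodalCore13.NodalTwoChartModel`), `g` an automorphism of `F` with
  `g O ⊂ O`, `g ≡ id mod p O`, `g p = p · unit`.  Then `g f / f ∈ O^×` for every `f ≠ 0`
  (`ratio_mem`, `ratio_inv_mem`), and the second difference `secondDiff g g' f = g'(g f / f)/(g f / f)`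
  is `≡ 1 mod p O` (`secondDiff_sub_one`); `secondDiff_sub_one_two` is **(U1)** in the literal shape
  `NodalCore13.PiO π O1 O2 (u - 1)`.
-/
import Mathlib

set_option autoImplicit false
set_option linter.unusedSectionVars false

noncomputable section

namespace Fermat.Agent.ES.N34.GalGauss21

/-! ### Discrete valuation subrings in elementary form, and automorphisms -/

section SecondDiff

variable {F : Type*} [Field F]

/-- `f = p ^ n * unit` for nonzero `f ∈ O`, from `unif` and `arch`. -/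
theorem exists_pow_mul_unit_of_mem (O : ValuationSubring F) (p : F)
    (unif : ∀ x ∈ O, x⁻¹ ∉ O → ∃ c ∈ O, x = p * c) :
    ∀ (k : ℕ) (y : F), y ∈ O → y ≠ 0 → p ^ k * y⁻¹ ∈ O →
      ∃ (n : ℕ) (y' : F), y' ∈ O ∧ y'⁻¹ ∈ O ∧ y = p ^ n * y' := by
  intro k
  induction k with
  | zero =>
    intro y hy _ hk
    exact ⟨0, y, hy, by simpa using hk, by simp⟩
  | succ k ih =>
    intro y hy hy0 hk
    by_cases hinv : y⁻¹ ∈ O
    · exact ⟨0, y, hy, hinv, by simp⟩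
    · obtain ⟨c, hc, hyc⟩ := unif y hy hinv
      have hp0 : p ≠ 0 := by
        rintro rfl
        rw [zero_mul] at hyc
        exact hy0 hyc
      have hc0 : c ≠ 0 := by
        rintro rfl
        rw [mul_zero] at hyc
        exact hy0 hyc
      have hk' : p ^ k * c⁻¹ ∈ O := by
        have : p ^ k * c⁻¹ = p ^ (k + 1) * y⁻¹ := by
          rw [hyc, pow_succ]
          field_simp
        rw [this]
        exact hk
      obtain ⟨n, y', hy', hy'inv, hcy'⟩ := ih c hc hc0 hk'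
      exact ⟨n + 1, y', hy', hy'inv, by rw [hyc, hcy', pow_succ]; ring⟩

/-- `f = p ^ a * unit` (`a ∈ ℤ`) for every nonzero `f`. -/
theorem exists_zpow_mul_unit (O : ValuationSubring F) (p : F) (hp0 : p ≠ 0)
    (unif : ∀ x ∈ O, x⁻¹ ∉ O → ∃ c ∈ O, x = p * c)
    (arch : ∀ x : F, ∃ k : ℕ, p ^ k * x ∈ O) {f : F} (hf : f ≠ 0) :
    ∃ (a : ℤ) (f' : F), f' ∈ O ∧ f'⁻¹ ∈ O ∧ f = p ^ a * f' := by
  obtain ⟨k, hk⟩ := arch f
  have hy0 : p ^ k * f ≠ 0 := mul_ne_zero (pow_ne_zero k hp0) hf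
  obtain ⟨k', hk'⟩ := arch (p ^ k * f)⁻¹
  obtain ⟨n, y', hy', hy'inv, hyy'⟩ :=
    exists_pow_mul_unit_of_mem O p unif k' (p ^ k * f) hk hy0 hk'
  refine ⟨(n : ℤ) - (k : ℤ), y', hy', hy'inv, ?_⟩
  rw [zpow_sub₀ hp0, zpow_natCast, zpow_natCast, div_mul_eq_mul_div, ← hyy']
  field_simp

variable (O : ValuationSubring F) (p : F)

/-- the hypotheses on an automorphism `g` w.r.t. one discrete valuation subring. -/
structure IsInertial (g : F ≃+* F) : Prop where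
  map_mem : ∀ x ∈ O, g x ∈ O
  symm_mem : ∀ x ∈ O, g.symm x ∈ O
  sub_mem : ∀ x ∈ O, ∃ c ∈ O, g x - x = p * c
  map_p : ∃ ε : F, ε ∈ O ∧ ε⁻¹ ∈ O ∧ g p = p * ε

variable {O p}

theorem IsInertial.map_inv_mem {g : F ≃+* F} (hg : IsInertial O p g) {x : F} (hx : x⁻¹ ∈ O) :
    (g x)⁻¹ ∈ O := by
  rw [← map_inv₀]
  exact hg.map_mem _ hx

/-- `g f / f` is a unit of `O`. -/
theorem IsInertial.ratio_mem {g : F ≃+* F} (hg : IsInertial O p g) (hp0 : p ≠ 0)
    (unif : ∀ x ∈ O, x⁻¹ ∉ O → ∃ c ∈ O, x = p * c)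
    (arch : ∀ x : F, ∃ k : ℕ, p ^ k * x ∈ O) {f : F} (hf : f ≠ 0) :
    g f / f ∈ O ∧ (g f / f)⁻¹ ∈ O := by
  obtain ⟨a, f', hf', hf'inv, rfl⟩ := exists_zpow_mul_unit O p hp0 unif arch hf
  obtain ⟨ε, hε, hεinv, hgp⟩ := hg.map_p
  have hf'0 : f' ≠ 0 := right_ne_zero_of_mul hf
  have hε0 : ε ≠ 0 := by
    rintro rfl
    rw [mul_zero] at hgp
    exact hp0 ((map_eq_zero_iff g g.injective).mp hgp)
  have e : g (p ^ a * f') / (p ^ a * f') = ε ^ a * (g f' * f'⁻¹) := by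
    rw [map_mul, map_zpow₀, hgp, mul_zpow]
    have : p ^ a ≠ 0 := zpow_ne_zero a hp0
    field_simp
  have hεa : ∀ a : ℤ, ε ^ a ∈ O := by
    intro a
    rcases Int.eq_nat_or_neg a with ⟨n, rfl | rfl⟩
    · rw [zpow_natCast]; exact pow_mem hε n
    · rw [zpow_neg, zpow_natCast, ← inv_pow]; exact pow_mem hεinv n
  rw [e]
  constructor
  · exact O.mul_mem _ _ (hεa a) (O.mul_mem _ _ (hg.map_mem _ hf') hf'inv)
  · rw [mul_inv, mul_inv, inv_inv, ← zpow_neg]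
    exact O.mul_mem _ _ (hεa (-a)) (O.mul_mem _ _ (hg.map_inv_mem hf'inv) hf')

/-- the second difference `g'(g f / f) / (g f / f)`. -/
def secondDiff (g g' : F ≃+* F) (f : F) : F := g' (g f / f) / (g f / f)

theorem secondDiff_mul (g g' : F ≃+* F) (f₁ f₂ : F) :
    secondDiff g g' (f₁ * f₂) = secondDiff g g' f₁ * secondDiff g g' f₂ := by
  unfold secondDiff
  rw [map_mul, mul_div_mul_comm, map_mul, mul_div_mul_comm]

theorem secondDiff_one (g g' : F ≃+* F) : secondDiff g g' 1 = 1 := by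
  unfold secondDiff
  simp

theorem secondDiff_inv (g g' : F ≃+* F) (f : F) :
    secondDiff g g' f⁻¹ = (secondDiff g g' f)⁻¹ := by
  unfold secondDiff
  rw [map_inv₀, inv_div_inv, ← inv_div (g f) f, map_inv₀, inv_div_inv, inv_div]

theorem secondDiff_pow (g g' : F ≃+* F) (f : F) (n : ℕ) :
    secondDiff g g' (f ^ n) = secondDiff g g' f ^ n := by
  induction n with
  | zero => simp [secondDiff_one]
  | succ n ih => rw [pow_succ, secondDiff_mul, ih, pow_succ]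

theorem secondDiff_ne_zero (g g' : F ≃+* F) {f : F} (hf : f ≠ 0) : secondDiff g g' f ≠ 0 := by
  unfold secondDiff
  have h1 : g f / f ≠ 0 := div_ne_zero ((map_ne_zero_iff g g.injective).mpr hf) hf
  exact div_ne_zero ((map_ne_zero_iff g' g'.injective).mpr h1) h1

/-- `g' u₀ / u₀ ≡ 1 mod p O` for a unit `u₀` of `O`. -/
theorem IsInertial.ratio_sub_one {g' : F ≃+* F} (hg' : IsInertial O p g') {u₀ : F}
    (hu0 : u₀ ≠ 0) (hu : u₀ ∈ O) (hui : u₀⁻¹ ∈ O) : ∃ c ∈ O, g' u₀ / u₀ - 1 = p * c := by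
  obtain ⟨c, hc, hgc⟩ := hg'.sub_mem u₀ hu
  refine ⟨c * u₀⁻¹, O.mul_mem _ _ hc hui, ?_⟩
  have : g' u₀ / u₀ - 1 = (g' u₀ - u₀) * u₀⁻¹ := by field_simp
  rw [this, hgc]
  ring

/-- **(U1), one valuation**: the second difference is `≡ 1 mod p O`. -/
theorem secondDiff_sub_one {g g' : F ≃+* F} (hg : IsInertial O p g) (hg' : IsInertial O p g')
    (hp0 : p ≠ 0) (unif : ∀ x ∈ O, x⁻¹ ∉ O → ∃ c ∈ O, x = p * c)
    (arch : ∀ x : F, ∃ k : ℕ, p ^ k * x ∈ O) {f : F} (hf : f ≠ 0) :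
    ∃ c ∈ O, secondDiff g g' f - 1 = p * c := by
  obtain ⟨h1, h2⟩ := hg.ratio_mem hp0 unif arch hf
  have h0 : g f / f ≠ 0 := div_ne_zero ((map_ne_zero_iff g g.injective).mpr hf) hf
  exact hg'.ratio_sub_one h0 h1 h2

/-- **(U1)** in the literal shape of `NodalCore13.PiO π O1 O2 (u - 1)`. -/
theorem secondDiff_sub_one_two {R : Type*} [CommRing R] [Algebra R F] (π : R)
    (O1 O2 : ValuationSubring F) {g g' : F ≃+* F}
    (hg1 : IsInertial O1 (algebraMap R F π) g) (hg1' : IsInertial O1 (algebraMap R F π) g')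
    (hg2 : IsInertial O2 (algebraMap R F π) g) (hg2' : IsInertial O2 (algebraMap R F π) g')
    (pi_ne : algebraMap R F π ≠ 0)
    (unif1 : ∀ x ∈ O1, x⁻¹ ∉ O1 → ∃ c ∈ O1, x = algebraMap R F π * c)
    (unif2 : ∀ x ∈ O2, x⁻¹ ∉ O2 → ∃ c ∈ O2, x = algebraMap R F π * c)
    (arch1 : ∀ x : F, ∃ k : ℕ, algebraMap R F π ^ k * x ∈ O1)
    (arch2 : ∀ x : F, ∃ k : ℕ, algebraMap R F π ^ k * x ∈ O2) {f : F} (hf : f ≠ 0) :
    ∃ c : F, c ∈ O1 ∧ c ∈ O2 ∧ secondDiff g g' f - 1 = algebraMap R F π * c := by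
  obtain ⟨c1, hc1, h1⟩ := secondDiff_sub_one hg1 hg1' pi_ne unif1 arch1 hf
  obtain ⟨c2, hc2, h2⟩ := secondDiff_sub_one hg2 hg2' pi_ne unif2 arch2 hf
  have : c1 = c2 := mul_left_cancel₀ pi_ne (h1.symm.trans h2)
  subst this
  exact ⟨c1, hc1, hc2, h1⟩

end SecondDiff

end Fermat.Agent.ES.N34.GalGauss21
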