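/-
Program N (S34), chapter GAL (helper21): **inertia on Gauss valuation rings.**

`O : ValuationSubring K` discrete with uniformiser `π` (`GaussGen8.IsUnif`), `s : K ≃+* K` with
`s O = O` and `s ≡ id mod π O` (an inertia element).  Then the coefficientwise action of `s` on
`K((q))` preserves the Gauss ring `GaussGen8.gaussRing O` (`coeffMap_mem_gaussRing`) and is the
identity modulo `π` on it (`exists_coeffMap_sub_eq`).

Consequently (`isInertial_of_expansion`): if a valuation subring `Oj` of a field `F` is cut out by an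
expansion map `ι : F →+* K((q))` (`x ∈ Oj ↔ ι x ∈ gaussRing O`) and a ring automorphism `g` of `F`
acts coefficientwise through `ι` (`ι (g x) = coeffMap s (ι x)`), then `g` is `GalGauss21.IsInertial`
for `Oj`: this is `v_j ∘ τ = v_j` and `τ ≡ id mod π_L` on `O_{v_j}`, for `v_1` (`ι` = inclusion) and
for `v_2` (`ι` = the second expansion) alike.  `isInertial_galK` is the instance for the Gauss
valuation ring `gaussVS` of `F_K = FK M K` and `τ ∈ I_A`.
-/
import Mathlib
import Fermat.Agent.RED.PUR.GaussGen8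
import Fermat.Agent.ES.N34.GalBase21
import Fermat.Agent.ES.N34.GalGauss21

set_option autoImplicit false
set_option linter.unusedSectionVars false

noncomputable section

open HahnSeries ModularCurve

namespace Fermat.Agent.ES.N34.GalGaussInst21

open Fermat.Agent.RED.PUR.GaussGen8 Fermat.Agent.ES.N34.GalGauss21

section Coeff

variable {K : Type*} [Field K] {O : ValuationSubring K}

/-- an automorphism of `K` preserving `O` (in both directions) and `≡ id mod π`. -/
structure IsInertialBase (π : ↥O) (s : K ≃+* K) : Prop where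
  map_mem : ∀ a ∈ O, s a ∈ O
  symm_mem : ∀ a ∈ O, s.symm a ∈ O
  sub_mem : ∀ a : ↥O, ∃ b : ↥O, s (a : K) - (a : K) = (π : K) * (b : K)

variable {π : ↥O} {s : K ≃+* K}

/-- the induced endomorphism of `O`. -/
def IsInertialBase.sO (hs : IsInertialBase π s) : ↥O →+* ↥O :=
  (s : K →+* K).restrict O.toSubring O.toSubring hs.map_mem

@[simp] theorem IsInertialBase.coe_sO (hs : IsInertialBase π s) (a : ↥O) :
    ((hs.sO a : ↥O) : K) = s (a : K) := rfl

theorem IsInertialBase.sO_sub (hs : IsInertialBase π s) (a : ↥O) :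
    ∃ b : ↥O, hs.sO a - a = π * b := by
  obtain ⟨b, hb⟩ := hs.sub_mem a
  exact ⟨b, Subtype.ext hb⟩

theorem IsInertialBase.res_comp_sO (hs : IsInertialBase π s) (hπ : IsUnif O π) :
    (res0 O).comp hs.sO = res0 O := by
  ext a
  obtain ⟨b, hb⟩ := hs.sO_sub a
  have : res0 O (hs.sO a - a) = 0 := (res0_eq_zero_iff hπ _).mpr ⟨b, hb⟩
  rw [map_sub, sub_eq_zero] at this
  exact this

theorem IsInertialBase.subtype_comp_sO (hs : IsInertialBase π s) :
    O.subtype.comp hs.sO = (s : K →+* K).comp O.subtype :=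
  RingHom.ext fun _ => rfl

theorem IsInertialBase.embK_coeffMap (hs : IsInertialBase π s) (a : LaurentSeries ↥O) :
    embK O (coeffMap hs.sO a) = coeffMap (s : K →+* K) (embK O a) := by
  unfold embK
  rw [coeffMap_coeffMap, coeffMap_coeffMap, hs.subtype_comp_sO]

theorem IsInertialBase.redL_coeffMap (hs : IsInertialBase π s) (hπ : IsUnif O π)
    (a : LaurentSeries ↥O) : redL O (coeffMap hs.sO a) = redL O a := by
  unfold redL
  rw [coeffMap_coeffMap, hs.res_comp_sO hπ]

/-- `s a - a = π · α` on Laurent series over `O`. -/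
theorem IsInertialBase.exists_coeffMap_sub (hs : IsInertialBase π s) (hπ : IsUnif O π)
    (a : LaurentSeries ↥O) : ∃ α : LaurentSeries ↥O, coeffMap hs.sO a - a = HahnSeries.C π * α := by
  refine exists_eq_C_mul hπ.ne_zero _ fun k => ?_
  rw [HahnSeries.coeff_sub, coeffMap_coeff]
  exact hs.sO_sub _

/-- the representation of `s f`. -/
theorem IsInertialBase.isRep (hs : IsInertialBase π s) (hπ : IsUnif O π) {f : LaurentSeries K}
    {a S : LaurentSeries ↥O} (h : IsRep O f a S) :
    IsRep O (coeffMap (s : K →+* K) f) (coeffMap hs.sO a) (coeffMap hs.sO S) := by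
  refine ⟨by rw [hs.redL_coeffMap hπ]; exact h.1, ?_⟩
  rw [hs.embK_coeffMap, hs.embK_coeffMap, ← map_mul, h.2]

/-- **`s` preserves the Gauss ring.** -/
theorem IsInertialBase.coeffMap_mem_gaussRing (hs : IsInertialBase π s) (hπ : IsUnif O π)
    {f : LaurentSeries K} (hf : f ∈ gaussRing O) : coeffMap (s : K →+* K) f ∈ gaussRing O := by
  obtain ⟨a, S, h⟩ := hf
  exact ⟨_, _, hs.isRep hπ h⟩

/-- **`s ≡ id mod π` on the Gauss ring.** -/
theorem IsInertialBase.exists_coeffMap_sub_eq (hs : IsInertialBase π s) (hπ : IsUnif O π)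
    {f : LaurentSeries K} (hf : f ∈ gaussRing O) :
    ∃ c ∈ gaussRing O, coeffMap (s : K →+* K) f - f = HahnSeries.C (π : K) * c := by
  obtain ⟨a, S, h⟩ := hf
  have h' := hs.isRep hπ h
  obtain ⟨α, hα⟩ := hs.exists_coeffMap_sub hπ a
  obtain ⟨β, hβ⟩ := hs.exists_coeffMap_sub hπ S
  set a' := coeffMap hs.sO a with ha'
  set S' := coeffMap hs.sO S with hS'
  have hS0 : embK O S ≠ 0 := h.embK_s_ne_zero
  have hS'0 : embK O S' ≠ 0 := h'.embK_s_ne_zero
  refine ⟨embK O (α * S - a * β) / (embK O S * embK O S'),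
    ⟨α * S - a * β, S * S', ?_, ?_⟩, ?_⟩
  · rw [map_mul]; exact mul_ne_zero h.1 h'.1
  · rw [map_mul, div_mul_cancel₀ _ (mul_ne_zero hS0 hS'0)]
  · have e1 : embK O a' = embK O a + HahnSeries.C (π : K) * embK O α := by
      have := congrArg (embK O) hα
      rw [map_sub, map_mul, embK_C] at this
      rw [← this]; ring
    have e2 : embK O S' = embK O S + HahnSeries.C (π : K) * embK O β := by
      have := congrArg (embK O) hβ
      rw [map_sub, map_mul, embK_C] at this
      rw [← this]; ring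
    rw [h'.eq_div, h.eq_div]
    rw [div_sub_div _ _ hS'0 hS0, mul_div_assoc', eq_div_iff (mul_ne_zero hS0 hS'0),
      div_mul_eq_mul_div, div_eq_iff (mul_ne_zero hS'0 hS0)]
    rw [map_sub, map_mul, map_mul, e1, e2]
    ring

end Coeff

/-! ### Valuation subrings cut out by an expansion map -/

section Expansion

variable {K F : Type*} [Field K] [Field F] {O : ValuationSubring K} {π : ↥O} {s : K ≃+* K}

/-- **inertia on a Gauss valuation ring**, for an arbitrary expansion map `ι`. -/
theorem isInertial_of_expansion (hπ : IsUnif O π) (hs : IsInertialBase π s)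
    (ι : F →+* LaurentSeries K) (g : F ≃+* F)
    (hι : ∀ x : F, ι (g x) = coeffMap (s : K →+* K) (ι x))
    (Oj : ValuationSubring F) (hOj : ∀ x : F, x ∈ Oj ↔ ι x ∈ gaussRing O)
    (p : F) (hp : ι p = HahnSeries.C (π : K)) : IsInertial Oj p g := by
  have hss : IsInertialBase π s.symm := by
    refine ⟨hs.symm_mem, hs.map_mem, fun a => ?_⟩
    -- `s⁻¹ a - a = -(s (s⁻¹ a) - s⁻¹ a)`
    obtain ⟨b, hb⟩ := hs.sub_mem ⟨s.symm (a : K), hs.symm_mem _ a.2⟩
    refine ⟨-b, ?_⟩
    have h1 : s (s.symm (a : K)) = (a : K) := s.apply_symm_apply _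
    simp only [h1] at hb
    have : ((-b : ↥O) : K) = -(b : K) := rfl
    rw [this]
    linear_combination -hb
  have hιsymm : ∀ x : F, ι (g.symm x) = coeffMap (s.symm : K →+* K) (ι x) := by
    intro x
    have h1 := hι (g.symm x)
    rw [g.apply_symm_apply] at h1
    rw [h1, coeffMap_coeffMap]
    have : ((s.symm : K →+* K)).comp (s : K →+* K) = RingHom.id K :=
      RingHom.ext fun a => s.symm_apply_apply a
    rw [this, coeffMap_id]
  have hp0 : p ≠ 0 := by
    rintro rfl
    rw [map_zero] at hp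
    have := congrArg (fun y : LaurentSeries K => y.coeff 0) hp
    simp only [HahnSeries.coeff_zero, HahnSeries.C_apply, HahnSeries.coeff_single_same] at this
    exact hπ.ne_zero (Subtype.ext this.symm)
  refine ⟨fun x hx => ?_, fun x hx => ?_, fun x hx => ?_, ?_⟩
  · rw [hOj, hι]
    exact hs.coeffMap_mem_gaussRing hπ ((hOj x).mp hx)
  · rw [hOj, hιsymm]
    exact hss.coeffMap_mem_gaussRing
      (π := π) hπ ((hOj x).mp hx)
  · obtain ⟨c, hc, hcf⟩ := hs.exists_coeffMap_sub_eq hπ ((hOj x).mp hx)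
    refine ⟨p⁻¹ * (g x - x), ?_, by field_simp⟩
    rw [hOj]
    have : ι (p⁻¹ * (g x - x)) = c := by
      have hιp0 : ι p ≠ 0 := (map_ne_zero ι).mpr hp0
      apply mul_left_cancel₀ hιp0
      rw [← map_mul, mul_inv_cancel_left₀ hp0, map_sub, hι, hcf, hp]
    rw [this]
    exact hc
  · -- `g p = p * ε`
    have hgp : ι (g p) = HahnSeries.C (s (π : K)) := by
      rw [hι, hp, coeffMap_C]
      rfl
    obtain ⟨b, hb⟩ := hs.sub_mem π
    obtain ⟨b', hb'⟩ := hss.sub_mem π
    -- `s π = π (1 + b)`, `s⁻¹ π = π (1 + b')`, and `(1 + b) * s (1 + b') = 1`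
    have hπ0 : (π : K) ≠ 0 := fun h => hπ.ne_zero (Subtype.ext h)
    have e1 : s (π : K) = (π : K) * (1 + (b : K)) := by linear_combination hb
    have e2 : s.symm (π : K) = (π : K) * (1 + (b' : K)) := by linear_combination hb'
    have e3 : (1 + (b : K)) * s (1 + (b' : K)) = 1 := by
      have h1 : s (s.symm (π : K)) = (π : K) := s.apply_symm_apply _
      rw [e2, map_mul, e1] at h1
      apply mul_left_cancel₀ hπ0
      rw [mul_one, ← mul_assoc]
      exact h1
    have hε : (1 + (b : K)) ∈ O := O.add_mem _ _ O.one_mem b.2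
    have hεi : (1 + (b : K))⁻¹ ∈ O := by
      rw [inv_eq_of_mul_eq_one_right e3]
      exact hs.map_mem _ (O.add_mem _ _ O.one_mem b'.2)
    have hCmem : ∀ a : K, a ∈ O → (HahnSeries.C a : LaurentSeries K) ∈ gaussRing O := by
      intro a ha
      have : (HahnSeries.C a : LaurentSeries K) = embK O (HahnSeries.C ⟨a, ha⟩) := by
        rw [embK_C]
      rw [this]
      exact embK_mem O _
    refine ⟨p⁻¹ * g p, ?_, ?_, by field_simp⟩
    · rw [hOj]
      have : ι (p⁻¹ * g p) = HahnSeries.C (1 + (b : K)) := by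
        have hιp0 : ι p ≠ 0 := (map_ne_zero ι).mpr hp0
        apply mul_left_cancel₀ hιp0
        rw [← map_mul, mul_inv_cancel_left₀ hp0, hgp, hp, ← map_mul, e1]
      rw [this]
      exact hCmem _ hε
    · rw [hOj]
      have : ι (p⁻¹ * g p)⁻¹ = HahnSeries.C (1 + (b : K))⁻¹ := by
        have hιp0 : ι p ≠ 0 := (map_ne_zero ι).mpr hp0
        have hgp0 : g p ≠ 0 := (map_ne_zero_iff g g.injective).mpr hp0
        have h1 : ι (p⁻¹ * g p) = HahnSeries.C (1 + (b : K)) := by
          apply mul_left_cancel₀ hιp0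
          rw [← map_mul, mul_inv_cancel_left₀ hp0, hgp, hp, ← map_mul, e1]
        rw [map_inv₀, h1, ← map_inv₀]
      rw [this]
      exact hCmem _ hεi

end Expansion

end Fermat.Agent.ES.N34.GalGaussInst21

/-! ### The concrete instance: `τ ∈ I_A` on `F_K = FK M K` -/

namespace Fermat.Agent.ES.N34.GalGaussInst21

open Fermat.Agent.RED.PUR.GaussGen8 Fermat.Agent.ES.N34.GalGauss21 Fermat.Agent.ES.N34.GalBase21
  Fermat.Agent.RED.Interface4 Fermat.Agent.RED.DESC

section Concrete

variable (A : ValuationSubring Qbar) (K : IntermediateField ℚ Qbar) [Normal ℚ K]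

/-- inertia elements are `IsInertialBase` on `A ∩ K`. -/
theorem isInertialBase_resK {τ : Qbar ≃ₐ[ℚ] Qbar} (hτ : τ ∈ A.inertiaSubgroupIn ℚ)
    {π : ↥(AK A K)} (hπ : IsUnif (AK A K) π) :
    IsInertialBase π (resK K τ).toRingEquiv := by
  have hτi : τ⁻¹ ∈ A.inertiaSubgroupIn ℚ := inv_mem hτ
  refine ⟨fun a ha => resK_mem_AK A K (mem_decomposition_of_mem_inertia A hτ) ha,
    fun a ha => ?_, fun a => ?_⟩
  · have h := resK_mem_AK A K (mem_decomposition_of_mem_inertia A hτi) ha
    rw [resK_inv] at h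
    exact h
  · have h := resK_sub_mem_maximalIdeal A K hτ a
    rw [hπ.max_eq, Ideal.mem_span_singleton] at h
    obtain ⟨b, hb⟩ := h
    exact ⟨b, congrArg Subtype.val hb⟩

variable (M : ℕ)

/-- **`τ ∈ I_A` is inertial for the Gauss valuation ring of `F_K`** (`v_1 ∘ τ = v_1`,
`τ ≡ id mod π` on `O_{v_1}`, `τ π = π · unit`). -/
theorem isInertial_galK {τ : Qbar ≃ₐ[ℚ] Qbar} (hτ : τ ∈ A.inertiaSubgroupIn ℚ)
    {π : ↥(AK A K)} (hπ : IsUnif (AK A K) π) (hE : FK M K ≤ fracField (AK A K)) :
    IsInertial (gaussVS hπ (FK M K) hE) (algebraMap ↥(AK A K) ↥(FK M K) π)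
      (arithmeticRingAut (modularFunctionFieldFull M) (resK K τ)) := by
  refine isInertial_of_expansion hπ (isInertialBase_resK A K hτ hπ) (FK M K).val.toRingHom _
    (fun x => rfl) _ (fun x => mem_gaussVS_iff hπ (FK M K) hE x) _ ?_
  show algebraMap K (LaurentSeries K) (π : K) = _
  rw [algebraMap_eq_C]

end Concrete

end Fermat.Agent.ES.N34.GalGaussInst21
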