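/-
Program N (S34), chapter GAL (helper21), brick G4: **`SigmaData` for the concrete `τ ∈ I_A`.**

`F = F_K = FK M K`, `R = A_K = AK A K`, `σ := SemilinearAut.toRingAut (galK K M τ)` (the coefficientwise
action of `τ|_K`), `t := tq K n e` (Program H's Hauptmodul, integer coefficients),
`O1 := gaussVS` (Gauss valuation ring of the expansion at `∞`), `O2` any valuation subring cut out
by a second expansion map `ι₂ : F_K →+* K((q))` commuting with the coefficientwise Galois action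
(`D5`: `ι₂ = (cuspData N').T S`, rational).

* `galK_semilin`, `galK_tq` : `σ` maps `A_K` to `A_K` and fixes `t`;
* `isInertial_galK'` : `IsInertial O1 π σ`; `isInertial_galK_of_expansion` : `IsInertial O2 π σ`;
* **`sigmaData_galK`** : `GalChart21.SigmaData π t O1 O2 σ`.
-/
import Mathlib
import Fermat.Agent.RED.BASE.EtaQuot12
import Fermat.Agent.ES.N34.GalGaussInst21
import Fermat.Agent.ES.N34.GalChart21

set_option autoImplicit false
set_option linter.unusedSectionVars false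

noncomputable section

open HahnSeries AlgebraicCurve ModularCurve

namespace Fermat.Agent.ES.N34.GalConc21

open Fermat.Agent.RED.Interface4 Fermat.Agent.RED.DESC Fermat.Agent.RED.PUR.GaussGen8
  Fermat.Agent.RED.BASE.EtaQuot12
  Fermat.Agent.ES.N34.GalBase21 Fermat.Agent.ES.N34.GalGauss21 Fermat.Agent.ES.N34.GalGaussInst21
  Fermat.Agent.ES.N34.GalChart21

variable (A : ValuationSubring Qbar) (K : IntermediateField ℚ Qbar) [Normal ℚ K] (M : ℕ)

theorem toRingAut_galK (σ : Qbar ≃ₐ[ℚ] Qbar) :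
    SemilinearAut.toRingAut (galK K M σ) =
      arithmeticRingAut (modularFunctionFieldFull M) (resK K σ) := rfl

theorem toRingAut_galK_symm (σ : Qbar ≃ₐ[ℚ] Qbar) :
    (SemilinearAut.toRingAut (galK K M σ)).symm = SemilinearAut.toRingAut (galK K M σ⁻¹) := by
  have h : galK K M σ⁻¹ = (galK K M σ)⁻¹ := by
    unfold galK
    rw [resK_inv, map_inv]
  rw [h, SemilinearAut.toRingAut_inv]

/-- `σ` maps `A_K` into `A_K` (decomposition group). -/
theorem galK_semilin {σ : Qbar ≃ₐ[ℚ] Qbar} (hσ : σ ∈ A.decompositionSubgroup ℚ)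
    (r : ↥(AK A K)) : ∃ r' : ↥(AK A K),
      SemilinearAut.toRingAut (galK K M σ) (algebraMap ↥(AK A K) ↥(FK M K) r) =
        algebraMap ↥(AK A K) ↥(FK M K) r' :=
  ⟨⟨resK K σ (r : K), resK_mem_AK A K hσ r.2⟩,
    arithmeticRingAut_algebraMap (modularFunctionFieldFull M) (resK K σ) (r : K)⟩

/-- `σ` fixes every element of `F_K` whose Laurent series is the Hauptmodul `tq`. -/
theorem galK_tq (σ : Qbar ≃ₐ[ℚ] Qbar) (n e : ℕ) [NeZero n] (t : ↥(FK M K))
    (ht : (t : LaurentSeries K) = tq K n e) :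
    SemilinearAut.toRingAut (galK K M σ) t = t := by
  apply Subtype.ext
  show coeffMap ((resK K σ : K ≃ₐ[ℚ] K) : K →+* K) (t : LaurentSeries K) = (t : LaurentSeries K)
  rw [ht]
  exact coeffMap_tq K _ n e

variable {A K M}

/-- `IsInertial` for the Gauss valuation ring at `∞`. -/
theorem isInertial_galK' {τ : Qbar ≃ₐ[ℚ] Qbar} (hτ : τ ∈ A.inertiaSubgroupIn ℚ)
    {π : ↥(AK A K)} (hπ : IsUnif (AK A K) π) (hE : FK M K ≤ fracField (AK A K)) :
    IsInertial (gaussVS hπ (FK M K) hE) (algebraMap ↥(AK A K) ↥(FK M K) π)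
      (SemilinearAut.toRingAut (galK K M τ)) :=
  isInertial_galK A K M hτ hπ hE

/-- `IsInertial` for a valuation subring cut out by a Galois-equivariant expansion map. -/
theorem isInertial_galK_of_expansion {τ : Qbar ≃ₐ[ℚ] Qbar} (hτ : τ ∈ A.inertiaSubgroupIn ℚ)
    {π : ↥(AK A K)} (hπ : IsUnif (AK A K) π) (ι₂ : ↥(FK M K) →+* LaurentSeries K)
    (hι₂ : ∀ (σ : K ≃ₐ[ℚ] K) (x : ↥(FK M K)),
      ι₂ (arithmeticRingAut (modularFunctionFieldFull M) σ x) =
        coeffMap ((σ : K ≃ₐ[ℚ] K) : K →+* K) (ι₂ x))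
    (O2 : ValuationSubring ↥(FK M K))
    (hO2 : ∀ x : ↥(FK M K), x ∈ O2 ↔ ι₂ x ∈ gaussRing (AK A K))
    (hι₂π : ι₂ (algebraMap ↥(AK A K) ↥(FK M K) π) = HahnSeries.C ((π : ↥(AK A K)) : K)) :
    IsInertial O2 (algebraMap ↥(AK A K) ↥(FK M K) π) (SemilinearAut.toRingAut (galK K M τ)) :=
  isInertial_of_expansion hπ (isInertialBase_resK A K hτ hπ) ι₂ _
    (fun x => hι₂ (resK K τ) x) O2 hO2 _ hι₂π

/-- **`SigmaData` for `τ ∈ I_A`**, relative to `(π, t, O1 := gaussVS, O2)`. -/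
theorem sigmaData_galK {τ : Qbar ≃ₐ[ℚ] Qbar} (hτ : τ ∈ A.inertiaSubgroupIn ℚ)
    {π : ↥(AK A K)} (hπ : IsUnif (AK A K) π) (hE : FK M K ≤ fracField (AK A K))
    (n e : ℕ) [NeZero n] (t : ↥(FK M K)) (ht : (t : LaurentSeries K) = tq K n e)
    (O2 : ValuationSubring ↥(FK M K))
    (h2 : IsInertial O2 (algebraMap ↥(AK A K) ↥(FK M K) π)
      (SemilinearAut.toRingAut (galK K M τ))) :
    SigmaData π t (gaussVS hπ (FK M K) hE) O2 (SemilinearAut.toRingAut (galK K M τ)) where
  semilin := galK_semilin A K M (mem_decomposition_of_mem_inertia A hτ)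
  semilin_symm := by
    rw [toRingAut_galK_symm]
    exact galK_semilin A K M (mem_decomposition_of_mem_inertia A (inv_mem hτ))
  map_t := galK_tq K M τ n e t ht
  inert1 := isInertial_galK' hτ hπ hE
  inert2 := h2

end Fermat.Agent.ES.N34.GalConc21
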