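/-
Program N (S34), chapter GAL (helper21): **finite support of principal divisors over number fields.**

For `K ⊂ ℚ̄` any intermediate field and `f ∈ F_K = FK M K` nonzero, `{w : Place K F_K | ord_w f ≠ 0}` is
finite (`finite_support_ord_FK`).  Proof: every place `w` of `F_K / K` lies below a place `v` of
`ℚ̄·F_M` with `ord_v = e · ord_w`, `e > 0` (`PlaceExtend27.exists_place_above_mem`), `w ↦ v` is
injective (`O_w = O_v ∩ F_K`), and the support over `ℚ̄` is finite (`X0.FF.finite_support_ord`, which
needs an algebraically closed constant field).  This is the hypothesis `hfin` of the node assembly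
(`NodeAsm6`, `NodeAssembly21`).
-/
import Mathlib
import Fermat.Agent.RED.DESC.PlaceExtend27
import Fermat.Agent.RED.TOP.FbarFacts20
import Fermat.Agent.X0.FFGenus6

set_option autoImplicit false
set_option linter.unusedSectionVars false

noncomputable section

open AlgebraicCurve ModularCurve

namespace Fermat.Agent.ES.N34.GalFinite21

open Fermat.Agent.RED.Interface4 Fermat.Agent.RED.DESC.PlaceExtend27 Fermat.Agent.X0

variable (M : ℕ) [NeZero M] (K : IntermediateField ℚ Qbar)

/-- a place of `ℚ̄·F_M` above a place of `F_K`. -/
def above (w : Place K (FK M K)) : Place Qbar (Fbar M) := (exists_place_above_mem M K w).choose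

theorem above_spec (w : Place K (FK M K)) :
    ∃ e : ℕ, 0 < e ∧ (∀ f : FK M K, (above M K w).ord (baseChangeHom M K f) = (e : ℤ) * w.ord f) ∧
      ∀ f : FK M K, baseChangeHom M K f ∈ (above M K w).toValuationSubring ↔
        f ∈ w.toValuationSubring :=
  (exists_place_above_mem M K w).choose_spec

theorem above_injective : Function.Injective (above M K) := by
  intro w w' h
  obtain ⟨-, -, -, h1⟩ := above_spec M K w
  obtain ⟨-, -, -, h2⟩ := above_spec M K w'
  apply Place.ext
  ext f
  rw [← h1 f, h, h2 f]

/-- **principal divisors of `F_K / K` have finite support.** -/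
theorem finite_support_ord_FK {f : FK M K} (hf : f ≠ 0) :
    {w : Place K (FK M K) | w.ord f ≠ 0}.Finite := by
  have hbc : baseChangeHom M K f ≠ 0 :=
    (map_ne_zero_iff _ (baseChangeHom_injective M K)).mpr hf
  have hfin : {v : Place Qbar (Fbar M) | v.ord (baseChangeHom M K f) ≠ 0}.Finite :=
    FF.finite_support_ord (Fermat.Agent.RED.TOP.FbarFacts20.isGen_j M) hbc
  refine (hfin.preimage ((above_injective M K).injOn)).subset ?_
  intro w hw
  obtain ⟨e, he, hord, -⟩ := above_spec M K w
  show (above M K w).ord (baseChangeHom M K f) ≠ 0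
  rw [hord f]
  exact mul_ne_zero (by exact_mod_cast he.ne') hw

end Fermat.Agent.ES.N34.GalFinite21
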