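/-
Program N (S34), chapter GAL (helper21), brick G4 (final): **`SigmaData` for the model of record.**

`O1 := gaussVS hπ (FK M K) hE` (Gauss valuation ring of the expansion at `∞`),
`O2 := O1.comap (frickeFK M K)` (ruling r3 (2): `v₂ = v₁ ∘ W`, `W` the Fricke involution of
`FrickeFK8`; `x ∈ O2 ↔ iotaTwo M K x ∈ gaussRing (AK A K)` by `Iff.rfl`), `t` the Hauptmodul
(`(t : K((q))) = tq K n e`), `σ := SemilinearAut.toRingAut (galK K M τ)`, `τ ∈ I_A`.

* `isInertial_galK_fricke` : `IsInertial O2 π σ` (from `GalConc21.isInertial_galK_of_expansion` with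
  `ι₂ := FrickeFK8.iotaTwo`, which is rational: `iotaTwo_arithmeticRingAut`);
* **`sigmaData`** : `GalChart21.SigmaData π t O1 O2 σ`;
* **`sigmaDataN`** : the same in the literal names of `ModelDefs9` (level `M' * q`, `tN q ht`,
  `O1 M' q hπ hE`, `O2 M' q hπ hE`) — the third conjunct of `NumReady13.NumReady`.
-/
import Mathlib
import Fermat.Agent.ES.N34.FrickeFK8
import Fermat.Agent.ES.N34.ModelDefs9
import Fermat.Agent.ES.N34.GalConc21

set_option autoImplicit false
set_option linter.unusedSectionVars false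

noncomputable section

open HahnSeries AlgebraicCurve ModularCurve

namespace Fermat.Agent.ES.N34.GalModel21

open Fermat.Agent.RED.Interface4 Fermat.Agent.RED.PUR.GaussGen8 Fermat.Agent.RED.BASE.EtaQuot12
  Fermat.Agent.ES.N34.FrickeFK8 Fermat.Agent.ES.N34.GalBase21 Fermat.Agent.ES.N34.GalGauss21
  Fermat.Agent.ES.N34.GalChart21 Fermat.Agent.ES.N34.GalConc21

variable {A : ValuationSubring Qbar} {K : IntermediateField ℚ Qbar} [Normal ℚ K] {M : ℕ} [NeZero M]

/-- membership in `O2 := O1.comap W`, in expansion form. -/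
theorem mem_comap_fricke_iff {π : ↥(AK A K)} (hπ : IsUnif (AK A K) π)
    (hE : FK M K ≤ fracField (AK A K)) (x : ↥(FK M K)) :
    x ∈ (gaussVS hπ (FK M K) hE).comap (frickeFK M K).toRingHom ↔
      iotaTwo M K x ∈ gaussRing (AK A K) := Iff.rfl

/-- **`τ ∈ I_A` is inertial for `O2 = O1.comap W`** (`v₂ ∘ τ = v₂`, `τ ≡ id mod π` on `O_{v₂}`). -/
theorem isInertial_galK_fricke {τ : Qbar ≃ₐ[ℚ] Qbar} (hτ : τ ∈ A.inertiaSubgroupIn ℚ)
    {π : ↥(AK A K)} (hπ : IsUnif (AK A K) π) (hE : FK M K ≤ fracField (AK A K)) :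
    IsInertial ((gaussVS hπ (FK M K) hE).comap (frickeFK M K).toRingHom)
      (algebraMap ↥(AK A K) ↥(FK M K) π) (SemilinearAut.toRingAut (galK K M τ)) :=
  isInertial_galK_of_expansion hτ hπ (iotaTwo M K) (iotaTwo_arithmeticRingAut M K) _
    (mem_comap_fricke_iff hπ hE) (iotaTwo_algebraMap M K (π : K))

/-- **`SigmaData` for the model of record.** -/
theorem sigmaData {τ : Qbar ≃ₐ[ℚ] Qbar} (hτ : τ ∈ A.inertiaSubgroupIn ℚ)
    {π : ↥(AK A K)} (hπ : IsUnif (AK A K) π) (hE : FK M K ≤ fracField (AK A K))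
    (n e : ℕ) [NeZero n] (t : ↥(FK M K)) (ht : (t : LaurentSeries K) = tq K n e) :
    SigmaData π t (gaussVS hπ (FK M K) hE)
      ((gaussVS hπ (FK M K) hE).comap (frickeFK M K).toRingHom)
      (SemilinearAut.toRingAut (galK K M τ)) :=
  sigmaData_galK hτ hπ hE n e t ht _ (isInertial_galK_fricke hτ hπ hE)

set_option synthInstance.maxHeartbeats 400000 in
/-- **`SigmaData` in the names of `ModelDefs9`.** -/
theorem sigmaDataN (M' q : ℕ) [NeZero M'] [NeZero q] {n e : ℕ} [NeZero n]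
    {τ : Qbar ≃ₐ[ℚ] Qbar} (hτ : τ ∈ A.inertiaSubgroupIn ℚ)
    {π : ↥(AK A K)} (hπ : IsUnif (AK A K) π) (hE : FK (M' * q) K ≤ fracField (AK A K))
    (ht : tq (↥K) n e ∈ FK M' K) :
    SigmaData π (ModelDefs9.tN q ht) (ModelDefs9.O1 M' q hπ hE) (ModelDefs9.O2 M' q hπ hE)
      (SemilinearAut.toRingAut (galK K (M' * q) τ)) :=
  sigmaData hτ hπ hE n e _ (ModelDefs9.coe_tN q ht)

end Fermat.Agent.ES.N34.GalModel21
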