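/-
Program N (S34), (helper13): the DICTIONARY "horizontal prime of a chart ↦ place of `F / K`".

`B ⊂ F` a chart (noetherian, integrally closed in `F`, `Frac B = F`), `𝔭 ≠ ⊥` a prime of `B` with
`π ∉ 𝔭` and of height one.  Then `B_𝔭 ⊂ F` is a discrete valuation ring containing `K = R[1/π]`,
i.e. a place `v` of `F / K` (Prelude `AlgebraicCurve.Place K F`) with
`x ∈ v.toValuationSubring ↔ ∃ a s : B, s ∉ 𝔭 ∧ x * s = a`.

`height_one_of_integral` : height one is automatic for a chart integral over `R[t]`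
(`R[1/π] = K`): no chain of three primes of `R[X]` avoids `π` (`K[X]` is a PID).
`hhor_of_places` : the hypothesis `hhor` from membership in the valuation rings of the places.

This is what lets the divisor data of GAL (`Place.ord`) be plugged into the hypothesis `hhor` of
`NodalStart13.exists_den_of_horizontal` / `locStart_of_horizontal`
(`g ^ m * u ∈ B_𝔭` for every horizontal prime `𝔭 ≤ 𝔪`).
-/
import Mathlib
import Fermat.Prelude.Def_AlgebraicCurve_DivisorClassGroup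
import Fermat.Agent.ES.N34.NodalSmooth13

set_option autoImplicit false

namespace Fermat.Agent.ES.N34.HorizPlace13

open AlgebraicCurve Fermat.Agent.ES.N34.NodalSmooth13

section DVR

variable {R F : Type*} [CommRing R] [Field F] [Algebra R F]

/-- `B_𝔭` is a discrete valuation ring for a nonzero prime `𝔭` of height one of a noetherian
chart `B` integrally closed in `F = Frac B`. -/
theorem isDiscreteValuationRing_locSub (B : Subalgebra R F) (noethB : IsNoetherianRing B)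
    (intcl : ∀ x : F, IsIntegral B x → x ∈ B)
    (frac : ∀ x : F, ∃ a ∈ B, ∃ b ∈ B, b ≠ 0 ∧ x * b = a)
    (𝔭 : Ideal B) [h𝔭 : 𝔭.IsPrime] (hne : 𝔭 ≠ ⊥)
    (hht : ∀ 𝔮 : Ideal B, 𝔮.IsPrime → 𝔮 ≤ 𝔭 → 𝔮 = ⊥ ∨ 𝔮 = 𝔭) :
    IsDiscreteValuationRing ↥(locSub B 𝔭) := by
  classical
  set C : Subalgebra R F := locSub B 𝔭 with hC
  have hfracB : IsFractionRing ↥B F := by
    refine IsFractionRing.of_field ↥B F fun z => ?_
    obtain ⟨a, ha, b, hb, hb0, hab⟩ := frac z
    refine ⟨⟨a, ha⟩, ⟨b, hb⟩, ?_⟩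
    show z = a / b
    rw [eq_div_iff hb0, hab]
  have hnoethC : IsNoetherianRing ↥C := IsLocalization.isNoetherianRing 𝔭.primeCompl _ noethB
  have hicB : IsIntegrallyClosed ↥B := by
    refine (isIntegrallyClosed_iff F).mpr fun {x} hx => ?_
    exact ⟨⟨x, intcl x hx⟩, rfl⟩
  have hicC : IsIntegrallyClosed ↥C :=
    isIntegrallyClosed_of_isLocalization ↥C 𝔭.primeCompl 𝔭.primeCompl_le_nonZeroDivisors
  -- `C` is not a field
  obtain ⟨b, hb𝔭, hb0⟩ : ∃ b ∈ 𝔭, b ≠ 0 := by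
    by_contra hcon
    push Not at hcon
    exact hne ((Submodule.eq_bot_iff 𝔭).mpr hcon)
  have hnotfield : ¬ IsField ↥C := by
    intro hf
    have hbC : algebraMap ↥B ↥C b ≠ 0 := by
      intro h0
      apply hb0
      apply Subtype.ext
      exact congrArg (fun z : ↥C => (z : F)) h0
    obtain ⟨c, hc⟩ := hf.mul_inv_cancel hbC
    exact not_isUnit_of_mem B 𝔭 hb𝔭 (IsUnit.of_mul_eq_one c hc)
  -- unique nonzero prime
  have huniq : ∃! P : Ideal ↥C, P ≠ ⊥ ∧ P.IsPrime := by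
    refine ⟨IsLocalRing.maximalIdeal ↥C, ⟨?_, inferInstance⟩, ?_⟩
    · exact fun h => hnotfield (IsLocalRing.isField_iff_maximalIdeal_eq.mpr h)
    · rintro P ⟨hP0, hPprime⟩
      have hmc : Ideal.map (algebraMap ↥B ↥C) (Ideal.comap (algebraMap ↥B ↥C) P) = P :=
        IsLocalization.map_under 𝔭.primeCompl ↥C P
      have hq : (Ideal.comap (algebraMap ↥B ↥C) P).IsPrime := Ideal.comap_isPrime _ _
      have hle : Ideal.comap (algebraMap ↥B ↥C) P ≤ 𝔭 := by
        have h1 : P ≤ IsLocalRing.maximalIdeal ↥C := IsLocalRing.le_maximalIdeal hPprime.ne_top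
        have h2 := Ideal.comap_mono (f := algebraMap ↥B ↥C) h1
        have h3 : Ideal.comap (algebraMap ↥B ↥C) (IsLocalRing.maximalIdeal ↥C) = 𝔭 :=
          IsLocalization.AtPrime.under_maximalIdeal ↥C 𝔭
        rwa [h3] at h2
      rcases hht _ hq hle with h0 | h1
      · exfalso
        apply hP0
        rw [← hmc, h0, Ideal.map_bot]
      · rw [← hmc, h1, IsLocalization.AtPrime.map_eq_maximalIdeal 𝔭 ↥C]
  have key : IsIntegrallyClosed ↥C ∧ ∃! P : Ideal ↥C, P ≠ ⊥ ∧ P.IsPrime := ⟨hicC, huniq⟩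
  exact ((IsDiscreteValuationRing.TFAE ↥C hnotfield).out 3 0).mp key

end DVR

section Place

variable {R K F : Type*} [CommRing R] [Field K] [Field F] [Algebra R K] [Algebra K F]
  [Algebra R F] [IsScalarTower R K F]

/-- **The place of a horizontal prime.** -/
theorem exists_place_of_prime (π : R) (B : Subalgebra R F) (noethB : IsNoetherianRing B)
    (fracR : IsFractionRing R K)
    (dvrR : ∀ r : R, r ≠ 0 → ∃ (k : ℕ) (v : Rˣ), r = π ^ k * v)
    (intcl : ∀ x : F, IsIntegral B x → x ∈ B)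
    (frac : ∀ x : F, ∃ a ∈ B, ∃ b ∈ B, b ≠ 0 ∧ x * b = a)
    (𝔭 : Ideal B) [h𝔭 : 𝔭.IsPrime] (hne : 𝔭 ≠ ⊥) (hπ𝔭 : algebraMap R B π ∉ 𝔭)
    (hht : ∀ 𝔮 : Ideal B, 𝔮.IsPrime → 𝔮 ≤ 𝔭 → 𝔮 = ⊥ ∨ 𝔮 = 𝔭) :
    ∃ v : Place K F, ∀ x : F,
      x ∈ v.toValuationSubring ↔ ∃ a s : B, s ∉ 𝔭 ∧ x * (s : F) = (a : F) := by
  classical
  set C : Subalgebra R F := locSub B 𝔭 with hC
  have hdvr : IsDiscreteValuationRing ↥C :=
    isDiscreteValuationRing_locSub B noethB intcl frac 𝔭 hne hht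
  have hfracC : IsFractionRing ↥C F := by
    refine IsFractionRing.of_field ↥C F fun z => ?_
    obtain ⟨a, ha, b, hb, hb0, hab⟩ := frac z
    refine ⟨⟨a, le_locSub B 𝔭 ha⟩, ⟨b, le_locSub B 𝔭 hb⟩, ?_⟩
    show z = a / b
    rw [eq_div_iff hb0, hab]
  -- the valuation subring
  let V : ValuationSubring F :=
    { C.toSubring with
      mem_or_inv_mem' := by
        intro x
        rcases ValuationRing.isInteger_or_isInteger ↥C x with ⟨c, hc⟩ | ⟨c, hc⟩
        · left; rw [← hc]; exact c.2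
        · right; rw [← hc]; exact c.2 }
  have memV : ∀ x : F, x ∈ V ↔ x ∈ C := fun x => Iff.rfl
  obtain ⟨b, hb𝔭, hb0⟩ : ∃ b ∈ 𝔭, b ≠ 0 := by
    by_contra hcon
    push Not at hcon
    exact hne ((Submodule.eq_bot_iff 𝔭).mpr hcon)
  refine ⟨{ toValuationSubring := V
            algebraMap_mem' := ?_
            ne_top' := ?_
            isPrincipalIdealRing' := ?_ }, fun x => ?_⟩
  · -- `K ⊆ B_𝔭`
    intro a
    rw [memV]
    have : Nontrivial R := (algebraMap R K).domain_nontrivial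
    obtain ⟨r, s, hs, rfl⟩ := IsFractionRing.div_surjective (A := R) a
    have hs0 : s ≠ 0 := nonZeroDivisors.ne_zero hs
    obtain ⟨k, v, hsv⟩ := dvrR s hs0
    -- `(r / s) π^k = r v⁻¹`
    refine ⟨algebraMap R B (r * ((v⁻¹ : Rˣ) : R)), algebraMap R B π ^ k,
      fun h => hπ𝔭 (h𝔭.mem_of_pow_mem _ h), ?_⟩
    have hsK : algebraMap R K s ≠ 0 := by
      rw [Ne, map_eq_zero_iff _ (IsFractionRing.injective R K)]; exact hs0
    set aF : F := algebraMap K F (algebraMap R K r / algebraMap R K s) with haF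
    have h1 : aF * (algebraMap R F π ^ k * algebraMap R F (v : R)) = algebraMap R F r := by
      rw [haF, ← map_pow, ← map_mul, ← hsv, IsScalarTower.algebraMap_apply R K F s,
        IsScalarTower.algebraMap_apply R K F r, ← map_mul, div_mul_cancel₀ _ hsK]
    have h3 : algebraMap R F (v : R) * algebraMap R F ((v⁻¹ : Rˣ) : R) = 1 := by
      rw [← map_mul, Units.mul_inv, map_one]
    show aF * ((algebraMap R B π ^ k : B) : F) = ((algebraMap R B (r * ((v⁻¹ : Rˣ) : R)) : B) : F)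
    have e1 : ((algebraMap R B π ^ k : B) : F) = algebraMap R F π ^ k := by
      push_cast; rfl
    have e2 : ((algebraMap R B (r * ((v⁻¹ : Rˣ) : R)) : B) : F)
        = algebraMap R F r * algebraMap R F ((v⁻¹ : Rˣ) : R) := by
      rw [← map_mul]; rfl
    rw [e1, e2]
    linear_combination (algebraMap R F ((v⁻¹ : Rˣ) : R)) * h1
      - (aF * algebraMap R F π ^ k) * h3
  · -- `≠ ⊤`
    intro htop
    have hmem : ((b : F))⁻¹ ∈ V := by rw [htop]; exact ValuationSubring.mem_top _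
    rw [memV] at hmem
    apply not_isUnit_of_mem B 𝔭 hb𝔭
    have hbF : (b : F) ≠ 0 := fun h => hb0 (Subtype.ext h)
    refine ⟨⟨algebraMap ↥B ↥C b, ⟨_, hmem⟩, ?_, ?_⟩, rfl⟩
    · apply Subtype.ext
      show (b : F) * (b : F)⁻¹ = 1
      exact mul_inv_cancel₀ hbF
    · apply Subtype.ext
      show (b : F)⁻¹ * (b : F) = 1
      exact inv_mul_cancel₀ hbF
  · show IsPrincipalIdealRing ↥C
    infer_instance
  · exact Iff.rfl

end Place

section Poly

open Polynomial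
variable {R K : Type*} [CommRing R] [Field K] [Algebra R K]

theorem isLocalization_powers_of_dvr (π : R) (fracR : IsFractionRing R K)
    (dvrR : ∀ r : R, r ≠ 0 → ∃ (k : ℕ) (v : Rˣ), r = π ^ k * v) (hπ : π ≠ 0) :
    IsLocalization (Submonoid.powers π) K := by
  have hinj : Function.Injective (algebraMap R K) := IsFractionRing.injective R K
  have : Nontrivial R := (algebraMap R K).domain_nontrivial
  have : IsDomain R := hinj.isDomain (algebraMap R K)
  rw [isLocalization_iff]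
  refine ⟨?_, ?_, ?_⟩
  · rintro ⟨y, k, rfl⟩
    apply IsUnit.mk0
    rw [Ne, map_eq_zero_iff _ hinj]
    exact pow_ne_zero k hπ
  · intro z
    obtain ⟨r, s, hs, rfl⟩ := IsFractionRing.div_surjective (A := R) z
    have hs0 : s ≠ 0 := nonZeroDivisors.ne_zero hs
    obtain ⟨k, v, hsv⟩ := dvrR s hs0
    have hsK : algebraMap R K s ≠ 0 := by
      rw [Ne, map_eq_zero_iff _ hinj]; exact hs0
    refine ⟨(r * ((v⁻¹ : Rˣ) : R), ⟨π ^ k, k, rfl⟩), ?_⟩
    show algebraMap R K r / algebraMap R K s * algebraMap R K (π ^ k)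
      = algebraMap R K (r * ((v⁻¹ : Rˣ) : R))
    have h3 : algebraMap R K (v : R) * algebraMap R K ((v⁻¹ : Rˣ) : R) = 1 := by
      rw [← map_mul, Units.mul_inv, map_one]
    have h1 : algebraMap R K s = algebraMap R K (π ^ k) * algebraMap R K (v : R) := by
      rw [← map_mul, ← hsv]
    rw [map_mul, div_mul_eq_mul_div, div_eq_iff hsK, h1]
    linear_combination (-(algebraMap R K r * algebraMap R K (π ^ k))) * h3
  · intro x y hxy
    exact ⟨1, by rw [hinj hxy]⟩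

attribute [local instance] Polynomial.algebra in
/-- No chain of three primes `P0 < P1 < P2` in `R[X]` with `π ∉ P2`, when `R[1/π] = K` is a
field. -/
theorem no_chain_poly (π : R) (fracR : IsFractionRing R K)
    (dvrR : ∀ r : R, r ≠ 0 → ∃ (k : ℕ) (v : Rˣ), r = π ^ k * v) (hπ : π ≠ 0)
    (P0 P1 P2 : Ideal R[X]) (h0 : P0.IsPrime) (h1 : P1.IsPrime) (h2 : P2.IsPrime)
    (h01 : P0 < P1) (h12 : P1 < P2) (hπ2 : C π ∉ P2) : False := by
  have hloc : IsLocalization (Submonoid.powers π) K :=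
    isLocalization_powers_of_dvr π fracR dvrR hπ
  have hlocX : IsLocalization ((Submonoid.powers π).map (C : R →+* R[X])) K[X] :=
    Polynomial.isLocalization (Submonoid.powers π) K
  set M : Submonoid R[X] := (Submonoid.powers π).map (C : R →+* R[X]) with hM
  have hdisj : ∀ P : Ideal R[X], P.IsPrime → P ≤ P2 → Disjoint (M : Set R[X]) ↑P := by
    intro P hP hle
    rw [Set.disjoint_left]
    rintro x ⟨y, ⟨k, rfl⟩, rfl⟩ hx
    apply hπ2
    apply hle
    have : (C : R →+* R[X]) (π ^ k) = (C π) ^ k := by rw [map_pow]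
    have hx' : (C π : R[X]) ^ k ∈ P := by rw [← this]; exact hx
    exact hP.mem_of_pow_mem _ hx'
  let e := IsLocalization.orderIsoOfPrime M K[X]
  let p0 : { p : Ideal R[X] // p.IsPrime ∧ Disjoint (M : Set R[X]) ↑p } :=
    ⟨P0, h0, hdisj P0 h0 (h01.le.trans h12.le)⟩
  let p1 : { p : Ideal R[X] // p.IsPrime ∧ Disjoint (M : Set R[X]) ↑p } :=
    ⟨P1, h1, hdisj P1 h1 h12.le⟩
  let p2 : { p : Ideal R[X] // p.IsPrime ∧ Disjoint (M : Set R[X]) ↑p } :=
    ⟨P2, h2, hdisj P2 h2 le_rfl⟩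
  have hq01 : e.symm p0 < e.symm p1 := e.symm.lt_iff_lt.mpr h01
  have hq12 : e.symm p1 < e.symm p2 := e.symm.lt_iff_lt.mpr h12
  have hQ1prime : (e.symm p1).1.IsPrime := (e.symm p1).2
  have hQ1ne : (e.symm p1).1 ≠ ⊥ := by
    intro h
    have : (e.symm p0).1 < (e.symm p1).1 := hq01
    rw [h] at this
    exact not_lt_bot this
  have hmax : (e.symm p1).1.IsMaximal := IsPrime.to_maximal_ideal hQ1ne
  have hQ2prime : (e.symm p2).1.IsPrime := (e.symm p2).2
  have hlt : (e.symm p1).1 < (e.symm p2).1 := hq12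
  exact absurd (hmax.eq_of_le hQ2prime.ne_top hlt.le) (ne_of_lt hlt)

end Poly

section Height

open Polynomial
variable {R K F : Type*} [CommRing R] [Field K] [Field F] [Algebra R K] [Algebra K F]
  [Algebra R F] [IsScalarTower R K F]

/-- Elements of a chart integral over `R[t] ⊂ F` are integral over `R[X]` acting through
`X ↦ t`. -/
theorem isIntegral_aeval (t : F) (B : Subalgebra R F) (ht : t ∈ B)
    (int0 : ∀ x ∈ B, IsIntegral (Algebra.adjoin R {t}) x) (x : B) :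
    (aeval (⟨t, ht⟩ : B) : R[X] →ₐ[R] B).toRingHom.IsIntegralElem x := by
  classical
  set φ : R[X] →+* B := (aeval (⟨t, ht⟩ : B) : R[X] →ₐ[R] B).toRingHom with hφ
  set g : R[X] →+* F := (aeval t : R[X] →ₐ[R] F).toRingHom with hg
  have hgφ : ∀ f : R[X], ((φ f : B) : F) = g f := by
    intro f
    show ((aeval (⟨t, ht⟩ : B) f : B) : F) = aeval t f
    rw [← Subalgebra.coe_val, ← Polynomial.aeval_algHom_apply]
    rfl
  obtain ⟨p, hpm, hp⟩ := int0 (x : F) x.2
  set p' : F[X] := p.map (algebraMap (Algebra.adjoin R {t}) F) with hp'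
  have hp'm : p'.Monic := hpm.map _
  have hp'0 : p'.eval (x : F) = 0 := by
    rw [hp', eval_map]; exact hp
  have hlifts : p' ∈ Polynomial.lifts g := by
    rw [Polynomial.lifts_iff_coeff_lifts]
    intro n
    rw [hp', coeff_map]
    have hmem : ((p.coeff n : Algebra.adjoin R {t}) : F) ∈ Algebra.adjoin R {t} := (p.coeff n).2
    have hmem' : ((p.coeff n : Algebra.adjoin R {t}) : F) ∈ (aeval t : R[X] →ₐ[R] F).range := by
      have := Algebra.adjoin_singleton_eq_range_aeval R t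
      rw [← this]; exact hmem
    obtain ⟨f, hf⟩ := hmem'
    exact ⟨f, hf⟩
  obtain ⟨q, hq, -, hqm⟩ := Polynomial.lifts_and_natDegree_eq_and_monic hlifts hp'm
  refine ⟨q, hqm, ?_⟩
  apply Subtype.ext
  show ((eval₂ φ x q : B) : F) = 0
  have h1 : ((eval₂ φ x q : B) : F) = eval₂ (B.val.toRingHom.comp φ) (x : F) q :=
    Polynomial.hom_eval₂ q φ B.val.toRingHom x
  have h2 : B.val.toRingHom.comp φ = g := by
    ext f
    · exact hgφ (C f)
    · exact hgφ X
  rw [h1, h2, eval₂_eq_eval_map, hq, hp'0]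

omit [Algebra K F] [IsScalarTower R K F] in
/-- **Height one.** In a chart `B ∋ t` integral over `R[t]` (with `R[1/π] = K` a field), a prime
`𝔭 ∌ π` has no prime strictly between `⊥` and `𝔭`. -/
theorem height_one_of_integral (π : R) (t : F) (B : Subalgebra R F) (ht : t ∈ B)
    (fracR : IsFractionRing R K)
    (dvrR : ∀ r : R, r ≠ 0 → ∃ (k : ℕ) (v : Rˣ), r = π ^ k * v)
    (pi_ne : algebraMap R F π ≠ 0)
    (int0 : ∀ x ∈ B, IsIntegral (Algebra.adjoin R {t}) x)
    (𝔭 : Ideal B) [h𝔭 : 𝔭.IsPrime] (hπ𝔭 : algebraMap R B π ∉ 𝔭) :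
    ∀ 𝔮 : Ideal B, 𝔮.IsPrime → 𝔮 ≤ 𝔭 → 𝔮 = ⊥ ∨ 𝔮 = 𝔭 := by
  classical
  intro 𝔮 h𝔮 hle
  by_contra hcon
  push Not at hcon
  obtain ⟨hq0, hq𝔭⟩ := hcon
  have hlt : 𝔮 < 𝔭 := lt_of_le_of_ne hle hq𝔭
  have hπ0 : π ≠ 0 := by
    rintro rfl
    exact pi_ne (map_zero _)
  let _ : Algebra R[X] B := (aeval (⟨t, ht⟩ : B) : R[X] →ₐ[R] B).toRingHom.toAlgebra
  have hint : ∀ x : B, IsIntegral R[X] x := fun x => isIntegral_aeval t B ht int0 x
  -- elements
  obtain ⟨x1, hx1, hx10⟩ : ∃ x ∈ 𝔮, x ≠ 0 := by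
    by_contra h
    push Not at h
    exact hq0 ((Submodule.eq_bot_iff 𝔮).mpr h)
  obtain ⟨x2, hx2, hx2'⟩ := SetLike.exists_of_lt hlt
  have hbotprime : (⊥ : Ideal B).IsPrime := Ideal.isPrime_bot
  have h01 : (⊥ : Ideal B).comap (algebraMap R[X] B) < 𝔮.comap (algebraMap R[X] B) :=
    Ideal.comap_lt_comap_of_integral_mem_sdiff bot_le
      ⟨hx1, fun h => hx10 ((Submodule.mem_bot _).mp h)⟩ (hint x1)
  have h12 : 𝔮.comap (algebraMap R[X] B) < 𝔭.comap (algebraMap R[X] B) :=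
    Ideal.comap_lt_comap_of_integral_mem_sdiff hle ⟨hx2, hx2'⟩ (hint x2)
  refine no_chain_poly π fracR dvrR hπ0 _ _ _ (Ideal.comap_isPrime _ _) (Ideal.comap_isPrime _ _)
    (Ideal.comap_isPrime _ _) h01 h12 ?_
  rw [Ideal.mem_comap]
  have : algebraMap R[X] B (C π) = algebraMap R B π := by
    show (aeval (⟨t, ht⟩ : B)) (C π) = algebraMap R B π
    rw [aeval_C]
  rw [this]
  exact hπ𝔭

end Height

section Horizontal

variable {R K F : Type*} [CommRing R] [Field K] [Field F] [Algebra R K] [Algebra K F]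
  [Algebra R F] [IsScalarTower R K F]

/-- **The place of a horizontal prime of a chart** (height one is automatic: the chart is integral
over `R[t]` and `R[1/π] = K`). -/
theorem exists_place_of_horizontal (π : R) (t : F) (B : Subalgebra R F) (ht : t ∈ B)
    (noethB : IsNoetherianRing B) (fracR : IsFractionRing R K)
    (dvrR : ∀ r : R, r ≠ 0 → ∃ (k : ℕ) (v : Rˣ), r = π ^ k * v)
    (pi_ne : algebraMap R F π ≠ 0)
    (intcl : ∀ x : F, IsIntegral B x → x ∈ B)
    (int0 : ∀ x ∈ B, IsIntegral (Algebra.adjoin R {t}) x)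
    (frac : ∀ x : F, ∃ a ∈ B, ∃ b ∈ B, b ≠ 0 ∧ x * b = a)
    (𝔭 : Ideal B) [h𝔭 : 𝔭.IsPrime] (hne : 𝔭 ≠ ⊥) (hπ𝔭 : algebraMap R B π ∉ 𝔭) :
    ∃ v : Place K F, ∀ x : F,
      x ∈ v.toValuationSubring ↔ ∃ a s : B, s ∉ 𝔭 ∧ x * (s : F) = (a : F) :=
  exists_place_of_prime π B noethB fracR dvrR intcl frac 𝔭 hne hπ𝔭
    (height_one_of_integral (K := K) π t B ht fracR dvrR pi_ne int0 𝔭 hπ𝔭)

/-- **From places to the hypothesis `hhor`** of `NodalStart13.exists_den_of_horizontal`: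
if `ε` lies in the valuation ring of every place of `F / K` whose valuation ring contains the chart
`B` and whose centre on `B` is contained in `𝔪`, then `ε ∈ B_𝔭` for every horizontal prime
`𝔭 ≤ 𝔪`. -/
theorem hhor_of_places (π : R) (t : F) (B : Subalgebra R F) (ht : t ∈ B)
    (noethB : IsNoetherianRing B) (fracR : IsFractionRing R K)
    (dvrR : ∀ r : R, r ≠ 0 → ∃ (k : ℕ) (v : Rˣ), r = π ^ k * v)
    (pi_ne : algebraMap R F π ≠ 0)
    (intcl : ∀ x : F, IsIntegral B x → x ∈ B)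
    (int0 : ∀ x ∈ B, IsIntegral (Algebra.adjoin R {t}) x)
    (frac : ∀ x : F, ∃ a ∈ B, ∃ b ∈ B, b ≠ 0 ∧ x * b = a)
    (𝔪 : Ideal B) (ε : F)
    (hε : ∀ v : Place K F, (∀ b ∈ B, b ∈ v.toValuationSubring) →
      (∀ b : B, ((b : F))⁻¹ ∉ v.toValuationSubring → b ∈ 𝔪) → ε ∈ v.toValuationSubring) :
    ∀ 𝔭 : Ideal B, 𝔭.IsPrime → 𝔭 ≠ ⊥ → 𝔭 ≤ 𝔪 → algebraMap R B π ∉ 𝔭 →
      ∃ a s : B, s ∉ 𝔭 ∧ ε * (s : F) = (a : F) := by
  intro 𝔭 h𝔭 hne hle hπ𝔭
  obtain ⟨v, hv⟩ := exists_place_of_horizontal (K := K) π t B ht noethB fracR dvrR pi_ne intcl int0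
    frac 𝔭 hne hπ𝔭
  refine (hv ε).mp (hε v ?_ ?_)
  · intro b hb
    exact (hv b).mpr ⟨⟨b, hb⟩, 1, fun h1 => h𝔭.ne_top ((Ideal.eq_top_iff_one 𝔭).mpr h1), by simp⟩
  · intro b hb
    apply hle
    by_contra hb𝔭
    apply hb
    have hb0 : (b : F) ≠ 0 := coe_ne_zero_of_notMem B 𝔭 hb𝔭
    exact (hv _).mpr ⟨1, b, hb𝔭, by simp [inv_mul_cancel₀ hb0]⟩

end Horizontal

end Fermat.Agent.ES.N34.HorizPlace13
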