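/-
Program N (S34), brick S2 (helper23), part 1: **the Hauptmodul `t` and `y = t(q^ℓ)` are integral over
each other** — characteristic `0`, over `ℚbar`, as Laurent series.

`(n, e) = (4, 8)` or `(9, 3)` (`hb : BaseHyp n e`), `ℓ` a prime not dividing `n`, `t = tK n e = tq ℚbar n e`,
`y = qExpand ℚbar ℓ t`:

* `isIntegral_qExpand_tK`      (I1)  `y` is integral over `ℚbar[t]`;
* `isIntegral_tK`              (I2)  `t` is integral over `ℚbar[y]`;
* `isIntegral_inv_qExpand_tK`  (I3)  `y⁻¹` is integral over `ℚbar[t⁻¹]`;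
* `isIntegral_inv_tK`          (I4)  `t⁻¹` is integral over `ℚbar[y⁻¹]`.

Proof.  At level `n ℓ`, `F = Fbar_{nℓ}`, `a = αt`, `b = βt`: `[F : ℚbar(a)] = ℓ + 1` (`TGen19`), and `a`
has a pole of order `1` at the place of the `q`-expansion and of order `ℓ` at the Atkin–Lehner place
(`Conjugates11.exists_W`); by `FF.sum_ord_poles` these are all the poles of `a`, and `b` has poles there
as well: (I2) (`PlaceIntegral3.mem_intRing_of_forall_place`).  (I1) is `W` applied to (I2).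
(I3), (I4) are the Fricke expansion `T_S^{nℓ}` applied to (I2), (I1): `T_S (αt) = c₀ / y`,
`T_S (βt) = c₀ / t` (`T_S_tF`, from `t^{n-1} · Δ(q^n)/Δ(q) = 1` and `Δ(-1/z) = z¹² Δ(z)`).
-/
import Mathlib
import Fermat.Agent.ES.KRON.Conjugates11
import Fermat.Agent.RED.BASE.Main12
import Fermat.Agent.RED.BASE.DeltaMem19
import Fermat.Agent.RED.BASE.CuspExpT11
import Fermat.Agent.RED.LVL.FrickeExp19
import Fermat.Agent.RED.PUR.PlaceIntegral3
import Fermat.Agent.IG.PR.ThetaV1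
import Fermat.Agent.ES.HECKE.DegreeL25

set_option autoImplicit false
set_option linter.unusedSectionVars false
set_option linter.style.haveILetI false

open ModularCurve AlgebraicCurve IntermediateField UpperHalfPlane
open scoped IntermediateField MatrixGroups

noncomputable section

namespace Fermat.Agent.ES.N34.ModEqBar23

open Fermat.Agent.X0 Fermat.Agent.X0.Analytic Fermat.Agent.X0.FF
open Fermat.Agent.RED.BASE.Interface12 Fermat.Agent.RED.BASE.Hauptmodul12
open Fermat.Agent.RED.BASE Fermat.Agent.RED.BASE.DeltaMem19 Fermat.Agent.RED.BASE.QExpMem19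
open Fermat.Agent.IG.PR.Interface20 Fermat.Agent.IG.AN.DeltaQuot19
open Fermat.Agent.RED.BASE.EtaQuot12

section Fricke

variable (n : ℕ) [NeZero n]

/-- the `q_n`-expansion of `z ↦ (Δ(n z)/Δ(z)) ∘ S` is `n⁻¹² Δ(q)/Δ(q^n)`. -/
theorem intgQN_compSL_deltaQuot_S :
    IntgQN n (compSL (deltaQuot n) ModularGroup.S)
      (toC (HahnSeries.C (((n : Kbar)⁻¹) ^ 12) * uqInv n Kbar)) := by
  unfold IntgQN
  have haff : ∀ z : ℍ, Hermite.affH 1 n 0 one_pos (Nat.pos_of_ne_zero (NeZero.ne n)) (scaleH n z) = z := by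
    intro z
    apply UpperHalfPlane.ext
    rw [Hermite.coe_affH, coe_scaleH]
    have hn : (n : ℂ) ≠ 0 := by exact_mod_cast NeZero.ne n
    push_cast
    field_simp
    ring
  have hfun : (fun z => compSL (deltaQuot n) ModularGroup.S (scaleH n z)) =
      (fun _ => ((n : ℂ)⁻¹) ^ 12) * deltaQuotInv n := by
    funext z
    have h1 := congrFun (compSL_deltaQuot_S n) (scaleH n z)
    rw [h1, Pi.mul_apply]
    unfold deltaAff deltaQuotInv
    rw [haff z]
  rw [hfun, map_mul, QExpMem19.toC_C, map_pow, map_inv₀, map_natCast, toC_uqInv]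
  exact HasQExp.mul (HasQExp.const _) (hasQExp_deltaQuotInv n)

variable {n} {e : ℕ}

/-- **The Fricke expansion of the Hauptmodul**: `T_S t = c₀ / t` (in the variable `q_n`). -/
theorem T_S_tF (hb : BaseHyp n e) : ∃ c₀ : Kbar, c₀ ≠ 0 ∧
    (cuspData n).T ModularGroup.S (tF n (tMem hb)) = HahnSeries.C c₀ * (tK n e)⁻¹ := by
  have hk : 0 < n - 1 := by have := hb.two_le; omega
  have hnK : (n : Kbar) ≠ 0 := by exact_mod_cast NeZero.ne n
  set c : Kbar := ((n : Kbar)⁻¹) ^ 12 with hc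
  have hc0 : c ≠ 0 := pow_ne_zero _ (inv_ne_zero hnK)
  have hu : (cuspData n).T ModularGroup.S (uF n) = HahnSeries.C c * uqInv n Kbar :=
    T_eq_of_isNice (isNice_uq n) ModularGroup.S _ (intgQN_compSL_deltaQuot_S n)
  have h1 := congrArg ((cuspData n).T ModularGroup.S) (tF_pow_mul_uF hb.exp (tMem hb))
  rw [map_mul, map_pow, map_one, hu] at h1
  have ht0 : tK n e ≠ 0 := TGen19.tK_ne_zero n e
  have huq : uqInv n Kbar = tK n e ^ (n - 1) := by
    have h2 : tK n e ^ (n - 1) * uq Kbar n = 1 := tq_pow_mul_uq Kbar n e hb.exp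
    have h3 := uqInv_mul_uq n Kbar
    have hu0 : uq Kbar n ≠ 0 := by
      intro h0
      rw [h0, mul_zero] at h3
      exact zero_ne_one h3
    exact mul_right_cancel₀ hu0 (h3.trans h2.symm)
  rw [huq] at h1
  obtain ⟨d, hd⟩ := IsAlgClosed.exists_pow_nat_eq (c⁻¹) hk
  have hd0 : d ≠ 0 := by
    intro h0
    rw [h0, zero_pow hk.ne'] at hd
    exact inv_ne_zero hc0 hd.symm
  set X := (cuspData n).T ModularGroup.S (tF n (tMem hb)) * tK n e with hX
  have hXk : X ^ (n - 1) = (HahnSeries.C d : LaurentSeries Kbar) ^ (n - 1) := by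
    rw [← map_pow, hd, hX, mul_pow]
    have hCc : (HahnSeries.C c : LaurentSeries Kbar) * HahnSeries.C c⁻¹ = 1 := by
      rw [← map_mul, mul_inv_cancel₀ hc0, map_one]
    calc (cuspData n).T ModularGroup.S (tF n (tMem hb)) ^ (n - 1) * tK n e ^ (n - 1)
        = ((cuspData n).T ModularGroup.S (tF n (tMem hb)) ^ (n - 1) *
            (HahnSeries.C c * tK n e ^ (n - 1))) * HahnSeries.C c⁻¹ := by
          rw [mul_assoc, mul_assoc, mul_comm (tK n e ^ (n - 1)), ← mul_assoc (HahnSeries.C c), hCc,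
            one_mul]
      _ = HahnSeries.C c⁻¹ := by rw [h1, one_mul]
  have hCd : (HahnSeries.C d : LaurentSeries Kbar) ≠ 0 := HahnSeries.C_ne_zero hd0
  obtain ⟨ξ, hξ, hXeq⟩ := CuspExpT11.exists_root_of_unity_of_pow_eq hk hCd hXk
  have hξ0 : ξ ≠ 0 := by
    intro h0
    rw [h0, zero_pow hk.ne'] at hξ
    exact zero_ne_one hξ
  refine ⟨ξ * d, mul_ne_zero hξ0 hd0, ?_⟩
  rw [map_mul, ← hXeq, hX, mul_assoc, mul_inv_cancel₀ ht0, mul_one]

section FrickeLevel

open Fermat.Agent.ES.KRON.Conjugates11 Fermat.Agent.RED.LVL.FrickeExp19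

variable (N ℓ : ℕ) [NeZero N] [NeZero ℓ]

/-- `T_S^{Nℓ} ∘ β = T_S^{N}`. -/
theorem T_S_beta (h : FF N) :
    (cuspData (N * ℓ)).T ModularGroup.S (heckeBetaBar Kbar N ℓ h) =
      (cuspData N).T ModularGroup.S h := by
  have key : ((cuspData (N * ℓ)).T ModularGroup.S).comp (heckeBetaBar Kbar N ℓ).toRingHom =
      (cuspData N).T ModularGroup.S := by
    apply CuspEquiv.ringHom_ext_Rsub
    intro r
    induction r using FracR.Rsub_induction with
    | hgen d hd =>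
        obtain ⟨k, hk⟩ := hd
        have hk0 : NeZero k := ⟨fun h0 => NeZero.ne N (by rw [hk, h0, mul_zero])⟩
        have hd' : d * ℓ ∣ N * ℓ := Nat.mul_dvd_mul_right ⟨k, hk⟩ ℓ
        rw [RingHom.comp_apply, FracR.coe_jdR]
        show (cuspData (N * ℓ)).T ModularGroup.S (heckeBetaBar Kbar N ℓ (jdF N d ⟨k, hk⟩)) =
          (cuspData N).T ModularGroup.S (jdF N d ⟨k, hk⟩)
        rw [beta_jdF N ℓ d ⟨k, hk⟩ hd', T_S_jdF N d k hk]
        exact T_S_jdF (N * ℓ) (d * ℓ) k (by rw [hk]; ring)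
    | hconst c =>
        rw [RingHom.comp_apply]
        show (cuspData (N * ℓ)).T ModularGroup.S
            (heckeBetaBar Kbar N ℓ (algebraMap Kbar (FF N) c)) =
          (cuspData N).T ModularGroup.S (algebraMap Kbar (FF N) c)
        rw [AlgHom.commutes, T_S_const, T_S_const]
    | hadd a b ha hb =>
        rw [Subalgebra.coe_add, map_add, map_add, ha, hb]
    | hmul a b ha hb =>
        rw [Subalgebra.coe_mul, map_mul, map_mul, ha, hb]
  exact congrArg (fun φ : FF N →+* LaurentSeries Kbar => φ h) key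

/-- `T_S^{Nℓ} ∘ α = (q ↦ q^ℓ) ∘ T_S^{N}`. -/
theorem T_S_alpha (f : FF N) :
    (cuspData (N * ℓ)).T ModularGroup.S (heckeAlphaBar Kbar N ℓ f) =
      qExpand Kbar ℓ ((cuspData N).T ModularGroup.S f) := by
  have key : ((cuspData (N * ℓ)).T ModularGroup.S).comp (heckeAlphaBar Kbar N ℓ).toRingHom =
      (qExpand Kbar ℓ).comp ((cuspData N).T ModularGroup.S) := by
    apply CuspEquiv.ringHom_ext_Rsub
    intro r
    induction r using FracR.Rsub_induction with
    | hgen d hd =>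
        obtain ⟨k, hk⟩ := hd
        have hk0 : NeZero k := ⟨fun h0 => NeZero.ne N (by rw [hk, h0, mul_zero])⟩
        have hd' : d ∣ N * ℓ := Dvd.dvd.mul_right ⟨k, hk⟩ ℓ
        rw [RingHom.comp_apply, RingHom.comp_apply, FracR.coe_jdR]
        show (cuspData (N * ℓ)).T ModularGroup.S (heckeAlphaBar Kbar N ℓ (jdF N d ⟨k, hk⟩)) =
          qExpand Kbar ℓ ((cuspData N).T ModularGroup.S (jdF N d ⟨k, hk⟩))
        rw [alpha_jdF N ℓ d ⟨k, hk⟩ hd', T_S_jdF N d k hk, qExpand_qExpand]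
        have h1 := T_S_jdF (N * ℓ) d (k * ℓ) (by rw [hk]; ring)
        rw [h1]
        exact qExpand_congr (mul_comm k ℓ) jqK
    | hconst c =>
        rw [RingHom.comp_apply, RingHom.comp_apply]
        show (cuspData (N * ℓ)).T ModularGroup.S
            (heckeAlphaBar Kbar N ℓ (algebraMap Kbar (FF N) c)) =
          qExpand Kbar ℓ ((cuspData N).T ModularGroup.S (algebraMap Kbar (FF N) c))
        rw [AlgHom.commutes, T_S_const, T_S_const, qExpand_C]
    | hadd a b ha hb =>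
        rw [Subalgebra.coe_add, map_add, map_add, ha, hb]
    | hmul a b ha hb =>
        rw [Subalgebra.coe_mul, map_mul, map_mul, ha, hb]
  exact congrArg (fun φ : FF N →+* LaurentSeries Kbar => φ f) key

end FrickeLevel

end Fricke

section Generic

variable {K F : Type*} [Field K] [Field F] [Algebra K F] [IsAlgClosed K] [CharZero K]

/-- If a finite set of poles of `x` already accounts for the whole degree `[F : K(x)]`, then these
are all the poles of `x`. -/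
theorem mem_of_ord_neg {x : F} (hx : IsGen K x) (S : Finset (Place K F))
    (hS : ∀ v ∈ S, v.ord x < 0)
    (hsum : ∑ v ∈ S, -v.ord x = (Module.finrank K⟮x⟯ F : ℤ)) (v : Place K F)
    (hv : v.ord x < 0) : v ∈ S := by
  classical
  by_contra hvS
  have hfin := finite_poles hx
  have h1 := sum_ord_poles hx
  have h2 : ∑ᶠ (v : Place K F) (_ : v.ord x < 0), -v.ord x =
      ∑ᶠ v ∈ {v : Place K F | v.ord x < 0}, -v.ord x := rfl
  rw [h2, finsum_mem_eq_finite_toFinset_sum _ hfin] at h1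
  have hsub : insert v S ⊆ hfin.toFinset := by
    intro w hw
    rw [Set.Finite.mem_toFinset]
    rcases Finset.mem_insert.mp hw with rfl | hw
    · exact hv
    · exact hS w hw
  have hle : ∑ w ∈ insert v S, -w.ord x ≤ ∑ w ∈ hfin.toFinset, -w.ord x := by
    apply Finset.sum_le_sum_of_subset_of_nonneg hsub
    intro w hw _
    rw [Set.Finite.mem_toFinset] at hw
    have : w.ord x < 0 := hw
    omega
  rw [Finset.sum_insert hvS, hsum, h1] at hle
  omega

/-- If some element has `τ`-order `-1`, the place of `τ` has index one: `ord = order ∘ τ`. -/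
theorem embPlace_ord_eq (τ : F →+* LaurentSeries K)
    (hτ : ∀ c : K, τ (algebraMap K F c) = HahnSeries.C c)
    (hnt : ∃ f, f ≠ 0 ∧ (τ f).order ≠ 0) {x : F} (hx0 : x ≠ 0) (hx : (τ x).order = -1)
    {f : F} (hf : f ≠ 0) : (LaurentPlace.embPlace τ hτ hnt).ord f = (τ f).order := by
  obtain ⟨m, hm, hspec⟩ := LaurentPlace.embPlace_spec τ hτ hnt
  have h1 := hspec x hx0
  rw [hx] at h1
  have hdvd : (m : ℤ) ∣ 1 := ⟨-(LaurentPlace.embPlace τ hτ hnt).ord x, by linarith⟩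
  have hm1 : (m : ℤ) = 1 := Int.eq_one_of_dvd_one (by positivity) hdvd
  have h2 := hspec f hf
  rw [hm1, one_mul] at h2
  exact h2.symm

end Generic

section Transport

variable {K F L : Type*} [CommRing K] [CommRing F] [CommRing L] [Algebra K F] [Algebra K L]

/-- Integrality over `K[x]` is transported by `K`-algebra homomorphisms. -/
theorem isIntegral_adjoin_map (φ : F →ₐ[K] L) {x z : F}
    (h : IsIntegral (Algebra.adjoin K {x}) z) : IsIntegral (Algebra.adjoin K {φ x}) (φ z) := by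
  have hmem : ∀ r : Algebra.adjoin K {x}, φ (r : F) ∈ Algebra.adjoin K {φ x} := by
    intro r
    rw [← AlgHom.map_adjoin_singleton]
    exact ⟨r, r.2, rfl⟩
  let φ' : Algebra.adjoin K {x} →+* Algebra.adjoin K {φ x} :=
    ((φ.toRingHom.comp (Algebra.adjoin K {x}).val.toRingHom).codRestrict
      (Algebra.adjoin K {φ x}).toSubring hmem)
  exact IsIntegral.map_of_comp_eq φ' φ.toRingHom (by ext r; rfl) h

end Transport

section Scale

variable {K L : Type*} [Field K] [Field L] [Algebra K L]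

theorem adjoin_smul_le (c : K) (x : L) :
    Algebra.adjoin K {algebraMap K L c * x} ≤ Algebra.adjoin K {x} := by
  apply Algebra.adjoin_le
  intro y hy
  rw [Set.mem_singleton_iff] at hy
  rw [hy]
  exact Subalgebra.mul_mem _ (Subalgebra.algebraMap_mem _ c) (Algebra.self_mem_adjoin_singleton K x)

/-- Integrality of `c z` over `K[c x]` (`c ∈ K^×`) gives integrality of `z` over `K[x]`. -/
theorem isIntegral_of_smul {c : K} (hc : c ≠ 0) {x z : L}
    (h : IsIntegral (Algebra.adjoin K {algebraMap K L c * x}) (algebraMap K L c * z)) :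
    IsIntegral (Algebra.adjoin K {x}) z := by
  have h1 : IsIntegral (Algebra.adjoin K {x}) (algebraMap K L c * z) :=
    IsIntegral.map_of_comp_eq (Subalgebra.inclusion (adjoin_smul_le c x)).toRingHom (RingHom.id L)
      (by ext r; rfl) h
  have h2 : IsIntegral (Algebra.adjoin K {x}) (algebraMap K L c⁻¹) :=
    isIntegral_algebraMap (R := Algebra.adjoin K {x}) (A := L)
      (x := ⟨algebraMap K L c⁻¹, Subalgebra.algebraMap_mem _ c⁻¹⟩)
  have h3 := h2.mul h1
  rwa [← mul_assoc, ← map_mul, inv_mul_cancel₀ hc, map_one, one_mul] at h3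

end Scale

section Level

open Fermat.Agent.ES.KRON.Conjugates11

variable (n e ℓ : ℕ) [NeZero n] [NeZero ℓ]

/-- the tautological embedding `Fbar_M → ℚbar((q))`. -/
def valHom (M : ℕ) [NeZero M] : FF M →+* LaurentSeries Kbar :=
  (modularFunctionFieldBar M).val.toRingHom

theorem valHom_apply (M : ℕ) [NeZero M] (x : FF M) : valHom M x = (x : LaurentSeries Kbar) := rfl

theorem valHom_const (M : ℕ) [NeZero M] (c : Kbar) :
    valHom M (algebraMap Kbar (FF M) c) = HahnSeries.C c := by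
  show algebraMap Kbar (LaurentSeries Kbar) c = HahnSeries.C c
  rw [algebraMap_laurentSeries_eq_single]
  rfl

variable {n e}

/-- `αt`. -/
def aF (hn : TMem n e n) : FF (n * ℓ) := heckeAlphaBar Kbar n ℓ (tF n hn)

/-- `βt`. -/
def bF (hn : TMem n e n) : FF (n * ℓ) := heckeBetaBar Kbar n ℓ (tF n hn)

theorem coe_aF (hn : TMem n e n) : ((aF ℓ hn : FF (n * ℓ)) : LaurentSeries Kbar) = tK n e := by
  rw [aF, coe_heckeAlphaBar]
  rfl

theorem coe_bF (hn : TMem n e n) :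
    ((bF ℓ hn : FF (n * ℓ)) : LaurentSeries Kbar) = qExpand Kbar ℓ (tK n e) := by
  rw [bF, coe_heckeBetaBar]
  rfl

theorem aF_eq_tF (hn : TMem n e n) :
    aF ℓ hn = tF (n * ℓ) (hn.mono (dvd_mul_right n ℓ)) := by
  apply Subtype.ext
  rw [coe_aF]
  rfl

theorem order_tK' : (tK n e).order = -1 := TGen19.order_tK n e

theorem order_qExpand_tK : (qExpand Kbar ℓ (tK n e)).order = -(ℓ : ℤ) := by
  rw [Fermat.Agent.IG.PR.ThetaV1.order_qExpand, order_tK']
  ring

theorem isGen_aF (hn : TMem n e n) : IsGen Kbar (aF ℓ hn) := by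
  rw [aF_eq_tF]
  exact TGen19.isGen_tF n e (n * ℓ) _

theorem finrank_aF (hb : BaseHyp n e) (hℓ : ℓ.Prime) (hℓn : ¬ ℓ ∣ n) :
    Module.finrank (Kbar⟮aF ℓ (tMem hb)⟯ : IntermediateField Kbar (FF (n * ℓ))) (FF (n * ℓ)) =
      ℓ + 1 := by
  rw [aF_eq_tF]
  have h := TGen19.finrank_adjoin_tF_mul n e (tGenBase' hb) (n * ℓ) (dvd_mul_right n ℓ)
    ((tMem hb).mono (dvd_mul_right n ℓ))
  rw [Fermat.Agent.ES.HECKE.DegreeL25.psi_mul_prime n ℓ hℓ hℓn] at h
  exact Nat.eq_of_mul_eq_mul_left (GNPsi.gnp_dedekindPsi_pos (NeZero.ne n)) h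

/-- **Poles.** At level `n ℓ`, every pole of `αt` is a pole of `βt`. -/
theorem ord_bF_neg_of_ord_aF_neg (hb : BaseHyp n e) (hℓ : ℓ.Prime) (hℓn : ¬ ℓ ∣ n)
    (v : Place Kbar (FF (n * ℓ))) (hv : v.ord (aF ℓ (tMem hb)) < 0) :
    v.ord (bF ℓ (tMem hb)) < 0 := by
  classical
  set hn := tMem hb with hhn
  have hℓ2 : (2 : ℤ) ≤ ℓ := by exact_mod_cast hℓ.two_le
  have ht0 : tF n hn ≠ 0 := fun h0 => TGen19.tK_ne_zero n e (congrArg Subtype.val h0)
  have ha0 : aF ℓ hn ≠ 0 := by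
    rw [aF]; exact (map_ne_zero _).mpr ht0
  have hb0 : bF ℓ hn ≠ 0 := by
    rw [bF]; exact (map_ne_zero _).mpr ht0
  -- the place at infinity
  set τ₁ := valHom (n * ℓ) with hτ₁
  have hτ₁c := valHom_const (n * ℓ)
  have h1a : (τ₁ (aF ℓ hn)).order = -1 := by
    rw [hτ₁, valHom_apply, coe_aF]; exact order_tK'
  have h1b : (τ₁ (bF ℓ hn)).order = -(ℓ : ℤ) := by
    rw [hτ₁, valHom_apply, coe_bF]; exact order_qExpand_tK ℓ
  have hnt₁ : ∃ f, f ≠ 0 ∧ (τ₁ f).order ≠ 0 := ⟨aF ℓ hn, ha0, by rw [h1a]; decide⟩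
  set P₁ := LaurentPlace.embPlace τ₁ hτ₁c hnt₁ with hP₁
  have hP₁a : P₁.ord (aF ℓ hn) = -1 := by
    rw [hP₁, embPlace_ord_eq τ₁ hτ₁c hnt₁ ha0 h1a ha0, h1a]
  have hP₁b : P₁.ord (bF ℓ hn) = -(ℓ : ℤ) := by
    rw [hP₁, embPlace_ord_eq τ₁ hτ₁c hnt₁ ha0 h1a hb0, h1b]
  -- the Atkin–Lehner place
  obtain ⟨W, hWβ, hWα⟩ := exists_W n ℓ hℓ hℓn
  have hWc : ∀ c : Kbar, W (algebraMap Kbar (FF (n * ℓ)) c) = HahnSeries.C c := by
    intro c
    have h1 : algebraMap Kbar (FF (n * ℓ)) c =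
        heckeAlphaBar Kbar n ℓ (algebraMap Kbar (FF n) c) := (AlgHom.commutes _ c).symm
    rw [h1, hWα]
    show qExpand Kbar ℓ (algebraMap Kbar (LaurentSeries Kbar) c) = HahnSeries.C c
    rw [algebraMap_laurentSeries_eq_single]
    exact qExpand_C ℓ c
  have h2b : (W (bF ℓ hn)).order = -1 := by
    rw [bF, hWβ]; exact order_tK'
  have h2a : (W (aF ℓ hn)).order = -(ℓ : ℤ) := by
    rw [aF, hWα]; exact order_qExpand_tK ℓ
  have hnt₂ : ∃ f, f ≠ 0 ∧ (W f).order ≠ 0 := ⟨bF ℓ hn, hb0, by rw [h2b]; decide⟩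
  set P₂ := LaurentPlace.embPlace W hWc hnt₂ with hP₂
  have hP₂b : P₂.ord (bF ℓ hn) = -1 := by
    rw [hP₂, embPlace_ord_eq W hWc hnt₂ hb0 h2b hb0, h2b]
  have hP₂a : P₂.ord (aF ℓ hn) = -(ℓ : ℤ) := by
    rw [hP₂, embPlace_ord_eq W hWc hnt₂ hb0 h2b ha0, h2a]
  have hne : P₁ ≠ P₂ := by
    intro h
    rw [h, hP₂a] at hP₁a
    omega
  have hmem := mem_of_ord_neg (isGen_aF ℓ hn) {P₁, P₂}
    (by
      intro w hw
      rcases Finset.mem_insert.mp hw with rfl | hw
      · rw [hP₁a]; decide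
      · rw [Finset.mem_singleton.mp hw, hP₂a]; omega)
    (by
      rw [Finset.sum_pair hne, hP₁a, hP₂a, finrank_aF ℓ hb hℓ hℓn]
      push_cast
      ring) v hv
  rcases Finset.mem_insert.mp hmem with rfl | hw
  · rw [hP₁b]; omega
  · rw [Finset.mem_singleton.mp hw, hP₂b]; decide

theorem isGen_bF (hn : TMem n e n) : IsGen Kbar (bF ℓ hn) := by
  have htr : Transcendental Kbar (bF ℓ hn) := by
    intro halg
    apply TGen19.transcendental_tF n e n hn
    exact (isAlgebraic_algHom_iff (heckeBetaBar Kbar n ℓ) (RingHom.injective _)).mp halg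
  refine ⟨htr, ?_⟩
  have := Degree.finiteDimensional_adjoin (n * ℓ) (realizeData (n * ℓ)) (cuspData (n * ℓ))
  exact FF.ffx_finiteDimensional_of_transcendental (jF (n * ℓ)) (bF ℓ hn) htr

/-- **(I2) at level `n ℓ`**: `αt` is integral over `ℚbar[βt]`. -/
theorem isIntegral_aF (hb : BaseHyp n e) (hℓ : ℓ.Prime) (hℓn : ¬ ℓ ∣ n) :
    IsIntegral (Algebra.adjoin Kbar {bF ℓ (tMem hb)}) (aF ℓ (tMem hb)) := by
  have h := Fermat.Agent.RED.PUR.PlaceIntegral3.mem_intRing_of_forall_place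
    (isGen_bF ℓ (tMem hb)) (aF ℓ (tMem hb)) (by
      intro v hbv
      rw [FF.ffp_mem_iff_ord_nonneg] at hbv ⊢
      by_contra hneg
      have := ord_bF_neg_of_ord_aF_neg ℓ hb hℓ hℓn v (not_le.mp hneg)
      omega)
  exact h

/-- **(I2), series form**: `t` is integral over `ℚbar[t(q^ℓ)]`. -/
theorem isIntegral_tK (hb : BaseHyp n e) (hℓ : ℓ.Prime) (hℓn : ¬ ℓ ∣ n) :
    IsIntegral (Algebra.adjoin Kbar {qExpand Kbar ℓ (tK n e)}) (tK n e) := by
  have h := isIntegral_adjoin_map (modularFunctionFieldBar (n * ℓ)).val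
    (isIntegral_aF ℓ hb hℓ hℓn)
  have h1 : (modularFunctionFieldBar (n * ℓ)).val (bF ℓ (tMem hb)) = qExpand Kbar ℓ (tK n e) :=
    coe_bF ℓ (tMem hb)
  have h2 : (modularFunctionFieldBar (n * ℓ)).val (aF ℓ (tMem hb)) = tK n e := coe_aF ℓ (tMem hb)
  rw [h1, h2] at h
  exact h

/-- **(I1), series form**: `t(q^ℓ)` is integral over `ℚbar[t]` (apply `W` to (I2)). -/
theorem isIntegral_qExpand_tK (hb : BaseHyp n e) (hℓ : ℓ.Prime) (hℓn : ¬ ℓ ∣ n) :
    IsIntegral (Algebra.adjoin Kbar {tK n e}) (qExpand Kbar ℓ (tK n e)) := by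
  obtain ⟨W, hWβ, hWα⟩ := exists_W n ℓ hℓ hℓn
  have hWc : ∀ c : Kbar, W (algebraMap Kbar (FF (n * ℓ)) c) =
      algebraMap Kbar (LaurentSeries Kbar) c := by
    intro c
    have h1 : algebraMap Kbar (FF (n * ℓ)) c =
        heckeAlphaBar Kbar n ℓ (algebraMap Kbar (FF n) c) := (AlgHom.commutes _ c).symm
    rw [h1, hWα]
    show qExpand Kbar ℓ (algebraMap Kbar (LaurentSeries Kbar) c) = _
    rw [algebraMap_laurentSeries_eq_single]
    exact qExpand_C ℓ c
  let Wa : FF (n * ℓ) →ₐ[Kbar] LaurentSeries Kbar := { W with commutes' := hWc }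
  have h := isIntegral_adjoin_map Wa (isIntegral_aF ℓ hb hℓ hℓn)
  have h1 : Wa (bF ℓ (tMem hb)) = tK n e := by
    show W (bF ℓ (tMem hb)) = _
    rw [bF, hWβ]; rfl
  have h2 : Wa (aF ℓ (tMem hb)) = qExpand Kbar ℓ (tK n e) := by
    show W (aF ℓ (tMem hb)) = _
    rw [aF, hWα]; rfl
  rw [h1, h2] at h
  exact h

/-- (I1) at level `n ℓ`: `βt` is integral over `ℚbar[αt]`. -/
theorem isIntegral_bF (hb : BaseHyp n e) (hℓ : ℓ.Prime) (hℓn : ¬ ℓ ∣ n) :
    IsIntegral (Algebra.adjoin Kbar {aF ℓ (tMem hb)}) (bF ℓ (tMem hb)) := by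
  apply Fermat.Agent.RED.PUR.PlaceIntegral3.isIntegral_polyRing_of_map (K := Kbar)
    (F' := LaurentSeries Kbar)
  have h := isIntegral_qExpand_tK ℓ hb hℓ hℓn
  have h1 : algebraMap (FF (n * ℓ)) (LaurentSeries Kbar) (aF ℓ (tMem hb)) = tK n e :=
    coe_aF ℓ (tMem hb)
  have h2 : algebraMap (FF (n * ℓ)) (LaurentSeries Kbar) (bF ℓ (tMem hb)) =
      qExpand Kbar ℓ (tK n e) := coe_bF ℓ (tMem hb)
  rw [h1, h2]
  exact h

theorem C_eq_algebraMap (c : Kbar) :
    (HahnSeries.C c : LaurentSeries Kbar) = algebraMap Kbar (LaurentSeries Kbar) c := by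
  rw [algebraMap_laurentSeries_eq_single]
  rfl

/-- The Fricke expansion at level `n ℓ` as a `ℚbar`-algebra homomorphism. -/
def frickeHom : FF (n * ℓ) →ₐ[Kbar] LaurentSeries Kbar :=
  { (cuspData (n * ℓ)).T ModularGroup.S with
    commutes' := fun c => by
      show (cuspData (n * ℓ)).T ModularGroup.S (algebraMap Kbar (FF (n * ℓ)) c) = _
      rw [Fermat.Agent.RED.LVL.FrickeExp19.T_S_const, C_eq_algebraMap] }

theorem frickeHom_apply (x : FF (n * ℓ)) :
    frickeHom (n := n) ℓ x = (cuspData (n * ℓ)).T ModularGroup.S x := rfl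

theorem exists_fricke (hb : BaseHyp n e) : ∃ c₀ : Kbar, c₀ ≠ 0 ∧
    frickeHom ℓ (aF ℓ (tMem hb)) =
      algebraMap Kbar (LaurentSeries Kbar) c₀ * (qExpand Kbar ℓ (tK n e))⁻¹ ∧
    frickeHom ℓ (bF ℓ (tMem hb)) = algebraMap Kbar (LaurentSeries Kbar) c₀ * (tK n e)⁻¹ := by
  obtain ⟨c₀, hc₀, hT⟩ := T_S_tF hb
  refine ⟨c₀, hc₀, ?_, ?_⟩
  · rw [frickeHom_apply, aF, T_S_alpha, hT, map_mul, qExpand_C, map_inv₀, C_eq_algebraMap]
  · rw [frickeHom_apply, bF, T_S_beta, hT, C_eq_algebraMap]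

/-- **(I3), series form**: `t(q^ℓ)⁻¹` is integral over `ℚbar[t⁻¹]`. -/
theorem isIntegral_inv_qExpand_tK (hb : BaseHyp n e) (hℓ : ℓ.Prime) (hℓn : ¬ ℓ ∣ n) :
    IsIntegral (Algebra.adjoin Kbar {(tK n e)⁻¹}) (qExpand Kbar ℓ (tK n e))⁻¹ := by
  obtain ⟨c₀, hc₀, ha, hbb⟩ := exists_fricke ℓ hb
  have h := isIntegral_adjoin_map (frickeHom ℓ) (isIntegral_aF ℓ hb hℓ hℓn)
  rw [ha, hbb] at h
  exact isIntegral_of_smul hc₀ h

/-- **(I4), series form**: `t⁻¹` is integral over `ℚbar[t(q^ℓ)⁻¹]`. -/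
theorem isIntegral_inv_tK (hb : BaseHyp n e) (hℓ : ℓ.Prime) (hℓn : ¬ ℓ ∣ n) :
    IsIntegral (Algebra.adjoin Kbar {(qExpand Kbar ℓ (tK n e))⁻¹}) (tK n e)⁻¹ := by
  obtain ⟨c₀, hc₀, ha, hbb⟩ := exists_fricke ℓ hb
  have h := isIntegral_adjoin_map (frickeHom ℓ) (isIntegral_bF ℓ hb hℓ hℓn)
  rw [ha, hbb] at h
  exact isIntegral_of_smul hc₀ h

end Level

end Fermat.Agent.ES.N34.ModEqBar23
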