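/-
Program N (S34), chapter MODEL, support brick for S2 (helper18).  Mathlib only.

`R` a domain with fraction field `K` and "uniformiser" `π` (every nonzero element is `π ^ k · unit`),
`F / K` a field, `s ∈ F`, `B ⊂ F` an `R`-subalgebra containing the integral closure of `R[s]`
(e.g. `ChartGeneric22.chart R s`), `π`-saturated in `O1 ⊓ O2` (the field `sat0 / sat1` of
`NodalCore13.NodalTwoChartModel`, literally).

* `exists_mul_isIntegral_adjoin` : `x` integral over `K[s]` ⇒ `r • x` integral over `R[s]` for some
  `r ≠ 0` in `R` (clearing the denominators of the coefficients);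
* `mem_of_isIntegral_field` : `x` integral over `K[s]`, `x ∈ O1`, `x ∈ O2` ⇒ `x ∈ B`
  ("integral on the generic fibre + integral at the two generic points of the special fibre
  ⇒ integral"): this turns (I1), (I3) of S2 into `yN ∈ B0`, `yN⁻¹ ∈ B1`.
-/
import Mathlib

set_option autoImplicit false

namespace Fermat.Agent.ES.N34.SatIntegral18

open Polynomial

/-- Integrality along `g` lifts along a surjection `h` in front of `g`. -/
theorem isIntegralElem_comp_of_surj {A₁ A₂ S : Type*} [CommRing A₁] [CommRing A₂]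
    [CommRing S] (h : A₁ →+* A₂) (hh : Function.Surjective h) (g : A₂ →+* S) {x : S}
    (hx : g.IsIntegralElem x) : (g.comp h).IsIntegralElem x := by
  obtain ⟨p, hp, hpx⟩ := hx
  have hl : p ∈ Polynomial.lifts h := by
    rw [Polynomial.lifts_iff_coeff_lifts]
    intro n
    exact hh _
  obtain ⟨q, hq, _, hqm⟩ := Polynomial.lifts_and_natDegree_eq_and_monic hl hp
  refine ⟨q, hqm, ?_⟩
  rw [← hq, Polynomial.eval₂_map] at hpx
  exact hpx

section

variable {R F : Type*} [CommRing R] [Field F] [Algebra R F]

/-- The surjection `R[X] → R[s]`. -/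
noncomputable def toAdjoin (s : F) : R[X] →+* Algebra.adjoin R {s} :=
  (Polynomial.aeval (⟨s, Algebra.subset_adjoin (Set.mem_singleton _)⟩ :
    Algebra.adjoin R {s})).toRingHom

theorem coe_toAdjoin (s : F) (P : R[X]) :
    ((toAdjoin (R := R) s P : Algebra.adjoin R {s}) : F) = Polynomial.aeval s P := by
  show ((Polynomial.aeval (⟨s, Algebra.subset_adjoin (Set.mem_singleton _)⟩ :
    Algebra.adjoin R {s}) P : Algebra.adjoin R {s}) : F) = _
  rw [Polynomial.aeval_subalgebra_coe]

theorem toAdjoin_surjective (s : F) : Function.Surjective (toAdjoin (R := R) s) := by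
  rintro ⟨y, hy⟩
  have hy' : y ∈ (Polynomial.aeval (R := R) s).range := by
    rw [← Algebra.adjoin_singleton_eq_range_aeval]; exact hy
  obtain ⟨P, hP⟩ := hy'
  exact ⟨P, Subtype.ext (by rw [coe_toAdjoin]; exact hP)⟩

theorem algebraMap_comp_toAdjoin (s : F) :
    (algebraMap (Algebra.adjoin R {s}) F).comp (toAdjoin (R := R) s)
      = (Polynomial.aeval (R := R) s).toRingHom := by
  ext P <;> simp [toAdjoin]

/-- integrality over `R[s]` is integrality along `aeval s : R[X] → F`. -/
theorem isIntegral_adjoin_iff (s : F) (x : F) :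
    IsIntegral (Algebra.adjoin R {s}) x ↔ ((Polynomial.aeval (R := R) s).toRingHom).IsIntegralElem x := by
  rw [← algebraMap_comp_toAdjoin]
  constructor
  · intro h
    exact isIntegralElem_comp_of_surj _ (toAdjoin_surjective s) _ h
  · intro h
    exact RingHom.IsIntegralElem.of_comp h

end

section Clear

variable {R K F : Type*} [CommRing R] [IsDomain R] [Field K] [Field F] [Algebra R K]
  [IsFractionRing R K] [Algebra K F] [Algebra R F] [IsScalarTower R K F]

attribute [local instance] Polynomial.algebra

/-- Clearing denominators: if `x` is integral over `K[s]`, some nonzero multiple `r • x`, `r ∈ R`,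
is integral over `R[s]`. -/
theorem exists_mul_isIntegral_adjoin (s : F) {x : F} (hx : IsIntegral (Algebra.adjoin K {s}) x) :
    ∃ r : R, r ≠ 0 ∧ IsIntegral (Algebra.adjoin R {s}) (algebraMap R F r * x) := by
  let algRX : Algebra R[X] F := (Polynomial.aeval (R := R) s).toRingHom.toAlgebra
  let algKX : Algebra K[X] F := (Polynomial.aeval (R := K) s).toRingHom.toAlgebra
  have : IsScalarTower R[X] K[X] F := IsScalarTower.of_algebraMap_eq (fun P => by
    show Polynomial.aeval s P = Polynomial.aeval s (Polynomial.map (algebraMap R K) P)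
    rw [Polynomial.aeval_map_algebraMap])
  have := Polynomial.isLocalization (nonZeroDivisors R) K
  have hx' : IsIntegral K[X] x := (isIntegral_adjoin_iff (R := K) s x).mp hx
  obtain ⟨⟨m, hm⟩, hmx⟩ :=
    IsIntegral.exists_multiple_integral_of_isLocalization ((nonZeroDivisors R).map C) x hx'
  obtain ⟨r, hr, rfl⟩ := hm
  refine ⟨r, nonZeroDivisors.ne_zero hr, ?_⟩
  rw [isIntegral_adjoin_iff (R := R) s]
  have : (⟨C r, r, hr, rfl⟩ : (nonZeroDivisors R).map (C : R →+* R[X])) • x
      = algebraMap R F r * x := by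
    rw [Submonoid.smul_def, Algebra.smul_def]
    show Polynomial.aeval s (C r) * x = _
    rw [Polynomial.aeval_C]
  rw [this] at hmx
  exact hmx

/-- **Integral on the generic fibre and at the generic points of the special fibre ⇒ integral.** -/
theorem mem_of_isIntegral_field (π : R)
    (dvrR : ∀ r : R, r ≠ 0 → ∃ (k : ℕ) (v : Rˣ), r = π ^ k * v)
    (s : F) (B : Subalgebra R F)
    (hB : ∀ x : F, IsIntegral (Algebra.adjoin R {s}) x → x ∈ B)
    (O1 O2 : ValuationSubring F)
    (hπ1 : algebraMap R F π ∈ O1) (hπ2 : algebraMap R F π ∈ O2)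
    (sat : ∀ b ∈ B, ∀ c : F, c ∈ O1 → c ∈ O2 → b = algebraMap R F π * c → c ∈ B)
    {x : F} (hx : IsIntegral (Algebra.adjoin K {s}) x) (hx1 : x ∈ O1) (hx2 : x ∈ O2) :
    x ∈ B := by
  obtain ⟨r, hr0, hrx⟩ := exists_mul_isIntegral_adjoin (R := R) (K := K) s hx
  obtain ⟨k, v, hrv⟩ := dvrR r hr0
  have hk : algebraMap R F π ^ k * x ∈ B := by
    have h1 : algebraMap R F r * x ∈ B := hB _ hrx
    have h2 : algebraMap R F π ^ k * x
        = algebraMap R F ((v⁻¹ : Rˣ) : R) * (algebraMap R F r * x) := by
      rw [hrv, map_mul, map_pow]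
      have : algebraMap R F ((v⁻¹ : Rˣ) : R) * algebraMap R F (v : R) = 1 := by
        rw [← map_mul, Units.inv_mul, map_one]
      linear_combination (-(algebraMap R F π ^ k * x)) * this
    rw [h2]
    exact B.mul_mem (B.algebraMap_mem _) h1
  clear hrx hrv
  induction k with
  | zero => simpa using hk
  | succ k ih =>
    apply ih
    refine sat _ hk _ ?_ ?_ ?_
    · exact O1.mul_mem _ _ (pow_mem hπ1 _) hx1
    · exact O2.mul_mem _ _ (pow_mem hπ2 _) hx2
    · ring

end Clear

end Fermat.Agent.ES.N34.SatIntegral18
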