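/-
Program N (S34), brick S2 (helper23), part 2: **`yN ∈ B0`, `yN⁻¹ ∈ B1`** (ModelDefs9 vocabulary).

`K ⊂ ℚbar` any subfield, `(n, e) = (4, 8)` or `(9, 3)` (`hb : BaseHyp n e`), `ℓ` a prime not dividing `n`,
`t = tq K n e`, `y = qExpand K ℓ t = t(q^ℓ)` in `K((q))`:

* `isIntegral_qExpand_tq`      (I1)  `y` is integral over `K[t]`;       `isIntegral_tq`      (I2) converse;
* `isIntegral_inv_qExpand_tq`  (I3)  `y⁻¹` is integral over `K[t⁻¹]`;   `isIntegral_inv_tq`  (I4) converse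
  (descent `ℚbar ⇒ K` of `ModEqBar23`, by `PlaceIntegral3`: `ℚbar[t]` is integral over `K[t]`, and
  integrality descends along the field embedding `K((q)) → ℚbar((q))`);
* `isIntegral_of_coe`, `isIntegral_of_coe_eq` : the same inside any `E : IntermediateField K K((q))`;
* `isIntegral_yN`, `isIntegral_inv_yN` : (I1), (I3) in `F = FK (M' q) K` for `tN`, `yN` of `ModelDefs9`;
* **`yN_mem_B0`, `inv_yN_mem_B1`** : with `SatIntegral18.mem_of_isIntegral_field` (clearing denominators,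
  then dividing by `π` inside `O1 ⊓ O2` by `sat0`/`sat1` — literally the fields of
  `NodalCore13.NodalTwoChartModel`), for arbitrary valuation subrings `O1 O2` of `F` containing `π`,
  and `yN^{±1} ∈ O1 ⊓ O2`.
-/
import Mathlib
import Fermat.Agent.ES.N34.ModEqBar23
import Fermat.Agent.RED.Interface4
import Fermat.Agent.RED.PUR.PlaceIntegral3
import Fermat.Agent.RED.PUR.ChartGeneric22
import Fermat.Agent.ES.N34.ModelDefs9
import Fermat.Agent.ES.N34.SatIntegral18

set_option autoImplicit false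
set_option linter.unusedSectionVars false
set_option linter.style.haveILetI false
set_option synthInstance.maxHeartbeats 400000
set_option maxHeartbeats 400000

open ModularCurve IntermediateField

noncomputable section

namespace Fermat.Agent.ES.N34.ModEq23

open Fermat.Agent.X0 Fermat.Agent.RED.Interface4
open Fermat.Agent.RED.BASE.Interface12 Fermat.Agent.RED.BASE.Hauptmodul12
open Fermat.Agent.RED.BASE.EtaQuot12
open Fermat.Agent.RED.PUR.PlaceIntegral3
open Fermat.Agent.ES.N34.ModEqBar23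

section Generic

variable {K L F F' : Type*} [Field K] [Field L] [Field F] [Field F']
  [Algebra K L] [Algebra K F] [Algebra L F'] [Algebra K F'] [IsScalarTower K L F']
  [Algebra.IsIntegral K L]

/-- Descent of integrality `L[φ x] ⇒ K[x]` along a `K`-algebra map `φ : F → F'` of fields
(`L/K` integral). -/
theorem isIntegral_adjoin_of_map (φ : F →ₐ[K] F') {x z : F}
    (h : IsIntegral (Algebra.adjoin L {φ x}) (φ z)) : IsIntegral (Algebra.adjoin K {x}) z := by
  letI : Algebra F F' := φ.toRingHom.toAlgebra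
  have : IsScalarTower K F F' := IsScalarTower.of_algebraMap_eq (fun c => (φ.commutes c).symm)
  apply isIntegral_polyRing_of_map (K := K) (F' := F')
  apply isIntegral_polyRing_of_isIntegral_polyRing (K := K) (L := L)
  exact h

end Generic

section Series

variable (K : IntermediateField ℚ Qbar) {n e : ℕ} (ℓ : ℕ) [NeZero n] [NeZero ℓ]

theorem isIntegral_top_Qbar : Algebra.IsIntegral K Qbar := by
  have h1 : Algebra.IsAlgebraic ℚ Qbar := AlgebraicClosure.isAlgebraic ℚ
  have h2 : Algebra.IsAlgebraic K Qbar := Algebra.IsAlgebraic.tower_top (K := ℚ) K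
  exact Algebra.IsAlgebraic.isIntegral

/-- base change of coefficients `K((q)) → ℚbar((q))`, as a `K`-algebra map. -/
def coeffAlgHom : LaurentSeries K →ₐ[K] LaurentSeries Qbar :=
  { coeffMap (algebraMap K Qbar) with
    commutes' := fun c => by
      show coeffMap (algebraMap K Qbar) (algebraMap K (LaurentSeries K) c) = _
      rw [algebraMap_laurentSeries_eq_single, coeffMap_single,
        IsScalarTower.algebraMap_apply K Qbar (LaurentSeries Qbar),
        algebraMap_laurentSeries_eq_single] }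

theorem coeffAlgHom_apply (x : LaurentSeries K) :
    coeffAlgHom K x = coeffMap (algebraMap K Qbar) x := rfl

theorem descend {x z : LaurentSeries K}
    (h : IsIntegral (Algebra.adjoin Qbar {coeffMap (algebraMap K Qbar) x})
      (coeffMap (algebraMap K Qbar) z)) :
    IsIntegral (Algebra.adjoin K {x}) z := by
  have : Algebra.IsIntegral K Qbar := isIntegral_top_Qbar K
  exact isIntegral_adjoin_of_map (L := Qbar) (coeffAlgHom K) h

/-- **(I1) over `K`, series form.** -/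
theorem isIntegral_qExpand_tq (hb : BaseHyp n e) (hℓ : ℓ.Prime) (hℓn : ¬ ℓ ∣ n) :
    IsIntegral (Algebra.adjoin K {tq K n e}) (qExpand K ℓ (tq K n e)) := by
  apply descend
  rw [ModularCurve.coeffMap_qExpand, coeffMap_tq]
  exact isIntegral_qExpand_tK ℓ hb hℓ hℓn

/-- **(I3) over `K`, series form.** -/
theorem isIntegral_inv_qExpand_tq (hb : BaseHyp n e) (hℓ : ℓ.Prime) (hℓn : ¬ ℓ ∣ n) :
    IsIntegral (Algebra.adjoin K {(tq K n e)⁻¹}) (qExpand K ℓ (tq K n e))⁻¹ := by
  apply descend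
  rw [map_inv₀, map_inv₀, ModularCurve.coeffMap_qExpand, coeffMap_tq]
  exact isIntegral_inv_qExpand_tK ℓ hb hℓ hℓn

/-- **(I2) over `K`, series form.** -/
theorem isIntegral_tq (hb : BaseHyp n e) (hℓ : ℓ.Prime) (hℓn : ¬ ℓ ∣ n) :
    IsIntegral (Algebra.adjoin K {qExpand K ℓ (tq K n e)}) (tq K n e) := by
  apply descend
  rw [ModularCurve.coeffMap_qExpand, coeffMap_tq]
  exact isIntegral_tK ℓ hb hℓ hℓn

/-- **(I4) over `K`, series form.** -/
theorem isIntegral_inv_tq (hb : BaseHyp n e) (hℓ : ℓ.Prime) (hℓn : ¬ ℓ ∣ n) :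
    IsIntegral (Algebra.adjoin K {(qExpand K ℓ (tq K n e))⁻¹}) (tq K n e)⁻¹ := by
  apply descend
  rw [map_inv₀, map_inv₀, ModularCurve.coeffMap_qExpand, coeffMap_tq]
  exact isIntegral_inv_tK ℓ hb hℓ hℓn

end Series

section Field

variable (K : IntermediateField ℚ Qbar) {n e : ℕ} (ℓ : ℕ) [NeZero n] [NeZero ℓ]

/-- Integrality over `K[t]` descends from `K((q))` to any intermediate field. -/
theorem isIntegral_of_coe (E : IntermediateField K (LaurentSeries K)) {t z : E}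
    (h : IsIntegral (Algebra.adjoin K {(t : LaurentSeries K)}) (z : LaurentSeries K)) :
    IsIntegral (Algebra.adjoin K {t}) z := by
  apply isIntegral_polyRing_of_map (K := K) (F' := LaurentSeries K)
  exact h

/-- the same, with the coercions computed. -/
theorem isIntegral_of_coe_eq (E : IntermediateField K (LaurentSeries K)) {t z : E}
    {t' z' : LaurentSeries K} (ht : (t : LaurentSeries K) = t') (hz : (z : LaurentSeries K) = z')
    (h : IsIntegral (Algebra.adjoin K {t'}) z') : IsIntegral (Algebra.adjoin K {t}) z := by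
  subst ht hz
  exact isIntegral_of_coe K E h

end Field

section Model

open Fermat.Agent.ES.N34.ModelDefs9 Fermat.Agent.RED.PUR.ChartGeneric22
open Fermat.Agent.ES.N34.SatIntegral18

variable (A : ValuationSubring Qbar) {K : IntermediateField ℚ Qbar} {M' : ℕ} (q : ℕ)
  [NeZero M'] [NeZero q] {n e : ℕ} [NeZero n]

/-- **(I1) in `F = FK (M' q) K`**: `yN` is integral over `K[tN]`. -/
theorem isIntegral_yN (hb : BaseHyp n e) (hq : q.Prime) (hqn : ¬ q ∣ n)
    (ht : tq (↥K) n e ∈ FK M' K) :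
    IsIntegral (Algebra.adjoin K {tN q ht}) (yN q ht) := by
  exact isIntegral_of_coe_eq K _ (coe_tN q ht) (coe_yN q ht) (isIntegral_qExpand_tq K q hb hq hqn)

/-- **(I3) in `F = FK (M' q) K`**: `yN⁻¹` is integral over `K[tN⁻¹]`. -/
theorem isIntegral_inv_yN (hb : BaseHyp n e) (hq : q.Prime) (hqn : ¬ q ∣ n)
    (ht : tq (↥K) n e ∈ FK M' K) :
    IsIntegral (Algebra.adjoin K {(tN q ht)⁻¹}) (yN q ht)⁻¹ := by
  refine isIntegral_of_coe_eq K _ ?_ ?_ (isIntegral_inv_qExpand_tq K q hb hq hqn)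
  · rw [IntermediateField.coe_inv, coe_tN]
  · rw [IntermediateField.coe_inv, coe_yN]

set_option maxHeartbeats 4000000 in
/-- **S2, chart `0`**: `yN ∈ B0` — from (I1) over `K`, `π`-saturation of `B0` in `O1 ⊓ O2`, and
`yN ∈ O1 ⊓ O2`. (`sat0` is literally `NodalCore13.NodalTwoChartModel.sat0`.) -/
theorem yN_mem_B0 (hb : BaseHyp n e) (hq : q.Prime) (hqn : ¬ q ∣ n)
    (ht : tq (↥K) n e ∈ FK M' K) (π : ↥(AK A K))
    (dvrR : ∀ r : ↥(AK A K), r ≠ 0 → ∃ (k : ℕ) (v : (↥(AK A K))ˣ), r = π ^ k * v)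
    (O1 O2 : ValuationSubring ↥(FK (M' * q) K))
    (hπ1 : algebraMap ↥(AK A K) ↥(FK (M' * q) K) π ∈ O1)
    (hπ2 : algebraMap ↥(AK A K) ↥(FK (M' * q) K) π ∈ O2)
    (sat0 : ∀ b ∈ B0 A q ht, ∀ c : ↥(FK (M' * q) K), c ∈ O1 → c ∈ O2 →
      b = algebraMap ↥(AK A K) ↥(FK (M' * q) K) π * c → c ∈ B0 A q ht)
    (hy1 : yN q ht ∈ O1) (hy2 : yN q ht ∈ O2) : yN q ht ∈ B0 A q ht := by
  have hB : ∀ x : ↥(FK (M' * q) K), IsIntegral (Algebra.adjoin ↥(AK A K) {tN q ht}) x →
      x ∈ B0 A q ht := by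
    intro x hx
    unfold B0
    exact mem_chart_iff.2 hx
  have hI := isIntegral_yN q hb hq hqn ht
  exact mem_of_isIntegral_field (R := ↥(AK A K)) (K := ↥K) (F := ↥(FK (M' * q) K)) π dvrR
    (tN q ht) (B0 A q ht) hB O1 O2 hπ1 hπ2 sat0 hI hy1 hy2

set_option maxHeartbeats 4000000 in
/-- **S2, chart `1`**: `yN⁻¹ ∈ B1` — from (I3) over `K`, `π`-saturation of `B1` in `O1 ⊓ O2`, and
`yN⁻¹ ∈ O1 ⊓ O2`. (`sat1` is literally `NodalCore13.NodalTwoChartModel.sat1`.) -/
theorem inv_yN_mem_B1 (hb : BaseHyp n e) (hq : q.Prime) (hqn : ¬ q ∣ n)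
    (ht : tq (↥K) n e ∈ FK M' K) (π : ↥(AK A K))
    (dvrR : ∀ r : ↥(AK A K), r ≠ 0 → ∃ (k : ℕ) (v : (↥(AK A K))ˣ), r = π ^ k * v)
    (O1 O2 : ValuationSubring ↥(FK (M' * q) K))
    (hπ1 : algebraMap ↥(AK A K) ↥(FK (M' * q) K) π ∈ O1)
    (hπ2 : algebraMap ↥(AK A K) ↥(FK (M' * q) K) π ∈ O2)
    (sat1 : ∀ b ∈ B1 A q ht, ∀ c : ↥(FK (M' * q) K), c ∈ O1 → c ∈ O2 →
      b = algebraMap ↥(AK A K) ↥(FK (M' * q) K) π * c → c ∈ B1 A q ht)
    (hy1 : (yN q ht)⁻¹ ∈ O1) (hy2 : (yN q ht)⁻¹ ∈ O2) : (yN q ht)⁻¹ ∈ B1 A q ht := by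
  have hB : ∀ x : ↥(FK (M' * q) K), IsIntegral (Algebra.adjoin ↥(AK A K) {(tN q ht)⁻¹}) x →
      x ∈ B1 A q ht := by
    intro x hx
    unfold B1
    exact mem_chart_iff.2 hx
  have hI := isIntegral_inv_yN q hb hq hqn ht
  exact mem_of_isIntegral_field (R := ↥(AK A K)) (K := ↥K) (F := ↥(FK (M' * q) K)) π dvrR
    (tN q ht)⁻¹ (B1 A q ht) hB O1 O2 hπ1 hπ2 sat1 hI hy1 hy2

end Model

end Fermat.Agent.ES.N34.ModEq23
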