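/-
Program N (S34), brick A1 (helper13), part 0: the LITERAL bundle that chapter MODEL (M9) delivers
to NUM, in the vocabulary of `NodalCore13` / `NodalCL13`.

* `NodeCoords π B 𝔪` : (M3), node coordinates at a maximal ideal `𝔪 ∋ π` lying on both components
  (literal shape of `N_PLAN27.md`): `x, y ∈ 𝔪`, `d (x y) = π e` with `d ∉ 𝔪`, and
  `𝔪 B_𝔪 = (π, x, y)` in chart form.
* `NodalNumData π t B0 B1 O1 O2` : everything `NodalCL13.cl_nodal` wants that does not depend on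
  the exponent `m` and on the function `u`: the model (M), noetherianity / fraction fields of the
  charts, the DVR data of `R`, (M2) smoothness off one branch, (M3) node coordinates at the
  two-branch points, and `K` algebraically closed in `F`.
* `NodalNumData.cl` : `cl_nodal` with the bundle plugged in; the remaining inputs are (U1), (U2),
  (U3).
-/
import Mathlib
import Fermat.Agent.ES.N34.NodalCL13

set_option autoImplicit false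

namespace Fermat.Agent.ES.N34.NumData13

open Fermat.Agent.ES.N34.NodalCore13 Fermat.Agent.ES.N34.NodalCL13

section

variable {R F : Type*} [CommRing R] [Field F] [Algebra R F]

/-- **(M3)** node coordinates at the maximal ideal `𝔪` of the chart `B` (chart form of
`𝔪 B_𝔪 = (π, x, y)`, `x y ∈ π B_𝔪`). -/
def NodeCoords (π : R) (B : Subalgebra R F) (𝔪 : Ideal B) : Prop :=
  ∃ x y : B, x ∈ 𝔪 ∧ y ∈ 𝔪 ∧
    (∃ d : B, d ∉ 𝔪 ∧ ∃ e : B, d * (x * y) = algebraMap R B π * e) ∧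
    ∀ b ∈ 𝔪, ∃ d : B, d ∉ 𝔪 ∧ d * b ∈ Ideal.span {algebraMap R B π, x, y}

end

section

variable (R K F : Type*) [CommRing R] [Field K] [Field F] [Algebra R K] [Algebra K F]
  [Algebra R F] [IsScalarTower R K F]

/-- **The deliverable of MODEL (M9) to NUM (A1).** -/
structure NodalNumData (π : R) (t : F) (B0 B1 : Subalgebra R F) (O1 O2 : ValuationSubring F) :
    Prop where
  model : NodalTwoChartModel R F π t B0 B1 O1 O2
  noeth0 : IsNoetherianRing B0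
  noeth1 : IsNoetherianRing B1
  frac0 : ∀ x : F, ∃ a ∈ B0, ∃ b ∈ B0, b ≠ 0 ∧ x * b = a
  frac1 : ∀ x : F, ∃ a ∈ B1, ∃ b ∈ B1, b ≠ 0 ∧ x * b = a
  fracR : IsFractionRing R K
  dvrR : ∀ r : R, r ≠ 0 → ∃ (k : ℕ) (v : Rˣ), r = π ^ k * v
  smooth0 : ∀ 𝔪 : Ideal B0, 𝔪.IsMaximal → algebraMap R B0 π ∈ 𝔪 →
    OffBranch π B0 O1 𝔪 ∨ OffBranch π B0 O2 𝔪 → SmoothAt π B0 𝔪
  smooth1 : ∀ 𝔪 : Ideal B1, 𝔪.IsMaximal → algebraMap R B1 π ∈ 𝔪 →
    OffBranch π B1 O1 𝔪 ∨ OffBranch π B1 O2 𝔪 → SmoothAt π B1 𝔪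
  node0 : ∀ 𝔪 : Ideal B0, 𝔪.IsMaximal → algebraMap R B0 π ∈ 𝔪 →
    ¬ OffBranch π B0 O1 𝔪 → ¬ OffBranch π B0 O2 𝔪 → NodeCoords π B0 𝔪
  node1 : ∀ 𝔪 : Ideal B1, 𝔪.IsMaximal → algebraMap R B1 π ∈ 𝔪 →
    ¬ OffBranch π B1 O1 𝔪 → ¬ OffBranch π B1 O2 𝔪 → NodeCoords π B1 𝔪
  algClosed : ∀ y : F, IsAlgebraic K y → ∃ c : K, algebraMap K F c = y

variable {R K F}

/-- `cl_nodal` with the MODEL bundle plugged in: what is left is (U1), (U2), (U3). -/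
theorem NodalNumData.cl {π : R} {t : F} {B0 B1 : Subalgebra R F} {O1 O2 : ValuationSubring F}
    (D : NodalNumData R K F π t B0 B1 O1 O2)
    (m : ℕ) (hm : 0 < m) (minv : R) (hminv : (m : R) * minv = 1) (u : F)
    (hu1 : PiO π O1 O2 (u - 1))
    (hu2 : ∀ v : AlgebraicCurve.Place K F, (m : ℤ) ∣ v.ord u)
    (hU3_0 : ∀ 𝔪 : Ideal B0, 𝔪.IsMaximal → algebraMap R B0 π ∈ 𝔪 →
      ¬ OffBranch π B0 O1 𝔪 → ¬ OffBranch π B0 O2 𝔪 → NodeCoords π B0 𝔪 →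
        NodeDatum π B0 O1 O2 m u 𝔪)
    (hU3_1 : ∀ 𝔪 : Ideal B1, 𝔪.IsMaximal → algebraMap R B1 π ∈ 𝔪 →
      ¬ OffBranch π B1 O1 𝔪 → ¬ OffBranch π B1 O2 𝔪 → NodeCoords π B1 𝔪 →
        NodeDatum π B1 O1 O2 m u 𝔪) :
    ∃ s : F, s ≠ 0 ∧ ∃ c : K, c ≠ 0 ∧ s ^ m = algebraMap K F c * u :=
  cl_nodal (K := K) π t B0 B1 O1 O2 D.model D.noeth0 D.noeth1 D.frac0 D.frac1 D.fracR D.dvrR
    D.smooth0 D.smooth1 m hm minv hminv u hu1 hu2
    (fun 𝔪 h𝔪 hπ h1 h2 => hU3_0 𝔪 h𝔪 hπ h1 h2 (D.node0 𝔪 h𝔪 hπ h1 h2))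
    (fun 𝔪 h𝔪 hπ h1 h2 => hU3_1 𝔪 h𝔪 hπ h1 h2 (D.node1 𝔪 h𝔪 hπ h1 h2))
    D.algClosed

end

end Fermat.Agent.ES.N34.NumData13
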