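/-
Program N (S34), chapter MODEL, brick M9 — helper4 (integrator): MODEL-ASM.

* `nodalNumData_of_parts` (generic): S1's bundle `ChartN26.ChartInputs`, the nodal model (S1 + V3),
  the four (C-prin) statements `SmoothN5.BranchPrincipal` (S3), and node coordinates at the two-branch
  points (S6) give the bundle `NumData13.NodalNumData` consumed by NUM (A1).
* `ModelTarget n e q M' A` : the literal deliverable of MODEL for the concrete data of `ModelDefs9`:
  over all sufficiently large number fields `K ⊂ ℚ̄` (finite over `ℚ`, no normality needed), with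
  `R = A ∩ K`, `F = K·F_{M'q}`, `t = tN`, `B_i` the two charts, `O1`, `O2` the Gauss rings of the
  expansions at `∞` and at `0` (`O2 = W⁻¹ O1`), for EVERY uniformiser `π` of `R`: `NodalNumData R K F π t B0 B1 O1 O2`.
-/
import Mathlib
import Fermat.Agent.ES.N34.NumData13
import Fermat.Agent.ES.N34.SmoothN5
import Fermat.Agent.ES.N34.ChartN26
import Fermat.Agent.ES.N34.ModelDefs9
import Fermat.Agent.ES.N34.TwoGlue20
import Fermat.Agent.ES.N34.NodeCoordsAsm29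
import Fermat.Agent.RED.NumInst4
import Fermat.Agent.RED.PUR.GaussBridge10

set_option autoImplicit false
set_option synthInstance.maxHeartbeats 400000
set_option linter.unusedSectionVars false

namespace Fermat.Agent.ES.N34.ModelN4

open Fermat.Agent.RED.PUR.ChartGeneric22 Fermat.Agent.ES.N34.NodalCore13
  Fermat.Agent.ES.N34.NodalCL13 Fermat.Agent.ES.N34.NumData13 Fermat.Agent.ES.N34.SmoothN5
  Fermat.Agent.ES.N34.ChartN26

section Generic

variable {R K F : Type*} [CommRing R] [Field K] [Field F] [Algebra R K] [Algebra K F]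
  [Algebra R F] [IsScalarTower R K F]

/-- **MODEL, generic assembly.** -/
theorem nodalNumData_of_parts {π : R} {t : F} {O1 O2 : ValuationSubring F}
    (hc : ChartInputs R K F π t)
    (model : NodalTwoChartModel R F π t (chart R t) (chart R t⁻¹) O1 O2)
    (h01 : BranchPrincipal π (chart R t) O1) (h02 : BranchPrincipal π (chart R t) O2)
    (h11 : BranchPrincipal π (chart R t⁻¹) O1) (h12 : BranchPrincipal π (chart R t⁻¹) O2)
    (node0 : ∀ 𝔪 : Ideal (chart R t), 𝔪.IsMaximal → algebraMap R (chart R t) π ∈ 𝔪 →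
      ¬ OffBranch π (chart R t) O1 𝔪 → ¬ OffBranch π (chart R t) O2 𝔪 →
        NodeCoords π (chart R t) 𝔪)
    (node1 : ∀ 𝔪 : Ideal (chart R t⁻¹), 𝔪.IsMaximal → algebraMap R (chart R t⁻¹) π ∈ 𝔪 →
      ¬ OffBranch π (chart R t⁻¹) O1 𝔪 → ¬ OffBranch π (chart R t⁻¹) O2 𝔪 →
        NodeCoords π (chart R t⁻¹) 𝔪) :
    NodalNumData R K F π t (chart R t) (chart R t⁻¹) O1 O2 := by
  obtain ⟨hs0, hs1⟩ := hM2_of_model model h01 h02 h11 h12
  exact
    { model := model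
      noeth0 := hc.noeth0
      noeth1 := hc.noeth1
      frac0 := hc.frac0
      frac1 := hc.frac1
      fracR := hc.fracR
      dvrR := hc.dvrR
      smooth0 := hs0
      smooth1 := hs1
      node0 := node0
      node1 := node1
      algClosed := hc.hKF }

/-- The nodal model from S1's bundle and the glue output (V3): all fields. -/
theorem model_of_glue {π : R} {t : F} {O1 O2 : ValuationSubring F}
    (hc : ChartInputs R K F π t) (g : TwoGlue20.GlueOut K π t O1 O2) :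
    NodalTwoChartModel R F π t (chart R t) (chart R t⁻¹) O1 O2 :=
  hc.model O1 O2 g.R_le_O1 g.R_le_O2 g.t_mem_O1 g.t_mem_O2 g.tinv_mem_O1 g.tinv_mem_O2 g.pi_ne
    g.pi_nonunit1 g.pi_nonunit2 g.unif1 g.unif2 g.arch1 g.arch2 g.sat0 g.sat1

/-- (C-prin) in S3's export shape gives the hypothesis shape `hCα`/`hCβ` of
`NodeCoordsAsm29.node_field_of_two_levels` (membership proof fixed to `hφB s₀`). -/
theorem via_fixed {B₀ : Type*} {φ : B₀ → F} {π : R} {B : Subalgebra R F}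
    {Oj : ValuationSubring F} (hφB : ∀ b, φ b ∈ B) (h : BranchPrincipalVia φ π B Oj) :
    ∀ 𝔪 : Ideal B, 𝔪.IsMaximal → algebraMap R B π ∈ 𝔪 →
      ∃ s0 : B₀, (⟨φ s0, hφB s0⟩ : B) ∈ 𝔪 ∧ ∀ y ∈ 𝔪, ∃ d : B, d ∉ 𝔪 ∧ ∃ b : B, ∃ c ∈ Oj,
        (d : F) * (y : F) - (b : F) * φ s0 = algebraMap R F π * c := by
  intro 𝔪 h𝔪 hπ
  obtain ⟨s₀, hs, hmem, hgen⟩ := h 𝔪 h𝔪 hπ
  exact ⟨s₀, hmem, hgen⟩

/-- **MODEL, generic assembly from the two copies of level `M'`.**  Inputs: S1 (`ChartInputs`),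
V3 (`GlueOut`), and for each chart `i` the level-`M'` chart `Bᵢ⁰` (any commutative ring) with the two
degeneracy maps `αᵢ βᵢ : Bᵢ⁰ →+* F` landing in the chart, the Kronecker congruences (K) (S5) and the
four (C-prin) statements in S3's export shape. -/
theorem nodalNumData_of_two_levels {π : R} {t : F} {O1 O2 : ValuationSubring F}
    (hc : ChartInputs R K F π t) (g : TwoGlue20.GlueOut K π t O1 O2)
    (q : ℕ) (hq : 2 ≤ q)
    {C0 C1 : Type*} [CommRing C0] [CommRing C1]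
    (α0 β0 : C0 →+* F) (α1 β1 : C1 →+* F)
    (hα0 : ∀ b, α0 b ∈ chart R t) (hβ0 : ∀ b, β0 b ∈ chart R t)
    (hα1 : ∀ b, α1 b ∈ chart R t⁻¹) (hβ1 : ∀ b, β1 b ∈ chart R t⁻¹)
    (hKα0 : ∀ b : C0, ∃ c : C0, ∃ o ∈ O2, α0 b - (β0 c) ^ q = algebraMap R F π * o)
    (hKβ0 : ∀ b : C0, ∃ c : C0, ∃ o ∈ O1, β0 b - (α0 c) ^ q = algebraMap R F π * o)
    (hKα1 : ∀ b : C1, ∃ c : C1, ∃ o ∈ O2, α1 b - (β1 c) ^ q = algebraMap R F π * o)
    (hKβ1 : ∀ b : C1, ∃ c : C1, ∃ o ∈ O1, β1 b - (α1 c) ^ q = algebraMap R F π * o)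
    (h01 : BranchPrincipalVia α0 π (chart R t) O1) (h02 : BranchPrincipalVia β0 π (chart R t) O2)
    (h11 : BranchPrincipalVia α1 π (chart R t⁻¹) O1)
    (h12 : BranchPrincipalVia β1 π (chart R t⁻¹) O2) :
    NodalNumData R K F π t (chart R t) (chart R t⁻¹) O1 O2 := by
  have model := model_of_glue hc g
  refine nodalNumData_of_parts hc model h01.branchPrincipal h02.branchPrincipal
    h11.branchPrincipal h12.branchPrincipal ?_ ?_
  · exact NodeCoordsAsm29.node_field_of_two_levels π (chart R t) O1 O2 model.le_O1_0 model.le_O2_0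
      model.sat0 model.pi_ne α0 β0 hα0 hβ0 q hq hKα0 hKβ0 (via_fixed hα0 h01) (via_fixed hβ0 h02)
  · exact NodeCoordsAsm29.node_field_of_two_levels π (chart R t⁻¹) O1 O2 model.le_O1_1
      model.le_O2_1 model.sat1 model.pi_ne α1 β1 hα1 hβ1 q hq hKα1 hKβ1 (via_fixed hα1 h11)
      (via_fixed hβ1 h12)

/-- A ring homomorphism over `R` maps the chart of `s` into the chart of `t` as soon as it maps
`s` into the chart of `t`. -/
theorem map_mem_chart {R F F' : Type*} [CommRing R] [Field F] [Field F'] [Algebra R F]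
    [Algebra R F'] (φ : F →+* F') (hφ : ∀ r : R, φ (algebraMap R F r) = algebraMap R F' r)
    {s : F} {t : F'} (hs : φ s ∈ chart R t) {x : F} (hx : x ∈ chart R s) : φ x ∈ chart R t := by
  let φA : F →ₐ[R] F' := { φ with commutes' := hφ }
  have hle : Algebra.adjoin R {s} ≤ (chart R t).comap φA :=
    Algebra.adjoin_le (by
      intro y hy
      rw [Set.mem_singleton_iff] at hy
      subst hy
      exact hs)
  let ρ : ↥(Algebra.adjoin R {s}) →+* ↥(chart R t) :=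
    { toFun := fun y => ⟨φ (y : F), hle y.2⟩
      map_one' := Subtype.ext (map_one φ)
      map_mul' := fun y z => Subtype.ext (map_mul φ _ _)
      map_zero' := Subtype.ext (map_zero φ)
      map_add' := fun y z => Subtype.ext (map_add φ _ _) }
  apply chart_intcl
  exact IsIntegral.map_of_comp_eq ρ φ (by ext y; rfl) ((mem_chart_iff).mp hx)

end Generic

section GaussLayer

/-! ### The two-level inputs over a Gauss valuation ring (generic in the number field)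

Typeclass search at the concrete number-field types is slow; as in `NumReady13`, everything is
first stated for an arbitrary field `Kt`, a valuation subring `O` of `Kt` and two subfields
`EM, E ⊂ Kt((𝐪))` (levels `M'` and `M' q`) with two `Kt`-embeddings `a b : EM → E`. -/

variable {Kt : Type*} [Field Kt] (O : ValuationSubring Kt)
  (EM E : IntermediateField Kt (HahnSeries ℤ Kt))

/-- The restriction of a `Kt`-embedding `EM → E` to a chart of level `M'`. -/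
noncomputable def resChart (φ : ↥EM →ₐ[Kt] ↥E) (C : Subalgebra ↥O ↥EM) : ↥C →+* ↥E :=
  (φ : ↥EM →+* ↥E).comp C.subtype

omit O in
theorem resChart_apply (O : ValuationSubring Kt) (φ : ↥EM →ₐ[Kt] ↥E) (C : Subalgebra ↥O ↥EM)
    (x : ↥C) : resChart O EM E φ C x = φ (x : ↥EM) := rfl

/-- **Everything MODEL-ASM consumes** at one `(O, π)`: S1 (`chartIn`), V3 (`glue`), the two
degeneracy maps send the level-`M'` charts into the level-`M' q` charts (`*_mem*`: trivial for `a`,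
S2 for `b`), the Kronecker congruences in chart form (S5) and the four (C-prin) statements in S3's
export shape. -/
structure TwoLevelInputs (a b : ↥EM →ₐ[Kt] ↥E) (q : ℕ) (π : ↥O) (tM : ↥EM)
    (O1 O2 : ValuationSubring ↥E) : Prop where
  chartIn : ChartInputsAt O E π (a tM)
  glue : TwoGlue20.GlueOut Kt π (a tM) O1 O2
  two_le : 2 ≤ q
  a_mem0 : ∀ x : ↥(chart ↥O tM), a (x : ↥EM) ∈ chart ↥O (a tM)
  b_mem0 : ∀ x : ↥(chart ↥O tM), b (x : ↥EM) ∈ chart ↥O (a tM)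
  a_mem1 : ∀ x : ↥(chart ↥O tM⁻¹), a (x : ↥EM) ∈ chart ↥O (a tM)⁻¹
  b_mem1 : ∀ x : ↥(chart ↥O tM⁻¹), b (x : ↥EM) ∈ chart ↥O (a tM)⁻¹
  kron_a0 : ∀ x : ↥(chart ↥O tM), ∃ c : ↥(chart ↥O tM), ∃ o ∈ O2,
    a (x : ↥EM) - (b (c : ↥EM)) ^ q = algebraMap ↥O ↥E π * o
  kron_b0 : ∀ x : ↥(chart ↥O tM), ∃ c : ↥(chart ↥O tM), ∃ o ∈ O1,
    b (x : ↥EM) - (a (c : ↥EM)) ^ q = algebraMap ↥O ↥E π * o
  kron_a1 : ∀ x : ↥(chart ↥O tM⁻¹), ∃ c : ↥(chart ↥O tM⁻¹), ∃ o ∈ O2,
    a (x : ↥EM) - (b (c : ↥EM)) ^ q = algebraMap ↥O ↥E π * o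
  kron_b1 : ∀ x : ↥(chart ↥O tM⁻¹), ∃ c : ↥(chart ↥O tM⁻¹), ∃ o ∈ O1,
    b (x : ↥EM) - (a (c : ↥EM)) ^ q = algebraMap ↥O ↥E π * o
  prin01 : BranchPrincipalVia (fun x : ↥(chart ↥O tM) => a (x : ↥EM)) π (chart ↥O (a tM)) O1
  prin02 : BranchPrincipalVia (fun x : ↥(chart ↥O tM) => b (x : ↥EM)) π (chart ↥O (a tM)) O2
  prin11 : BranchPrincipalVia (fun x : ↥(chart ↥O tM⁻¹) => a (x : ↥EM)) π (chart ↥O (a tM)⁻¹) O1
  prin12 : BranchPrincipalVia (fun x : ↥(chart ↥O tM⁻¹) => b (x : ↥EM)) π (chart ↥O (a tM)⁻¹) O2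

variable {O EM E}

/-- **MODEL-ASM over a Gauss valuation ring.** -/
theorem nodalNumData_of_inputs {a b : ↥EM →ₐ[Kt] ↥E} {q : ℕ} {π : ↥O} {tM : ↥EM}
    {O1 O2 : ValuationSubring ↥E} (h : TwoLevelInputs O EM E a b q π tM O1 O2) :
    haveI := Fermat.Agent.RED.NumInst4.isScalarTower_OE O E
    NodalNumData ↥O Kt ↥E π (a tM) (chart ↥O (a tM)) (chart ↥O (a tM)⁻¹) O1 O2 := by
  have := Fermat.Agent.RED.NumInst4.isScalarTower_OE O E
  exact nodalNumData_of_two_levels h.chartIn.out h.glue q h.two_le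
    (resChart O EM E a (chart ↥O tM)) (resChart O EM E b (chart ↥O tM))
    (resChart O EM E a (chart ↥O tM⁻¹)) (resChart O EM E b (chart ↥O tM⁻¹))
    h.a_mem0 h.b_mem0 h.a_mem1 h.b_mem1 h.kron_a0 h.kron_b0 h.kron_a1 h.kron_b1
    h.prin01 h.prin02 h.prin11 h.prin12

omit O EM E in
theorem algHom_algebraMap_O (O : ValuationSubring Kt) (EM E : IntermediateField Kt (HahnSeries ℤ Kt))
    (φ : ↥EM →ₐ[Kt] ↥E) (r : ↥O) : φ (algebraMap ↥O ↥EM r) = algebraMap ↥O ↥E r :=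
  φ.commutes ((r : ↥O) : Kt)

/-- `TwoLevelInputs` from its non-trivial part: the memberships `a (B_M) ⊆ B` are automatic, and
`b (B_M) ⊆ B` follows from `b tM ∈ chart O (a tM)`, `(b tM)⁻¹ ∈ chart O (a tM)⁻¹` (S2). -/
theorem twoLevelInputs_of {a b : ↥EM →ₐ[Kt] ↥E} {q : ℕ} {π : ↥O} {tM : ↥EM}
    {O1 O2 : ValuationSubring ↥E}
    (chartIn : ChartInputsAt O E π (a tM)) (glue : TwoGlue20.GlueOut Kt π (a tM) O1 O2)
    (two_le : 2 ≤ q)
    (hy0 : b tM ∈ chart ↥O (a tM)) (hy1 : (b tM)⁻¹ ∈ chart ↥O (a tM)⁻¹)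
    (kron_a0 : ∀ x : ↥(chart ↥O tM), ∃ c : ↥(chart ↥O tM), ∃ o ∈ O2,
      a (x : ↥EM) - (b (c : ↥EM)) ^ q = algebraMap ↥O ↥E π * o)
    (kron_b0 : ∀ x : ↥(chart ↥O tM), ∃ c : ↥(chart ↥O tM), ∃ o ∈ O1,
      b (x : ↥EM) - (a (c : ↥EM)) ^ q = algebraMap ↥O ↥E π * o)
    (kron_a1 : ∀ x : ↥(chart ↥O tM⁻¹), ∃ c : ↥(chart ↥O tM⁻¹), ∃ o ∈ O2,
      a (x : ↥EM) - (b (c : ↥EM)) ^ q = algebraMap ↥O ↥E π * o)
    (kron_b1 : ∀ x : ↥(chart ↥O tM⁻¹), ∃ c : ↥(chart ↥O tM⁻¹), ∃ o ∈ O1,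
      b (x : ↥EM) - (a (c : ↥EM)) ^ q = algebraMap ↥O ↥E π * o)
    (prin01 : BranchPrincipalVia (fun x : ↥(chart ↥O tM) => a (x : ↥EM)) π (chart ↥O (a tM)) O1)
    (prin02 : BranchPrincipalVia (fun x : ↥(chart ↥O tM) => b (x : ↥EM)) π (chart ↥O (a tM)) O2)
    (prin11 : BranchPrincipalVia (fun x : ↥(chart ↥O tM⁻¹) => a (x : ↥EM)) π
      (chart ↥O (a tM)⁻¹) O1)
    (prin12 : BranchPrincipalVia (fun x : ↥(chart ↥O tM⁻¹) => b (x : ↥EM)) π
      (chart ↥O (a tM)⁻¹) O2) :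
    TwoLevelInputs O EM E a b q π tM O1 O2 where
  chartIn := chartIn
  glue := glue
  two_le := two_le
  a_mem0 x := map_mem_chart (a : ↥EM →+* ↥E) (algHom_algebraMap_O O EM E a)
    (self_mem_chart (a tM)) x.2
  b_mem0 x := map_mem_chart (b : ↥EM →+* ↥E) (algHom_algebraMap_O O EM E b) hy0 x.2
  a_mem1 x := map_mem_chart (a : ↥EM →+* ↥E) (algHom_algebraMap_O O EM E a)
    (show (a : ↥EM →+* ↥E) tM⁻¹ ∈ chart ↥O (a tM)⁻¹ by
      rw [map_inv₀]; exact self_mem_chart _) x.2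
  b_mem1 x := map_mem_chart (b : ↥EM →+* ↥E) (algHom_algebraMap_O O EM E b)
    (show (b : ↥EM →+* ↥E) tM⁻¹ ∈ chart ↥O (a tM)⁻¹ by
      rw [map_inv₀]; exact hy1) x.2
  kron_a0 := kron_a0
  kron_b0 := kron_b0
  kron_a1 := kron_a1
  kron_b1 := kron_b1
  prin01 := prin01
  prin02 := prin02
  prin11 := prin11
  prin12 := prin12

end GaussLayer

noncomputable section Concrete

open HahnSeries ModularCurve
open Fermat.Agent.RED.Interface4 Fermat.Agent.RED.PUR.GaussGen8 Fermat.Agent.RED.BASE.EtaQuot12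
  Fermat.Agent.ES.N34.ModelDefs9

/-- **The deliverable of chapter MODEL** for the data `(q, M', A)` and the Hauptmodul `tq · n e`:
over every sufficiently large number field `K ⊂ ℚ̄`, normal over `ℚ`, for EVERY uniformiser `π` of
`R = A ∩ K`, the bundle `NodalNumData` for the literal data of `ModelDefs9`. -/
def ModelTarget (n e q M' : ℕ) [NeZero n] [NeZero M'] [NeZero q] (A : ValuationSubring Qbar) :
    Prop :=
  ∃ K₀ : IntermediateField ℚ Qbar, FiniteDimensional ℚ K₀ ∧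
    ∀ (K : IntermediateField ℚ Qbar) [Normal ℚ K], FiniteDimensional ℚ K → K₀ ≤ K →
      ∃ (ht : tq (↥K) n e ∈ FK M' K) (hE : FK (M' * q) K ≤ fracField (AK A K)),
        ∀ (π : ↥(AK A K)) (hπ : IsUnif (AK A K) π),
          NodalNumData ↥(AK A K) ↥K ↥(FK (M' * q) K) π (tN q ht) (B0 A q ht) (B1 A q ht)
            (O1 M' q hπ hE) (O2 M' q hπ hE)

/-- The inputs of MODEL-ASM for the data of `ModelDefs9` (`TwoLevelInputs` at
`O := AK A K`, `EM := FK M' K`, `E := FK (M' q) K`, `a := alpha`, `b := beta`, `tM := tM ht`). -/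
def ModelInputs (n e q M' : ℕ) [NeZero n] [NeZero M'] [NeZero q] (A : ValuationSubring Qbar) :
    Prop :=
  ∃ K₀ : IntermediateField ℚ Qbar, FiniteDimensional ℚ K₀ ∧
    ∀ (K : IntermediateField ℚ Qbar) [Normal ℚ K], FiniteDimensional ℚ K → K₀ ≤ K →
      ∃ (ht : tq (↥K) n e ∈ FK M' K) (hE : FK (M' * q) K ≤ fracField (AK A K)),
        ∀ (π : ↥(AK A K)) (hπ : IsUnif (AK A K) π),
          TwoLevelInputs (AK A K) (FK M' K) (FK (M' * q) K) (alpha K M' q) (beta K M' q) q π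
            (tM ht) (O1 M' q hπ hE) (O2 M' q hπ hE)

/-- **MODEL-ASM**: the inputs give the deliverable. -/
theorem modelTarget_of_inputs {n e q M' : ℕ} [NeZero n] [NeZero M'] [NeZero q]
    {A : ValuationSubring Qbar} (h : ModelInputs n e q M' A) : ModelTarget n e q M' A := by
  obtain ⟨K₀, hK₀, h⟩ := h
  refine ⟨K₀, hK₀, fun K _ hfd hle => ?_⟩
  obtain ⟨ht, hE, h⟩ := h K hfd hle
  exact ⟨ht, hE, fun π hπ => nodalNumData_of_inputs (h π hπ)⟩

/-! ### Assembly from the suppliers' deliverables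

`Large P` : `P K` for all sufficiently large number fields `K ⊂ ℚ̄` normal over `ℚ`. -/

/-- `P K` holds for every sufficiently large number field `K ⊂ ℚ̄`, normal over `ℚ`. -/
def Large (P : IntermediateField ℚ Qbar → Prop) : Prop :=
  ∃ K₀ : IntermediateField ℚ Qbar, FiniteDimensional ℚ K₀ ∧
    ∀ (K : IntermediateField ℚ Qbar) [Normal ℚ K], FiniteDimensional ℚ K → K₀ ≤ K → P K

theorem Large.and {P Q : IntermediateField ℚ Qbar → Prop} (hP : Large P) (hQ : Large Q) :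
    Large fun K => P K ∧ Q K := by
  obtain ⟨K₁, hK₁, hP⟩ := hP
  obtain ⟨K₂, hK₂, hQ⟩ := hQ
  exact ⟨K₁ ⊔ K₂, inferInstance, fun K _ hfd hle =>
    ⟨hP K hfd (le_trans le_sup_left hle), hQ K hfd (le_trans le_sup_right hle)⟩⟩

theorem Large.mono {P Q : IntermediateField ℚ Qbar → Prop} (hP : Large P)
    (h : ∀ K : IntermediateField ℚ Qbar, P K → Q K) : Large Q := by
  obtain ⟨K₁, hK₁, hP⟩ := hP
  exact ⟨K₁, hK₁, fun K _ hfd hle => h K (hP K hfd hle)⟩

/-- A statement over all large number fields (no normality) is in particular `Large`. -/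
theorem Large.of_all {P : IntermediateField ℚ Qbar → Prop}
    (h : ∃ K₀ : IntermediateField ℚ Qbar, FiniteDimensional ℚ K₀ ∧
      ∀ K : IntermediateField ℚ Qbar, FiniteDimensional ℚ K → K₀ ≤ K → P K) : Large P := by
  obtain ⟨K₁, hK₁, hP⟩ := h
  exact ⟨K₁, hK₁, fun K _ hfd hle => hP K hfd hle⟩

section Items

variable (n e q M' : ℕ) [NeZero n] [NeZero M'] [NeZero q] (A : ValuationSubring Qbar)
  (K : IntermediateField ℚ Qbar)

/-- S1 at `K` (literal conclusion of `ChartNInst26.chartInputs_tN_four/_nine`). -/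
def ChartItems : Prop :=
  IsDiscreteValuationRing ↥(AK A K) ∧ ∃ ht : tq (↥K) n e ∈ FK M' K,
    ∀ ϖ : ↥(AK A K), Irreducible ϖ → ChartInputsAt (AK A K) (FK (M' * q) K) ϖ (tN q ht)

/-- V3i at `K` (conclusion of `ModelGlue22.glueOut_model_tq`). -/
def GlueItems : Prop :=
  ∀ (ht : tq (↥K) n e ∈ FK M' K) (hE : FK (M' * q) K ≤ fracField (AK A K))
    (π : ↥(AK A K)) (hπ : IsUnif (AK A K) π),
    TwoGlue20.GlueOut (↥K) π (tN q ht) (O1 M' q hπ hE) (O2 M' q hπ hE)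

/-- S2 at `K`: `y = t(𝐪^q)` and `y⁻¹` lie in the charts. -/
def ModEqItems : Prop :=
  ∀ ht : tq (↥K) n e ∈ FK M' K, yN q ht ∈ B0 A q ht ∧ (yN q ht)⁻¹ ∈ B1 A q ht

/-- S5-B at `K`: the Kronecker congruences in chart form, both charts, both directions. -/
def KronItems : Prop :=
  ∀ (ht : tq (↥K) n e ∈ FK M' K) (hE : FK (M' * q) K ≤ fracField (AK A K))
    (π : ↥(AK A K)) (hπ : IsUnif (AK A K) π),
    (∀ x : ↥(B0M A ht), ∃ c : ↥(B0M A ht), ∃ o ∈ O2 M' q hπ hE,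
      alpha K M' q (x : ↥(FK M' K)) - (beta K M' q (c : ↥(FK M' K))) ^ q =
        algebraMap ↥(AK A K) ↥(FK (M' * q) K) π * o) ∧
    (∀ x : ↥(B0M A ht), ∃ c : ↥(B0M A ht), ∃ o ∈ O1 M' q hπ hE,
      beta K M' q (x : ↥(FK M' K)) - (alpha K M' q (c : ↥(FK M' K))) ^ q =
        algebraMap ↥(AK A K) ↥(FK (M' * q) K) π * o) ∧
    (∀ x : ↥(B1M A ht), ∃ c : ↥(B1M A ht), ∃ o ∈ O2 M' q hπ hE,
      alpha K M' q (x : ↥(FK M' K)) - (beta K M' q (c : ↥(FK M' K))) ^ q =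
        algebraMap ↥(AK A K) ↥(FK (M' * q) K) π * o) ∧
    (∀ x : ↥(B1M A ht), ∃ c : ↥(B1M A ht), ∃ o ∈ O1 M' q hπ hE,
      beta K M' q (x : ↥(FK M' K)) - (alpha K M' q (c : ↥(FK M' K))) ^ q =
        algebraMap ↥(AK A K) ↥(FK (M' * q) K) π * o)

/-- S3i at `K`: the four (C-prin) statements in S3's export shape. -/
def PrinItems : Prop :=
  ∀ (ht : tq (↥K) n e ∈ FK M' K) (hE : FK (M' * q) K ≤ fracField (AK A K))
    (π : ↥(AK A K)) (hπ : IsUnif (AK A K) π),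
    BranchPrincipalVia (fun x : ↥(B0M A ht) => alpha K M' q (x : ↥(FK M' K))) π (B0 A q ht)
      (O1 M' q hπ hE) ∧
    BranchPrincipalVia (fun x : ↥(B0M A ht) => beta K M' q (x : ↥(FK M' K))) π (B0 A q ht)
      (O2 M' q hπ hE) ∧
    BranchPrincipalVia (fun x : ↥(B1M A ht) => alpha K M' q (x : ↥(FK M' K))) π (B1 A q ht)
      (O1 M' q hπ hE) ∧
    BranchPrincipalVia (fun x : ↥(B1M A ht) => beta K M' q (x : ↥(FK M' K))) π (B1 A q ht)
      (O2 M' q hπ hE)

variable {n e q M' A K}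

/-- The inputs at one `K`. -/
theorem twoLevelInputs_of_items (hq : 2 ≤ q) (h1 : ChartItems n e q M' A K)
    (h2 : GlueItems n e q M' A K) (h3 : ModEqItems n e q M' A K) (h4 : KronItems n e q M' A K)
    (h5 : PrinItems n e q M' A K) :
    ∃ (ht : tq (↥K) n e ∈ FK M' K) (hE : FK (M' * q) K ≤ fracField (AK A K)),
      ∀ (π : ↥(AK A K)) (hπ : IsUnif (AK A K) π),
        TwoLevelInputs (AK A K) (FK M' K) (FK (M' * q) K) (alpha K M' q) (beta K M' q) q π
          (tM ht) (O1 M' q hπ hE) (O2 M' q hπ hE) := by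
  obtain ⟨hdvr, ht, hc⟩ := h1
  have : NeZero (M' * q) := ⟨Nat.mul_ne_zero (NeZero.ne M') (NeZero.ne q)⟩
  have hE : FK (M' * q) K ≤ fracField (AK A K) :=
    Fermat.Agent.RED.PUR.GaussBridge10.FK_le_fracField A K (M' * q)
  refine ⟨ht, hE, fun π hπ => ?_⟩
  have hirr : Irreducible π := (IsDiscreteValuationRing.irreducible_iff_uniformizer π).mpr hπ.max_eq
  obtain ⟨k1, k2, k3, k4⟩ := h4 ht hE π hπ
  obtain ⟨p1, p2, p3, p4⟩ := h5 ht hE π hπ
  exact twoLevelInputs_of (hc π hirr) (h2 ht hE π hπ) hq (h3 ht).1 (h3 ht).2 k1 k2 k3 k4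
    p1 p2 p3 p4

end Items

/-- **MODEL-ASM, final form**: the five deliverables (S1, V3i, S2, S5-B, S3i), each for all large
normal `K`, give `ModelTarget`. -/
theorem modelTarget_of_items {n e q M' : ℕ} [NeZero n] [NeZero M'] [NeZero q]
    {A : ValuationSubring Qbar} (hq : 2 ≤ q)
    (h1 : Large (ChartItems n e q M' A)) (h2 : Large (GlueItems n e q M' A))
    (h3 : Large (ModEqItems n e q M' A)) (h4 : Large (KronItems n e q M' A))
    (h5 : Large (PrinItems n e q M' A)) : ModelTarget n e q M' A := by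
  apply modelTarget_of_inputs
  obtain ⟨K₀, hK₀, h⟩ := (((h1.and h2).and h3).and h4).and h5
  refine ⟨K₀, hK₀, fun K _ hfd hle => ?_⟩
  obtain ⟨⟨⟨⟨a1, a2⟩, a3⟩, a4⟩, a5⟩ := h K hfd hle
  exact twoLevelInputs_of_items hq a1 a2 a3 a4 a5

end Concrete

end Fermat.Agent.ES.N34.ModelN4
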