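/-
Program N (S34), chapter MODEL, brick S2 (support, helper11): **`y = t(𝐪^q)`, `t` and their inverses
lie in both Gauss valuation rings** `O1`, `O2` of the bad level `N' = M' q` (`ModelDefs9` vocabulary).

* generic: `V_c` preserves the Gauss ring (`qExpand_mem`); `V_c t = qExpand c (tq K n e)` and its
  inverse lie in `gaussRing O` for every valuation subring `O` of `K` and `c ≥ 1`
  (`qExpand_tq_mem`, `qExpand_tq_inv_mem`);
* `O1` (unconditional): `yN_mem_O1`, `yN_inv_mem_O1`, `tN_mem_O1`, `tN_inv_mem_O1`;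
* `O2 = W_{N'}⁻¹ O1`: by V2-a (`FrickeV11`) `W_{N'} y = α (W_{M'} t_M)`, `W_{N'} t = β (W_{M'} t_M)`, so the
  four memberships `yN_mem_O2`, `yN_inv_mem_O2`, `tN_mem_O2`, `tN_inv_mem_O2` follow from the level-`M'`
  isometry `hiso : ↑x ∈ gaussRing → ↑(W_{M'} x) ∈ gaussRing` (helper25's `isometry_mem_iff` at level `M'`).
-/
import Mathlib
import Fermat.Agent.ES.N34.FrickeV11
import Fermat.Agent.RED.BASE.TBridge15

set_option autoImplicit false
set_option linter.unusedSectionVars false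

noncomputable section

open HahnSeries ModularCurve

namespace Fermat.Agent.ES.N34.YMem11

open Fermat.Agent.RED.Interface4 Fermat.Agent.RED.PUR.GaussGen8
  Fermat.Agent.RED.BASE.EtaQuot12 Fermat.Agent.ES.N34.FrickeFK8 Fermat.Agent.ES.N34.ModelDefs9
  Fermat.Agent.ES.N34.FrickeV11

/-! ### Generic: `V_c` and the Gauss ring -/

section Generic

variable {K : Type*} [Field K] (O : ValuationSubring K)

/-- `V_c = qExpand c` preserves the Gauss ring. -/
theorem qExpand_mem (c : ℕ) [NeZero c] {f : LaurentSeries K} (hf : f ∈ gaussRing O) :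
    qExpand K c f ∈ gaussRing O := by
  obtain ⟨a, s, hred, hmul⟩ := hf
  refine ⟨qExpand ↥O c a, qExpand ↥O c s, ?_, ?_⟩
  · rw [redL, ModularCurve.coeffMap_qExpand]
    intro h
    apply hred
    apply qExpand_injective (R := Res O) c
    rw [redL, h, map_zero]
  · rw [embK, ModularCurve.coeffMap_qExpand, ModularCurve.coeffMap_qExpand, ← map_mul]
    congr 1

variable (n e : ℕ) [NeZero n] (c : ℕ) [NeZero c]

/-- `V_c t = t(𝐪^c)` as an element of the Gauss ring. -/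
def vtG : ↥(gaussRing O) := ⟨embK O (qExpand ↥O c (tq ↥O n e)), embK_mem O _⟩

theorem coe_vtG : ((vtG O n e c : ↥(gaussRing O)) : LaurentSeries K) = qExpand K c (tq K n e) := by
  show embK O (qExpand ↥O c (tq ↥O n e)) = _
  rw [embK, ModularCurve.coeffMap_qExpand, coeffMap_tq]

theorem gaussRed_vtG : gaussRed O (vtG O n e c) = qExpand (Res O) c (tq (Res O) n e) := by
  rw [vtG, gaussRed_embK, redL, ModularCurve.coeffMap_qExpand, coeffMap_tq]

theorem gaussRed_vtG_ne_zero : gaussRed O (vtG O n e c) ≠ 0 := by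
  rw [gaussRed_vtG]
  intro h
  apply Fermat.Agent.RED.BASE.TBridge15.tq_ne_zero (Res O) n e
  apply qExpand_injective (R := Res O) c
  rw [h, map_zero]

theorem qExpand_tq_mem : qExpand K c (tq K n e) ∈ gaussRing O := by
  rw [← coe_vtG O n e c]
  exact (vtG O n e c).2

theorem qExpand_tq_inv_mem : (qExpand K c (tq K n e))⁻¹ ∈ gaussRing O := by
  rw [← coe_vtG O n e c]
  exact inv_mem_of_gaussRed_ne_zero O _ (gaussRed_vtG_ne_zero O n e c)

end Generic

variable {A : ValuationSubring Qbar} {K : IntermediateField ℚ Qbar} {M' : ℕ} (q : ℕ) [NeZero M'] [NeZero q]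
  {n e : ℕ} [NeZero n]

/-! ### `O1` -/

section OOne

theorem yN_mem_O1 (ht : tq (↥K) n e ∈ FK M' K) {π : ↥(AK A K)} (hπ : IsUnif (AK A K) π)
    (hE : FK (M' * q) K ≤ fracField (AK A K)) : yN q ht ∈ O1 M' q hπ hE := by
  rw [mem_O1_iff, coe_yN]
  exact qExpand_tq_mem (AK A K) n e q

theorem yN_inv_mem_O1 (ht : tq (↥K) n e ∈ FK M' K) {π : ↥(AK A K)} (hπ : IsUnif (AK A K) π)
    (hE : FK (M' * q) K ≤ fracField (AK A K)) : (yN q ht)⁻¹ ∈ O1 M' q hπ hE := by
  rw [mem_O1_iff]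
  have : (((yN q ht)⁻¹ : FK (M' * q) K) : LaurentSeries K)
      = ((yN q ht : FK (M' * q) K) : LaurentSeries K)⁻¹ := rfl
  rw [this, coe_yN]
  exact qExpand_tq_inv_mem (AK A K) n e q

theorem tN_mem_O1 (ht : tq (↥K) n e ∈ FK M' K) {π : ↥(AK A K)} (hπ : IsUnif (AK A K) π)
    (hE : FK (M' * q) K ≤ fracField (AK A K)) : tN q ht ∈ O1 M' q hπ hE := by
  rw [mem_O1_iff, coe_tN]
  exact Fermat.Agent.RED.BASE.TBridge15.tq_mem_gaussRing (AK A K) n e

theorem tN_inv_mem_O1 (ht : tq (↥K) n e ∈ FK M' K) {π : ↥(AK A K)} (hπ : IsUnif (AK A K) π)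
    (hE : FK (M' * q) K ≤ fracField (AK A K)) : (tN q ht)⁻¹ ∈ O1 M' q hπ hE := by
  rw [mem_O1_iff]
  have : (((tN q ht)⁻¹ : FK (M' * q) K) : LaurentSeries K)
      = ((tN q ht : FK (M' * q) K) : LaurentSeries K)⁻¹ := rfl
  rw [this, coe_tN]
  exact Fermat.Agent.RED.BASE.TBridge15.tq_inv_mem_gaussRing (AK A K) n e

end OOne

/-! ### `O2` -/

section OTwo

/-- `W_{N'} y = α (W_{M'} t_M)`. -/
theorem wN_yN (ht : tq (↥K) n e ∈ FK M' K) :
    wN K M' q (yN q ht) = alpha K M' q (frickeFK M' K (tM ht)) :=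
  wN_beta K M' q (tM ht)

/-- `W_{N'} t = β (W_{M'} t_M)`. -/
theorem wN_tN (ht : tq (↥K) n e ∈ FK M' K) :
    wN K M' q (tN q ht) = beta K M' q (frickeFK M' K (tM ht)) :=
  wN_alpha K M' q (tM ht)

/-- the level-`M'` isometry, applied to `t_M`. -/
theorem fricke_tM_mem (ht : tq (↥K) n e ∈ FK M' K)
    (hiso : ∀ x : FK M' K, (x : LaurentSeries K) ∈ gaussRing (AK A K) →
      ((frickeFK M' K x : FK M' K) : LaurentSeries K) ∈ gaussRing (AK A K)) :
    ((frickeFK M' K (tM ht) : FK M' K) : LaurentSeries K) ∈ gaussRing (AK A K) := by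
  apply hiso
  rw [coe_tM]
  exact Fermat.Agent.RED.BASE.TBridge15.tq_mem_gaussRing (AK A K) n e

/-- the level-`M'` isometry, applied to `t_M⁻¹`. -/
theorem fricke_tM_inv_mem (ht : tq (↥K) n e ∈ FK M' K)
    (hiso : ∀ x : FK M' K, (x : LaurentSeries K) ∈ gaussRing (AK A K) →
      ((frickeFK M' K x : FK M' K) : LaurentSeries K) ∈ gaussRing (AK A K)) :
    ((frickeFK M' K (tM ht) : FK M' K) : LaurentSeries K)⁻¹ ∈ gaussRing (AK A K) := by
  have h := hiso (tM ht)⁻¹ (by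
    have : (((tM ht)⁻¹ : FK M' K) : LaurentSeries K) = ((tM ht : FK M' K) : LaurentSeries K)⁻¹ := rfl
    rw [this, coe_tM]
    exact Fermat.Agent.RED.BASE.TBridge15.tq_inv_mem_gaussRing (AK A K) n e)
  rw [map_inv₀] at h
  exact h

theorem yN_mem_O2 (ht : tq (↥K) n e ∈ FK M' K) {π : ↥(AK A K)} (hπ : IsUnif (AK A K) π)
    (hE : FK (M' * q) K ≤ fracField (AK A K))
    (hiso : ∀ x : FK M' K, (x : LaurentSeries K) ∈ gaussRing (AK A K) →
      ((frickeFK M' K x : FK M' K) : LaurentSeries K) ∈ gaussRing (AK A K)) :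
    yN q ht ∈ O2 M' q hπ hE := by
  rw [mem_O2_iff_wN_mem_O1, mem_O1_iff, wN_yN, coe_alpha]
  exact fricke_tM_mem ht hiso

theorem yN_inv_mem_O2 (ht : tq (↥K) n e ∈ FK M' K) {π : ↥(AK A K)} (hπ : IsUnif (AK A K) π)
    (hE : FK (M' * q) K ≤ fracField (AK A K))
    (hiso : ∀ x : FK M' K, (x : LaurentSeries K) ∈ gaussRing (AK A K) →
      ((frickeFK M' K x : FK M' K) : LaurentSeries K) ∈ gaussRing (AK A K)) :
    (yN q ht)⁻¹ ∈ O2 M' q hπ hE := by
  rw [mem_O2_iff_wN_mem_O1, map_inv₀, mem_O1_iff, wN_yN, ← map_inv₀, coe_alpha]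
  exact fricke_tM_inv_mem ht hiso

theorem tN_mem_O2 (ht : tq (↥K) n e ∈ FK M' K) {π : ↥(AK A K)} (hπ : IsUnif (AK A K) π)
    (hE : FK (M' * q) K ≤ fracField (AK A K))
    (hiso : ∀ x : FK M' K, (x : LaurentSeries K) ∈ gaussRing (AK A K) →
      ((frickeFK M' K x : FK M' K) : LaurentSeries K) ∈ gaussRing (AK A K)) :
    tN q ht ∈ O2 M' q hπ hE := by
  rw [mem_O2_iff_wN_mem_O1, mem_O1_iff, wN_tN, coe_beta]
  exact qExpand_mem (AK A K) q (fricke_tM_mem ht hiso)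

theorem tN_inv_mem_O2 (ht : tq (↥K) n e ∈ FK M' K) {π : ↥(AK A K)} (hπ : IsUnif (AK A K) π)
    (hE : FK (M' * q) K ≤ fracField (AK A K))
    (hiso : ∀ x : FK M' K, (x : LaurentSeries K) ∈ gaussRing (AK A K) →
      ((frickeFK M' K x : FK M' K) : LaurentSeries K) ∈ gaussRing (AK A K)) :
    (tN q ht)⁻¹ ∈ O2 M' q hπ hE := by
  rw [mem_O2_iff_wN_mem_O1, map_inv₀, mem_O1_iff, wN_tN, ← map_inv₀, coe_beta]
  have : (((frickeFK M' K (tM ht))⁻¹ : FK M' K) : LaurentSeries K)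
      = ((frickeFK M' K (tM ht) : FK M' K) : LaurentSeries K)⁻¹ := rfl
  rw [this]
  exact qExpand_mem (AK A K) q (fricke_tM_inv_mem ht hiso)

end OTwo

end Fermat.Agent.ES.N34.YMem11
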