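/-
Program N (S34), chapter MODEL — helper6: SUPPLIER ADAPTER S2 ⊢ `ModEqItems` for M9
(`ModelN4.modelTarget_of_items` / `ModelTop4.modelInput_of_suppliers`).

The compiled S2 theorems (`ModEq23.yN_mem_B0`, `ModEq23.inv_yN_mem_B1`; inputs `yN^{±1} ∈ O1 ⊓ O2`
from `YMem11`, the level-`M'` isometry from `IsoM25.isoM`) retyped into helper4's literal shape
`ModelN4.ModEqItems`:

* `modEqItems_at` : at one `K`, from `ChartItems` (S1: DVR, `dvrR`) and `GlueItems` (V3i: `π ∈ O_j`,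
  `sat0`, `sat1`) ⊢ `ModEqItems n e q M' A K`;
* `modEqItems`    : `Large ChartItems → Large GlueItems → Large ModEqItems`.
-/
import Mathlib
import Fermat.Agent.ES.N34.ModelN4
import Fermat.Agent.ES.N34.IsoM25
import Fermat.Agent.ES.N34.YMem11
import Fermat.Agent.ES.N34.ModEq23

set_option autoImplicit false
set_option synthInstance.maxHeartbeats 400000
set_option linter.unusedSectionVars false

noncomputable section

open HahnSeries ModularCurve IntermediateField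

namespace Fermat.Agent.ES.N34.ItemsAd6

open Fermat.Agent.RED.Interface4 Fermat.Agent.RED.PUR.GaussGen8
  Fermat.Agent.RED.BASE.EtaQuot12
  Fermat.Agent.ES.N34.ModelDefs9 Fermat.Agent.ES.N34.ModelN4 Fermat.Agent.ES.N34.FrickeFK8

variable {n e M' : ℕ} [NeZero n] [NeZero M'] {q : ℕ} [NeZero q] {A : ValuationSubring Qbar}
  {K : IntermediateField ℚ Qbar}

/-- **S2 at one `K`**: `yN ∈ B0`, `yN⁻¹ ∈ B1`, from `ModEq23` (integrality + saturation; `dvrR` from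
S1, `sat0`/`sat1`/`π ∈ O_j` from the glue output) and `YMem11` (`yN^{±1} ∈ O1 ⊓ O2`; isometry from
`IsoM25`). -/
theorem modEqItems_at [FiniteDimensional ℚ K]
    (hb : Fermat.Agent.RED.BASE.Hauptmodul12.BaseHyp n e) (hq : q.Prime) (hqn : ¬ q ∣ n)
    (hqM : ¬ q ∣ M') (hA : A.LiesOverPrime q)
    (h1 : ChartItems n e q M' A K) (h2 : GlueItems n e q M' A K) : ModEqItems n e q M' A K := by
  intro ht
  obtain ⟨hdvr, ht', hc⟩ := h1
  obtain ⟨ϖ, hϖ⟩ := IsDiscreteValuationRing.exists_irreducible ↥(AK A K)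
  have hπ : IsUnif (AK A K) ϖ := isUnif_of_irreducible (AK A K) hϖ
  have : NeZero (M' * q) := ⟨Nat.mul_ne_zero (NeZero.ne M') (NeZero.ne q)⟩
  have hE : FK (M' * q) K ≤ fracField (AK A K) :=
    Fermat.Agent.RED.PUR.GaussBridge10.FK_le_fracField A K (M' * q)
  have g := h2 ht hE ϖ hπ
  have hci : Fermat.Agent.ES.N34.ChartN26.ChartInputs ↥(AK A K) ↥K ↥(FK (M' * q) K) ϖ (tN q ht) :=
    (hc ϖ hϖ).out
  have : Fact q.Prime := ⟨hq⟩
  have : CharP (Res (AK A K)) q :=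
    Fermat.Agent.RED.DESC.NumberFieldDVR27.charP_residueField_AK A K hq hA
  have hiso : ∀ x : FK M' K, (x : LaurentSeries K) ∈ gaussRing (AK A K) →
      ((frickeFK M' K x : FK M' K) : LaurentSeries K) ∈ gaussRing (AK A K) :=
    fun x hx => (IsoM25.isoM A K M' q hϖ hqM x).1 hx
  exact ⟨ModEq23.yN_mem_B0 A q hb hq hqn ht ϖ hci.dvrR (O1 M' q hπ hE) (O2 M' q hπ hE)
      (g.R_le_O1 ϖ) (g.R_le_O2 ϖ) g.sat0 (YMem11.yN_mem_O1 q ht hπ hE)
      (YMem11.yN_mem_O2 q ht hπ hE hiso),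
    ModEq23.inv_yN_mem_B1 A q hb hq hqn ht ϖ hci.dvrR (O1 M' q hπ hE) (O2 M' q hπ hE)
      (g.R_le_O1 ϖ) (g.R_le_O2 ϖ) g.sat1 (YMem11.yN_inv_mem_O1 q ht hπ hE)
      (YMem11.yN_inv_mem_O2 q ht hπ hE hiso)⟩

/-- **S2 ⊢ `Large ModEqItems`**, from S1 and V3i (same `K₀` as theirs). -/
theorem modEqItems (hb : Fermat.Agent.RED.BASE.Hauptmodul12.BaseHyp n e) (hq : q.Prime)
    (hqn : ¬ q ∣ n) (hqM : ¬ q ∣ M') (hA : A.LiesOverPrime q)
    (h1 : Large (ChartItems n e q M' A)) (h2 : Large (GlueItems n e q M' A)) :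
    Large (ModEqItems n e q M' A) := by
  obtain ⟨K₀, hK₀, h⟩ := h1.and h2
  refine ⟨K₀, hK₀, fun K _ hfd hle => ?_⟩
  haveI := hfd
  exact modEqItems_at hb hq hqn hqM hA (h K hfd hle).1 (h K hfd hle).2

/-- `(n, e) = (4, 8)`, `q` odd. -/
theorem modEqItems_four (hq : q.Prime) (h2 : q ≠ 2) (hqM : ¬ q ∣ M') (hA : A.LiesOverPrime q)
    (h1 : Large (ChartItems 4 8 q M' A)) (hg : Large (GlueItems 4 8 q M' A)) :
    Large (ModEqItems 4 8 q M' A) := by
  have hqn : ¬ q ∣ 4 := by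
    intro h
    have h' : q ∣ 2 := hq.dvd_of_dvd_pow (show q ∣ 2 ^ 2 by simpa using h)
    exact h2 ((Nat.prime_dvd_prime_iff_eq hq Nat.prime_two).1 h')
  exact modEqItems Fermat.Agent.RED.BASE.Hauptmodul12.baseHyp_four hq hqn hqM hA h1 hg

/-- `(n, e) = (9, 3)`, `q = 2`. -/
theorem modEqItems_nine [NeZero 2] (hqM : ¬ 2 ∣ M') (hA : A.LiesOverPrime 2)
    (h1 : Large (ChartItems 9 3 2 M' A)) (hg : Large (GlueItems 9 3 2 M' A)) :
    Large (ModEqItems 9 3 2 M' A) :=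
  modEqItems Fermat.Agent.RED.BASE.Hauptmodul12.baseHyp_nine Nat.prime_two (by decide) hqM hA h1 hg

end Fermat.Agent.ES.N34.ItemsAd6
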