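/-
Program N (S34), MODEL, brick S5 (helper14): the KRONECKER CONGRUENCES (K), abstract Gauss-ring form.

`O : ValuationSubring K` a discrete valuation ring with uniformiser `π` (`GaussGen8.IsUnif`), residue
field `κ = Res O` of characteristic `q` (a prime), `ψ : K →+* K` with `ψ O ⊆ O` and
`res (ψ x) ^ q = res x` on `O` (`ψ = φ⁻¹` for a Frobenius element `φ`).  Then for EVERY element `f` of
the Gauss ring `gaussRing O ⊆ K((𝐪))` (Program H, `RED/PUR/GaussGen8`):

  `f(𝐪^q) - ((ψ f)(𝐪)) ^ q ∈ π · gaussRing O`        (`kron_gauss`),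

where `f(𝐪^q) = qExpand K q f` and `ψ f = coeffMap ψ f` (coefficientwise action).  With `f` the
expansion at `∞` of a function `b` of level `M'` this is `β(b) - (α(φ⁻¹ b))^q ∈ π O₁`; with `f` the
Fricke expansion `T_S b` it is `α(b) - (β(φ⁻¹ b))^q ∈ π O₂` (N_BLUEPRINT9 §5 (K), N_PLAN27 D6).

Proof: `gaussRed` is a ring homomorphism to the FIELD `κ((𝐪))`, `gaussRed (f(𝐪^q)) = (gaussRed f)(𝐪^q)`,
and `gaussRed (ψ f) ^ q = (gaussRed f)(𝐪^q)` by the Frobenius identity `x^q = (x^φ)(𝐪^q)` in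
characteristic `q` (`KronCong24.pow_char`); the kernel of `gaussRed` is `π · gaussRing O`.
-/
import Mathlib
import Fermat.Agent.RED.PUR.GaussGen8
import Fermat.Agent.ES.KRON.KronCong24

set_option autoImplicit false

noncomputable section

open HahnSeries ModularCurve

namespace Fermat.Agent.ES.N34.KronN14

open Fermat.Agent.RED.PUR.GaussGen8

variable {K : Type*} [Field K] (O : ValuationSubring K)

/-- The restriction to `O` of a ring endomorphism `ψ` of `K` preserving `O`. -/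
def restrictO (ψ : K →+* K) (hψO : ∀ x ∈ O, ψ x ∈ O) : ↥O →+* ↥O where
  toFun x := ⟨ψ (x : K), hψO (x : K) x.2⟩
  map_one' := Subtype.ext (map_one ψ)
  map_mul' x y := Subtype.ext (map_mul ψ (x : K) (y : K))
  map_zero' := Subtype.ext (map_zero ψ)
  map_add' x y := Subtype.ext (map_add ψ (x : K) (y : K))

@[simp] theorem restrictO_coe (ψ : K →+* K) (hψO : ∀ x ∈ O, ψ x ∈ O) (x : ↥O) :
    ((restrictO O ψ hψO x : ↥O) : K) = ψ (x : K) := rfl

theorem subtype_comp_restrictO (ψ : K →+* K) (hψO : ∀ x ∈ O, ψ x ∈ O) :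
    O.subtype.comp (restrictO O ψ hψO) = ψ.comp O.subtype := by
  ext x; rfl

/-- `embK` commutes with the coefficientwise action. -/
theorem embK_coeffMap (ψ : K →+* K) (hψO : ∀ x ∈ O, ψ x ∈ O) (a : LaurentSeries ↥O) :
    embK O (coeffMap (restrictO O ψ hψO) a) = coeffMap ψ (embK O a) := by
  rw [embK, coeffMap_coeffMap, coeffMap_coeffMap, subtype_comp_restrictO]

/-- `embK` commutes with `𝐪 ↦ 𝐪^n`. -/
theorem embK_qExpand (n : ℕ) [NeZero n] (a : LaurentSeries ↥O) :
    embK O (qExpand ↥O n a) = qExpand K n (embK O a) := by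
  rw [embK, coeffMap_qExpand]

/-- `redL` commutes with `𝐪 ↦ 𝐪^n`. -/
theorem redL_qExpand (n : ℕ) [NeZero n] (a : LaurentSeries ↥O) :
    redL O (qExpand ↥O n a) = qExpand (Res O) n (redL O a) := by
  rw [redL, coeffMap_qExpand]

variable {O}

/-- The substitution `𝐪 ↦ 𝐪^n` preserves representations. -/
theorem isRep_qExpand (n : ℕ) [NeZero n] {f : LaurentSeries K} {a s : LaurentSeries ↥O}
    (h : IsRep O f a s) : IsRep O (qExpand K n f) (qExpand ↥O n a) (qExpand ↥O n s) := by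
  refine ⟨?_, ?_⟩
  · rw [redL_qExpand]
    intro h0
    exact h.1 (qExpand_injective (R := Res O) (N := n) (by rw [h0, map_zero]))
  · rw [embK_qExpand, embK_qExpand, ← map_mul, h.2]

variable (q : ℕ) [hq : Fact q.Prime] [CharP (Res O) q]

/-- In characteristic `q`: `(res ∘ ψ) a ^ q = (res a)(𝐪^q)` coefficientwise-Frobenius identity. -/
theorem redL_coeffMap_pow (ψ : K →+* K) (hψO : ∀ x ∈ O, ψ x ∈ O)
    (hψ : ∀ x : ↥O, res0 O (restrictO O ψ hψO x) ^ q = res0 O x) (a : LaurentSeries ↥O) :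
    redL O (coeffMap (restrictO O ψ hψO) a) ^ q = qExpand (Res O) q (redL O a) := by
  rw [Fermat.Agent.ES.KRON.KronCong24.pow_char q, redL, coeffMap_coeffMap, coeffMap_coeffMap]
  congr 1
  apply coeffMap_congr
  ext x
  simp only [RingHom.coe_comp, Function.comp_apply, frobenius_def]
  exact hψ x

/-- The coefficientwise action of `ψ` preserves representations. -/
theorem isRep_coeffMap (ψ : K →+* K) (hψO : ∀ x ∈ O, ψ x ∈ O)
    (hψ : ∀ x : ↥O, res0 O (restrictO O ψ hψO x) ^ q = res0 O x)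
    {f : LaurentSeries K} {a s : LaurentSeries ↥O} (h : IsRep O f a s) :
    IsRep O (ModularCurve.coeffMap ψ f) (ModularCurve.coeffMap (restrictO O ψ hψO) a)
      (ModularCurve.coeffMap (restrictO O ψ hψO) s) := by
  refine ⟨?_, ?_⟩
  · intro h0
    have h1 := redL_coeffMap_pow q ψ hψO hψ s
    rw [h0, zero_pow hq.out.ne_zero] at h1
    exact h.1 (qExpand_injective (R := Res O) (N := q) (by rw [← h1, map_zero]))
  · rw [embK_coeffMap, embK_coeffMap, ← map_mul, h.2]

theorem qExpand_mem_gaussRing (n : ℕ) [NeZero n] {f : LaurentSeries K} (hf : f ∈ gaussRing O) :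
    qExpand K n f ∈ gaussRing O := by
  obtain ⟨a, s, h⟩ := hf
  exact ⟨_, _, isRep_qExpand n h⟩

theorem coeffMap_mem_gaussRing (ψ : K →+* K) (hψO : ∀ x ∈ O, ψ x ∈ O)
    (hψ : ∀ x : ↥O, res0 O (restrictO O ψ hψO x) ^ q = res0 O x)
    {f : LaurentSeries K} (hf : f ∈ gaussRing O) : ModularCurve.coeffMap ψ f ∈ gaussRing O := by
  obtain ⟨a, s, h⟩ := hf
  exact ⟨_, _, isRep_coeffMap q ψ hψO hψ h⟩

/-- `gaussRed (f(𝐪^n)) = (gaussRed f)(𝐪^n)`. -/
theorem gaussRed_qExpand (n : ℕ) [NeZero n] (f : gaussRing O) :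
    gaussRed O ⟨qExpand K n (f : LaurentSeries K), qExpand_mem_gaussRing n f.2⟩
      = qExpand (Res O) n (gaussRed O f) := by
  obtain ⟨a, s, h⟩ := f.2
  rw [gaussRed_eq O (f := ⟨qExpand K n (f : LaurentSeries K), _⟩) (isRep_qExpand n h), gaussRed_eq O h,
    redL_qExpand, redL_qExpand, map_div₀]

/-- `gaussRed (ψ f) ^ q = (gaussRed f)(𝐪^q)`. -/
theorem gaussRed_coeffMap_pow (ψ : K →+* K) (hψO : ∀ x ∈ O, ψ x ∈ O)
    (hψ : ∀ x : ↥O, res0 O (restrictO O ψ hψO x) ^ q = res0 O x) (f : gaussRing O) :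
    gaussRed O ⟨ModularCurve.coeffMap ψ (f : LaurentSeries K),
        coeffMap_mem_gaussRing q ψ hψO hψ f.2⟩ ^ q
      = qExpand (Res O) q (gaussRed O f) := by
  obtain ⟨a, s, h⟩ := f.2
  rw [gaussRed_eq O (f := ⟨ModularCurve.coeffMap ψ (f : LaurentSeries K), _⟩)
    (isRep_coeffMap q ψ hψO hψ h), gaussRed_eq O h, div_pow, redL_coeffMap_pow q ψ hψO hψ,
    redL_coeffMap_pow q ψ hψO hψ, map_div₀]

/-- **Kronecker congruence, Gauss-ring form (K).**  For every `f` in the Gauss ring,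
`f(𝐪^q) - ((ψ f)(𝐪))^q = π · g` with `g` in the Gauss ring. -/
theorem kron_gauss {π : ↥O} (hπ : IsUnif O π) (ψ : K →+* K) (hψO : ∀ x ∈ O, ψ x ∈ O)
    (hψ : ∀ x : ↥O, res0 O (restrictO O ψ hψO x) ^ q = res0 O x)
    {f : LaurentSeries K} (hf : f ∈ gaussRing O) :
    ∃ g ∈ gaussRing O,
      qExpand K q f - (ModularCurve.coeffMap ψ f) ^ q = HahnSeries.C ((π : ↥O) : K) * g := by
  set F : gaussRing O := ⟨f, hf⟩ with hF
  set A : gaussRing O := ⟨qExpand K q f, qExpand_mem_gaussRing q hf⟩ with hA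
  set B : gaussRing O := ⟨ModularCurve.coeffMap ψ f, coeffMap_mem_gaussRing q ψ hψO hψ hf⟩ with hB
  have h0 : gaussRed O (A - B ^ q) = 0 := by
    rw [map_sub, map_pow]
    have h1 : gaussRed O A = qExpand (Res O) q (gaussRed O F) := gaussRed_qExpand q F
    have h2 : gaussRed O B ^ q = qExpand (Res O) q (gaussRed O F) :=
      gaussRed_coeffMap_pow q ψ hψO hψ F
    rw [h1, h2, sub_self]
  obtain ⟨g, hg⟩ := (gaussRed_eq_zero_iff hπ (A - B ^ q)).mp h0
  refine ⟨(g : LaurentSeries K), g.2, ?_⟩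
  have := congrArg (fun x : gaussRing O => (x : LaurentSeries K)) hg
  simpa [hA, hB, constG] using this

end Fermat.Agent.ES.N34.KronN14
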