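/-
Program N (S34), MODEL, brick S5 part B (helper15, with helper14): the KRONECKER CONGRUENCES (K) in the
vocabulary of `ModelDefs9` (bad level `N' = M' * q`, `F = FK (M' * q) K`, `R = AK A K`).

`ψ : K ≃ₐ[ℚ] K` with `ψ (A ∩ K) ⊆ A ∩ K` and `res (ψ x) ^ q = res x` on `A ∩ K` (the inverse of a
Frobenius element), `gψ := arithmeticRingAut (modularFunctionFieldFull M') ψ` its coefficientwise action
on `F_{M'} = FK M' K`.  For `b : FK M' K`:

* `kron_one` (K1): if the expansion at `∞` of `b` lies in the Gauss ring, then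
  `β b - (α (gψ b)) ^ q ∈ π O1`;
* `kron_two` (K2): if the expansion at the cusp `0` of `b` (`iotaTwo M' K b`) lies in the Gauss ring, then
  `α b - (β (gψ b)) ^ q ∈ π O2`.  HYPOTHESES (helper8's V2-a identities): `W_{N'} ∘ α = β ∘ W_{M'}` and
  `W_{N'} ∘ β = α ∘ W_{M'}`.

These are literally the inputs `hs'c'` (`s' := β b'`, `c' := α (gψ b')`) and `hsc` (`s := α b`,
`c := β (gψ b)`) of `NodeCoords29.nodeCoords_of_kron` (N_PLAN27 D6).

Both follow from helper14's `KronN14.kron_gauss` (valid on ALL of the Gauss ring).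
-/
import Mathlib
import Fermat.Agent.ES.N34.KronN14
import Fermat.Agent.ES.N34.ModelDefs9
import Fermat.Agent.ES.N34.GalBase21
import Fermat.Agent.ES.N34.GalChart21
import Fermat.Agent.ES.N34.FrickeV11
import Fermat.Agent.ES.FROB.FrobFacts12

set_option autoImplicit false
set_option linter.unusedSectionVars false
set_option synthInstance.maxHeartbeats 400000

noncomputable section

open HahnSeries ModularCurve

namespace Fermat.Agent.ES.N34.KronChart15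

open Fermat.Agent.RED.Interface4 Fermat.Agent.RED.PUR.GaussGen8
  Fermat.Agent.ES.N34.FrickeFK8 Fermat.Agent.ES.N34.ModelDefs9 Fermat.Agent.ES.N34.KronN14

variable {A : ValuationSubring Qbar} {K : IntermediateField ℚ Qbar} (M' q : ℕ) [NeZero M'] [NeZero q]

/-- the image of `π` in `F`, as a Laurent series, is the constant `π`. -/
theorem coe_algebraMap_pi (N : ℕ) (π : ↥(AK A K)) :
    ((algebraMap ↥(AK A K) ↥(FK N K) π : FK N K) : LaurentSeries K) =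
      HahnSeries.C ((π : ↥(AK A K)) : K) := by
  show algebraMap K (LaurentSeries K) ((π : ↥(AK A K)) : K) = _
  rw [algebraMap_eq_C]

/-- the coefficientwise action on `F_{M'}` is the coefficientwise action on Laurent series. -/
theorem coe_gpsi (ψ : K ≃ₐ[ℚ] K) (b : FK M' K) :
    ((arithmeticRingAut (modularFunctionFieldFull M') ψ b : FK M' K) : LaurentSeries K) =
      coeffMap ((ψ : K ≃ₐ[ℚ] K) : K →+* K) (b : LaurentSeries K) :=
  coe_arithmeticRingAut_apply _ ψ b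

variable [hq : Fact q.Prime] [CharP (Res (AK A K)) q]

/-- **(K1)** `β b - (α (ψ b)) ^ q ∈ π O1` for `b` of level `M'` whose expansion at `∞` lies in the Gauss
ring. -/
theorem kron_one {π : ↥(AK A K)} (hπ : IsUnif (AK A K) π)
    (hE : FK (M' * q) K ≤ fracField (AK A K)) (ψ : K ≃ₐ[ℚ] K)
    (hψO : ∀ x ∈ AK A K, ((ψ : K ≃ₐ[ℚ] K) : K →+* K) x ∈ AK A K)
    (hψ : ∀ x : ↥(AK A K),
      res0 (AK A K) (restrictO (AK A K) ((ψ : K ≃ₐ[ℚ] K) : K →+* K) hψO x) ^ q = res0 (AK A K) x)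
    (b : FK M' K) (hb : (b : LaurentSeries K) ∈ gaussRing (AK A K)) :
    ∃ o ∈ O1 M' q hπ hE,
      beta K M' q b - (alpha K M' q (arithmeticRingAut (modularFunctionFieldFull M') ψ b)) ^ q =
        algebraMap ↥(AK A K) ↥(FK (M' * q) K) π * o := by
  obtain ⟨g, hg, hfg⟩ := kron_gauss q hπ ((ψ : K ≃ₐ[ℚ] K) : K →+* K) hψO hψ hb
  have hπ0 : ((π : ↥(AK A K)) : K) ≠ 0 := fun h => hπ.ne_zero (Subtype.ext h)
  have hp0 : algebraMap ↥(AK A K) ↥(FK (M' * q) K) π ≠ 0 := by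
    intro h0
    have := congrArg (fun x : FK (M' * q) K => (x : LaurentSeries K)) h0
    simp only [coe_algebraMap_pi] at this
    have h1 : (HahnSeries.C ((π : ↥(AK A K)) : K) : LaurentSeries K) = 0 := this
    rw [map_eq_zero] at h1
    exact hπ0 h1
  set d : FK (M' * q) K :=
    beta K M' q b - (alpha K M' q (arithmeticRingAut (modularFunctionFieldFull M') ψ b)) ^ q with hd
  have hdcoe : ((d : FK (M' * q) K) : LaurentSeries K) = HahnSeries.C ((π : ↥(AK A K)) : K) * g := by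
    rw [← hfg, hd]
    push_cast
    rw [coe_beta, coe_alpha, coe_gpsi]
  refine ⟨(algebraMap ↥(AK A K) ↥(FK (M' * q) K) π)⁻¹ * d, ?_, ?_⟩
  · rw [mem_O1_iff]
    have : (((algebraMap ↥(AK A K) ↥(FK (M' * q) K) π)⁻¹ * d : FK (M' * q) K) : LaurentSeries K)
        = g := by
      push_cast
      rw [coe_algebraMap_pi, hdcoe]
      have hC0 : (HahnSeries.C ((π : ↥(AK A K)) : K) : LaurentSeries K) ≠ 0 := by
        rw [Ne, map_eq_zero]; exact hπ0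
      field_simp
    rw [this]
    exact hg
  · field_simp

/-- **(K2)** `α b - (β (ψ b)) ^ q ∈ π O2` for `b` of level `M'` whose expansion at the cusp `0` lies in
the Gauss ring; from (K1) for `W_{M'} b` transported by `W_{N'}` (V2-a identities as hypotheses). -/
theorem kron_two {π : ↥(AK A K)} (hπ : IsUnif (AK A K) π)
    (hE : FK (M' * q) K ≤ fracField (AK A K)) (ψ : K ≃ₐ[ℚ] K)
    (hψO : ∀ x ∈ AK A K, ((ψ : K ≃ₐ[ℚ] K) : K →+* K) x ∈ AK A K)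
    (hψ : ∀ x : ↥(AK A K),
      res0 (AK A K) (restrictO (AK A K) ((ψ : K ≃ₐ[ℚ] K) : K →+* K) hψO x) ^ q = res0 (AK A K) x)
    (hWα : ∀ f : FK M' K, wN K M' q (alpha K M' q f) = beta K M' q (frickeFK M' K f))
    (hWβ : ∀ f : FK M' K, wN K M' q (beta K M' q f) = alpha K M' q (frickeFK M' K f))
    (b : FK M' K) (hb : iotaTwo M' K b ∈ gaussRing (AK A K)) :
    ∃ o ∈ O2 M' q hπ hE,
      alpha K M' q b - (beta K M' q (arithmeticRingAut (modularFunctionFieldFull M') ψ b)) ^ q =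
        algebraMap ↥(AK A K) ↥(FK (M' * q) K) π * o := by
  obtain ⟨o, ho, h⟩ := kron_one M' q hπ hE ψ hψO hψ (frickeFK M' K b) hb
  refine ⟨wN K M' q o, (wN_mem_O2_iff M' q hπ hE o).mpr ho, ?_⟩
  have h1 := congrArg (wN K M' q) h
  rw [map_sub, map_pow, map_mul, hWβ, hWα, frickeFK_frickeFK,
    ← frickeFK_arithmeticRingAut, frickeFK_frickeFK] at h1
  rw [h1]
  congr 1
  exact (wN K M' q).commutes ((π : ↥(AK A K)) : K)

/-! ### The shape consumed by S3 (`CompHyp16`, pair `(O2, β)`): `t ≡ β w mod π O2` with `w` in the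
level-`M'` chart -/

section Hauptmodul

open Fermat.Agent.RED.BASE.EtaQuot12 Fermat.Agent.RED.PUR.ChartGeneric22

variable {n e : ℕ} [NeZero n]

/-- the coefficientwise Galois action fixes the Hauptmodul (rational coefficients). -/
theorem gpsi_tM (ψ : K ≃ₐ[ℚ] K) (ht : tq (↥K) n e ∈ FK M' K) :
    arithmeticRingAut (modularFunctionFieldFull M') ψ (tM ht) = tM ht := by
  apply Subtype.ext
  rw [coe_gpsi, coe_tM]
  exact coeffMap_tq (↥K) _ n e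

/-- **(K₂), chart `0`**: `tN - β (tM ^ q) ∈ π O2`, and `tM ^ q` lies in the level-`M'` chart `B0M`. -/
theorem kron_two_tN {π : ↥(AK A K)} (hπ : IsUnif (AK A K) π)
    (hE : FK (M' * q) K ≤ fracField (AK A K)) (ψ : K ≃ₐ[ℚ] K)
    (hψO : ∀ x ∈ AK A K, ((ψ : K ≃ₐ[ℚ] K) : K →+* K) x ∈ AK A K)
    (hψ : ∀ x : ↥(AK A K),
      res0 (AK A K) (restrictO (AK A K) ((ψ : K ≃ₐ[ℚ] K) : K →+* K) hψO x) ^ q = res0 (AK A K) x)
    (hWα : ∀ f : FK M' K, wN K M' q (alpha K M' q f) = beta K M' q (frickeFK M' K f))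
    (hWβ : ∀ f : FK M' K, wN K M' q (beta K M' q f) = alpha K M' q (frickeFK M' K f))
    (ht : tq (↥K) n e ∈ FK M' K) (hb : iotaTwo M' K (tM ht) ∈ gaussRing (AK A K)) :
    ∃ w ∈ B0M A ht, ∃ o ∈ O2 M' q hπ hE,
      tN q ht - beta K M' q w = algebraMap ↥(AK A K) ↥(FK (M' * q) K) π * o := by
  obtain ⟨o, ho, h⟩ := kron_two M' q hπ hE ψ hψO hψ hWα hWβ (tM ht) hb
  refine ⟨tM ht ^ q, pow_mem (self_mem_chart (tM ht)) q, o, ho, ?_⟩
  rw [gpsi_tM] at h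
  rw [map_pow]
  exact h

/-- **(K₂), chart `1`**: `tN⁻¹ - β ((tM⁻¹) ^ q) ∈ π O2`, and `(tM⁻¹) ^ q` lies in `B1M`. -/
theorem kron_two_tN_inv {π : ↥(AK A K)} (hπ : IsUnif (AK A K) π)
    (hE : FK (M' * q) K ≤ fracField (AK A K)) (ψ : K ≃ₐ[ℚ] K)
    (hψO : ∀ x ∈ AK A K, ((ψ : K ≃ₐ[ℚ] K) : K →+* K) x ∈ AK A K)
    (hψ : ∀ x : ↥(AK A K),
      res0 (AK A K) (restrictO (AK A K) ((ψ : K ≃ₐ[ℚ] K) : K →+* K) hψO x) ^ q = res0 (AK A K) x)
    (hWα : ∀ f : FK M' K, wN K M' q (alpha K M' q f) = beta K M' q (frickeFK M' K f))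
    (hWβ : ∀ f : FK M' K, wN K M' q (beta K M' q f) = alpha K M' q (frickeFK M' K f))
    (ht : tq (↥K) n e ∈ FK M' K) (hb : iotaTwo M' K (tM ht)⁻¹ ∈ gaussRing (AK A K)) :
    ∃ w ∈ B1M A ht, ∃ o ∈ O2 M' q hπ hE,
      (tN q ht)⁻¹ - beta K M' q w = algebraMap ↥(AK A K) ↥(FK (M' * q) K) π * o := by
  obtain ⟨o, ho, h⟩ := kron_two M' q hπ hE ψ hψO hψ hWα hWβ (tM ht)⁻¹ hb
  refine ⟨(tM ht)⁻¹ ^ q, pow_mem (self_mem_chart (tM ht)⁻¹) q, o, ho, ?_⟩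
  rw [map_inv₀ (arithmeticRingAut (modularFunctionFieldFull M') ψ), gpsi_tM] at h
  rw [map_pow, tN, ← map_inv₀]
  exact h

/-- **(K₁)** for the Hauptmodul: `yN - tN ^ q ∈ π O1` (`y ≡ t^q` along the first component). -/
theorem kron_one_yN {π : ↥(AK A K)} (hπ : IsUnif (AK A K) π)
    (hE : FK (M' * q) K ≤ fracField (AK A K)) (ψ : K ≃ₐ[ℚ] K)
    (hψO : ∀ x ∈ AK A K, ((ψ : K ≃ₐ[ℚ] K) : K →+* K) x ∈ AK A K)
    (hψ : ∀ x : ↥(AK A K),
      res0 (AK A K) (restrictO (AK A K) ((ψ : K ≃ₐ[ℚ] K) : K →+* K) hψO x) ^ q = res0 (AK A K) x)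
    (ht : tq (↥K) n e ∈ FK M' K) (hb : tq (↥K) n e ∈ gaussRing (AK A K)) :
    ∃ o ∈ O1 M' q hπ hE,
      yN q ht - tN q ht ^ q = algebraMap ↥(AK A K) ↥(FK (M' * q) K) π * o := by
  obtain ⟨o, ho, h⟩ := kron_one M' q hπ hE ψ hψO hψ (tM ht) hb
  rw [gpsi_tM] at h
  exact ⟨o, ho, h⟩

end Hauptmodul

/-! ### (B2) Existence of the inverse Frobenius `ψ` on a normal number field -/

section Frobenius

open Fermat.Agent.RED.DESC Fermat.Agent.ES.RED.GaloisRed21 Fermat.Agent.ES.N34.GalBase21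

variable (A K) [Normal ℚ K]

/-- **The inverse of a Frobenius element, restricted to `K`**: `ψ (A ∩ K) ⊆ A ∩ K` and
`res (ψ x) ^ q = res x` on `A ∩ K` — literally the hypotheses `hψO`, `hψ` of `KronN14.kron_gauss`
(and of `kron_one`, `kron_two` above). -/
theorem exists_frobInv (q : ℕ) (hq : q.Prime) (hA : A.LiesOverPrime q) :
    ∃ (ψ : K ≃ₐ[ℚ] K) (hψO : ∀ x ∈ AK A K, ((ψ : K ≃ₐ[ℚ] K) : K →+* K) x ∈ AK A K),
      ∀ x : ↥(AK A K),
        res0 (AK A K) (restrictO (AK A K) ((ψ : K ≃ₐ[ℚ] K) : K →+* K) hψO x) ^ q =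
          res0 (AK A K) x := by
  obtain ⟨σ, hσ⟩ := Fermat.Agent.ES.FROB.FrobFacts12.exists_isFrobeniusAt_of q hq A hA
  have hD : σ ∈ A.decompositionSubgroup ℚ := hσ.mem_decompositionSubgroup
  have hD' : σ⁻¹ ∈ A.decompositionSubgroup ℚ := inv_mem hD
  have hψO : ∀ x ∈ AK A K, ((resK K σ⁻¹ : K ≃ₐ[ℚ] K) : K →+* K) x ∈ AK A K :=
    fun x hx => resK_mem_AK A K hD' hx
  refine ⟨resK K σ⁻¹, hψO, fun x => ?_⟩
  set y : ↥(AK A K) := restrictO (AK A K) ((resK K σ⁻¹ : K ≃ₐ[ℚ] K) : K →+* K) hψO x with hy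
  apply NumberFieldDVR27.resMap_injective A K
  rw [map_pow, NumberFieldDVR27.resMap_residue, NumberFieldDVR27.resMap_residue]
  -- `res_A (incl y) ^ q = res_A (σ (incl y)) = res_A (incl x)`
  have h1 := psiRes_of_isFrobeniusAt A hσ (IsLocalRing.residue ↥A (NumberFieldDVR27.incl A K y))
  rw [psiRes_residue] at h1
  rw [← h1]
  congr 1
  apply Subtype.ext
  rw [coe_sigmaA, NumberFieldDVR27.coe_incl, NumberFieldDVR27.coe_incl]
  have h2 : (((y : ↥(AK A K)) : K) : Qbar) = σ⁻¹ (((x : ↥(AK A K)) : K) : Qbar) :=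
    coe_resK K σ⁻¹ (x : K)
  rw [h2]
  exact AlgEquiv.apply_symm_apply σ _

/-- The residue field of `A ∩ K` has characteristic `q` (instance needed by `kron_one`/`kron_two`). -/
theorem charP_res (q : ℕ) (hq : q.Prime) (hA : A.LiesOverPrime q) : CharP (Res (AK A K)) q :=
  NumberFieldDVR27.charP_residueField_AK A K hq hA

end Frobenius

/-! ### The literal shapes of the consumers (`NodeCoordsAsm29`, `CompGauss16`), with V2-a from
`FrickeV11`; remaining hypotheses: the level-`M'` facts `hle` (`chart ⊆ Ov_{M'}`) and `hiso`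
(`W_{M'}` preserves `Ov_{M'}`) -/

section Consumers

open Fermat.Agent.RED.BASE.EtaQuot12 Fermat.Agent.RED.PUR.ChartGeneric22
  Fermat.Agent.ES.N34.FrickeV11

variable {n e : ℕ} [NeZero n]

/-- `ψ` maps `A ∩ K` to itself ⇒ its coefficientwise action is semilinear over `R = A ∩ K`. -/
theorem gpsi_semilin (N : ℕ) (ψ : K ≃ₐ[ℚ] K)
    (hψO : ∀ x ∈ AK A K, ((ψ : K ≃ₐ[ℚ] K) : K →+* K) x ∈ AK A K) (r : ↥(AK A K)) :
    ∃ r' : ↥(AK A K), arithmeticRingAut (modularFunctionFieldFull N) ψ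
      (algebraMap ↥(AK A K) ↥(FK N K) r) = algebraMap ↥(AK A K) ↥(FK N K) r' :=
  ⟨⟨ψ (r : K), hψO _ r.2⟩, arithmeticRingAut_algebraMap (modularFunctionFieldFull N) ψ (r : K)⟩

/-- `ψ` preserves the level-`M'` chart `B0M`. -/
theorem gpsi_mem_B0M (ψ : K ≃ₐ[ℚ] K)
    (hψO : ∀ x ∈ AK A K, ((ψ : K ≃ₐ[ℚ] K) : K →+* K) x ∈ AK A K)
    (ht : tq (↥K) n e ∈ FK M' K) {b : FK M' K} (hb : b ∈ B0M A ht) :
    arithmeticRingAut (modularFunctionFieldFull M') ψ b ∈ B0M A ht :=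
  GalChart21.map_mem_chart (B0M A ht) (self_mem_chart (tM ht)) (chart_intcl (tM ht))
    (fun _ hx => hx) _ (gpsi_semilin M' ψ hψO) (gpsi_tM M' ψ ht) hb

/-- `ψ` preserves the level-`M'` chart `B1M`. -/
theorem gpsi_mem_B1M (ψ : K ≃ₐ[ℚ] K)
    (hψO : ∀ x ∈ AK A K, ((ψ : K ≃ₐ[ℚ] K) : K →+* K) x ∈ AK A K)
    (ht : tq (↥K) n e ∈ FK M' K) {b : FK M' K} (hb : b ∈ B1M A ht) :
    arithmeticRingAut (modularFunctionFieldFull M') ψ b ∈ B1M A ht :=
  GalChart21.map_mem_chart (B1M A ht) (self_mem_chart (tM ht)⁻¹) (chart_intcl (tM ht)⁻¹)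
    (fun _ hx => hx) _ (gpsi_semilin M' ψ hψO)
    (by rw [map_inv₀, gpsi_tM]) hb

variable {π : ↥(AK A K)} (hπ : IsUnif (AK A K) π) (hE : FK (M' * q) K ≤ fracField (AK A K))
  (ψ : K ≃ₐ[ℚ] K) (hψO : ∀ x ∈ AK A K, ((ψ : K ≃ₐ[ℚ] K) : K →+* K) x ∈ AK A K)
  (hψ : ∀ x : ↥(AK A K),
    res0 (AK A K) (restrictO (AK A K) ((ψ : K ≃ₐ[ℚ] K) : K →+* K) hψO x) ^ q = res0 (AK A K) x)

include hψ in
/-- (K2) with V2-a discharged by `FrickeV11`. -/
theorem kron_two' (b : FK M' K) (hb : iotaTwo M' K b ∈ gaussRing (AK A K)) :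
    ∃ o ∈ O2 M' q hπ hE,
      alpha K M' q b - (beta K M' q (arithmeticRingAut (modularFunctionFieldFull M') ψ b)) ^ q =
        algebraMap ↥(AK A K) ↥(FK (M' * q) K) π * o :=
  kron_two M' q hπ hE ψ hψO hψ (wN_alpha K M' q) (wN_beta K M' q) b hb

include hψ in
/-- **`hKβ` of `NodeCoordsAsm29`, chart `0`** (`B⁰ := ↥(B0M A ht)`, `α β` := `alpha`, `beta` on it). -/
theorem hKbeta_B0M (ht : tq (↥K) n e ∈ FK M' K)
    (hle : ∀ b ∈ B0M A ht, (b : LaurentSeries K) ∈ gaussRing (AK A K)) :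
    ∀ b : ↥(B0M A ht), ∃ c : ↥(B0M A ht), ∃ o ∈ O1 M' q hπ hE,
      beta K M' q (b : FK M' K) - (alpha K M' q (c : FK M' K)) ^ q =
        algebraMap ↥(AK A K) ↥(FK (M' * q) K) π * o := by
  intro b
  obtain ⟨o, ho, h⟩ := kron_one M' q hπ hE ψ hψO hψ (b : FK M' K) (hle _ b.2)
  exact ⟨⟨_, gpsi_mem_B0M M' ψ hψO ht b.2⟩, o, ho, h⟩

include hψ in
/-- **`hKα` of `NodeCoordsAsm29`, chart `0`**. -/
theorem hKalpha_B0M (ht : tq (↥K) n e ∈ FK M' K)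
    (hle : ∀ b ∈ B0M A ht, (b : LaurentSeries K) ∈ gaussRing (AK A K))
    (hiso : ∀ x : FK M' K, (x : LaurentSeries K) ∈ gaussRing (AK A K) →
      ((frickeFK M' K x : FK M' K) : LaurentSeries K) ∈ gaussRing (AK A K)) :
    ∀ b : ↥(B0M A ht), ∃ c : ↥(B0M A ht), ∃ o ∈ O2 M' q hπ hE,
      alpha K M' q (b : FK M' K) - (beta K M' q (c : FK M' K)) ^ q =
        algebraMap ↥(AK A K) ↥(FK (M' * q) K) π * o := by
  intro b
  obtain ⟨o, ho, h⟩ := kron_two' M' q hπ hE ψ hψO hψ (b : FK M' K) (hiso _ (hle _ b.2))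
  exact ⟨⟨_, gpsi_mem_B0M M' ψ hψO ht b.2⟩, o, ho, h⟩

include hψ in
/-- **`hKβ` of `NodeCoordsAsm29`, chart `1`**. -/
theorem hKbeta_B1M (ht : tq (↥K) n e ∈ FK M' K)
    (hle : ∀ b ∈ B1M A ht, (b : LaurentSeries K) ∈ gaussRing (AK A K)) :
    ∀ b : ↥(B1M A ht), ∃ c : ↥(B1M A ht), ∃ o ∈ O1 M' q hπ hE,
      beta K M' q (b : FK M' K) - (alpha K M' q (c : FK M' K)) ^ q =
        algebraMap ↥(AK A K) ↥(FK (M' * q) K) π * o := by
  intro b
  obtain ⟨o, ho, h⟩ := kron_one M' q hπ hE ψ hψO hψ (b : FK M' K) (hle _ b.2)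
  exact ⟨⟨_, gpsi_mem_B1M M' ψ hψO ht b.2⟩, o, ho, h⟩

include hψ in
/-- **`hKα` of `NodeCoordsAsm29`, chart `1`**. -/
theorem hKalpha_B1M (ht : tq (↥K) n e ∈ FK M' K)
    (hle : ∀ b ∈ B1M A ht, (b : LaurentSeries K) ∈ gaussRing (AK A K))
    (hiso : ∀ x : FK M' K, (x : LaurentSeries K) ∈ gaussRing (AK A K) →
      ((frickeFK M' K x : FK M' K) : LaurentSeries K) ∈ gaussRing (AK A K)) :
    ∀ b : ↥(B1M A ht), ∃ c : ↥(B1M A ht), ∃ o ∈ O2 M' q hπ hE,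
      alpha K M' q (b : FK M' K) - (beta K M' q (c : FK M' K)) ^ q =
        algebraMap ↥(AK A K) ↥(FK (M' * q) K) π * o := by
  intro b
  obtain ⟨o, ho, h⟩ := kron_two' M' q hπ hE ψ hψO hψ (b : FK M' K) (hiso _ (hle _ b.2))
  exact ⟨⟨_, gpsi_mem_B1M M' ψ hψO ht b.2⟩, o, ho, h⟩

include hψ in
/-- **`hK0` of `CompInst16`** (helper16's literal shape): `tN - β w ∈ π O2`, `w : ↥(B0M A ht)`. -/
theorem hK0 (ht : tq (↥K) n e ∈ FK M' K)
    (hb : ((frickeFK M' K (tM ht) : FK M' K) : LaurentSeries K) ∈ gaussRing (AK A K)) :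
    ∃ w : ↥(B0M A ht), ∃ o ∈ O2 M' q hπ hE,
      tN q ht - beta K M' q (w : FK M' K) = algebraMap ↥(AK A K) ↥(FK (M' * q) K) π * o := by
  obtain ⟨w, hw, o, ho, h⟩ := kron_two_tN M' q hπ hE ψ hψO hψ (wN_alpha K M' q) (wN_beta K M' q) ht hb
  exact ⟨⟨w, hw⟩, o, ho, h⟩

include hψ in
/-- **`hK1` of `CompInst16`**: `tN⁻¹ - β w ∈ π O2`, `w : ↥(B1M A ht)`. -/
theorem hK1 (ht : tq (↥K) n e ∈ FK M' K)
    (hb : ((frickeFK M' K (tM ht)⁻¹ : FK M' K) : LaurentSeries K) ∈ gaussRing (AK A K)) :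
    ∃ w : ↥(B1M A ht), ∃ o ∈ O2 M' q hπ hE,
      (tN q ht)⁻¹ - beta K M' q (w : FK M' K) =
        algebraMap ↥(AK A K) ↥(FK (M' * q) K) π * o := by
  obtain ⟨w, hw, o, ho, h⟩ :=
    kron_two_tN_inv M' q hπ hE ψ hψO hψ (wN_alpha K M' q) (wN_beta K M' q) ht hb
  exact ⟨⟨w, hw⟩, o, ho, h⟩

end Consumers

end Fermat.Agent.ES.N34.KronChart15
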