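/-
Program N (S34), chapter MODEL, brick S5 part B, SUPPLIER THEOREM (helper15):

  `kronItems : q.Prime → ¬ q ∣ M' → A.LiesOverPrime q → Large (KronItems n e q M' A)`

— the Kronecker congruences in chart form, both charts, both directions, for EVERY number field
`K ⊂ ℚ̄` normal over `ℚ` (no lower bound `K₀` is needed), in `ModelN4`'s literal text.

Ingredients: `KronChart15` (`hKalpha_B0M`, `hKbeta_B0M`, `hKalpha_B1M`, `hKbeta_B1M`,
`exists_frobInv`, `charP_res`), the isometry `IsoM25.isoM` (`W_{M'}` preserves the Gauss ring at the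
good level), and Program H's `chart ⊆ Ov` at level `M'` (`G1Package8.mem_OvE_of_isIntegral(_inv)`).
-/
import Mathlib
import Fermat.Agent.ES.N34.KronChart15
import Fermat.Agent.ES.N34.IsoM25
import Fermat.Agent.ES.N34.ModelN4

set_option autoImplicit false
set_option linter.unusedSectionVars false
set_option synthInstance.maxHeartbeats 400000

noncomputable section

open HahnSeries ModularCurve

namespace Fermat.Agent.ES.N34.KronItems15

open Fermat.Agent.RED.Interface4 Fermat.Agent.RED.PUR.GaussGen8 Fermat.Agent.RED.PUR.G1Package8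
  Fermat.Agent.RED.BASE.EtaQuot12 Fermat.Agent.RED.PUR.ChartGeneric22
  Fermat.Agent.ES.N34.FrickeFK8 Fermat.Agent.ES.N34.ModelDefs9 Fermat.Agent.ES.N34.ModelN4
  Fermat.Agent.ES.N34.KronChart15

variable {A : ValuationSubring Qbar} {K : IntermediateField ℚ Qbar} {M' : ℕ} [NeZero M']
  {n e : ℕ} [NeZero n] [IsDiscreteValuationRing ↥(AK A K)]

/-- `chart ⊆ Ov` at the good level, chart `0`: the elements of `B0M` have Gauss-integral expansions. -/
theorem le_B0M {π : ↥(AK A K)} (hπ : Irreducible π) (ht : tq (↥K) n e ∈ FK M' K) :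
    ∀ b ∈ B0M A ht, (b : LaurentSeries K) ∈ gaussRing (AK A K) := by
  intro b hb
  have hE' : FK M' K ≤ fracField (AK A K) :=
    Fermat.Agent.RED.PUR.GaussBridge10.FK_le_fracField A K M'
  have htg : ((tM ht : FK M' K) : LaurentSeries K) ∈ gaussRing (AK A K) :=
    Fermat.Agent.RED.BASE.TBridge15.tq_mem_gaussRing (AK A K) n e
  exact (mem_OvE_iff (AK A K) hπ (FK M' K) hE' b).mp
    (mem_OvE_of_isIntegral hπ hE' (tM ht) htg hb)

/-- `chart ⊆ Ov` at the good level, chart `1`. -/
theorem le_B1M {π : ↥(AK A K)} (hπ : Irreducible π) (ht : tq (↥K) n e ∈ FK M' K) :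
    ∀ b ∈ B1M A ht, (b : LaurentSeries K) ∈ gaussRing (AK A K) := by
  intro b hb
  have hE' : FK M' K ≤ fracField (AK A K) :=
    Fermat.Agent.RED.PUR.GaussBridge10.FK_le_fracField A K M'
  have htg : ((tM ht : FK M' K) : LaurentSeries K) ∈ gaussRing (AK A K) :=
    Fermat.Agent.RED.BASE.TBridge15.tq_mem_gaussRing (AK A K) n e
  have htr : Transcendental (Res (AK A K))
      (gaussRed (AK A K) ⟨((tM ht : FK M' K) : LaurentSeries K), htg⟩) :=
    Fermat.Agent.RED.BASE.TBridge15.transcendental_gaussRed_tG (AK A K) n e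
  exact (mem_OvE_iff (AK A K) hπ (FK M' K) hE' b).mp
    (mem_OvE_of_isIntegral_inv hπ hE' (tM ht) htg htr hb)

omit [IsDiscreteValuationRing ↥(AK A K)] in
/-- **S5-B at one normal number field `K`** (`ModelN4.KronItems`, literal). -/
theorem kronItems_at {q : ℕ} [NeZero q] [Normal ℚ K] [FiniteDimensional ℚ K] (hq : q.Prime)
    (hqM : ¬ q ∣ M') (hA : A.LiesOverPrime q) : KronItems n e q M' A K := by
  intro ht hE π hπ
  have hdvr : IsDiscreteValuationRing ↥(AK A K) :=
    Fermat.Agent.RED.DESC.NumberFieldDVR27.isDiscreteValuationRing_AK A K hq.ne_zero hA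
  have hirr : Irreducible π := (IsDiscreteValuationRing.irreducible_iff_uniformizer π).mpr hπ.max_eq
  have : Fact q.Prime := ⟨hq⟩
  have : CharP (Res (AK A K)) q := charP_res A K q hq hA
  obtain ⟨ψ, hψO, hψ⟩ := exists_frobInv A K q hq hA
  have hiso : ∀ x : FK M' K, (x : LaurentSeries K) ∈ gaussRing (AK A K) →
      ((frickeFK M' K x : FK M' K) : LaurentSeries K) ∈ gaussRing (AK A K) :=
    fun x hx => (IsoM25.isoM A K M' q hirr hqM x).mp hx
  exact ⟨hKalpha_B0M M' q hπ hE ψ hψO hψ ht (le_B0M hirr ht) hiso,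
    hKbeta_B0M M' q hπ hE ψ hψO hψ ht (le_B0M hirr ht),
    hKalpha_B1M M' q hπ hE ψ hψO hψ ht (le_B1M hirr ht) hiso,
    hKbeta_B1M M' q hπ hE ψ hψO hψ ht (le_B1M hirr ht)⟩

omit [IsDiscreteValuationRing ↥(AK A K)] in
/-- **S5-B, supplier theorem**: `Large (KronItems n e q M' A)` (no lower bound on `K` needed). -/
theorem kronItems {q : ℕ} [NeZero q] (hq : q.Prime) (hqM : ¬ q ∣ M')
    (hA : A.LiesOverPrime q) : Large (KronItems n e q M' A) :=
  ⟨⊥, inferInstance, fun K _ hfd _ => by have := hfd; exact kronItems_at hq hqM hA⟩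

end Fermat.Agent.ES.N34.KronItems15
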