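/-
Program N (S34), chapter MODEL, support brick for S3-inst / M9 (helper20): **the level-`M'` package of
Program H in the literal argument shapes of `CompGauss16.branchPrincipal_gauss`.**

* `LevelM O EM π tM` (generic: `O` a DVR of `K`, `EM ≤ K((𝐪))`, `tM : ↥EM`) bundles
  `Irreducible π`, `hEM : EM ≤ fracField O`, `htM : ↑tM ∈ gaussRing O`, `htrM` (transcendental residue),
  `hn' : [EM : K(tM)] ≠ 0`, `(DEG)+(IRR)` for one `n'`, and `hsm : SmoothChart O EM π tM`
  — exactly the level-`M'` arguments `hπ hEM tM htM htrM hn' hdegM hirrM hsm` of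
  `CompGauss16.branchPrincipal_gauss` (and of `levelM_le/_sat/_loc`).
* `LevelM.inv` : the same package for the parameter `tM⁻¹` (chart at infinity) from the package for `tM`
  and `SmoothChart O EM π tM⁻¹` (`G1Package8.tinv_mem_gaussRing`, `transcendental_inv`, `Kt_inv`,
  `degLe_inv`, `irr_inv`).
* `levelM_of_targets` : at `O := AK A K`, `EM := FK M' K`, `tM := ModelDefs9.tM ht` for ALL large number
  fields `K` and EVERY uniformiser `ϖ`, from Program H's targets (the body of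
  `ModelMain4.modelStep_of_targets`), together with the by-products `ht`, `hjt` that the other MODEL bricks
  (`ModelGlue22.glueOut_model_tq`, `GaussVOne25.g2_v1`) take as arguments.
* `levelM_four`, `levelM_nine` : unconditional, `(n, e) = (4, 8)` with `4 ∣ M'`, `(9, 3)` with `9 ∣ M'`
  (`S18Exports4.targetsHyp`).
-/
import Mathlib
import Fermat.Agent.RED.S18Exports4
import Fermat.Agent.RED.BASE.TBridge15
import Fermat.Agent.ES.N34.ModelDefs9

set_option autoImplicit false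
set_option linter.unusedSectionVars false

noncomputable section

open HahnSeries ModularCurve IntermediateField
open scoped MatrixGroups

namespace Fermat.Agent.ES.N34.LevelM20

open Fermat.Agent.RED.PUR.GaussGen8 Fermat.Agent.RED.PUR.KtGauss8 Fermat.Agent.RED.PUR.G1Package8
  Fermat.Agent.RED.ModelAsm4 Fermat.Agent.RED.ModelIface4

/-! ### The generic package -/

section Generic

variable {K : Type*} [Field K] (O : ValuationSubring K)
  (EM : IntermediateField K (LaurentSeries K))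

/-- **The level-`M'` input of `CompGauss16.branchPrincipal_gauss`** for the parameter `tM`. -/
structure LevelM (π : ↥O) (tM : ↥EM) : Prop where
  irr : Irreducible π
  hEM : EM ≤ fracField O
  htM : (tM : LaurentSeries K) ∈ gaussRing O
  htrM : Transcendental (Res O) (gaussRed O ⟨(tM : LaurentSeries K), htM⟩)
  hn' : relfinrank (Kt O ⟨(tM : LaurentSeries K), htM⟩) EM ≠ 0
  deg_irr : ∃ n' : ℕ, DegLe O EM ⟨(tM : LaurentSeries K), htM⟩ n' ∧
    Irr O EM ⟨(tM : LaurentSeries K), htM⟩ n'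
  hsm : SmoothChart O EM π tM

variable {O EM}

/-- The package for the chart at infinity. -/
theorem LevelM.inv [IsDiscreteValuationRing ↥O] {π : ↥O} {tM : ↥EM} (h : LevelM O EM π tM)
    (hsm1 : SmoothChart O EM π tM⁻¹) : LevelM O EM π tM⁻¹ := by
  obtain ⟨n', hdeg, hirr⟩ := h.deg_irr
  exact
    { irr := h.irr
      hEM := h.hEM
      htM := tinv_mem_gaussRing tM h.htM h.htrM
      htrM := transcendental_inv tM h.htM h.htrM
      hn' := by
        rw [Kt_inv tM h.htM h.htrM]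
        exact h.hn'
      deg_irr := ⟨n', degLe_inv tM h.htM h.htrM hdeg, irr_inv tM h.htM h.htrM hirr⟩
      hsm := hsm1 }

/-- `tM` is transcendental over `K`. -/
theorem LevelM.transcendental [IsDiscreteValuationRing ↥O] {π : ↥O} {tM : ↥EM}
    (h : LevelM O EM π tM) : Transcendental K tM :=
  transcendental_of_coe tM
    (transcendental_t (tG := ⟨(tM : LaurentSeries K), h.htM⟩) h.irr h.htrM)

/-- `EM` is finite over `K(tM)`. -/
theorem LevelM.finiteDimensional {π : ↥O} {tM : ↥EM} (h : LevelM O EM π tM) :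
    FiniteDimensional ↥(IntermediateField.adjoin K {tM}) ↥EM :=
  finiteDimensional_adjoin tM h.hn'

end Generic

/-! ### The arithmetic instance -/

section Concrete

open Fermat.Agent.RED.Interface4 Fermat.Agent.RED.ModelTargets4 Fermat.Agent.RED.ModelMain4
  Fermat.Agent.RED.BASE.EtaQuot12 Fermat.Agent.X0 Fermat.Agent.RED.DESC.NumberFieldDVR27
  Fermat.Agent.RED.BASE.Interface12 Fermat.Agent.ES.N34.ModelDefs9

variable {n e M' : ℕ} [NeZero n] [NeZero M'] {A : ValuationSubring Qbar}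

/-- **The level-`M'` package from Program H's targets**, for all large number fields `K` (no normality
needed) and every uniformiser `ϖ` of `A ∩ K`; `ht` and `hjt` are exported for the other bricks. -/
theorem levelM_of_targets {q : ℕ} (hq : q.Prime) (hqM : ¬ q ∣ M') (hA : A.LiesOverPrime q)
    (cv : SL(2, ℤ) → Option Kbar)
    (hT : TTarget n e M') (hJ : JTarget n e) (hoff : OffTarget n e M' A cv)
    (hover : OverTarget n e M' A cv) (hinf : InfTarget n e M' A) :
    ∃ K₀ : IntermediateField ℚ Qbar, FiniteDimensional ℚ K₀ ∧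
      ∀ K : IntermediateField ℚ Qbar, FiniteDimensional ℚ K → K₀ ≤ K →
        ∃ ht : tq (↥K) n e ∈ FK M' K,
          jqModC (↥K) ∈ Kt (AK A K) (Fermat.Agent.RED.BASE.TBridge15.tG (AK A K) n e) ∧
          ∀ ϖ : ↥(AK A K), Irreducible ϖ →
            LevelM (AK A K) (FK M' K) ϖ (tM ht) ∧ LevelM (AK A K) (FK M' K) ϖ (tM ht)⁻¹ := by
  have : Fact q.Prime := ⟨hq⟩
  obtain ⟨K₁, hK₁, hT⟩ := hT
  obtain ⟨K₂, hK₂, hJ⟩ := hJ
  obtain ⟨K₃, hK₃, hoff⟩ := hoff
  obtain ⟨K₄, hK₄, hover⟩ := hover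
  obtain ⟨K₅, hK₅, hinf⟩ := hinf
  refine ⟨K₁ ⊔ K₂ ⊔ K₃ ⊔ K₄ ⊔ K₅, inferInstance, fun K hKfd hle => ?_⟩
  have hle1 : K₁ ≤ K := le_trans (le_trans (le_trans (le_trans le_sup_left le_sup_left)
    le_sup_left) le_sup_left) hle
  have hle2 : K₂ ≤ K := le_trans (le_trans (le_trans (le_trans le_sup_right le_sup_left)
    le_sup_left) le_sup_left) hle
  have hle3 : K₃ ≤ K := le_trans (le_trans (le_trans le_sup_right le_sup_left) le_sup_left) hle
  have hle4 : K₄ ≤ K := le_trans (le_trans le_sup_right le_sup_left) hle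
  have hle5 : K₅ ≤ K := le_trans le_sup_right hle
  have hdvr : IsDiscreteValuationRing ↥(AK A K) := isDiscreteValuationRing_AK A K hq.ne_zero hA
  have hchar : CharP (Res (AK A K)) q := charP_residueField_AK A K hq hA
  have hEM : FK M' K ≤ fracField (AK A K) :=
    Fermat.Agent.RED.PUR.GaussBridge10.FK_le_fracField A K M'
  have htE : tq (↥K) n e ∈ FK M' K := hT K hKfd hle1
  have hjt : jqModC (↥K) ∈ Kt (AK A K) (Fermat.Agent.RED.BASE.TBridge15.tG (AK A K) n e) :=
    hJ K hKfd hle2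
  refine ⟨htE, hjt, fun ϖ hϖ => ?_⟩
  have hfin : Finite (↥(AK A K) ⧸ (Ideal.span {ϖ} : Ideal ↥(AK A K))) := by
    have h1 : Finite (IsLocalRing.ResidueField ↥(AK A K)) :=
      finite_residueField_AK A K hq.ne_zero hA
    rw [← hϖ.maximalIdeal_eq]
    exact h1
  have ht : ((tM htE : ↥(FK M' K)) : LaurentSeries K) ∈ gaussRing (AK A K) :=
    tq_mem_gaussRing (AK A K) n e
  have htr : Transcendental (Res (AK A K))
      (gaussRed (AK A K) ⟨((tM htE : ↥(FK M' K)) : LaurentSeries K), ht⟩) :=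
    transcendental_gaussRed_tq (AK A K) n e
  have hjt' : jqModC (↥K) ∈ Kt (AK A K) ⟨((tM htE : ↥(FK M' K)) : LaurentSeries K), ht⟩ := hjt
  obtain ⟨nn, -, hdeg, hirr⟩ := Fermat.Agent.RED.PUR.GaussInst25.exists_degLe_irr_FK A K hϖ q M'
    hqM ⟨((tM htE : ↥(FK M' K)) : LaurentSeries K), ht⟩ htE hjt'
  have hn : relfinrank (Kt (AK A K) ⟨((tM htE : ↥(FK M' K)) : LaurentSeries K), ht⟩) (FK M' K)
      ≠ 0 := relfinrank_ne_zero (AK A K) M' _ htE hjt'
  have h0 : SmoothChart (AK A K) (FK M' K) ϖ (tM htE) :=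
    smoothChart_of_split (hoff K hKfd hle3 ϖ hϖ (tM htE) rfl)
      (hover K hKfd hle4 ϖ hϖ (tM htE) rfl)
  have hL : LevelM (AK A K) (FK M' K) ϖ (tM htE) :=
    { irr := hϖ
      hEM := hEM
      htM := ht
      htrM := htr
      hn' := hn
      deg_irr := ⟨nn, hdeg, hirr⟩
      hsm := h0 }
  have hfd : FiniteDimensional ↥(IntermediateField.adjoin (↥K) {tM htE}) ↥(FK M' K) :=
    hL.finiteDimensional
  exact ⟨hL, hL.inv (smoothChart_inv_of_split hϖ hL.transcendental h0
    (hinf K hKfd hle5 ϖ hϖ (tM htE) rfl))⟩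

/-- `q` odd: `4 ∣ M'`, Hauptmodul `tq K 4 8`. -/
theorem levelM_four {q : ℕ} (hq : q.Prime) (hqM : ¬ q ∣ M') (hM : 4 ∣ M')
    (hA : A.LiesOverPrime q) :
    ∃ K₀ : IntermediateField ℚ Qbar, FiniteDimensional ℚ K₀ ∧
      ∀ K : IntermediateField ℚ Qbar, FiniteDimensional ℚ K → K₀ ≤ K →
        ∃ ht : tq (↥K) 4 8 ∈ FK M' K,
          jqModC (↥K) ∈ Kt (AK A K) (Fermat.Agent.RED.BASE.TBridge15.tG (AK A K) 4 8) ∧
          ∀ ϖ : ↥(AK A K), Irreducible ϖ →
            LevelM (AK A K) (FK M' K) ϖ (tM ht) ∧ LevelM (AK A K) (FK M' K) ϖ (tM ht)⁻¹ := by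
  have : Fact q.Prime := ⟨hq⟩
  have hB := Fermat.Agent.RED.BASE.MainCusp12.base_four M' hM
  obtain ⟨hoff, hover, hinf⟩ := Fermat.Agent.RED.S18Exports4.targetsHyp
    Fermat.Agent.RED.BASE.Hauptmodul12.baseHyp_four M' hM q hqM A hA _ hB.2
  exact levelM_of_targets hq hqM hA _ (Fermat.Agent.RED.ModelFinal4.tTarget M' hB.1.mem)
    (Fermat.Agent.RED.ModelFinal4.jTarget hB.1.genBase) hoff hover hinf

/-- `q = 2`: `9 ∣ M'`, Hauptmodul `tq K 9 3`. -/
theorem levelM_nine {q : ℕ} (hq : q.Prime) (hqM : ¬ q ∣ M') (hM : 9 ∣ M')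
    (hA : A.LiesOverPrime q) :
    ∃ K₀ : IntermediateField ℚ Qbar, FiniteDimensional ℚ K₀ ∧
      ∀ K : IntermediateField ℚ Qbar, FiniteDimensional ℚ K → K₀ ≤ K →
        ∃ ht : tq (↥K) 9 3 ∈ FK M' K,
          jqModC (↥K) ∈ Kt (AK A K) (Fermat.Agent.RED.BASE.TBridge15.tG (AK A K) 9 3) ∧
          ∀ ϖ : ↥(AK A K), Irreducible ϖ →
            LevelM (AK A K) (FK M' K) ϖ (tM ht) ∧ LevelM (AK A K) (FK M' K) ϖ (tM ht)⁻¹ := by
  have : Fact q.Prime := ⟨hq⟩
  have hB := Fermat.Agent.RED.BASE.MainCusp12.base_nine M' hM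
  obtain ⟨hoff, hover, hinf⟩ := Fermat.Agent.RED.S18Exports4.targetsHyp
    Fermat.Agent.RED.BASE.Hauptmodul12.baseHyp_nine M' hM q hqM A hA _ hB.2
  exact levelM_of_targets hq hqM hA _ (Fermat.Agent.RED.ModelFinal4.tTarget M' hB.1.mem)
    (Fermat.Agent.RED.ModelFinal4.jTarget hB.1.genBase) hoff hover hinf

end Concrete

end Fermat.Agent.ES.N34.LevelM20
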