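/-
Program N (S34), chapter LOCNODE-abstract (helper6): the local commutative algebra at a node.

Setting: `R` a discrete valuation ring with uniformiser `π` (the ramified base `A_L`), `B` a
noetherian `R`-algebra (a chart of the model), `𝔪 ∋ π` a maximal ideal of `B` (a node of the special
fibre), `ev : B →ₐ[R] R` an `R`-rational point specialising to `𝔪` (`𝔪 = ev⁻¹(πR)`), `x y ∈ 𝔪`
local coordinates: `𝔪 B_𝔪 = (π, x, y) B_𝔪`, `d0 · x · y = π ^ E · w`, `d0 ∉ 𝔪`.

* `peel_local`  (PEEL): `ker ev = (x − α, y − β)` locally at `𝔪` (`α = ev x`, `β = ev y`).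
* `lemmaA_key`  : if `π ^ E = α · (π · γ)` (i.e. `v(α) < E`: "the point is good for `x`"), then
                  `α · e · (y − β) ∈ (x − α)` for some `e ∉ 𝔪`.
* `lemmaA_prime`: every prime `𝔭 ≤ 𝔪`, `π ∉ 𝔭`, containing `x − α` is `ker ev`
                  (the horizontal divisor of `x − α` near `𝔪` is the point itself …).
* `lemmaA_unif` : … with multiplicity one: `x − α` generates `ker ev` locally at `ker ev`.
* `good_of_unit`: if `w ∉ 𝔪` (good coordinates `xy = π^E·unit`) every point is good for `x`.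
-/
import Mathlib

set_option autoImplicit false

namespace Fermat.Agent.ES.N34.LocNode6

open IsLocalRing

section Peel

variable {R B : Type*} [CommRing R] [IsDomain R] [IsDiscreteValuationRing R]
  [CommRing B] [Algebra R B] [IsNoetherianRing B]

omit [IsNoetherianRing B] in
/-- an element outside `𝔪 = ev⁻¹(π R)` has unit value. -/
theorem isUnit_ev_of_notMem (π : R) (hπ : Irreducible π) (ev : B →ₐ[R] R) (𝔪 : Ideal B)
    (h𝔪 : ∀ b, b ∈ 𝔪 ↔ π ∣ ev b) (s : B) (hs : s ∉ 𝔪) : IsUnit (ev s) := by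
  by_contra hu
  apply hs
  rw [h𝔪]
  have h1 : ev s ∈ maximalIdeal R := (mem_maximalIdeal _).2 hu
  rw [hπ.maximalIdeal_eq] at h1
  exact Ideal.mem_span_singleton.1 h1

/-- **(PEEL-local).**  The kernel of an `R`-point through the node `𝔪` with `𝔪 = (π, x, y)` locally is
`(x − α, y − β)` locally at `𝔪`. -/
theorem peel_local (π : R) (hπ : Irreducible π) (ev : B →ₐ[R] R) (𝔪 : Ideal B) [h𝔪p : 𝔪.IsPrime]
    (h𝔪 : ∀ b, b ∈ 𝔪 ↔ π ∣ ev b) (x y : B) (hx : x ∈ 𝔪) (hy : y ∈ 𝔪)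
    (hgen : ∀ b ∈ 𝔪, ∃ d, d ∉ 𝔪 ∧ d * b ∈ Ideal.span {algebraMap R B π, x, y}) :
    ∀ b, ev b = 0 → ∃ d, d ∉ 𝔪 ∧
      d * b ∈ Ideal.span {x - algebraMap R B (ev x), y - algebraMap R B (ev y)} := by
  classical
  intro b hb
  set C := Localization.AtPrime 𝔪 with hC
  have hunit : ∀ s : 𝔪.primeCompl, IsUnit ((ev : B →+* R) (s : B)) := fun s =>
    isUnit_ev_of_notMem π hπ ev 𝔪 h𝔪 s s.2
  set evC : C →+* R := IsLocalization.lift (M := 𝔪.primeCompl) (g := (ev : B →+* R)) hunit with hevC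
  have evC_alg : ∀ b' : B, evC (algebraMap B C b') = ev b' := fun b' => by
    rw [hevC, IsLocalization.lift_eq]; rfl
  set I : Ideal B := Ideal.span {x - algebraMap R B (ev x), y - algebraMap R B (ev y)} with hI
  set IC : Ideal C := I.map (algebraMap B C) with hIC
  set πC : C := algebraMap B C (algebraMap R B π) with hπC
  set J : Ideal C := Ideal.span {πC} ⊔ IC with hJ
  -- `evC` kills `IC`
  have evC_I : ∀ c ∈ IC, evC c = 0 := by
    intro c hc
    have : IC ≤ RingHom.ker evC := by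
      rw [hIC, Ideal.map_le_iff_le_comap, hI, Ideal.span_le]
      intro z hz
      simp only [Set.mem_insert_iff, Set.mem_singleton_iff] at hz
      rcases hz with rfl | rfl
      · simp [RingHom.mem_ker, evC_alg]
      · simp [RingHom.mem_ker, evC_alg]
    exact this hc
  -- residue field: `c − evC c` is in the maximal ideal
  have hres : ∀ c : C, c - algebraMap B C (algebraMap R B (evC c)) ∈ maximalIdeal C := by
    intro c
    rw [mem_maximalIdeal, mem_nonunits_iff]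
    intro hu
    have h0 : evC (c - algebraMap B C (algebraMap R B (evC c))) = 0 := by
      rw [map_sub, evC_alg, AlgHom.commutes]; simp
    have := hu.map evC
    rw [h0] at this
    exact not_isUnit_zero this
  -- coordinates lie in `(π) + IC`
  have hcoord : ∀ z : B, z ∈ 𝔪 → z - algebraMap R B (ev z) ∈ I → algebraMap B C z ∈ J := by
    intro z hz hzI
    obtain ⟨a, ha⟩ := (h𝔪 z).1 hz
    have h1 : algebraMap B C z = algebraMap B C (z - algebraMap R B (ev z))
        + πC * algebraMap B C (algebraMap R B a) := by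
      rw [hπC, ha, map_mul (algebraMap R B), map_sub, map_mul]; ring
    rw [h1]
    exact Ideal.add_mem _ (Ideal.mem_sup_right (Ideal.mem_map_of_mem _ hzI))
      (Ideal.mul_mem_right _ _ (Ideal.mem_sup_left (Ideal.mem_span_singleton_self _)))
  -- the maximal ideal is `(π) + IC`
  have hmax : maximalIdeal C ≤ J := by
    rw [← Localization.AtPrime.map_eq_maximalIdeal, Ideal.map_le_iff_le_comap]
    intro b' hb'
    obtain ⟨d, hd, hdb⟩ := hgen b' hb'
    rw [Ideal.mem_comap]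
    have hdu : IsUnit (algebraMap B C d) :=
      IsLocalization.map_units C (⟨d, hd⟩ : 𝔪.primeCompl)
    have h3 : Ideal.span {algebraMap R B π, x, y} ≤ J.comap (algebraMap B C) := by
      rw [Ideal.span_le]
      intro z hz
      simp only [Set.mem_insert_iff, Set.mem_singleton_iff] at hz
      rcases hz with rfl | rfl | rfl
      · exact Ideal.mem_sup_left (Ideal.mem_span_singleton_self _)
      · exact hcoord _ hx (Ideal.subset_span (by simp))
      · exact hcoord _ hy (Ideal.subset_span (by simp))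
    have h4 : algebraMap B C d * algebraMap B C b' ∈ J := by
      rw [← map_mul]; exact h3 hdb
    exact (Ideal.unit_mul_mem_iff_mem _ hdu).1 h4
  -- expansion to any order
  have hexp : ∀ k : ℕ, ∀ c : C, ∃ r : R, ∃ c' : C,
      c - algebraMap B C (algebraMap R B r) - πC ^ k * c' ∈ IC := by
    intro k
    induction k with
    | zero =>
      intro c
      exact ⟨0, c, by simp⟩
    | succ k ih =>
      intro c
      obtain ⟨r, c', h⟩ := ih c
      have h5 := hmax (hres c')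
      rw [hJ, Submodule.mem_sup] at h5
      obtain ⟨u, hu, v, hv, huv⟩ := h5
      obtain ⟨c'', rfl⟩ := Ideal.mem_span_singleton'.1 hu
      refine ⟨r + π ^ k * evC c', c'', ?_⟩
      have : c - algebraMap B C (algebraMap R B (r + π ^ k * evC c')) - πC ^ (k + 1) * c''
          = (c - algebraMap B C (algebraMap R B r) - πC ^ k * c') + πC ^ k * v := by
        have hv' : v = c' - algebraMap B C (algebraMap R B (evC c')) - c'' * πC := by
          rw [← huv]; ring
        rw [hv', hπC]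
        simp only [map_add, map_mul, map_pow]
        ring
      rw [this]
      exact Ideal.add_mem _ h (Ideal.mul_mem_left _ _ hv)
  -- the class of `b` is divisible by every power of `π` modulo `IC`
  have hdiv : ∀ k : ℕ, ∃ c' : C, algebraMap B C b - πC ^ k * c' ∈ IC := by
    intro k
    obtain ⟨r, c', h⟩ := hexp k (algebraMap B C b)
    have h6 := evC_I _ h
    rw [map_sub, map_sub, evC_alg, evC_alg, hb, AlgHom.commutes, map_mul, map_pow] at h6
    have h7 : evC πC = π := by rw [hπC, evC_alg, AlgHom.commutes]; rfl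
    rw [h7] at h6
    have h8 : r = -(π ^ k * evC c') := by
      have : (0 : R) - (algebraMap R R) r - π ^ k * evC c' = 0 := h6
      simp only [Algebra.algebraMap_self, RingHom.id_apply] at this
      linear_combination -this
    refine ⟨c' - algebraMap B C (algebraMap R B (evC c')), ?_⟩
    have : algebraMap B C b - πC ^ k * (c' - algebraMap B C (algebraMap R B (evC c')))
        = algebraMap B C b - algebraMap B C (algebraMap R B r) - πC ^ k * c' := by
      rw [h8, hπC]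
      simp only [map_neg, map_mul, map_pow]
      ring
    rw [this]
    exact h
  -- Krull
  have hπmax : πC ∈ maximalIdeal C := by
    rw [← Localization.AtPrime.map_eq_maximalIdeal]
    apply Ideal.mem_map_of_mem
    rw [h𝔪, AlgHom.commutes]
    exact dvd_refl _
  have hne : Ideal.span {πC} ≠ ⊤ := by
    intro h
    have : (1 : C) ∈ maximalIdeal C := by
      have h1 : (1 : C) ∈ Ideal.span {πC} := by rw [h]; trivial
      obtain ⟨a, ha⟩ := Ideal.mem_span_singleton'.1 h1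
      rw [← ha]
      exact Ideal.mul_mem_left _ _ hπmax
    exact (Ideal.ne_top_iff_one _).1 (maximalIdeal.isMaximal C).ne_top this
  have hkrull := Ideal.iInf_pow_smul_eq_bot_of_isLocalRing (R := C) (M := C ⧸ IC)
    (Ideal.span {πC}) hne
  have hmem : (Ideal.Quotient.mk IC (algebraMap B C b)) ∈
      (⨅ i : ℕ, Ideal.span {πC} ^ i • ⊤ : Submodule C (C ⧸ IC)) := by
    rw [Submodule.mem_iInf]
    intro k
    obtain ⟨c', hc'⟩ := hdiv k
    have : Ideal.Quotient.mk IC (algebraMap B C b) = (πC ^ k) • Ideal.Quotient.mk IC c' := by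
      rw [← sub_eq_zero]
      have : Ideal.Quotient.mk IC (algebraMap B C b) - (πC ^ k) • Ideal.Quotient.mk IC c'
          = Ideal.Quotient.mk IC (algebraMap B C b - πC ^ k * c') := by
        rw [map_sub, map_mul]; rfl
      rw [this, Ideal.Quotient.eq_zero_iff_mem]
      exact hc'
    rw [this]
    exact Submodule.smul_mem_smul (Ideal.pow_mem_pow (Ideal.mem_span_singleton_self _) k)
      Submodule.mem_top
  rw [hkrull, Submodule.mem_bot, Ideal.Quotient.eq_zero_iff_mem, hIC,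
    IsLocalization.algebraMap_mem_map_algebraMap_iff 𝔪.primeCompl] at hmem
  obtain ⟨d, hd, hdb⟩ := hmem
  exact ⟨d, hd, hdb⟩

/-- **Lemma A, key identity.**  Coordinates `x, y` at the node with `d0·x·y = π^E·w` (`d0 ∉ 𝔪`), and an
`R`-point which is *good for `x`*: `π^E = α·(π·γ)`, `α = ev x` (i.e. `v(α) < E`).  Then
`α · e · (y − β) = (x − α) · c` for some `e ∉ 𝔪`. -/
theorem lemmaA_key (π : R) (hπ : Irreducible π) (ev : B →ₐ[R] R) (𝔪 : Ideal B) [h𝔪p : 𝔪.IsPrime]
    (h𝔪 : ∀ b, b ∈ 𝔪 ↔ π ∣ ev b) (x y : B) (hx : x ∈ 𝔪) (hy : y ∈ 𝔪)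
    (hgen : ∀ b ∈ 𝔪, ∃ d, d ∉ 𝔪 ∧ d * b ∈ Ideal.span {algebraMap R B π, x, y})
    (E : ℕ) (d0 w : B) (hd0 : d0 ∉ 𝔪) (hxy : d0 * (x * y) = algebraMap R B π ^ E * w)
    (γ : R) (hγ : π ^ E = ev x * (π * γ)) :
    ∃ e c : B, e ∉ 𝔪 ∧
      algebraMap R B (ev x) * e * (y - algebraMap R B (ev y)) = (x - algebraMap R B (ev x)) * c := by
  classical
  set a : B := algebraMap R B (ev x) with ha
  set b : B := algebraMap R B (ev y) with hb
  set p : B := algebraMap R B π with hp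
  have hevp : ev p = π := by rw [hp, AlgHom.commutes]; rfl
  have hpm : p ∈ 𝔪 := by rw [h𝔪, hevp]
  have hbm : b ∈ 𝔪 := by
    rw [h𝔪, hb, AlgHom.commutes]; exact (h𝔪 y).1 hy
  -- PEEL for `w − ev w` and `d0 − ev d0`
  have hw0 : ev (w - algebraMap R B (ev w)) = 0 := by rw [map_sub, AlgHom.commutes]; simp
  have hd00 : ev (d0 - algebraMap R B (ev d0)) = 0 := by rw [map_sub, AlgHom.commutes]; simp
  obtain ⟨d1, hd1, h1⟩ := peel_local π hπ ev 𝔪 h𝔪 x y hx hy hgen _ hw0
  obtain ⟨d2, hd2, h2⟩ := peel_local π hπ ev 𝔪 h𝔪 x y hx hy hgen _ hd00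
  rw [Ideal.mem_span_pair] at h1 h2
  obtain ⟨A1, C1, h1⟩ := h1
  obtain ⟨A2, C2, h2⟩ := h2
  -- the relation among the values
  have hval : algebraMap R B (ev d0) * (a * b) = p ^ E * algebraMap R B (ev w) := by
    have := congrArg ev hxy
    rw [map_mul, map_mul, map_mul, map_pow, hevp] at this
    rw [ha, hb, hp, ← map_mul (algebraMap R B), ← map_mul (algebraMap R B),
      ← map_pow (algebraMap R B), ← map_mul (algebraMap R B), this]
  have hpE : p ^ E = a * (p * algebraMap R B γ) := by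
    rw [hp, ha, ← map_pow, hγ, map_mul, map_mul]
  refine ⟨d0 * d1 * d2 - p * algebraMap R B γ * d2 * C1 + d1 * b * C2,
    p ^ E * d2 * A1 - d0 * d1 * d2 * y - d1 * a * b * A2, ?_, ?_⟩
  · intro hmem
    have h3 : p * algebraMap R B γ * d2 * C1 ∈ 𝔪 := by
      have : p * algebraMap R B γ * d2 * C1 = (algebraMap R B γ * d2 * C1) * p := by ring
      rw [this]; exact Ideal.mul_mem_left _ _ hpm
    have h4 : d1 * b * C2 ∈ 𝔪 := by
      have : d1 * b * C2 = (d1 * C2) * b := by ring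
      rw [this]; exact Ideal.mul_mem_left _ _ hbm
    have h5 : d0 * d1 * d2 ∈ 𝔪 := by
      have : d0 * d1 * d2 = (d0 * d1 * d2 - p * algebraMap R B γ * d2 * C1 + d1 * b * C2)
          + p * algebraMap R B γ * d2 * C1 - d1 * b * C2 := by ring
      rw [this]
      exact Ideal.sub_mem _ (Ideal.add_mem _ hmem h3) h4
    rcases h𝔪p.mem_or_mem h5 with h6 | h6
    · rcases h𝔪p.mem_or_mem h6 with h7 | h7
      · exact hd0 h7
      · exact hd1 h7
    · exact hd2 h6
  · -- the identity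
    have e1 : d0 * (x * y) - algebraMap R B (ev d0) * (a * b)
        = p ^ E * (w - algebraMap R B (ev w)) := by
      rw [hxy, hval]; ring
    linear_combination (d1 * d2) * e1 - (p ^ E * d2) * h1 + (a * b * d1) * h2
      + (d2 * C1 * (y - b)) * hpE

/-- **Lemma A, support.**  A prime `𝔭 ≤ 𝔪` with `π ∉ 𝔭` ("horizontal prime through the node")
containing `x − α` is the kernel of the point. -/
theorem lemmaA_prime (π : R) (hπ : Irreducible π) (ev : B →ₐ[R] R) (𝔪 : Ideal B) [h𝔪p : 𝔪.IsPrime]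
    (h𝔪 : ∀ b, b ∈ 𝔪 ↔ π ∣ ev b) (x y : B) (hx : x ∈ 𝔪) (hy : y ∈ 𝔪)
    (hgen : ∀ b ∈ 𝔪, ∃ d, d ∉ 𝔪 ∧ d * b ∈ Ideal.span {algebraMap R B π, x, y})
    (E : ℕ) (d0 w : B) (hd0 : d0 ∉ 𝔪) (hxy : d0 * (x * y) = algebraMap R B π ^ E * w)
    (γ : R) (hγ : π ^ E = ev x * (π * γ))
    (𝔭 : Ideal B) [h𝔭 : 𝔭.IsPrime] (h𝔭𝔪 : 𝔭 ≤ 𝔪) (hπ𝔭 : algebraMap R B π ∉ 𝔭)
    (hmem : x - algebraMap R B (ev x) ∈ 𝔭) :
    𝔭 = RingHom.ker (ev : B →+* R) := by
  classical
  obtain ⟨e, c, he, hec⟩ := lemmaA_key π hπ ev 𝔪 h𝔪 x y hx hy hgen E d0 w hd0 hxy γ hγ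
  -- `α ∉ 𝔭`
  have hα : algebraMap R B (ev x) ∉ 𝔭 := by
    intro h
    have : algebraMap R B π ^ E ∈ 𝔭 := by
      rw [← map_pow, hγ, map_mul]; exact Ideal.mul_mem_right _ _ h
    exact hπ𝔭 (h𝔭.mem_of_pow_mem _ this)
  have he𝔭 : e ∉ 𝔭 := fun h => he (h𝔭𝔪 h)
  have hy𝔭 : y - algebraMap R B (ev y) ∈ 𝔭 := by
    have h1 : algebraMap R B (ev x) * e * (y - algebraMap R B (ev y)) ∈ 𝔭 := by
      rw [hec]; exact Ideal.mul_mem_right _ _ hmem
    rcases h𝔭.mem_or_mem h1 with h2 | h2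
    · rcases h𝔭.mem_or_mem h2 with h3 | h3
      · exact absurd h3 hα
      · exact absurd h3 he𝔭
    · exact h2
  apply le_antisymm
  · -- `𝔭 ≤ ker ev`
    intro b' hb'
    rw [RingHom.mem_ker]
    by_contra hne
    have hne' : ev b' ≠ 0 := hne
    obtain ⟨k, hk⟩ := IsDiscreteValuationRing.associated_pow_irreducible hne' hπ
    obtain ⟨u, hu⟩ := hk.symm
    -- `ev b' = π^k * u`
    have h0 : ev (b' - algebraMap R B (ev b')) = 0 := by rw [map_sub, AlgHom.commutes]; simp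
    obtain ⟨d, hd, hdI⟩ := peel_local π hπ ev 𝔪 h𝔪 x y hx hy hgen _ h0
    have hI𝔭 : Ideal.span {x - algebraMap R B (ev x), y - algebraMap R B (ev y)} ≤ 𝔭 := by
      rw [Ideal.span_le]
      intro z hz
      simp only [Set.mem_insert_iff, Set.mem_singleton_iff] at hz
      rcases hz with rfl | rfl
      · exact hmem
      · exact hy𝔭
    have h1 : b' - algebraMap R B (ev b') ∈ 𝔭 := by
      rcases h𝔭.mem_or_mem (hI𝔭 hdI) with h | h
      · exact absurd (h𝔭𝔪 h) hd
      · exact h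
    have h2 : algebraMap R B (ev b') ∈ 𝔭 := by
      have : algebraMap R B (ev b') = b' - (b' - algebraMap R B (ev b')) := by ring
      rw [this]; exact Ideal.sub_mem _ hb' h1
    rw [← hu, map_mul, map_pow] at h2
    have hunit : IsUnit (algebraMap R B (u : R)) := (u.isUnit).map _
    have h3 : algebraMap R B π ^ k ∈ 𝔭 := (Ideal.mul_unit_mem_iff_mem _ hunit).1 h2
    exact hπ𝔭 (h𝔭.mem_of_pow_mem _ h3)
  · -- `ker ev ≤ 𝔭`
    intro b' hb'
    rw [RingHom.mem_ker] at hb'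
    obtain ⟨d, hd, hdI⟩ := peel_local π hπ ev 𝔪 h𝔪 x y hx hy hgen _ hb'
    have hI𝔭 : Ideal.span {x - algebraMap R B (ev x), y - algebraMap R B (ev y)} ≤ 𝔭 := by
      rw [Ideal.span_le]
      intro z hz
      simp only [Set.mem_insert_iff, Set.mem_singleton_iff] at hz
      rcases hz with rfl | rfl
      · exact hmem
      · exact hy𝔭
    rcases h𝔭.mem_or_mem (hI𝔭 hdI) with h | h
    · exact absurd (h𝔭𝔪 h) hd
    · exact h

/-- **Lemma A, multiplicity one.**  `x − α` generates `ker ev` locally at `ker ev`: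
for `b ∈ ker ev` there is `s` with `ev s ≠ 0` and `s · b ∈ (x − α)`. -/
theorem lemmaA_unif (π : R) (hπ : Irreducible π) (ev : B →ₐ[R] R) (𝔪 : Ideal B) [h𝔪p : 𝔪.IsPrime]
    (h𝔪 : ∀ b, b ∈ 𝔪 ↔ π ∣ ev b) (x y : B) (hx : x ∈ 𝔪) (hy : y ∈ 𝔪)
    (hgen : ∀ b ∈ 𝔪, ∃ d, d ∉ 𝔪 ∧ d * b ∈ Ideal.span {algebraMap R B π, x, y})
    (E : ℕ) (d0 w : B) (hd0 : d0 ∉ 𝔪) (hxy : d0 * (x * y) = algebraMap R B π ^ E * w)
    (γ : R) (hγ : π ^ E = ev x * (π * γ)) (hπ0 : π ≠ 0)
    (b : B) (hb : ev b = 0) :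
    ∃ s c : B, ev s ≠ 0 ∧ s * b = c * (x - algebraMap R B (ev x)) := by
  classical
  obtain ⟨e, c, he, hec⟩ := lemmaA_key π hπ ev 𝔪 h𝔪 x y hx hy hgen E d0 w hd0 hxy γ hγ
  obtain ⟨d, hd, hdI⟩ := peel_local π hπ ev 𝔪 h𝔪 x y hx hy hgen b hb
  rw [Ideal.mem_span_pair] at hdI
  obtain ⟨A, C', hAC⟩ := hdI
  refine ⟨algebraMap R B (ev x) * e * d, algebraMap R B (ev x) * e * A + C' * c, ?_, ?_⟩
  · rw [map_mul, map_mul, AlgHom.commutes]
    have h1 : ev x ≠ 0 := by
      intro h0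
      rw [h0, zero_mul] at hγ
      exact hπ0 (pow_eq_zero_iff (n := E) (by rintro rfl; simp at hγ) |>.1 hγ)
    have h2 : ev e ≠ 0 := (isUnit_ev_of_notMem π hπ ev 𝔪 h𝔪 e he).ne_zero
    have h3 : ev d ≠ 0 := (isUnit_ev_of_notMem π hπ ev 𝔪 h𝔪 d hd).ne_zero
    exact mul_ne_zero (mul_ne_zero h1 h2) h3
  · linear_combination (algebraMap R B (ev x) * e) * hAC.symm + C' * hec

omit [IsNoetherianRing B] in
/-- With good coordinates (`w ∉ 𝔪`, i.e. `x·y = π^E·unit`) every point through the node is good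
for `x`. -/
theorem good_of_unit (π : R) (hπ : Irreducible π) (ev : B →ₐ[R] R) (𝔪 : Ideal B)
    (h𝔪 : ∀ b, b ∈ 𝔪 ↔ π ∣ ev b) (x y : B) (hy : y ∈ 𝔪)
    (E : ℕ) (d0 w : B) (hd0 : d0 ∉ 𝔪) (hw : w ∉ 𝔪)
    (hxy : d0 * (x * y) = algebraMap R B π ^ E * w) :
    ∃ γ : R, π ^ E = ev x * (π * γ) := by
  have hu0 := isUnit_ev_of_notMem π hπ ev 𝔪 h𝔪 d0 hd0
  have huw := isUnit_ev_of_notMem π hπ ev 𝔪 h𝔪 w hw
  obtain ⟨β', hβ'⟩ := (h𝔪 y).1 hy
  obtain ⟨wi, hwi⟩ := huw.exists_right_inv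
  have := congrArg ev hxy
  rw [map_mul, map_mul, map_mul, map_pow, AlgHom.commutes] at this
  have hp : (algebraMap R R) π = π := rfl
  rw [hp] at this
  refine ⟨β' * ev d0 * wi, ?_⟩
  calc π ^ E = π ^ E * (ev w * wi) := by rw [hwi, mul_one]
    _ = (ev d0 * (ev x * ev y)) * wi := by rw [this]; ring
    _ = ev x * (π * (β' * ev d0 * wi)) := by rw [hβ']; ring

end Peel

end Fermat.Agent.ES.N34.LocNode6
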