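/-
Program N (S34), chapter (INV) (helper6): Lemma A in `Place` form.

`B ⊂ F` a noetherian chart over the DVR `R` (uniformiser `π`), `𝔪 ∋ π` a closed point, `x y` local
coordinates at `𝔪` (`d0·x·y = π^E·w`), `ev : B →ₐ[R] R` an `R`-point through `𝔪` which is good for
`x` (`π^E = ev x · (π · γ)`), `v : Place K F` the place of that point (`B ⊂ O_v`, centre `= ker ev`).
Then for `ξ := x − ev x`:
* `ord_v ξ = 1`                                                              (`ord_xi_eq_one`)
* `ord_w ξ = 0` for every other place `w` through `𝔪` (`B ⊂ O_w`, `B ∖ 𝔪 ⊂ O_w^×`)  (`ord_xi_eq_zero`)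
i.e. exactly the hypotheses `hξ1`, `hξ2` of `SecondDiff6.ord_secondDiff_corrected_eq_zero`.
No Dedekind hypothesis on `B[1/π]` is used: the local ring at `ker ev` is a DVR by Lemma A itself.
-/
import Mathlib
import Fermat.Agent.X0.FFDict
import Fermat.Agent.ES.N34.LocNode6

set_option autoImplicit false
set_option linter.unusedSectionVars false

namespace Fermat.Agent.ES.N34.LocNodePlace6

open AlgebraicCurve Fermat.Agent.X0.FF Fermat.Agent.ES.N34.LocNode6

variable {R K F : Type*} [CommRing R] [IsDomain R] [IsDiscreteValuationRing R] [Field K] [Field F]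
  [Algebra R K] [Algebra K F] [Algebra R F] [IsScalarTower R K F]

/-- the place `w` passes through the closed point `𝔪` of the chart `B`. -/
def Through (B : Subalgebra R F) (𝔪 : Ideal B) (w : Place K F) : Prop :=
  (∀ b : B, (b : F) ∈ w.toValuationSubring) ∧
    (∀ b : B, b ∉ 𝔪 → (b : F)⁻¹ ∈ w.toValuationSubring)

/-- `ev` is the `R`-point of the place `v` on the chart `B`: `ker ev` is the centre of `v`. -/
def IsPointOf (B : Subalgebra R F) (ev : B →ₐ[R] R) (v : Place K F) : Prop :=
  (∀ b : B, (b : F) ∈ v.toValuationSubring) ∧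
    (∀ b : B, ev b = 0 ↔ ((b : F) = 0 ∨ 0 < v.ord (b : F)))

section

variable (B : Subalgebra R F)

omit [IsDomain R] [IsDiscreteValuationRing R] in
theorem ord_nonneg_chart (w : Place K F) (hw : ∀ b : B, (b : F) ∈ w.toValuationSubring) (b : B) :
    0 ≤ w.ord (b : F) := ord_nonneg_of_mem w (hw b)

omit [IsDomain R] [IsDiscreteValuationRing R] in
/-- elements of `B ∖ 𝔪` are units at a place through `𝔪`. -/
theorem ord_eq_zero_of_notMem (𝔪 : Ideal B) (w : Place K F) (hw : Through B 𝔪 w) (b : B)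
    (hb : b ∉ 𝔪) : w.ord (b : F) = 0 := by
  have h1 := ord_nonneg_of_mem w (hw.1 b)
  have h2 := ord_nonneg_of_mem w (hw.2 b hb)
  rw [w.ord_inv] at h2
  omega

omit [IsDomain R] [IsDiscreteValuationRing R] in
/-- constants from `R` have order zero. -/
theorem ord_algebraMap_R (w : Place K F) (r : R) : w.ord (algebraMap R F r) = 0 := by
  rw [IsScalarTower.algebraMap_apply R K F]
  exact ord_algebraMap w _

/-- the centre of a place on a chart, as the comap of the maximal ideal. -/
noncomputable def centre (w : Place K F) (hw : ∀ b : B, (b : F) ∈ w.toValuationSubring) :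
    Ideal B :=
  (IsLocalRing.maximalIdeal w.toValuationSubring).comap
    ((B.val : B →+* F).codRestrict w.toValuationSubring.toSubring hw)

omit [IsDomain R] [IsDiscreteValuationRing R] in
theorem mem_centre_iff (w : Place K F) (hw : ∀ b : B, (b : F) ∈ w.toValuationSubring) (b : B) :
    b ∈ centre B w hw ↔ ((b : F) = 0 ∨ 0 < w.ord (b : F)) := by
  unfold centre
  rw [Ideal.mem_comap, mem_maximalIdeal_iff]
  constructor
  · rintro (h | h)
    · left; exact congrArg Subtype.val h
    · right; exact h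
  · rintro (h | h)
    · left; exact Subtype.ext h
    · right; exact h

omit [IsDomain R] [IsDiscreteValuationRing R] in
instance centre_isPrime (w : Place K F) (hw : ∀ b : B, (b : F) ∈ w.toValuationSubring) :
    (centre B w hw).IsPrime := by
  unfold centre
  exact Ideal.comap_isPrime _ _

/-- at the place of the point, an element of the chart outside `ker ev` has order `0`. -/
theorem ord_eq_zero_of_ev_ne (ev : B →ₐ[R] R) (v : Place K F) (hv : IsPointOf B ev v) (a : B) (ha : ev a ≠ 0) :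
    v.ord (a : F) = 0 := by
  have h1 := ord_nonneg_of_mem v (hv.1 a)
  have h2 : ¬ ((a : F) = 0 ∨ 0 < v.ord (a : F)) := fun h => ha ((hv.2 a).2 h)
  have h3 := (not_or.mp h2).2
  omega

end

section LemmaA

variable (B : Subalgebra R F) [IsNoetherianRing B] (π : R) (hπ : Irreducible π)
  (ev : B →ₐ[R] R) (𝔪 : Ideal B) [h𝔪p : 𝔪.IsPrime]
  (h𝔪 : ∀ b, b ∈ 𝔪 ↔ π ∣ ev b) (x y : B) (hx : x ∈ 𝔪) (hy : y ∈ 𝔪)
  (hgen : ∀ b ∈ 𝔪, ∃ d, d ∉ 𝔪 ∧ d * b ∈ Ideal.span {algebraMap R B π, x, y})
  (E : ℕ) (d0 w0 : B) (hd0 : d0 ∉ 𝔪) (hxy : d0 * (x * y) = algebraMap R B π ^ E * w0)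
  (γ : R) (hγ : π ^ E = ev x * (π * γ))

include hπ h𝔪 hx hy hgen hd0 hxy hγ

/-- **descent**: every nonzero element of the chart is `ξ^k · a / s` with `a, s ∉ ker ev`. -/
theorem exists_pow_xi (v : Place K F) (hv : IsPointOf B ev v) (b : B) (hb : b ≠ 0) :
    ∃ (k : ℕ) (a s : B), ev a ≠ 0 ∧ ev s ≠ 0 ∧
      s * b = a * (x - algebraMap R B (ev x)) ^ k := by
  classical
  have hπ0 : π ≠ 0 := hπ.ne_zero
  -- strong induction on `ord_v b`
  have key : ∀ n : ℕ, ∀ b : B, b ≠ 0 → v.ord (b : F) = n →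
      ∃ (k : ℕ) (a s : B), ev a ≠ 0 ∧ ev s ≠ 0 ∧
        s * b = a * (x - algebraMap R B (ev x)) ^ k := by
    intro n
    induction n using Nat.strong_induction_on with
    | _ n ih =>
      intro b hb hn
      by_cases hev : ev b = 0
      · obtain ⟨s, c, hs, hsc⟩ := lemmaA_unif π hπ ev 𝔪 h𝔪 x y hx hy hgen E d0 w0 hd0 hxy γ hγ
          hπ0 b hev
        have hs0 : s ≠ 0 := fun h => hs (by rw [h, map_zero])
        have hξ0 : ev (x - algebraMap R B (ev x)) = 0 := by
          rw [map_sub, AlgHom.commutes]; simp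
        have hc0 : c ≠ 0 := by
          rintro rfl
          rw [zero_mul] at hsc
          exact (mul_ne_zero hs0 hb) hsc
        have hξne : x - algebraMap R B (ev x) ≠ 0 := by
          intro h
          rw [h, mul_zero] at hsc
          exact (mul_ne_zero hs0 hb) hsc
        have hbF : (b : F) ≠ 0 := fun h => hb (Subtype.ext h)
        have hsF : (s : F) ≠ 0 := fun h => hs0 (Subtype.ext h)
        have hcF : (c : F) ≠ 0 := fun h => hc0 (Subtype.ext h)
        have hξF : ((x - algebraMap R B (ev x) : B) : F) ≠ 0 := fun h => hξne (Subtype.ext h)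
        -- orders
        have hords : v.ord (s : F) = 0 := by
          have h1 := ord_nonneg_of_mem v (hv.1 s)
          have h2 : ¬ ((s : F) = 0 ∨ 0 < v.ord (s : F)) := fun h => hs ((hv.2 s).2 h)
          have h3 := (not_or.mp h2).2
          omega
        have hordξ : 0 < v.ord ((x - algebraMap R B (ev x) : B) : F) := by
          rcases (hv.2 _).1 hξ0 with h | h
          · exact absurd h hξF
          · exact h
        have hmul : v.ord (s : F) + v.ord (b : F)
            = v.ord (c : F) + v.ord ((x - algebraMap R B (ev x) : B) : F) := by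
          rw [← v.ord_mul hsF hbF, ← v.ord_mul hcF hξF]
          have := congrArg (fun z : B => (z : F)) hsc
          simpa using congrArg v.ord this
        have hcn := ord_nonneg_of_mem v (hv.1 c)
        obtain ⟨n', hn'⟩ := Int.eq_ofNat_of_zero_le hcn
        have hlt : n' < n := by
          have : (n' : ℤ) < n := by omega
          exact_mod_cast this
        obtain ⟨k, a, s', ha, hs', hk⟩ := ih n' hlt c hc0 hn'
        refine ⟨k + 1, a, s' * s, ha, ?_, ?_⟩
        · rw [map_mul]; exact mul_ne_zero hs' hs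
        · calc s' * s * b = s' * (s * b) := by ring
            _ = s' * (c * (x - algebraMap R B (ev x))) := by rw [hsc]
            _ = (s' * c) * (x - algebraMap R B (ev x)) := by ring
            _ = a * (x - algebraMap R B (ev x)) ^ (k + 1) := by rw [hk]; ring
      · exact ⟨0, b, 1, hev, by simp, by simp⟩
  have hn := ord_nonneg_of_mem v (hv.1 b)
  obtain ⟨n, hn'⟩ := Int.eq_ofNat_of_zero_le hn
  exact key n b hb hn'

/-- the order of a nonzero chart element at the place of the point, from a decomposition. -/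
theorem ord_of_decomp (v : Place K F) (hv : IsPointOf B ev v) (b : B) (hb : b ≠ 0)
    (k : ℕ) (a s : B) (ha : ev a ≠ 0) (hs : ev s ≠ 0)
    (hk : s * b = a * (x - algebraMap R B (ev x)) ^ k) :
    v.ord (b : F) = k * v.ord ((x - algebraMap R B (ev x) : B) : F) := by
  have ha0 : a ≠ 0 := fun h => ha (by rw [h, map_zero])
  have hs0 : s ≠ 0 := fun h => hs (by rw [h, map_zero])
  have hbF : (b : F) ≠ 0 := fun h => hb (Subtype.ext h)
  have hsF : (s : F) ≠ 0 := fun h => hs0 (Subtype.ext h)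
  have haF : (a : F) ≠ 0 := fun h => ha0 (Subtype.ext h)
  have hmulF : (s : F) * (b : F) = (a : F) * ((x - algebraMap R B (ev x) : B) : F) ^ k := by
    have := congrArg (fun z : B => (z : F)) hk
    simpa using this
  have hsb : (s : F) * (b : F) ≠ 0 := mul_ne_zero hsF hbF
  have hξk : ((x - algebraMap R B (ev x) : B) : F) ^ k ≠ 0 := by
    intro h
    rw [h, mul_zero] at hmulF
    exact hsb hmulF
  have h1 : v.ord ((s : F) * (b : F)) = v.ord ((a : F) * ((x - algebraMap R B (ev x) : B) : F) ^ k) := by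
    rw [hmulF]
  rw [v.ord_mul hsF hbF, v.ord_mul haF hξk, ord_pow,
    ord_eq_zero_of_ev_ne B ev v hv a ha, ord_eq_zero_of_ev_ne B ev v hv s hs] at h1
  linarith

/-- orders at the place of the point are multiples of `ord ξ`. -/
theorem exists_ord_eq_mul (frac : ∀ z : F, ∃ a b : B, b ≠ 0 ∧ z * (b : F) = (a : F))
    (z : F) (hz : z ≠ 0) :
    ∃ k : ℤ, ∀ v : Place K F, IsPointOf B ev v →
      v.ord z = k * v.ord ((x - algebraMap R B (ev x) : B) : F) := by
  obtain ⟨a, b, hb, hab⟩ := frac z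
  have hbF : (b : F) ≠ 0 := fun h => hb (Subtype.ext h)
  have ha : a ≠ 0 := by
    rintro rfl
    rw [Subalgebra.coe_zero] at hab
    exact (mul_ne_zero hz hbF) hab
  have haF : (a : F) ≠ 0 := fun h => ha (Subtype.ext h)
  by_cases hex : ∃ v : Place K F, IsPointOf B ev v
  · obtain ⟨v0, hv0⟩ := hex
    obtain ⟨k1, a1, s1, ha1, hs1, hk1⟩ :=
      exists_pow_xi B π hπ ev 𝔪 h𝔪 x y hx hy hgen E d0 w0 hd0 hxy γ hγ v0 hv0 a ha
    obtain ⟨k2, a2, s2, ha2, hs2, hk2⟩ :=
      exists_pow_xi B π hπ ev 𝔪 h𝔪 x y hx hy hgen E d0 w0 hd0 hxy γ hγ v0 hv0 b hb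
    refine ⟨(k1 : ℤ) - k2, fun v hv => ?_⟩
    have h1 := ord_of_decomp B π hπ ev 𝔪 h𝔪 x y hx hy hgen E d0 w0 hd0 hxy γ hγ v hv a ha k1 a1 s1
      ha1 hs1 hk1
    have h2 := ord_of_decomp B π hπ ev 𝔪 h𝔪 x y hx hy hgen E d0 w0 hd0 hxy γ hγ v hv b hb k2 a2 s2
      ha2 hs2 hk2
    have h3 : v.ord z + v.ord (b : F) = v.ord (a : F) := by
      rw [← v.ord_mul hz hbF, hab]
    rw [h1, h2] at h3
    linear_combination h3
  · exact ⟨0, fun v hv => absurd ⟨v, hv⟩ hex⟩

/-- **Lemma A, `Place` form (1)**: `ξ = x − ev x` is a uniformiser at the place of the point. -/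
theorem ord_xi_eq_one (frac : ∀ z : F, ∃ a b : B, b ≠ 0 ∧ z * (b : F) = (a : F))
    (v : Place K F) (hv : IsPointOf B ev v) :
    v.ord ((x - algebraMap R B (ev x) : B) : F) = 1 := by
  -- a uniformiser of `v`
  obtain ⟨ϖ, hϖ⟩ := IsDiscreteValuationRing.exists_irreducible v.toValuationSubring
  have h1 : v.ord (ϖ : F) = 1 := v.ord_coe_irreducible hϖ
  have hϖ0 : (ϖ : F) ≠ 0 := by
    intro h
    rw [h, Place.ord_zero] at h1
    exact zero_ne_one h1
  obtain ⟨k, hk⟩ := exists_ord_eq_mul (K := K) B π hπ ev 𝔪 h𝔪 x y hx hy hgen E d0 w0 hd0 hxy γ hγ frac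
    (ϖ : F) hϖ0
  have h2 := hk v hv
  rw [h1] at h2
  -- `ord ξ ≥ 0` and `k * ord ξ = 1`
  have h3 : 0 ≤ v.ord ((x - algebraMap R B (ev x) : B) : F) := ord_nonneg_of_mem v (hv.1 _)
  exact Int.eq_one_of_mul_eq_one_left h3 h2.symm

/-- **Lemma A, `Place` form (2)**: `ξ = x − ev x` is a unit at every other place through `𝔪`. -/
theorem ord_xi_eq_zero (hπK : algebraMap R K π ≠ 0)
    (frac : ∀ z : F, ∃ a b : B, b ≠ 0 ∧ z * (b : F) = (a : F))
    (v : Place K F) (hv : IsPointOf B ev v)
    (w : Place K F) (hw : Through B 𝔪 w) (hwv : w ≠ v) :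
    w.ord ((x - algebraMap R B (ev x) : B) : F) = 0 := by
  by_contra hne
  apply hwv
  have hpos : 0 < w.ord ((x - algebraMap R B (ev x) : B) : F) := by
    have := ord_nonneg_of_mem w (hw.1 (x - algebraMap R B (ev x)))
    omega
  -- the centre of `w`
  have hP𝔪 : centre B w hw.1 ≤ 𝔪 := by
    intro b hb
    by_contra hb𝔪
    rw [mem_centre_iff] at hb
    have h0 := ord_eq_zero_of_notMem B 𝔪 w hw b hb𝔪
    rcases hb with hb | hb
    · exact hb𝔪 (by
        have : b = 0 := Subtype.ext hb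
        rw [this]; exact 𝔪.zero_mem)
    · omega
  have hπP : algebraMap R B π ∉ centre B w hw.1 := by
    intro h
    rw [mem_centre_iff] at h
    have h0 : w.ord ((algebraMap R B π : B) : F) = 0 := ord_algebraMap_R w π
    rcases h with h | h
    · have h' : algebraMap R F π = 0 := h
      rw [IsScalarTower.algebraMap_apply R K F, map_eq_zero] at h'
      exact hπK h'
    · omega
  have hξP : x - algebraMap R B (ev x) ∈ centre B w hw.1 := by
    rw [mem_centre_iff]; exact Or.inr hpos
  have hPker := lemmaA_prime π hπ ev 𝔪 h𝔪 x y hx hy hgen E d0 w0 hd0 hxy γ hγ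
    (centre B w hw.1) hP𝔪 hπP hξP
  -- `w` is also a place of the point
  have hwpt : IsPointOf B ev w := by
    refine ⟨hw.1, fun b => ?_⟩
    rw [← mem_centre_iff B w hw.1, hPker, RingHom.mem_ker]
    rfl
  -- the two places have the same `ord`
  have h1v := ord_xi_eq_one B π hπ ev 𝔪 h𝔪 x y hx hy hgen E d0 w0 hd0 hxy γ hγ frac v hv
  have h1w := ord_xi_eq_one B π hπ ev 𝔪 h𝔪 x y hx hy hgen E d0 w0 hd0 hxy γ hγ frac w hwpt
  apply Place.ext
  ext z
  rcases eq_or_ne z 0 with rfl | hz
  · simp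
  obtain ⟨k, hk⟩ := exists_ord_eq_mul (K := K) B π hπ ev 𝔪 h𝔪 x y hx hy hgen E d0 w0 hd0 hxy γ hγ frac z hz
  have e1 := hk v hv
  have e2 := hk w hwpt
  rw [h1v] at e1
  rw [h1w] at e2
  rw [mem_iff_ord_nonneg, mem_iff_ord_nonneg, e1, e2]

end LemmaA

end Fermat.Agent.ES.N34.LocNodePlace6
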