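/-
Program N (S34), brick T2 (LVL-N) — helper17 (spare twin of `LvlN19`; owner of record: helper19).

`IfaceN4.LvlStep q N A : UBar q (auxLevel q N) A → UBar q N A`, from
* `LevelStepMain19.rootDescent` (an `m`-th root at level `M` of `h ∈ Fbar N` with `m ∣ ord_w h`
  everywhere lies in `Fbar N`),
* `PlaceRestrict2.exists_restrict_le` (`ord_v (incl f) = e · ord_w f`),
* the Prelude's action of `SemilinearAut` on places (`SemilinearAut.ord_smul`):
  `ord_v (τ f) = ord_{τ⁻¹ v} f`, so `m ∣ ord f` everywhere passes to `τ f`, `τ² f`.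
-/
import Mathlib
import Fermat.Agent.ES.N34.IfaceN4
import Fermat.Agent.RED.LVL.LevelStepMain19

set_option autoImplicit false

open ModularCurve IntermediateField AlgebraicCurve HahnSeries

noncomputable section

namespace Fermat.Agent.ES.N34.LvlN17

open Fermat.Agent.RED.Interface4 Fermat.Agent.RED.BASE.Interface12 Fermat.Agent.RED.LVL
open Fermat.Agent.ES.N34.IfaceN4

theorem coe_gB {N : ℕ} (σ : Qbar ≃ₐ[ℚ] Qbar) (f : Fbar N) :
    ((gB N σ f : Fbar N) : LaurentSeries Qbar)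
      = coeffMap (σ : Qbar →+* Qbar) (f : LaurentSeries Qbar) := by
  rw [coe_arithmeticRingAut_apply]

/-- `gB` commutes with the inclusion `Fbar N ≤ Fbar M`. -/
theorem gB_inclusion {N M : ℕ} (hle : Fbar N ≤ Fbar M) (σ : Qbar ≃ₐ[ℚ] Qbar) (f : Fbar N) :
    gB M σ (IntermediateField.inclusion hle f) = IntermediateField.inclusion hle (gB N σ f) := by
  apply Subtype.ext
  rw [coe_gB, IntermediateField.coe_inclusion, IntermediateField.coe_inclusion, coe_gB]

/-- `ord_v (σ f) = ord_{σ⁻¹ v} f` for the arithmetic Galois action. -/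
theorem ord_gB (N : ℕ) (σ : Qbar ≃ₐ[ℚ] Qbar) (v : Place Qbar (Fbar N)) (f : Fbar N) :
    v.ord (gB N σ f) = ((arithmeticGalois (modularFunctionFieldFull N) σ)⁻¹ • v).ord f := by
  have h := SemilinearAut.ord_smul (arithmeticGalois (modularFunctionFieldFull N) σ)
    ((arithmeticGalois (modularFunctionFieldFull N) σ)⁻¹ • v) f
  rw [smul_inv_smul] at h
  exact h

theorem dvd_ord_gB (N : ℕ) (σ : Qbar ≃ₐ[ℚ] Qbar) (m : ℤ) {f : Fbar N}
    (h : ∀ v : Place Qbar (Fbar N), m ∣ v.ord f) (v : Place Qbar (Fbar N)) :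
    m ∣ v.ord (gB N σ f) := by
  rw [ord_gB]
  exact h _

/-- **LVL-N, general form.** -/
theorem uBar_of_rootDescent {q N M : ℕ} (A : ValuationSubring Qbar) (hle : Fbar N ≤ Fbar M)
    (halg : ∀ x : Fbar M, IsAlgebraic (Fbar N) (x : LaurentSeries Qbar))
    (hrd : LevelStepAbs2.RootDescent N M hle) :
    UBar q M A → UBar q N A := by
  intro hU τ hτ m hm f hf hdiv
  have hm0 : 0 < m := Nat.pos_of_ne_zero (fun h => hm (h ▸ dvd_zero q))
  set ι := IntermediateField.inclusion hle with hι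
  have hιinj : Function.Injective ι := (IntermediateField.inclusion hle).injective
  have hf' : ι f ≠ 0 := (map_ne_zero_iff _ hιinj).mpr hf
  -- transfer of the divisibility hypothesis to level `M`
  have hdivM : ∀ v : Place Qbar (Fbar M), (m : ℤ) ∣ v.ord (ι f) := by
    intro v
    obtain ⟨w, e, -, hord, -⟩ := PlaceRestrict2.exists_restrict_le hle halg v
    rw [hord f]
    exact Dvd.dvd.mul_left (hdiv w) _
  obtain ⟨s, hs⟩ := hU τ hτ m hm (ι f) hf' hdivM
  rw [hι, gB_inclusion hle τ f, gB_inclusion hle τ (gB N τ f), ← hι] at hs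
  -- `h := τ²f · f / (τ f)²`
  have h1 : gB N τ f ≠ 0 := (map_ne_zero_iff _ (gB N τ).injective).mpr hf
  have h2 : gB N τ (gB N τ f) ≠ 0 := (map_ne_zero_iff _ (gB N τ).injective).mpr h1
  set h : Fbar N := gB N τ (gB N τ f) * f / (gB N τ f) ^ 2 with hh
  have hsm : s ^ m = ι h := by
    rw [hh, map_div₀, map_mul, map_pow, eq_div_iff (pow_ne_zero 2 ((map_ne_zero_iff _ hιinj).mpr h1))]
    exact hs
  have hordh : ∀ w : Place Qbar (Fbar N), (m : ℤ) ∣ w.ord h := by
    intro w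
    rw [hh, div_eq_mul_inv, w.ord_mul (mul_ne_zero h2 hf) (inv_ne_zero (pow_ne_zero 2 h1)),
      w.ord_inv, w.ord_mul h2 hf, pow_two, w.ord_mul h1 h1]
    have a1 := dvd_ord_gB N τ (m : ℤ) hdiv w
    have a2 := dvd_ord_gB N τ (m : ℤ) (dvd_ord_gB N τ (m : ℤ) hdiv) w
    exact dvd_add (dvd_add a2 (hdiv w)) ((dvd_add a1 a1).neg_right)
  obtain ⟨g, hg⟩ := hrd m hm0 h s hsm hordh
  refine ⟨g, ?_⟩
  apply hιinj
  rw [map_mul, map_pow, map_pow, map_mul]
  show ι g ^ m * _ = _
  rw [hg]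
  exact hs

/-- **LVL-N, degree form**: `M = N e`, `[Fbar M : Fbar N] < 2 e`. -/
theorem uBar_of_degree (q N M e : ℕ) [NeZero N] [NeZero M] [NeZero e] (hM : M = N * e)
    (hdeg : relfinrank (Fbar N) (Fbar M) < 2 * e) (A : ValuationSubring Qbar) :
    UBar q M A → UBar q N A :=
  uBar_of_rootDescent A (fbar_mono ⟨e, hM⟩) (LevelDegree17.isAlgebraic_of_mem ⟨e, hM⟩)
    (LevelStepMain19.rootDescent N M e hM hdeg)

/-- **LVL-N** (brick T2): `UBar q (auxLevel q N) A → UBar q N A`, for every `q`, `N ≠ 0`, `A`. -/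
theorem lvlStep (q N : ℕ) [NeZero N] (A : ValuationSubring Qbar) : LvlStep q N A := by
  have := LevelDegree17.neZero_auxLevel q N
  obtain ⟨e, he⟩ := dvd_auxLevel q N
  have : NeZero e := ⟨fun h0 => NeZero.ne (auxLevel q N) (by rw [he, h0, mul_zero])⟩
  have hdiv : auxLevel q N / N = e := by
    rw [he]
    exact Nat.mul_div_cancel_left e (Nat.pos_of_ne_zero (NeZero.ne N))
  have hdeg := LevelDegree17.relfinrank_auxLevel_lt q N
  rw [hdiv] at hdeg
  exact uBar_of_degree q N (auxLevel q N) e he hdeg A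

/-- T2 in the literal shape of the hypothesis `hlvl` of `IfaceN4.inertiaTors_of_chain`. -/
theorem hlvl : ∀ (N : ℕ) [NeZero N] (q : ℕ), q.Prime → q ∣ N → ¬ q ^ 2 ∣ N →
    ∀ A : ValuationSubring Qbar, A.LiesOverPrime q → LvlStep q N A :=
  fun N _ q _ _ _ A _ => lvlStep q N A

end Fermat.Agent.ES.N34.LvlN17

end
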