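/-
Program N (S34), chapter MODEL, brick M9 — helper4 (integrator): MODEL-ASM, top file.

`ModelN4.modelTarget_of_items` fed with the suppliers' theorems:
* S1  `ChartNInst26.chartInputs_tN_four/_nine`            ⊢ `Large (ChartItems …)`;
* V3i `ModelGlue22.glueOut_model_tq` + V2's six items     ⊢ `Large (GlueItems …)`.
-/
import Mathlib
import Fermat.Agent.ES.N34.ModelN4
import Fermat.Agent.ES.N34.ChartNInst26
import Fermat.Agent.ES.N34.ModelGlue22
import Fermat.Agent.ES.N34.ModelInput13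

set_option autoImplicit false
set_option synthInstance.maxHeartbeats 400000
set_option linter.unusedSectionVars false

noncomputable section

open HahnSeries ModularCurve IntermediateField

namespace Fermat.Agent.ES.N34.ModelTop4

open Fermat.Agent.RED.Interface4 Fermat.Agent.RED.PUR.GaussGen8 Fermat.Agent.RED.PUR.KtGauss8
  Fermat.Agent.RED.BASE.EtaQuot12 Fermat.Agent.RED.ModelTargets4
  Fermat.Agent.ES.N34.ModelDefs9 Fermat.Agent.ES.N34.ModelN4 Fermat.Agent.ES.N34.ChartN26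
  Fermat.Agent.ES.N34.GaussEmb22 Fermat.Agent.ES.N34.ModelGlue22

variable {n e M' : ℕ} [NeZero n] [NeZero M'] {q : ℕ} [NeZero q] {A : ValuationSubring Qbar}

/-- S1 for `q` odd (`4 ∣ M'`, Hauptmodul `tq · 4 8`). -/
theorem chartItems_four (hM : 4 ∣ M') (hq : q.Prime) (hA : A.LiesOverPrime q) :
    Large (ChartItems 4 8 q M' A) :=
  Large.of_all (ChartNInst26.chartInputs_tN_four q hM hq hA)

/-- S1 for `q = 2` (`9 ∣ M'`, Hauptmodul `tq · 9 3`). -/
theorem chartItems_nine (hM : 9 ∣ M') (hq : q.Prime) (hA : A.LiesOverPrime q) :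
    Large (ChartItems 9 3 q M' A) :=
  Large.of_all (ChartNInst26.chartInputs_tN_nine q hM hq hA)

/-- V2's six items at `K` (literal argument list of `ModelGlue22.glueOut_model_tq`). -/
def V2Items (n e q M' : ℕ) [NeZero n] [NeZero M'] [NeZero q] (A : ValuationSubring Qbar)
    (K : IntermediateField ℚ Qbar) : Prop :=
  ∀ (ht : tq (↥K) n e ∈ FK M' K) (hE : FK (M' * q) K ≤ fracField (AK A K))
    (π : ↥(AK A K)) (hπ : IsUnif (AK A K) π),
    O1 M' q hπ hE ≠ O2 M' q hπ hE ∧
    ∃ ht₂ : iota2Alg K M' q (tN q ht) ∈ gaussRing (AK A K),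
      Transcendental (Res (AK A K)) (gaussRed (AK A K) ⟨iota2Alg K M' q (tN q ht), ht₂⟩) ∧
      ∃ (b₂ : Fin (q * IntermediateField.relfinrank
            (Kt (AK A K) (Fermat.Agent.RED.BASE.TBridge15.tG (AK A K) n e)) (FK M' K)) →
              FK (M' * q) K) (hb₂ : ∀ i, b₂ i ∈ O2 M' q hπ hE),
        LinearIndependent ↥(kt (AK A K) ⟨iota2Alg K M' q (tN q ht), ht₂⟩)
          (fun i => redOf (isGaussPullback_O2 M' q hπ hE) ⟨b₂ i, hb₂ i⟩)

/-- V3i: the glue output for all large `K` from V2's items. -/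
theorem glueItems_of_v2 (hq : q.Prime) (hqM : ¬ q ∣ M') (hA : A.LiesOverPrime q)
    (hJ : JTarget n e) (hV2 : Large (V2Items n e q M' A)) : Large (GlueItems n e q M' A) := by
  have hJ' : Large fun K => jqModC K ∈ IntermediateField.adjoin K {tq K n e} := Large.of_all hJ
  obtain ⟨K₀, hK₀, h⟩ := hJ'.and hV2
  refine ⟨K₀, hK₀, fun K _ hfd hle => ?_⟩
  obtain ⟨hjt, hv2⟩ := h K hfd hle
  intro ht hE π hπ
  have hdvr : IsDiscreteValuationRing ↥(AK A K) :=
    Fermat.Agent.RED.DESC.NumberFieldDVR27.isDiscreteValuationRing_AK A K hq.ne_zero hA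
  have hirr : Irreducible π := (IsDiscreteValuationRing.irreducible_iff_uniformizer π).mpr hπ.max_eq
  have : Fact q.Prime := ⟨hq⟩
  have : CharP (Res (AK A K)) q :=
    Fermat.Agent.RED.DESC.NumberFieldDVR27.charP_residueField_AK A K hq hA
  obtain ⟨h12, ht₂, htr₂, b₂, hb₂, hli₂⟩ := hv2 ht hE π hπ
  exact glueOut_model_tq M' q hirr hE hqM ht hjt h12 ht₂ htr₂ b₂ hb₂ hli₂

/-- Bridge to the literal statement consumed by NUM (A1): `ModelInput13.ModelInput`. -/
theorem modelInput_of_target (h : ModelTarget n e q M' A) :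
    ModelInput13.ModelInput n e q M' A := by
  obtain ⟨K₀, hK₀, h⟩ := h
  refine ⟨K₀, hK₀, fun K _ hfd hle => ?_⟩
  obtain ⟨ht, hE, h⟩ := h K hfd hle
  exact ⟨ht, hE, fun π hπ => h π hπ⟩

/-- **M9, residual form**: `ModelInput` from S1, (T5), V2's six items, S2, S5-B, S3i. -/
theorem modelInput_of_suppliers (hq : q.Prime) (hqM : ¬ q ∣ M') (hA : A.LiesOverPrime q)
    (hS1 : Large (ChartItems n e q M' A)) (hJ : JTarget n e)
    (hV2 : Large (V2Items n e q M' A)) (hS2 : Large (ModEqItems n e q M' A))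
    (hS5 : Large (KronItems n e q M' A)) (hS3 : Large (PrinItems n e q M' A)) :
    ModelInput13.ModelInput n e q M' A :=
  modelInput_of_target
    (modelTarget_of_items hq.two_le hS1 (glueItems_of_v2 hq hqM hA hJ hV2) hS2 hS5 hS3)

/-- `q` odd: `4 ∣ M'`, Hauptmodul `tq · 4 8`; S1 and (T5) discharged. -/
theorem modelInput_four_of (hq : q.Prime) (hqM : ¬ q ∣ M') (hM : 4 ∣ M')
    (hA : A.LiesOverPrime q)
    (hV2 : Large (V2Items 4 8 q M' A)) (hS2 : Large (ModEqItems 4 8 q M' A))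
    (hS5 : Large (KronItems 4 8 q M' A)) (hS3 : Large (PrinItems 4 8 q M' A)) :
    ModelInput13.ModelInput 4 8 q M' A :=
  modelInput_of_suppliers hq hqM hA (chartItems_four hM hq hA)
    (Fermat.Agent.RED.ModelFinal4.jTarget
      (Fermat.Agent.RED.BASE.MainCusp12.base_four M' hM).1.genBase) hV2 hS2 hS5 hS3

/-- `q = 2`: `9 ∣ M'`, Hauptmodul `tq · 9 3`; S1 and (T5) discharged. -/
theorem modelInput_nine_of (hq : q.Prime) (hqM : ¬ q ∣ M') (hM : 9 ∣ M')
    (hA : A.LiesOverPrime q)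
    (hV2 : Large (V2Items 9 3 q M' A)) (hS2 : Large (ModEqItems 9 3 q M' A))
    (hS5 : Large (KronItems 9 3 q M' A)) (hS3 : Large (PrinItems 9 3 q M' A)) :
    ModelInput13.ModelInput 9 3 q M' A :=
  modelInput_of_suppliers hq hqM hA (chartItems_nine hM hq hA)
    (Fermat.Agent.RED.ModelFinal4.jTarget
      (Fermat.Agent.RED.BASE.MainCusp12.base_nine M' hM).1.genBase) hV2 hS2 hS5 hS3

end Fermat.Agent.ES.N34.ModelTop4
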