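/-
Program N (S34), chapter MODEL, brick S3i, supplier theorem (helper12):
**`Large (PrinItems n e q M' A)`** — the four (C-prin) statements of `ModelN4.PrinItems` at the
`ModelDefs9` data, for all large normal number fields `K` and every uniformiser `π`.

Assembly (pure substitution into the generic `CompInstB12.prin01/02/11/12`):
* level `M'` (both charts): `LevelM20.levelM_four/_nine` (`LevelM` fields, `deg_irr`);
* `hOj` : `ModelGlue22.isGaussPullback_O1/_O2`; `leO` : the four `GlueOut.le_O*_*` fields (`GlueItems`);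
* `hφO` : `BranchInt5.alpha_mem_O1_iff`, `BranchInt5.beta_mem_O2_iff` with the isometry `IsoM25.isoM`;
* `hy` : `ModEqItems` (S2); `hK0/hK1` : `KronChart15.hK0/hK1` with a Frobenius inverse
  (`KronChart15.exists_frobInv`, uses `Normal ℚ K`) and `hb` from `IsoM25.isoM`;
* `hcomb` at `(O1, alpha)` : the hypothesis `HcombItems` (= helper20's `CombA20`), transported to
  `(O2, beta)` by `CombW5.hcomb_O2_of_O1`.
-/
import Mathlib
import Fermat.Agent.ES.N34.ModelN4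
import Fermat.Agent.ES.N34.ModelGlue22
import Fermat.Agent.ES.N34.CompInstB12
import Fermat.Agent.ES.N34.LevelM20
import Fermat.Agent.ES.N34.BranchInt5
import Fermat.Agent.ES.N34.CombW5
import Fermat.Agent.ES.N34.KronChart15
import Fermat.Agent.ES.N34.IsoM25

set_option autoImplicit false
set_option synthInstance.maxHeartbeats 400000
set_option linter.unusedSectionVars false

noncomputable section

open HahnSeries ModularCurve IntermediateField

namespace Fermat.Agent.ES.N34.PrinItems12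

open Fermat.Agent.RED.Interface4 Fermat.Agent.RED.PUR.GaussGen8 Fermat.Agent.RED.PUR.KtGauss8
  Fermat.Agent.RED.PUR.G1Package8 Fermat.Agent.RED.BASE.EtaQuot12
  Fermat.Agent.RED.PUR.ChartGeneric22
  Fermat.Agent.ES.N34.ModelDefs9 Fermat.Agent.ES.N34.ModelN4 Fermat.Agent.ES.N34.SmoothN5
  Fermat.Agent.ES.N34.LevelM20

variable (n e q M' : ℕ) [NeZero n] [NeZero M'] [NeZero q] (A : ValuationSubring Qbar)

/-- `hcomb` at `(O1, alpha)` at `K`: `O1 = alpha(Ov_{M'}) + π O1` (helper20's `CombA20`, literal). -/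
def HcombItems (K : IntermediateField ℚ Qbar) : Prop :=
  ∀ (_ht : tq (↥K) n e ∈ FK M' K) (hE : FK (M' * q) K ≤ fracField (AK A K))
    (π : ↥(AK A K)) (hπ : IsUnif (AK A K) π),
    ∀ x ∈ O1 M' q hπ hE, ∃ z : FK M' K, (z : LaurentSeries ↥K) ∈ gaussRing (AK A K) ∧
      ∃ c ∈ O1 M' q hπ hE,
        x - alpha K M' q z = algebraMap ↥(AK A K) ↥(FK (M' * q) K) π * c

/-- the level-`M'` package at `K` (conclusion of `LevelM20.levelM_four/_nine` at one `K`). -/
def LevelItems (K : IntermediateField ℚ Qbar) : Prop :=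
  ∃ ht : tq (↥K) n e ∈ FK M' K,
    jqModC (↥K) ∈ Kt (AK A K) (Fermat.Agent.RED.BASE.TBridge15.tG (AK A K) n e) ∧
    ∀ ϖ : ↥(AK A K), Irreducible ϖ →
      LevelM (AK A K) (FK M' K) ϖ (tM ht) ∧ LevelM (AK A K) (FK M' K) ϖ (tM ht)⁻¹

variable {n e q M' A}

set_option maxHeartbeats 4000000 in
/-- **(C-prin) ×4 at one `K`.** -/
theorem prinItems_at (hq : q.Prime) (hqM : ¬ q ∣ M') (hA : A.LiesOverPrime q)
    (K : IntermediateField ℚ Qbar) [Normal ℚ K] [FiniteDimensional ℚ K]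
    (hL : LevelItems n e M' A K) (hG : GlueItems n e q M' A K) (hS2 : ModEqItems n e q M' A K)
    (hC : HcombItems n e q M' A K) : PrinItems n e q M' A K := by
  intro ht hE π hπ
  have hdvr : IsDiscreteValuationRing ↥(AK A K) :=
    Fermat.Agent.RED.DESC.NumberFieldDVR27.isDiscreteValuationRing_AK A K hq.ne_zero hA
  have hirr : Irreducible π := (IsDiscreteValuationRing.irreducible_iff_uniformizer π).mpr hπ.max_eq
  have : Fact q.Prime := ⟨hq⟩
  have : CharP (Res (AK A K)) q :=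
    Fermat.Agent.RED.DESC.NumberFieldDVR27.charP_residueField_AK A K hq hA
  obtain ⟨_, _, hLM⟩ := hL
  obtain ⟨L0, L1⟩ := hLM π hirr
  have L0' : LevelM (AK A K) (FK M' K) π (tM ht) := L0
  have L1' : LevelM (AK A K) (FK M' K) π (tM ht)⁻¹ := L1
  obtain ⟨n0, hd0, hi0⟩ := L0'.deg_irr
  obtain ⟨n1, hd1, hi1⟩ := L1'.deg_irr
  have glue := hG ht hE π hπ
  obtain ⟨hy0, hy1⟩ := hS2 ht
  -- the isometry
  have hiso : ∀ x : FK M' K, (x : LaurentSeries ↥K) ∈ gaussRing (AK A K) ↔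
      ((Fermat.Agent.ES.N34.FrickeFK8.frickeFK M' K x : FK M' K) : LaurentSeries ↥K) ∈
        gaussRing (AK A K) :=
    fun x => Fermat.Agent.ES.N34.IsoM25.isoM A K M' q hirr hqM x
  -- `hφO`
  have haO : ∀ z : ↥(FK M' K), alpha K M' q z ∈ O1 M' q hπ hE ↔
      z ∈ OvE (AK A K) hirr (FK M' K) L0'.hEM := fun z =>
    (Fermat.Agent.ES.N34.BranchInt5.alpha_mem_O1_iff M' q hπ hE z).trans
      (mem_OvE_iff (AK A K) hirr (FK M' K) L0'.hEM z).symm
  have hbO : ∀ z : ↥(FK M' K), beta K M' q z ∈ O2 M' q hπ hE ↔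
      z ∈ OvE (AK A K) hirr (FK M' K) L0'.hEM := fun z =>
    (Fermat.Agent.ES.N34.BranchInt5.beta_mem_O2_iff M' q hπ hE hiso z).trans
      (mem_OvE_iff (AK A K) hirr (FK M' K) L0'.hEM z).symm
  -- `hcomb`
  have hc1' := hC ht hE π hπ
  have hc2' := Fermat.Agent.ES.N34.CombW5.hcomb_O2_of_O1 M' q hπ hE hiso hc1'
  have hc1 : ∀ x ∈ O1 M' q hπ hE, ∃ z ∈ OvE (AK A K) hirr (FK M' K) L0'.hEM,
      ∃ c ∈ O1 M' q hπ hE,
        x - alpha K M' q z = algebraMap ↥(AK A K) ↥(FK (M' * q) K) π * c := by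
    intro x hx
    obtain ⟨z, hz, c, hc, h⟩ := hc1' x hx
    exact ⟨z, (mem_OvE_iff (AK A K) hirr (FK M' K) L0'.hEM z).mpr hz, c, hc, h⟩
  have hc2 : ∀ x ∈ O2 M' q hπ hE, ∃ z ∈ OvE (AK A K) hirr (FK M' K) L0'.hEM,
      ∃ c ∈ O2 M' q hπ hE,
        x - beta K M' q z = algebraMap ↥(AK A K) ↥(FK (M' * q) K) π * c := by
    intro x hx
    obtain ⟨z, hz, c, hc, h⟩ := hc2' x hx
    exact ⟨z, (mem_OvE_iff (AK A K) hirr (FK M' K) L0'.hEM z).mpr hz, c, hc, h⟩
  -- (K) at the single elements `tM`, `tM⁻¹`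
  obtain ⟨ψ, hψO, hψ⟩ := Fermat.Agent.ES.N34.KronChart15.exists_frobInv A K q hq hA
  have hb0 : ((Fermat.Agent.ES.N34.FrickeFK8.frickeFK M' K (tM ht) : FK M' K) : LaurentSeries ↥K) ∈
      gaussRing (AK A K) := (hiso (tM ht)).mp L0'.htM
  have hb1 : ((Fermat.Agent.ES.N34.FrickeFK8.frickeFK M' K (tM ht)⁻¹ : FK M' K) :
      LaurentSeries ↥K) ∈ gaussRing (AK A K) := (hiso (tM ht)⁻¹).mp L1'.htM
  have k0 := Fermat.Agent.ES.N34.KronChart15.hK0 M' q hπ hE ψ hψO hψ ht hb0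
  have k1 := Fermat.Agent.ES.N34.KronChart15.hK1 M' q hπ hE ψ hψO hψ ht hb1
  -- Gauss pull-backs
  have hO1 := Fermat.Agent.ES.N34.ModelGlue22.isGaussPullback_O1 (A := A) (K := K) M' q hπ hE
  have hO2 := Fermat.Agent.ES.N34.ModelGlue22.isGaussPullback_O2 (A := A) (K := K) M' q hπ hE
  refine ⟨?_, ?_, ?_, ?_⟩
  · exact Fermat.Agent.ES.N34.CompInstB12.prin01 hirr L0'.hEM (tM ht) L0'.htM L0'.htrM L0'.hn'
      hd0 hi0 L0'.hsm (alpha K M' q) hO1 glue.le_O1_0 haO hc1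
  · exact Fermat.Agent.ES.N34.CompInstB12.prin02 hirr L0'.hEM (tM ht) L0'.htM L0'.htrM L0'.hn'
      hd0 hi0 L0'.hsm (alpha K M' q) (beta K M' q) hO2 glue.le_O2_0 hbO hy0 k0 hc2
  · exact Fermat.Agent.ES.N34.CompInstB12.prin11 hirr L0'.hEM (tM ht) L1'.htM L1'.htrM L1'.hn'
      hd1 hi1 L1'.hsm (alpha K M' q) hO1 glue.le_O1_1 haO hc1
  · exact Fermat.Agent.ES.N34.CompInstB12.prin12 hirr L0'.hEM (tM ht) L1'.htM L1'.htrM L1'.hn'
      hd1 hi1 L1'.hsm (alpha K M' q) (beta K M' q) hO2 glue.le_O2_1 hbO hy1 k1 hc2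

/-- **S3i supplier theorem, abstract form**: `Large (PrinItems …)` from the level-`M'` package, V3i,
S2 and `hcomb` at `(O1, alpha)`. -/
theorem prinItems_of (hq : q.Prime) (hqM : ¬ q ∣ M') (hA : A.LiesOverPrime q)
    (hL : Large (LevelItems n e M' A)) (hG : Large (GlueItems n e q M' A))
    (hS2 : Large (ModEqItems n e q M' A)) (hC : Large (HcombItems n e q M' A)) :
    Large (PrinItems n e q M' A) := by
  obtain ⟨K₀, hK₀, h⟩ := ((hL.and hG).and hS2).and hC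
  refine ⟨K₀, hK₀, fun K _ hfd hle => ?_⟩
  obtain ⟨⟨⟨a1, a2⟩, a3⟩, a4⟩ := h K hfd hle
  have := hfd
  exact prinItems_at hq hqM hA K a1 a2 a3 a4

/-- the level-`M'` package for `q` odd (`4 ∣ M'`, Hauptmodul `tq · 4 8`). -/
theorem levelItems_four (hq : q.Prime) (hqM : ¬ q ∣ M') (hM : 4 ∣ M') (hA : A.LiesOverPrime q) :
    Large (LevelItems 4 8 M' A) :=
  Large.of_all (levelM_four hq hqM hM hA)

/-- the level-`M'` package for `q = 2` (`9 ∣ M'`, Hauptmodul `tq · 9 3`). -/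
theorem levelItems_nine (hq : q.Prime) (hqM : ¬ q ∣ M') (hM : 9 ∣ M') (hA : A.LiesOverPrime q) :
    Large (LevelItems 9 3 M' A) :=
  Large.of_all (levelM_nine hq hqM hM hA)

/-- **S3i, `q` odd.** -/
theorem prinItems_four (hq : q.Prime) (hqM : ¬ q ∣ M') (hM : 4 ∣ M') (hA : A.LiesOverPrime q)
    (hG : Large (GlueItems 4 8 q M' A)) (hS2 : Large (ModEqItems 4 8 q M' A))
    (hC : Large (HcombItems 4 8 q M' A)) : Large (PrinItems 4 8 q M' A) :=
  prinItems_of hq hqM hA (levelItems_four hq hqM hM hA) hG hS2 hC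

/-- **S3i, `q = 2`.** -/
theorem prinItems_nine (hq : q.Prime) (hqM : ¬ q ∣ M') (hM : 9 ∣ M') (hA : A.LiesOverPrime q)
    (hG : Large (GlueItems 9 3 q M' A)) (hS2 : Large (ModEqItems 9 3 q M' A))
    (hC : Large (HcombItems 9 3 q M' A)) : Large (PrinItems 9 3 q M' A) :=
  prinItems_of hq hqM hA (levelItems_nine hq hqM hM hA) hG hS2 hC

end Fermat.Agent.ES.N34.PrinItems12
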