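/-
Program N (S34), chapter MODEL, brick M9 — helper4 (integrator): MODEL-ASM, FINAL file.

`ModelInput13.ModelInput 4 8 q M' A` (`q` odd) and `ModelInput13.ModelInput 9 3 2 M' A` — the two
statements consumed by NUM (`NumN13.numStep_of_model`) — from the suppliers' theorems:

* S1   `ModelTop4.chartItems_four/_nine`                    (ChartNInst26);
* V2   `GaussVTwoInst25.v2Items_large`                      (⊢ `Large (V2Items …)`), V3i inside
       `ModelTop4.glueItems_of_v2`;
* S5-B `KronItems15.kronItems`                              (⊢ `Large (KronItems …)`);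
* S2   `ItemsAd6.modEqItems_four/_nine`                      (`Large GlueItems → Large ModEqItems`);
* S3i  `PrinItems12.prinItems_four/_nine`                   (`Large GlueItems → Large ModEqItems →
       Large HcombItems → Large PrinItems`) with `hcomb` at `(O1, alpha)` from
       `CombA26.hcomb_four/_nine`.

Final theorems: `modelInput_four`, `modelInput_nine` (no hypotheses beyond the arithmetic ones).
-/
import Mathlib
import Fermat.Agent.ES.N34.ModelTop4
import Fermat.Agent.ES.N34.GaussVTwoInst25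
import Fermat.Agent.ES.N34.KronItems15
import Fermat.Agent.ES.N34.ItemsAd6
import Fermat.Agent.ES.N34.PrinItems12
import Fermat.Agent.ES.N34.CombA26

set_option autoImplicit false
set_option synthInstance.maxHeartbeats 400000
set_option linter.unusedSectionVars false

noncomputable section

open HahnSeries ModularCurve IntermediateField

namespace Fermat.Agent.ES.N34.ModelEnd4

open Fermat.Agent.RED.Interface4 Fermat.Agent.RED.ModelTargets4
  Fermat.Agent.ES.N34.ModelN4 Fermat.Agent.ES.N34.ModelTop4

variable {n e M' : ℕ} [NeZero n] [NeZero M'] {q : ℕ} [NeZero q] {A : ValuationSubring Qbar}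

/-- V2 + V3i: the glue output for all large `K`, no hypotheses left. -/
theorem glueItems (hq : q.Prime) (hqM : ¬ q ∣ M') (hA : A.LiesOverPrime q) (hJ : JTarget n e) :
    Large (GlueItems n e q M' A) :=
  glueItems_of_v2 hq hqM hA hJ (GaussVTwoInst25.v2Items_large A M' q n e hq hqM hA hJ)

/-- **M9 with S1, V2, V3i, S5-B discharged**: what remains are the S2 and S3i adapters. -/
theorem modelInput_of_rest (hq : q.Prime) (hqM : ¬ q ∣ M') (hA : A.LiesOverPrime q)
    (hS1 : Large (ChartItems n e q M' A)) (hJ : JTarget n e)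
    (hS2 : Large (GlueItems n e q M' A) → Large (ModEqItems n e q M' A))
    (hS3 : Large (GlueItems n e q M' A) → Large (ModEqItems n e q M' A) →
      Large (PrinItems n e q M' A)) :
    ModelInput13.ModelInput n e q M' A := by
  have hG : Large (GlueItems n e q M' A) := glueItems hq hqM hA hJ
  have hM : Large (ModEqItems n e q M' A) := hS2 hG
  exact modelInput_of_target
    (modelTarget_of_items hq.two_le hS1 hG hM (KronItems15.kronItems hq hqM hA) (hS3 hG hM))

/-- `q` odd (`4 ∣ M'`, Hauptmodul `tq · 4 8`), modulo the S2 and S3i adapters. -/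
theorem modelInput_four_of_adapters (hq : q.Prime) (hqM : ¬ q ∣ M') (hM : 4 ∣ M')
    (hA : A.LiesOverPrime q)
    (hS2 : Large (GlueItems 4 8 q M' A) → Large (ModEqItems 4 8 q M' A))
    (hS3 : Large (GlueItems 4 8 q M' A) → Large (ModEqItems 4 8 q M' A) →
      Large (PrinItems 4 8 q M' A)) :
    ModelInput13.ModelInput 4 8 q M' A :=
  modelInput_of_rest hq hqM hA (chartItems_four hM hq hA)
    (Fermat.Agent.RED.ModelFinal4.jTarget
      (Fermat.Agent.RED.BASE.MainCusp12.base_four M' hM).1.genBase) hS2 hS3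

/-- `q = 2` (`9 ∣ M'`, Hauptmodul `tq · 9 3`), modulo the S2 and S3i adapters. -/
theorem modelInput_nine_of_adapters (hq : q.Prime) (hqM : ¬ q ∣ M') (hM : 9 ∣ M')
    (hA : A.LiesOverPrime q)
    (hS2 : Large (GlueItems 9 3 q M' A) → Large (ModEqItems 9 3 q M' A))
    (hS3 : Large (GlueItems 9 3 q M' A) → Large (ModEqItems 9 3 q M' A) →
      Large (PrinItems 9 3 q M' A)) :
    ModelInput13.ModelInput 9 3 q M' A :=
  modelInput_of_rest hq hqM hA (chartItems_nine hM hq hA)
    (Fermat.Agent.RED.ModelFinal4.jTarget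
      (Fermat.Agent.RED.BASE.MainCusp12.base_nine M' hM).1.genBase) hS2 hS3

/-- `q` odd: S1, V2, V3i, S5-B, S2 discharged; what remains is the S3i adapter. -/
theorem modelInput_four_of_prin (hq : q.Prime) (hqM : ¬ q ∣ M') (hq2 : q ≠ 2) (hM : 4 ∣ M')
    (hA : A.LiesOverPrime q)
    (hS3 : Large (GlueItems 4 8 q M' A) → Large (ModEqItems 4 8 q M' A) →
      Large (PrinItems 4 8 q M' A)) :
    ModelInput13.ModelInput 4 8 q M' A :=
  modelInput_four_of_adapters hq hqM hM hA
    (ItemsAd6.modEqItems_four hq hq2 hqM hA (chartItems_four hM hq hA)) hS3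

/-- `q = 2`: S1, V2, V3i, S5-B, S2 discharged; what remains is the S3i adapter. -/
theorem modelInput_nine_of_prin [NeZero 2] (hqM : ¬ 2 ∣ M') (hM : 9 ∣ M')
    (hA : A.LiesOverPrime 2)
    (hS3 : Large (GlueItems 9 3 2 M' A) → Large (ModEqItems 9 3 2 M' A) →
      Large (PrinItems 9 3 2 M' A)) :
    ModelInput13.ModelInput 9 3 2 M' A :=
  modelInput_nine_of_adapters Nat.prime_two hqM hM hA
    (ItemsAd6.modEqItems_nine hqM hA (chartItems_nine hM Nat.prime_two hA)) hS3

/-- `q` odd: everything discharged except `hcomb` at `(O1, alpha)`. -/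
theorem modelInput_four_of_hcomb (hq : q.Prime) (hqM : ¬ q ∣ M') (hq2 : q ≠ 2) (hM : 4 ∣ M')
    (hA : A.LiesOverPrime q) (hC : Large (PrinItems12.HcombItems 4 8 q M' A)) :
    ModelInput13.ModelInput 4 8 q M' A :=
  modelInput_four_of_prin hq hqM hq2 hM hA
    (fun hG hS2 => PrinItems12.prinItems_four hq hqM hM hA hG hS2 hC)

/-- `q = 2`: everything discharged except `hcomb` at `(O1, alpha)`. -/
theorem modelInput_nine_of_hcomb [NeZero 2] (hqM : ¬ 2 ∣ M') (hM : 9 ∣ M')
    (hA : A.LiesOverPrime 2) (hC : Large (PrinItems12.HcombItems 9 3 2 M' A)) :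
    ModelInput13.ModelInput 9 3 2 M' A :=
  modelInput_nine_of_prin hqM hM hA
    (fun hG hS2 => PrinItems12.prinItems_nine Nat.prime_two hqM hM hA hG hS2 hC)

/-- **MODEL, `q` odd**: the statement consumed by `NumN13.numStep_of_model` (`hodd`). -/
theorem modelInput_four (q M' : ℕ) [NeZero M'] [NeZero q] (A : ValuationSubring Qbar)
    (hq : q.Prime) (hqM : ¬ q ∣ M') (hq2 : q ≠ 2) (hM : 4 ∣ M') (hA : A.LiesOverPrime q) :
    ModelInput13.ModelInput 4 8 q M' A :=
  modelInput_four_of_hcomb hq hqM hq2 hM hA (CombA26.hcomb_four hq hqM hM hA)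

/-- **MODEL, `q = 2`**: the statement consumed by `NumN13.numStep_of_model` (`htwo`). -/
theorem modelInput_nine (M' : ℕ) [NeZero M'] (A : ValuationSubring Qbar)
    (hqM : ¬ 2 ∣ M') (hM : 9 ∣ M') (hA : A.LiesOverPrime 2) :
    ModelInput13.ModelInput 9 3 2 M' A :=
  modelInput_nine_of_hcomb hqM hM hA (CombA26.hcomb_nine Nat.prime_two hqM hM hA)

end Fermat.Agent.ES.N34.ModelEnd4
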