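/-
Program N (S34), interface MODEL (M9) → NUM (A1) (helper13): the LITERAL statement that MODEL
delivers and NUM consumes, in `ModelDefs9`'s vocabulary.

`ModelInput n e q M' A` : over every sufficiently large number field `K ⊂ ℚ̄`, normal over `ℚ`
(MODEL uses a Frobenius element of `K/ℚ`; NUM only looks at normal `K` anyway), there are `ht : tq K n e ∈ FK M' K` and `hE : FK (M' * q) K ≤ fracField (A ∩ K)` such that for EVERY
uniformiser `π` of `A ∩ K` the data `(tN q ht, B0 A q ht, B1 A q ht, O1 M' q hπ hE, O2 M' q hπ hE)`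
form a `NumData13.NodalNumData` over `R = A ∩ K`, `F = K·F_{M' q}`.

`NodalDataAt O E …` is `NodalNumData ↥O Kt ↥E …` with the scalar tower `O → Kt → E` supplied
(typeclass search does not find it; as in Program H's `NumInst4`, concrete statements should go
through a generic wrapper).
-/
import Mathlib
import Fermat.Agent.RED.NumInst4
import Fermat.Agent.ES.N34.NumData13
import Fermat.Agent.ES.N34.ModelDefs9

set_option autoImplicit false
set_option synthInstance.maxHeartbeats 400000

open HahnSeries AlgebraicCurve ModularCurve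

noncomputable section

namespace Fermat.Agent.ES.N34.ModelInput13

open Fermat.Agent.RED.Interface4 Fermat.Agent.RED.PUR.GaussGen8 Fermat.Agent.RED.BASE.EtaQuot12
  Fermat.Agent.ES.N34.NumData13 Fermat.Agent.ES.N34.ModelDefs9

section Generic

variable {Kt : Type*} [Field Kt]

/-- `NodalNumData` over `(O, E)` with the scalar tower supplied. -/
def NodalDataAt (O : ValuationSubring Kt) (E : IntermediateField Kt (LaurentSeries Kt))
    (π : O) (t : E) (B0 B1 : Subalgebra ↥O ↥E) (O1 O2 : ValuationSubring ↥E) : Prop :=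
  haveI := Fermat.Agent.RED.NumInst4.isScalarTower_OE O E
  NodalNumData ↥O Kt ↥E π t B0 B1 O1 O2

theorem nodalDataAt_iff (O : ValuationSubring Kt) (E : IntermediateField Kt (LaurentSeries Kt))
    [IsScalarTower ↥O Kt ↥E]
    (π : O) (t : E) (B0 B1 : Subalgebra ↥O ↥E) (O1 O2 : ValuationSubring ↥E) :
    NodalDataAt O E π t B0 B1 O1 O2 ↔ NodalNumData ↥O Kt ↥E π t B0 B1 O1 O2 := Iff.rfl

end Generic

/-- **The deliverable of MODEL (M9) consumed by NUM (A1).** -/
def ModelInput (n e q M' : ℕ) [NeZero n] [NeZero M'] [NeZero q] (A : ValuationSubring Qbar) :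
    Prop :=
  ∃ K₀ : IntermediateField ℚ Qbar, FiniteDimensional ℚ K₀ ∧
    ∀ (K : IntermediateField ℚ Qbar) [Normal ℚ K], FiniteDimensional ℚ K → K₀ ≤ K →
      ∃ (ht : tq ↥K n e ∈ FK M' K) (hE : FK (M' * q) K ≤ fracField (AK A K)),
        ∀ (π : ↥(AK A K)) (hπ : IsUnif (AK A K) π),
          NodalDataAt (AK A K) (FK (M' * q) K) π (tN q ht) (B0 A q ht) (B1 A q ht)
            (O1 M' q hπ hE) (O2 M' q hπ hE)

end Fermat.Agent.ES.N34.ModelInput13
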