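/-
Program N (S34), chapter (INV), divisor step (helper6): pure `Place` calculus, no charts.

`𝒱` a set of places of `F / K` (the places through a node `𝔪`), `g1 g2 : SemilinearAut K F`
(`τ`, `τ'`) whose inverses preserve `𝒱`; `f ≠ 0` with `ord_v f = m · n v` on `𝒱`;
`S` a finite set of "good" places, each with a *Lemma-A element* `ξ v`
(`ord_w (ξ v) = [w = v]` for all `w ∈ 𝒱`); every place of `𝒱 ∖ S` with `n v ≠ 0` is fixed by `g1` and
`g2` (Lemma B: the non-good point is `τ`-fixed).  Then, with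
  `h v := (g2 • g1 • ξ v) * ξ v / ((g2 • ξ v) * (g1 • ξ v))`,  `G := ∏ v ∈ S, (h v) ^ (- n v)`,
  `u := (g2 • g1 • f) * f / ((g2 • f) * (g1 • f))`   (the second difference of the Kummer generator),
`ord_w (G ^ m * u) = 0` for every `w ∈ 𝒱`:  `G ^ m * u` has no zero or pole through the node.
-/
import Mathlib
import Fermat.Prelude.Def_AlgebraicCurve_BaseChangeGalois

set_option autoImplicit false

namespace Fermat.Agent.ES.N34.SecondDiff6

open AlgebraicCurve

variable {K F : Type*} [Field K] [Field F] [Algebra K F]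

/-- `ord` of a natural power. -/
theorem ord_npow (w : Place K F) (y : F) (n : ℕ) : w.ord (y ^ n) = (n : ℤ) * w.ord y := by
  rw [← zpow_natCast, w.ord_zpow]

/-- `ord` of a quotient. -/
theorem ord_quot (w : Place K F) {a b : F} (ha : a ≠ 0) (hb : b ≠ 0) :
    w.ord (a / b) = w.ord a - w.ord b := by
  rw [div_eq_mul_inv, w.ord_mul ha (inv_ne_zero hb), w.ord_inv]; ring

/-- `ord` of a finite product of nonzero elements. -/
theorem ord_finprod {ι : Type*} (w : Place K F) (s : Finset ι) (φ : ι → F)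
    (hφ : ∀ i ∈ s, φ i ≠ 0) : w.ord (∏ i ∈ s, φ i) = ∑ i ∈ s, w.ord (φ i) := by
  classical
  induction s using Finset.induction_on with
  | empty => simp
  | insert a s ha ih =>
    rw [Finset.prod_insert ha, Finset.sum_insert ha,
      w.ord_mul (hφ a (Finset.mem_insert_self a s))
        (Finset.prod_ne_zero_iff.2 fun i hi => hφ i (Finset.mem_insert_of_mem hi)),
      ih fun i hi => hφ i (Finset.mem_insert_of_mem hi)]

/-- transport of `ord` along a semilinear automorphism. -/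
theorem ord_smul' (g : SemilinearAut K F) (w : Place K F) (y : F) :
    w.ord (g • y) = (g⁻¹ • w).ord y := by
  have h := SemilinearAut.ord_smul g (g⁻¹ • w) y
  rwa [smul_inv_smul] at h

theorem smul_ne_zero' (g : SemilinearAut K F) {y : F} (hy : y ≠ 0) : g • y ≠ 0 := by
  rw [SemilinearAut.smul_def]
  exact (map_ne_zero_iff _ (SemilinearAut.toRingAut g).injective).2 hy

/-- the second difference of `y` along `g1`, `g2`. -/
noncomputable def secondDiff (g1 g2 : SemilinearAut K F) (y : F) : F :=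
  (g2 • g1 • y) * y / ((g2 • y) * (g1 • y))

theorem secondDiff_ne_zero (g1 g2 : SemilinearAut K F) {y : F} (hy : y ≠ 0) :
    secondDiff g1 g2 y ≠ 0 := by
  unfold secondDiff
  exact div_ne_zero (mul_ne_zero (smul_ne_zero' g2 (smul_ne_zero' g1 hy)) hy)
    (mul_ne_zero (smul_ne_zero' g2 hy) (smul_ne_zero' g1 hy))

/-- the Kummer form `g2 • (g1 • y / y) / (g1 • y / y)` of the second difference. -/
theorem secondDiff_eq (g1 g2 : SemilinearAut K F) {y : F} (hy : y ≠ 0) :
    secondDiff g1 g2 y = (g2 • (g1 • y / y)) / (g1 • y / y) := by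
  unfold secondDiff
  have h1 : g1 • y ≠ 0 := smul_ne_zero' g1 hy
  have h2 : g2 • y ≠ 0 := smul_ne_zero' g2 hy
  rw [div_eq_mul_inv (g1 • y) y, smul_mul', smul_inv'']
  field_simp

/-- `ord` of a second difference. -/
theorem ord_secondDiff (g1 g2 : SemilinearAut K F) (w : Place K F) {y : F} (hy : y ≠ 0) :
    w.ord (secondDiff g1 g2 y) =
      (g1⁻¹ • g2⁻¹ • w).ord y + w.ord y - (g2⁻¹ • w).ord y - (g1⁻¹ • w).ord y := by
  unfold secondDiff
  have h1 : g1 • y ≠ 0 := smul_ne_zero' g1 hy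
  have h2 : g2 • y ≠ 0 := smul_ne_zero' g2 hy
  have h21 : g2 • g1 • y ≠ 0 := smul_ne_zero' g2 h1
  rw [ord_quot w (mul_ne_zero h21 hy) (mul_ne_zero h2 h1), w.ord_mul h21 hy, w.ord_mul h2 h1,
    ord_smul' g2 w (g1 • y), ord_smul' g1 _ y, ord_smul' g2 w y, ord_smul' g1 w y]
  ring

/-- **Divisor step of (INV).**  See the header. -/
theorem ord_secondDiff_corrected_eq_zero
    (𝒱 : Set (Place K F)) (g1 g2 : SemilinearAut K F)
    (h𝒱1 : ∀ v ∈ 𝒱, g1⁻¹ • v ∈ 𝒱) (h𝒱2 : ∀ v ∈ 𝒱, g2⁻¹ • v ∈ 𝒱)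
    (f : F) (hf : f ≠ 0) (m : ℕ) (n : Place K F → ℤ) (hn : ∀ v ∈ 𝒱, v.ord f = (m : ℤ) * n v)
    (S : Finset (Place K F))
    (ξ : Place K F → F) (hξ0 : ∀ v ∈ S, ξ v ≠ 0)
    (hξ1 : ∀ v ∈ S, v.ord (ξ v) = 1)
    (hξ2 : ∀ v ∈ S, ∀ w ∈ 𝒱, w ≠ v → w.ord (ξ v) = 0)
    (hbad : ∀ v ∈ 𝒱, v ∉ S → n v ≠ 0 → g1 • v = v ∧ g2 • v = v) :
    ∀ w ∈ 𝒱, w.ord ((∏ v ∈ S, (secondDiff g1 g2 (ξ v)) ^ (- n v)) ^ m * secondDiff g1 g2 f) = 0 := by
  classical
  intro w hw
  have hξ : ∀ v ∈ S, ∀ w ∈ 𝒱, w.ord (ξ v) = if w = v then 1 else 0 := by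
    intro v hv w' hw'
    split_ifs with h
    · rw [h]; exact hξ1 v hv
    · exact hξ2 v hv w' hw' h
  -- the four transported places
  set w2 : Place K F := g2⁻¹ • w with hw2
  set w1 : Place K F := g1⁻¹ • w with hw1
  set w12 : Place K F := g1⁻¹ • g2⁻¹ • w with hw12
  have hw2𝒱 : w2 ∈ 𝒱 := h𝒱2 w hw
  have hw1𝒱 : w1 ∈ 𝒱 := h𝒱1 w hw
  have hw12𝒱 : w12 ∈ 𝒱 := h𝒱1 _ hw2𝒱
  have hfac : ∀ v ∈ S, (secondDiff g1 g2 (ξ v)) ^ (- n v) ≠ 0 := fun v hv =>
    zpow_ne_zero _ (secondDiff_ne_zero g1 g2 (hξ0 v hv))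
  have hprod : (∏ v ∈ S, (secondDiff g1 g2 (ξ v)) ^ (- n v)) ≠ 0 :=
    Finset.prod_ne_zero_iff.2 hfac
  rw [w.ord_mul (pow_ne_zero m hprod) (secondDiff_ne_zero g1 g2 hf), ord_npow,
    ord_finprod w S _ hfac, ord_secondDiff g1 g2 w hf]
  -- the defect function
  set d : Place K F → ℤ := fun w' => if w' ∈ S then 0 else n w' with hd
  -- `∑ n_v [w' = v] = n w' - d w'`
  have hsum : ∀ w' : Place K F, (∑ v ∈ S, n v * (if w' = v then (1 : ℤ) else 0)) = n w' - d w' := by
    intro w'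
    simp only [mul_ite, mul_one, mul_zero, hd]
    rw [Finset.sum_ite_eq S w' n]
    split_ifs <;> ring
  have hterm : ∀ v ∈ S, w.ord ((secondDiff g1 g2 (ξ v)) ^ (- n v)) =
      - (n v * (if w12 = v then (1 : ℤ) else 0)) - (n v * (if w = v then (1 : ℤ) else 0))
      + (n v * (if w2 = v then (1 : ℤ) else 0)) + (n v * (if w1 = v then (1 : ℤ) else 0)) := by
    intro v hv
    rw [w.ord_zpow, ord_secondDiff g1 g2 w (hξ0 v hv), hξ v hv w12 hw12𝒱, hξ v hv w hw,
      hξ v hv w2 hw2𝒱, hξ v hv w1 hw1𝒱]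
    ring
  rw [Finset.sum_congr rfl hterm]
  simp only [Finset.sum_add_distrib, Finset.sum_sub_distrib, Finset.sum_neg_distrib]
  rw [hsum w12, hsum w, hsum w2, hsum w1, hn w12 hw12𝒱, hn w hw, hn w2 hw2𝒱, hn w1 hw1𝒱]
  -- the defects cancel
  have hdef : d w12 + d w - d w2 - d w1 = 0 := by
    -- a place with nonzero defect is fixed by `g1`, `g2`
    have hfix : ∀ w' ∈ 𝒱, d w' ≠ 0 → g1 • w' = w' ∧ g2 • w' = w' := by
      intro w' hw' hdw'
      by_cases hS' : w' ∈ S
      · exact absurd (by simp [hd, hS']) hdw'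
      · have : n w' ≠ 0 := by simpa [hd, hS'] using hdw'
        exact hbad w' hw' hS' this
    have hinv : ∀ (g : SemilinearAut K F) (v : Place K F), g • v = v → g⁻¹ • v = v := by
      intro g v h
      conv_lhs => rw [← h]
      rw [inv_smul_smul]
    -- if `w` itself is fixed then all four places coincide
    have hall : g1 • w = w ∧ g2 • w = w → d w12 + d w - d w2 - d w1 = 0 := by
      rintro ⟨h1, h2⟩
      have e2 : w2 = w := hinv g2 w h2
      have e1 : w1 = w := hinv g1 w h1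
      have e12 : w12 = w := by rw [hw12, ← hw2, e2]; exact e1
      rw [e2, e1, e12]; ring
    have hfix_w' : ∀ (g : SemilinearAut K F) (z v : Place K F), v = g⁻¹ • z → g • v = v → v = z := by
      intro g z v hv h
      rw [hv, smul_inv_smul] at h
      rw [hv]; exact h.symm
    -- a fixed transported place forces `w` to be fixed
    have hfix_w : ∀ (g : SemilinearAut K F) (v : Place K F), v = g⁻¹ • w → g • v = v → v = w := by
      intro g v hv h
      rw [hv, smul_inv_smul] at h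
      rw [hv]; exact h.symm
    by_cases c0 : d w = 0
    · by_cases c1 : d w1 = 0
      · by_cases c2 : d w2 = 0
        · by_cases c12 : d w12 = 0
          · rw [c0, c1, c2, c12]; ring
          · -- `w12` fixed ⇒ `w` fixed
            obtain ⟨h1, h2⟩ := hfix w12 hw12𝒱 c12
            have e : w12 = w2 := hfix_w' g1 w2 w12 hw12 h1
            have e' : w2 = w := by
              apply hfix_w g2 w2 hw2
              rw [← e]; exact h2
            apply hall
            rw [← e', ← e]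
            exact ⟨h1, h2⟩
        · obtain ⟨h1, h2⟩ := hfix w2 hw2𝒱 c2
          have e' : w2 = w := hfix_w g2 w2 hw2 h2
          apply hall
          rw [← e']
          exact ⟨h1, h2⟩
      · obtain ⟨h1, h2⟩ := hfix w1 hw1𝒱 c1
        have e' : w1 = w := hfix_w g1 w1 hw1 h1
        apply hall
        rw [← e']
        exact ⟨h1, h2⟩
    · exact hall (hfix w hw c0)
  linear_combination (m : ℤ) * hdef

end Fermat.Agent.ES.N34.SecondDiff6
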