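/-
Program N (S34), brick L4 (helper6): the NODE ASSEMBLY.

At a closed point `𝔪` of a chart `B` lying on both components, from
* the chart hypotheses of `HorizPlace13.hhor_of_places` / `NodalStart13.exists_den_of_horizontal`,
* `σ : SemilinearAut K F` inertial for `O1`, `O2` (`GalGauss21.IsInertial`) and permuting the places
  through `𝔪` (`Thr`),
* `f ≠ 0` with `m ∣ ord_v f` for all places and finite support,
* the node hypothesis `(L3-ii)`: every place `v` through `𝔪` in the support of `f` either has a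
  Lemma-A element `ξ` (`ord_v ξ = 1`, `ord_w ξ = 0` at the other places through `𝔪`) or is fixed by
  `σ` (Lemma B),
we get `NodalCL13.NodeDatum π B O1 O2 m (secondDiff σ σ f) 𝔪`, i.e. (U3) of `cl_nodal`, with
`g := secondDiff σ σ (∏ ξ_v ^ (- ord_v f / m))`.
-/
import Mathlib
import Fermat.Agent.X0.FFDict
import Fermat.Agent.ES.N34.NodalCL13
import Fermat.Agent.ES.N34.HorizPlace13
import Fermat.Agent.ES.N34.GalGauss21
import Fermat.Agent.ES.N34.SecondDiff6

set_option autoImplicit false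

namespace Fermat.Agent.ES.N34.NodeAsm6

open AlgebraicCurve Fermat.Agent.X0.FF
open Fermat.Agent.ES.N34.NodalCore13 Fermat.Agent.ES.N34.NodalStart13
  Fermat.Agent.ES.N34.NodalCL13 Fermat.Agent.ES.N34.HorizPlace13
  Fermat.Agent.ES.N34.GalGauss21

section Calc

variable {F : Type*} [Field F]

theorem secondDiff_zpow (g g' : F ≃+* F) (y : F) (n : ℤ) :
    GalGauss21.secondDiff g g' (y ^ n) = GalGauss21.secondDiff g g' y ^ n := by
  rcases Int.eq_nat_or_neg n with ⟨k, rfl | rfl⟩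
  · rw [zpow_natCast, zpow_natCast, GalGauss21.secondDiff_pow]
  · rw [zpow_neg, zpow_neg, zpow_natCast, zpow_natCast, GalGauss21.secondDiff_inv,
      GalGauss21.secondDiff_pow]

theorem secondDiff_prod {ι : Type*} (g g' : F ≃+* F) (s : Finset ι) (φ : ι → F) :
    GalGauss21.secondDiff g g' (∏ i ∈ s, φ i) = ∏ i ∈ s, GalGauss21.secondDiff g g' (φ i) := by
  classical
  induction s using Finset.induction_on with
  | empty => simp [GalGauss21.secondDiff_one]
  | insert a s ha ih =>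
    rw [Finset.prod_insert ha, Finset.prod_insert ha, GalGauss21.secondDiff_mul, ih]

end Calc

variable {R K F : Type*} [CommRing R] [Field K] [Field F] [Algebra R K] [Algebra K F]
  [Algebra R F] [IsScalarTower R K F]

/-- the place `v` of `F / K` passes through the closed point `𝔪` of the chart `B`
(literally the two hypotheses of `HorizPlace13.hhor_of_places`). -/
def Thr (B : Subalgebra R F) (𝔪 : Ideal B) (v : Place K F) : Prop :=
  (∀ b ∈ B, b ∈ v.toValuationSubring) ∧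
    (∀ b : B, ((b : F))⁻¹ ∉ v.toValuationSubring → b ∈ 𝔪)

/-- the two second differences agree. -/
theorem secondDiff_eq_gal (σ : SemilinearAut K F) {y : F} (hy : y ≠ 0) :
    SecondDiff6.secondDiff σ σ y =
      GalGauss21.secondDiff (SemilinearAut.toRingAut σ) (SemilinearAut.toRingAut σ) y := by
  rw [SecondDiff6.secondDiff_eq σ σ hy]
  rfl

/-- **L4: the node assembly.** -/
theorem nodeDatum_of_places (π : R) (t : F) (B : Subalgebra R F) (O1 O2 : ValuationSubring F)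
    (ht : t ∈ B) (noethB : IsNoetherianRing B) (fracR : IsFractionRing R K)
    (dvrR : ∀ r : R, r ≠ 0 → ∃ (k : ℕ) (v : Rˣ), r = π ^ k * v)
    (pi_ne : algebraMap R F π ≠ 0)
    (intcl : ∀ x : F, IsIntegral B x → x ∈ B)
    (int0 : ∀ x ∈ B, IsIntegral (Algebra.adjoin R {t}) x)
    (frac : ∀ x : F, ∃ a ∈ B, ∃ b ∈ B, b ≠ 0 ∧ x * b = a)
    (leO1 : ∀ x ∈ B, x ∈ O1) (leO2 : ∀ x ∈ B, x ∈ O2)
    (unif1 : ∀ x ∈ O1, x⁻¹ ∉ O1 → ∃ c ∈ O1, x = algebraMap R F π * c)
    (unif2 : ∀ x ∈ O2, x⁻¹ ∉ O2 → ∃ c ∈ O2, x = algebraMap R F π * c)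
    (arch1 : ∀ x : F, ∃ k : ℕ, algebraMap R F π ^ k * x ∈ O1)
    (arch2 : ∀ x : F, ∃ k : ℕ, algebraMap R F π ^ k * x ∈ O2)
    (sat : ∀ b ∈ B, ∀ c : F, c ∈ O1 → c ∈ O2 → b = algebraMap R F π * c → c ∈ B)
    (𝔪 : Ideal B) [h𝔪 : 𝔪.IsPrime]
    (σ : SemilinearAut K F)
    (hσ1 : IsInertial O1 (algebraMap R F π) (SemilinearAut.toRingAut σ))
    (hσ2 : IsInertial O2 (algebraMap R F π) (SemilinearAut.toRingAut σ))
    (hσ𝔪 : ∀ v : Place K F, Thr B 𝔪 v → Thr B 𝔪 (σ⁻¹ • v))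
    (m : ℕ) (hm : 0 < m) (f : F) (hf : f ≠ 0) (hmf : ∀ v : Place K F, (m : ℤ) ∣ v.ord f)
    (hfin : {v : Place K F | Thr B 𝔪 v ∧ v.ord f ≠ 0}.Finite)
    (H : ∀ v : Place K F, Thr B 𝔪 v → v.ord f ≠ 0 →
      (∃ ξ : F, ξ ≠ 0 ∧ v.ord ξ = 1 ∧
        ∀ w : Place K F, Thr B 𝔪 w → w ≠ v → w.ord ξ = 0) ∨ σ • v = v) :
    NodeDatum π B O1 O2 m
      (GalGauss21.secondDiff (SemilinearAut.toRingAut σ) (SemilinearAut.toRingAut σ) f) 𝔪 := by
  classical
  set g0 : F ≃+* F := SemilinearAut.toRingAut σ with hg0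
  -- the good places
  let Good : Place K F → Prop := fun v => Thr B 𝔪 v ∧
    ∃ ξ : F, ξ ≠ 0 ∧ v.ord ξ = 1 ∧ ∀ w : Place K F, Thr B 𝔪 w → w ≠ v → w.ord ξ = 0
  let S : Finset (Place K F) := hfin.toFinset.filter Good
  let ξ : Place K F → F := fun v => if h : Good v then Classical.choose h.2 else 1
  have hξspec : ∀ v, Good v → ξ v ≠ 0 ∧ v.ord (ξ v) = 1 ∧
      ∀ w : Place K F, Thr B 𝔪 w → w ≠ v → w.ord (ξ v) = 0 := by
    intro v hv
    have : ξ v = Classical.choose hv.2 := dif_pos hv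
    rw [this]
    exact Classical.choose_spec hv.2
  have hSgood : ∀ v ∈ S, Good v := fun v hv => (Finset.mem_filter.1 hv).2
  let n : Place K F → ℤ := fun v => v.ord f / (m : ℤ)
  have hn : ∀ v : Place K F, v.ord f = (m : ℤ) * n v := fun v =>
    (Int.mul_ediv_cancel' (hmf v)).symm
  -- divisor step
  have hdiv := SecondDiff6.ord_secondDiff_corrected_eq_zero {v : Place K F | Thr B 𝔪 v} σ σ
    (fun v hv => hσ𝔪 v hv) (fun v hv => hσ𝔪 v hv) f hf m n (fun v _ => hn v) S ξ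
    (fun v hv => (hξspec v (hSgood v hv)).1)
    (fun v hv => (hξspec v (hSgood v hv)).2.1)
    (fun v hv w hw hwv => (hξspec v (hSgood v hv)).2.2 w hw hwv)
    (by
      intro v hv hvS hnv
      have hord : v.ord f ≠ 0 := by
        intro h0
        apply hnv
        have := hn v
        rw [h0] at this
        have hm0 : (m : ℤ) ≠ 0 := by exact_mod_cast hm.ne'
        rcases mul_eq_zero.1 this.symm with h | h
        · exact absurd h hm0
        · exact h
      have hnot : ¬ Good v := by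
        intro hg
        apply hvS
        exact Finset.mem_filter.2 ⟨hfin.mem_toFinset.2 ⟨hv, hord⟩, hg⟩
      rcases H v hv hord with hgood | hfix
      · exact absurd ⟨hv, hgood⟩ hnot
      · exact ⟨hfix, hfix⟩)
  -- the generator `G`
  set Ξ : F := ∏ v ∈ S, (ξ v) ^ (- n v) with hΞ
  have hΞ0 : Ξ ≠ 0 := Finset.prod_ne_zero_iff.2 fun v hv =>
    zpow_ne_zero _ (hξspec v (hSgood v hv)).1
  set G : F := GalGauss21.secondDiff g0 g0 Ξ with hG
  have hGeq : G = ∏ v ∈ S, (SecondDiff6.secondDiff σ σ (ξ v)) ^ (- n v) := by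
    rw [hG, hΞ, secondDiff_prod]
    refine Finset.prod_congr rfl fun v hv => ?_
    rw [secondDiff_zpow, secondDiff_eq_gal σ (hξspec v (hSgood v hv)).1]
  set u : F := GalGauss21.secondDiff g0 g0 f with hu
  have hueq : u = SecondDiff6.secondDiff σ σ f := (secondDiff_eq_gal σ hf).symm
  -- congruences
  have hGpi : PiO π O1 O2 (G - 1) :=
    secondDiff_sub_one_two π O1 O2 hσ1 hσ1 hσ2 hσ2 pi_ne unif1 unif2 arch1 arch2 hΞ0
  have hupi : PiO π O1 O2 (u - 1) :=
    secondDiff_sub_one_two π O1 O2 hσ1 hσ1 hσ2 hσ2 pi_ne unif1 unif2 arch1 arch2 hf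
  have hpiB : algebraMap R F π ∈ B := B.algebraMap_mem π
  have memO : ∀ (z : F), PiO π O1 O2 (z - 1) → z ∈ O1 ∧ z ∈ O2 := by
    rintro z ⟨c, hc1, hc2, hc⟩
    have : z = 1 + algebraMap R F π * c := by rw [← hc]; ring
    rw [this]
    exact ⟨O1.add_mem _ _ O1.one_mem (O1.mul_mem _ _ (leO1 _ hpiB) hc1),
      O2.add_mem _ _ O2.one_mem (O2.mul_mem _ _ (leO2 _ hpiB) hc2)⟩
  set ε : F := G ^ m * u with hε
  have hεO1 : ε ∈ O1 := O1.mul_mem _ _ (pow_mem (memO G hGpi).1 m) (memO u hupi).1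
  have hεO2 : ε ∈ O2 := O2.mul_mem _ _ (pow_mem (memO G hGpi).2 m) (memO u hupi).2
  -- horizontal primes
  have hhor := hhor_of_places (K := K) π t B ht noethB fracR dvrR pi_ne intcl int0 frac 𝔪 ε
    (by
      intro v hv1 hv2
      have h0 := hdiv v ⟨hv1, hv2⟩
      rw [← hGeq, ← hueq] at h0
      exact mem_of_ord_nonneg v (le_of_eq h0.symm))
  obtain ⟨a, d, hd, had⟩ := exists_den_of_horizontal π B O1 O2 leO1 leO2 arch1 arch2 sat frac 𝔪 ε
    hhor (Or.inl hεO1) (Or.inl hεO2)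
  exact ⟨G, hGpi, 0, a, d, hd, by rw [pow_zero, one_mul]; exact had⟩

end Fermat.Agent.ES.N34.NodeAsm6
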