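/-
Program N (S34), node chapter (helper11, DRAFT in scratch; not on main):
coordinate triples at a node, the STEP, and the dichotomy (Lemma B of N_NOTE27):
at most one section through the node is not good.

`A` noetherian local ring, `R` a domain with `⋂ π^j R = 0` (a DVR in the application), `R → A`;
sections = `R`-algebra retractions `ev : A →ₐ[R] R`.
A TRIPLE of level `j` is `(x, y, w)` with `𝔪_A ≤ (π, x, y)` and `x * y = π ^ (j+1) * w`.
-/
import Mathlib

set_option autoImplicit false

namespace Fermat.Agent.ES.N34.NodeDich11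

open IsLocalRing

variable {R A : Type*} [CommRing R] [CommRing A] [Algebra R A]

/-- a coordinate triple of level `j` at the node -/
structure IsTriple [IsLocalRing A] (π : R) (j : ℕ) (x y w : A) : Prop where
  gen : maximalIdeal A ≤ Ideal.span {algebraMap R A π, x, y}
  x_mem : x ∈ maximalIdeal A
  y_mem : y ∈ maximalIdeal A
  mul : x * y = algebraMap R A π ^ (j + 1) * w

/-- STEP: a triple whose `w` is not a unit produces a triple of the next level. -/
theorem IsTriple.step [IsLocalRing A] {π : R} (hπ : algebraMap R A π ∈ maximalIdeal A) {j : ℕ}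
    {x y w : A} (T : IsTriple π j x y w) (hw : w ∈ maximalIdeal A) :
    ∃ x' y' w' : A, IsTriple π (j + 1) x' y' w' := by
  set p : A := algebraMap R A π with hp
  obtain ⟨a, z, hz, hwz⟩ := Ideal.mem_span_insert.mp (T.gen hw)
  obtain ⟨b, z', hz', rfl⟩ := Ideal.mem_span_insert.mp hz
  obtain ⟨c, rfl⟩ := Ideal.mem_span_singleton'.mp hz'
  -- w = a p + b x + c y
  refine ⟨x - p ^ (j + 1) * c, y - p ^ (j + 1) * b, a + p ^ j * (b * c), ?_, ?_, ?_, ?_⟩
  · refine T.gen.trans ?_
    rw [Ideal.span_le]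
    set I : Ideal A := Ideal.span {p, x - p ^ (j + 1) * c, y - p ^ (j + 1) * b} with hI
    have hpmem : p ∈ I := Ideal.subset_span (by simp)
    have hxmem : x ∈ I := by
      have h1 : x - p ^ (j + 1) * c ∈ I := Ideal.subset_span (by simp)
      have h2 : x = (x - p ^ (j + 1) * c) + (p ^ j * c) * p := by rw [pow_succ]; ring
      rw [h2]
      exact Ideal.add_mem _ h1 (Ideal.mul_mem_left _ _ hpmem)
    have hymem : y ∈ I := by
      have h1 : y - p ^ (j + 1) * b ∈ I := Ideal.subset_span (by simp)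
      have h2 : y = (y - p ^ (j + 1) * b) + (p ^ j * b) * p := by rw [pow_succ]; ring
      rw [h2]
      exact Ideal.add_mem _ h1 (Ideal.mul_mem_left _ _ hpmem)
    intro t ht
    rcases ht with h | h | h
    · rw [h]; exact hpmem
    · rw [h]; exact hxmem
    · rw [Set.mem_singleton_iff.mp h]; exact hymem
  · exact Ideal.sub_mem _ T.x_mem (Ideal.mul_mem_right _ _ (Ideal.pow_mem_of_mem _ hπ _ (by omega)))
  · exact Ideal.sub_mem _ T.y_mem (Ideal.mul_mem_right _ _ (Ideal.pow_mem_of_mem _ hπ _ (by omega)))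
  · have h1 : (x - p ^ (j + 1) * c) * (y - p ^ (j + 1) * b)
        = x * y - p ^ (j + 1) * (b * x + c * y) + p ^ (j + 1) * p ^ (j + 1) * (b * c) := by ring
    have h2 : b * x + c * y = w - a * p := by rw [hwz]; ring
    rw [h1, T.mul, h2]
    have h3 : p ^ (j + 1 + 1) = p ^ (j + 1) * p := pow_succ _ _
    have h4 : p ^ (j + 1) = p ^ j * p := pow_succ _ _
    rw [h3]
    nth_rewrite 5 [h4]
    ring

variable [IsDomain R] [IsLocalRing A]

/-- The kernel of a section is generated by `x - x(P)`, `y - y(P)`. -/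
theorem ker_ev_eq_span [IsNoetherianRing A] (ev : A →ₐ[R] R) (π : R) (hπ0 : π ≠ 0)
    (hπ : algebraMap R A π ∈ maximalIdeal A)
    (hloc : ∀ b ∈ maximalIdeal A, ∃ r : R, ev b = π * r)
    (x y : A) (hgen : maximalIdeal A ≤ Ideal.span {algebraMap R A π, x, y})
    (hx : x ∈ maximalIdeal A) (hy : y ∈ maximalIdeal A) :
    RingHom.ker (ev : A →+* R) =
      Ideal.span {x - algebraMap R A (ev x), y - algebraMap R A (ev y)} := by
  set p : A := algebraMap R A π with hp
  set K : Ideal A := Ideal.span {x - algebraMap R A (ev x), y - algebraMap R A (ev y)} with hK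
  have hev_alg : ∀ r : R, ev (algebraMap R A r) = r := fun r => by
    rw [AlgHom.commutes]; rfl
  have hKle : K ≤ RingHom.ker (ev : A →+* R) := by
    rw [hK, Ideal.span_le]
    rintro t (rfl | rfl)
    · show (ev : A →+* R) _ = 0
      show ev (x - algebraMap R A (ev x)) = 0
      rw [map_sub, hev_alg, sub_self]
    · show ev (y - algebraMap R A (ev y)) = 0
      rw [map_sub, hev_alg, sub_self]
  apply le_antisymm _ hKle
  -- `𝔪 ≤ K ⊔ (p)`
  obtain ⟨rx, hrx⟩ := hloc x hx
  obtain ⟨ry, hry⟩ := hloc y hy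
  have hm' : maximalIdeal A ≤ K ⊔ Ideal.span {p} := by
    refine hgen.trans ?_
    rw [Ideal.span_le]
    rintro t (rfl | rfl | rfl)
    · exact Ideal.mem_sup_right (Ideal.subset_span rfl)
    · have : t = (t - algebraMap R A (ev t)) + algebraMap R A rx * p := by
        rw [hrx, map_mul]; ring
      rw [this]
      exact Ideal.add_mem _ (Ideal.mem_sup_left (Ideal.subset_span (by simp)))
        (Ideal.mem_sup_right (Ideal.mul_mem_left _ _ (Ideal.subset_span rfl)))
    · have : t = (t - algebraMap R A (ev t)) + algebraMap R A ry * p := by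
        rw [hry, map_mul]; ring
      rw [this]
      exact Ideal.add_mem _ (Ideal.mem_sup_left (Ideal.subset_span (by simp)))
        (Ideal.mem_sup_right (Ideal.mul_mem_left _ _ (Ideal.subset_span rfl)))
  have hker_m : RingHom.ker (ev : A →+* R) ≤ maximalIdeal A := by
    apply IsLocalRing.le_maximalIdeal
    intro h
    have : (1 : A) ∈ RingHom.ker (ev : A →+* R) := by rw [h]; trivial
    rw [RingHom.mem_ker] at this
    have h1 : (ev : A →+* R) 1 = 1 := map_one _
    rw [h1] at this
    exact one_ne_zero this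
  have hstep : RingHom.ker (ev : A →+* R) ≤ K ⊔ Ideal.span {p} • RingHom.ker (ev : A →+* R) := by
    intro b hb
    obtain ⟨s, hs, z, hz, rfl⟩ := Submodule.mem_sup.mp (hm' (hker_m hb))
    obtain ⟨b', rfl⟩ := Ideal.mem_span_singleton'.mp hz
    refine Submodule.mem_sup.mpr ⟨s, hs, b' * p, ?_, rfl⟩
    have hs0 : (ev : A →+* R) s = 0 := RingHom.mem_ker.mp (hKle hs)
    rw [RingHom.mem_ker, map_add, hs0, zero_add] at hb
    have hb0 : ev b' * π = 0 := by
      have : (ev : A →+* R) (b' * p) = ev b' * π := by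
        show ev (b' * p) = ev b' * π
        rw [map_mul, hp, hev_alg]
      rw [← this]; exact hb
    have hb'ker : b' ∈ RingHom.ker (ev : A →+* R) := by
      rw [RingHom.mem_ker]
      rcases mul_eq_zero.mp hb0 with h | h
      · exact h
      · exact absurd h hπ0
    rw [mul_comm]
    exact Ideal.mul_mem_mul (Ideal.subset_span rfl) hb'ker
  have hfg : (RingHom.ker (ev : A →+* R)).FG := IsNoetherian.noetherian _
  have hjac : Ideal.span {p} ≤ Ideal.jacobson (⊥ : Ideal A) := by
    rw [IsLocalRing.jacobson_eq_maximalIdeal ⊥ bot_ne_top, Ideal.span_singleton_le_iff_mem]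
    exact hπ
  exact Submodule.le_of_le_smul_of_le_jacobson_bot hfg hjac hstep

/-- Two sections differ, on every `b`, by an `R`-combination of their differences on `x`, `y`. -/
theorem ev_sub_mem [IsNoetherianRing A] (ev ev' : A →ₐ[R] R) (π : R) (hπ0 : π ≠ 0)
    (hπ : algebraMap R A π ∈ maximalIdeal A)
    (hloc' : ∀ b ∈ maximalIdeal A, ∃ r : R, ev' b = π * r)
    (x y : A) (hgen : maximalIdeal A ≤ Ideal.span {algebraMap R A π, x, y})
    (hx : x ∈ maximalIdeal A) (hy : y ∈ maximalIdeal A) (b : A) :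
    ∃ s t : R, ev b - ev' b = s * (ev x - ev' x) + t * (ev y - ev' y) := by
  have hev_alg : ∀ r : R, ev (algebraMap R A r) = r := fun r => by
    rw [AlgHom.commutes]; rfl
  have hev_alg' : ∀ r : R, ev' (algebraMap R A r) = r := fun r => by
    rw [AlgHom.commutes]; rfl
  have hmem : b - algebraMap R A (ev' b) ∈ RingHom.ker (ev' : A →+* R) := by
    rw [RingHom.mem_ker]
    show ev' (b - algebraMap R A (ev' b)) = 0
    rw [map_sub, hev_alg', sub_self]
  rw [ker_ev_eq_span ev' π hπ0 hπ hloc' x y hgen hx hy] at hmem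
  obtain ⟨s, t, hst⟩ := Ideal.mem_span_pair.mp hmem
  refine ⟨ev s, ev t, ?_⟩
  have := congrArg ev hst
  rw [map_add, map_mul, map_mul, map_sub, map_sub, map_sub, hev_alg, hev_alg, hev_alg] at this
  rw [← this]

/-- A section is GOOD if some triple has `x(P)` or `y(P)` not divisible by `π^(j+1)`. -/
def Good (π : R) (ev : A →ₐ[R] R) : Prop :=
  ∃ (j : ℕ) (x y w : A), IsTriple π j x y w ∧ (¬ π ^ (j + 1) ∣ ev x ∨ ¬ π ^ (j + 1) ∣ ev y)

/-- If the iteration stops (unit `w`) every section is good. -/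
theorem good_of_unit (π : R) (hπ0 : π ≠ 0) (ev : A →ₐ[R] R)
    (hloc : ∀ b ∈ maximalIdeal A, ∃ r : R, ev b = π * r) (hπnu : ¬ IsUnit π)
    {j : ℕ} {x y w : A} (T : IsTriple π j x y w) (hw : IsUnit w) : Good π ev := by
  refine ⟨j, x, y, w, T, Or.inl ?_⟩
  rintro ⟨c, hc⟩
  have hev_alg : ∀ r : R, ev (algebraMap R A r) = r := fun r => by
    rw [AlgHom.commutes]; rfl
  have h1 : ev x * ev y = π ^ (j + 1) * ev w := by
    rw [← map_mul, T.mul, map_mul, map_pow, hev_alg]
  rw [hc, mul_assoc] at h1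
  have h2 : c * ev y = ev w := mul_left_cancel₀ (pow_ne_zero _ hπ0) h1
  have hwu : IsUnit (ev w) := hw.map ev
  rw [← h2] at hwu
  have hyu : IsUnit (ev y) := isUnit_of_mul_isUnit_right hwu
  obtain ⟨r, hr⟩ := hloc y T.y_mem
  rw [hr] at hyu
  exact hπnu (isUnit_of_mul_isUnit_left hyu)

/-- **Dichotomy (Lemma B).** Two sections that are both not good coincide. -/
theorem eq_of_not_good [IsNoetherianRing A] (π : R) (hπ0 : π ≠ 0) (hπnu : ¬ IsUnit π)
    (hkrull : ∀ r : R, (∀ j : ℕ, π ^ (j + 1) ∣ r) → r = 0)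
    (hπ : algebraMap R A π ∈ maximalIdeal A)
    (ev ev' : A →ₐ[R] R)
    (hloc : ∀ b ∈ maximalIdeal A, ∃ r : R, ev b = π * r)
    (hloc' : ∀ b ∈ maximalIdeal A, ∃ r : R, ev' b = π * r)
    (x₀ y₀ w₀ : A) (T₀ : IsTriple π 0 x₀ y₀ w₀)
    (hng : ¬ Good π ev) (hng' : ¬ Good π ev') : ev = ev' := by
  -- triples exist at every level
  have hex : ∀ j : ℕ, ∃ x y w : A, IsTriple π j x y w := by
    intro j
    induction j with
    | zero => exact ⟨x₀, y₀, w₀, T₀⟩
    | succ j ih =>
      obtain ⟨x, y, w, T⟩ := ih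
      by_cases hw : w ∈ maximalIdeal A
      · exact T.step hπ hw
      · exfalso
        apply hng
        have : IsUnit w := by
          by_contra h
          exact hw ((IsLocalRing.mem_maximalIdeal w).mpr h)
        exact good_of_unit π hπ0 ev hloc hπnu T this
  apply AlgHom.ext
  intro b
  have : ev b - ev' b = 0 := by
    apply hkrull
    intro j
    obtain ⟨x, y, w, T⟩ := hex j
    obtain ⟨s, t, hst⟩ := ev_sub_mem ev ev' π hπ0 hπ hloc' x y T.gen T.x_mem T.y_mem b
    rw [hst]
    have hx : π ^ (j + 1) ∣ ev x := by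
      by_contra h; exact hng ⟨j, x, y, w, T, Or.inl h⟩
    have hy : π ^ (j + 1) ∣ ev y := by
      by_contra h; exact hng ⟨j, x, y, w, T, Or.inr h⟩
    have hx' : π ^ (j + 1) ∣ ev' x := by
      by_contra h; exact hng' ⟨j, x, y, w, T, Or.inl h⟩
    have hy' : π ^ (j + 1) ∣ ev' y := by
      by_contra h; exact hng' ⟨j, x, y, w, T, Or.inr h⟩
    exact dvd_add (Dvd.dvd.mul_left (dvd_sub hx hx') _) (Dvd.dvd.mul_left (dvd_sub hy hy') _)
  exact sub_eq_zero.mp this

end Fermat.Agent.ES.N34.NodeDich11
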