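/-
Program N (S34), node chapter (helper11, DRAFT): the dichotomy in CHART form
(vocabulary of `LocNode6` / `NodalStart13`: `B` a noetherian `R`-algebra, NOT local, `𝔪` a prime,
no localisation type exposed).

`ChartGood π 𝔪 ev` : there are chart coordinates `x y ∈ 𝔪` (`𝔪 B_𝔪 = (π, x, y)`,
`d0 * (x * y) = π ^ E * w`, `d0 ∉ 𝔪`, `w` arbitrary) for which the point is good:
`π ^ E = ev x * (π * γ)` or `π ^ E = ev y * (π * γ)` (exactly the hypotheses of `LocNode6.lemmaA_*`).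

* `chartGood_of_good` : goodness in the local ring `B_𝔪` (`NodeDich11.Good`) gives `ChartGood`;
* `eq_of_not_chartGood` : two sections through `𝔪` which are both not `ChartGood` coincide.
-/
import Mathlib
import Fermat.Agent.ES.N34.NodeDich11

set_option autoImplicit false

namespace Fermat.Agent.ES.N34.NodeChart11

open IsLocalRing NodeDich11

variable {R B : Type*} [CommRing R] [IsDomain R] [IsDiscreteValuationRing R]
  [CommRing B] [Algebra R B]

/-- chart form of goodness (the hypotheses of `LocNode6`) -/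
def ChartGood (π : R) (𝔪 : Ideal B) (ev : B →ₐ[R] R) : Prop :=
  ∃ (E : ℕ) (x y w d0 : B), x ∈ 𝔪 ∧ y ∈ 𝔪 ∧
    (∀ b ∈ 𝔪, ∃ d, d ∉ 𝔪 ∧ d * b ∈ Ideal.span {algebraMap R B π, x, y}) ∧
    d0 ∉ 𝔪 ∧ d0 * (x * y) = algebraMap R B π ^ E * w ∧
    ((∃ γ : R, π ^ E = ev x * (π * γ)) ∨ (∃ γ : R, π ^ E = ev y * (π * γ)))

omit [IsDomain R] [IsDiscreteValuationRing R] in
/-- normal form: the point is good for the FIRST coordinate (swap `x`, `y` if necessary);
this is literally the list of hypotheses of `LocNode6.lemmaA_key/_prime/_unif`. -/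
theorem ChartGood.exists_first {π : R} {𝔪 : Ideal B} {ev : B →ₐ[R] R} (h : ChartGood π 𝔪 ev) :
    ∃ (E : ℕ) (x y w d0 : B), x ∈ 𝔪 ∧ y ∈ 𝔪 ∧
      (∀ b ∈ 𝔪, ∃ d, d ∉ 𝔪 ∧ d * b ∈ Ideal.span {algebraMap R B π, x, y}) ∧
      d0 ∉ 𝔪 ∧ d0 * (x * y) = algebraMap R B π ^ E * w ∧ ∃ γ : R, π ^ E = ev x * (π * γ) := by
  obtain ⟨E, x, y, w, d0, hx, hy, hgen, hd0, hmul, hγ | hγ⟩ := h
  · exact ⟨E, x, y, w, d0, hx, hy, hgen, hd0, hmul, hγ⟩
  · refine ⟨E, y, x, w, d0, hy, hx, ?_, hd0, by rw [mul_comm y x]; exact hmul, hγ⟩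
    intro b hb
    obtain ⟨d, hd, hdb⟩ := hgen b hb
    refine ⟨d, hd, ?_⟩
    have : ({algebraMap R B π, y, x} : Set B) = {algebraMap R B π, x, y} := by
      ext z; simp only [Set.mem_insert_iff, Set.mem_singleton_iff]; tauto
    rw [this]; exact hdb

section Loc

/-- an element outside `𝔪 = ev⁻¹(π R)` has unit value -/
theorem isUnit_ev_of_notMem (π : R) (hπ : Irreducible π) (𝔪 : Ideal B) (ev : B →ₐ[R] R) (h𝔪 : ∀ b, b ∈ 𝔪 ↔ π ∣ ev b) (s : B) (hs : s ∉ 𝔪) :
    IsUnit (ev s) := by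
  by_contra hu
  apply hs
  rw [h𝔪]
  have h1 : ev s ∈ maximalIdeal R := (mem_maximalIdeal _).2 hu
  rw [hπ.maximalIdeal_eq] at h1
  exact Ideal.mem_span_singleton.1 h1

theorem isUnit_ev_coe (π : R) (hπ : Irreducible π) (𝔪 : Ideal B) [h𝔪p : 𝔪.IsPrime] (ev : B →ₐ[R] R)
    (h𝔪 : ∀ b, b ∈ 𝔪 ↔ π ∣ ev b) (s : 𝔪.primeCompl) : IsUnit ((ev : B →+* R) (s : B)) :=
  isUnit_ev_of_notMem π hπ 𝔪 ev h𝔪 s s.2

/-- the extension of a section through `𝔪` to the local ring `B_𝔪` -/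
noncomputable def evLoc (π : R) (hπ : Irreducible π) (𝔪 : Ideal B) [h𝔪p : 𝔪.IsPrime]
    (ev : B →ₐ[R] R) (h𝔪 : ∀ b, b ∈ 𝔪 ↔ π ∣ ev b) :
    Localization.AtPrime 𝔪 →ₐ[R] R where
  toRingHom := IsLocalization.lift (M := 𝔪.primeCompl) (g := (ev : B →+* R))
    (isUnit_ev_coe π hπ 𝔪 ev h𝔪)
  commutes' := by
    intro r
    have h1 : algebraMap R (Localization.AtPrime 𝔪) r
        = algebraMap B (Localization.AtPrime 𝔪) (algebraMap R B r) :=
      IsScalarTower.algebraMap_apply R B (Localization.AtPrime 𝔪) r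
    show (IsLocalization.lift (M := 𝔪.primeCompl) (g := (ev : B →+* R))
      (isUnit_ev_coe π hπ 𝔪 ev h𝔪)) (algebraMap R (Localization.AtPrime 𝔪) r) = algebraMap R R r
    rw [h1, IsLocalization.lift_eq]
    show ev (algebraMap R B r) = algebraMap R R r
    rw [AlgHom.commutes]

theorem evLoc_algebraMap (π : R) (hπ : Irreducible π) (𝔪 : Ideal B) [h𝔪p : 𝔪.IsPrime]
    (ev : B →ₐ[R] R) (h𝔪 : ∀ b, b ∈ 𝔪 ↔ π ∣ ev b) (b : B) :
    evLoc π hπ 𝔪 ev h𝔪 (algebraMap B (Localization.AtPrime 𝔪) b) = ev b := by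
  show (IsLocalization.lift (M := 𝔪.primeCompl) (g := (ev : B →+* R))
    (isUnit_ev_coe π hπ 𝔪 ev h𝔪)) (algebraMap B (Localization.AtPrime 𝔪) b) = ev b
  rw [IsLocalization.lift_eq]; rfl

/-- values of the extension on the maximal ideal are divisible by `π` -/
theorem evLoc_mem (π : R) (hπ : Irreducible π) (𝔪 : Ideal B) [h𝔪p : 𝔪.IsPrime]
    (ev : B →ₐ[R] R) (h𝔪 : ∀ b, b ∈ 𝔪 ↔ π ∣ ev b)
    (a : Localization.AtPrime 𝔪) (ha : a ∈ maximalIdeal (Localization.AtPrime 𝔪)) :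
    ∃ r : R, evLoc π hπ 𝔪 ev h𝔪 a = π * r := by
  obtain ⟨⟨b, s⟩, hbs⟩ := IsLocalization.surj 𝔪.primeCompl a
  simp only at hbs
  have hb : b ∈ 𝔪 := by
    rw [← IsLocalization.AtPrime.to_map_mem_maximal_iff (Localization.AtPrime 𝔪) 𝔪, ← hbs]
    exact Ideal.mul_mem_right _ _ ha
  obtain ⟨r, hr⟩ := (h𝔪 b).1 hb
  obtain ⟨us, hus⟩ := isUnit_ev_of_notMem π hπ 𝔪 ev h𝔪 s s.2
  have h1 := congrArg (evLoc π hπ 𝔪 ev h𝔪) hbs
  rw [map_mul, evLoc_algebraMap, evLoc_algebraMap, hr, ← hus] at h1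
  refine ⟨r * ((us⁻¹ : Rˣ) : R), ?_⟩
  have : evLoc π hπ 𝔪 ev h𝔪 a = evLoc π hπ 𝔪 ev h𝔪 a * (us : R) * ((us⁻¹ : Rˣ) : R) := by
    rw [mul_assoc, Units.mul_inv, mul_one]
  rw [this, h1]; ring

end Loc

variable [IsNoetherianRing B]

omit [IsNoetherianRing B] in
/-- **local goodness gives chart goodness** (clearing denominators) -/
theorem chartGood_of_good (π : R) (hπ : Irreducible π) (𝔪 : Ideal B) [h𝔪p : 𝔪.IsPrime]
    (ev : B →ₐ[R] R) (h𝔪 : ∀ b, b ∈ 𝔪 ↔ π ∣ ev b)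
    (hgood : Good π (evLoc π hπ 𝔪 ev h𝔪)) : ChartGood π 𝔪 ev := by
  classical
  set A := Localization.AtPrime 𝔪 with hA
  set evA := evLoc π hπ 𝔪 ev h𝔪 with hevA
  obtain ⟨j, x, y, w, T, hxy⟩ := hgood
  obtain ⟨⟨x', sx⟩, hx'⟩ := IsLocalization.surj 𝔪.primeCompl x
  obtain ⟨⟨y', sy⟩, hy'⟩ := IsLocalization.surj 𝔪.primeCompl y
  obtain ⟨⟨w', sw⟩, hw'⟩ := IsLocalization.surj 𝔪.primeCompl w
  simp only at hx' hy' hw'
  have hsxu : IsUnit (algebraMap B A (sx : B)) := IsLocalization.map_units A sx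
  have hsyu : IsUnit (algebraMap B A (sy : B)) := IsLocalization.map_units A sy
  have hx'm : x' ∈ 𝔪 := by
    rw [← IsLocalization.AtPrime.to_map_mem_maximal_iff A 𝔪, ← hx']
    exact Ideal.mul_mem_right _ _ T.x_mem
  have hy'm : y' ∈ 𝔪 := by
    rw [← IsLocalization.AtPrime.to_map_mem_maximal_iff A 𝔪, ← hy']
    exact Ideal.mul_mem_right _ _ T.y_mem
  -- the product relation
  have hprod : algebraMap B A ((sw : B) * (x' * y'))
      = algebraMap B A (algebraMap R B π ^ (j + 1) * (w' * ((sx : B) * (sy : B)))) := by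
    have hπA : algebraMap B A (algebraMap R B π) = algebraMap R A π :=
      (IsScalarTower.algebraMap_apply R B A π).symm
    simp only [map_mul, map_pow, hπA]
    rw [← hx', ← hy', ← hw']
    have := T.mul
    calc algebraMap B A (sw : B) * (x * algebraMap B A (sx : B) * (y * algebraMap B A (sy : B)))
        = (x * y) * (algebraMap B A (sw : B) * algebraMap B A (sx : B) * algebraMap B A (sy : B)) := by
          ring
      _ = algebraMap R A π ^ (j + 1) * (w * algebraMap B A (sw : B)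
            * (algebraMap B A (sx : B) * algebraMap B A (sy : B))) := by rw [this]; ring
  obtain ⟨c, hc⟩ := (IsLocalization.eq_iff_exists 𝔪.primeCompl A).1 hprod
  -- generation
  have hgen : ∀ b ∈ 𝔪, ∃ d, d ∉ 𝔪 ∧ d * b ∈ Ideal.span {algebraMap R B π, x', y'} := by
    intro b hb
    have hbA : algebraMap B A b ∈ maximalIdeal A :=
      (IsLocalization.AtPrime.to_map_mem_maximal_iff A 𝔪 b).2 hb
    have h1 := T.gen hbA
    have hπA : algebraMap B A (algebraMap R B π) = algebraMap R A π :=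
      (IsScalarTower.algebraMap_apply R B A π).symm
    have hle : Ideal.span {algebraMap R A π, x, y}
        ≤ (Ideal.span {algebraMap R B π, x', y'}).map (algebraMap B A) := by
      rw [Ideal.span_le]
      intro z hz
      simp only [Set.mem_insert_iff, Set.mem_singleton_iff] at hz
      rcases hz with rfl | rfl | rfl
      · rw [← hπA]
        exact Ideal.mem_map_of_mem _ (Ideal.subset_span (by simp))
      · have h2 : algebraMap B A x' ∈ (Ideal.span {algebraMap R B π, x', y'}).map (algebraMap B A) :=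
          Ideal.mem_map_of_mem _ (Ideal.subset_span (by simp))
        rw [← hx'] at h2
        exact (Ideal.mul_unit_mem_iff_mem _ hsxu).1 h2
      · have h2 : algebraMap B A y' ∈ (Ideal.span {algebraMap R B π, x', y'}).map (algebraMap B A) :=
          Ideal.mem_map_of_mem _ (Ideal.subset_span (by simp))
        rw [← hy'] at h2
        exact (Ideal.mul_unit_mem_iff_mem _ hsyu).1 h2
    have h3 := hle h1
    rw [IsLocalization.mem_map_algebraMap_iff 𝔪.primeCompl A] at h3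
    obtain ⟨⟨i, s⟩, his⟩ := h3
    simp only at his
    rw [← map_mul] at his
    obtain ⟨c', hc'⟩ := (IsLocalization.eq_iff_exists 𝔪.primeCompl A).1 his
    refine ⟨(c' : B) * (s : B), ?_, ?_⟩
    · exact fun h => (h𝔪p.mem_or_mem h).elim c'.2 s.2
    · have : (c' : B) * (s : B) * b = (c' : B) * (b * (s : B)) := by ring
      rw [this, hc']
      exact Ideal.mul_mem_left _ _ i.2
  -- goodness
  have hval : ∀ (z : A) (z' : B) (sz : 𝔪.primeCompl), z * algebraMap B A (sz : B) = algebraMap B A z' →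
      ¬ π ^ (j + 1) ∣ evA z → ∃ γ : R, π ^ (j + 1) = ev z' * (π * γ) := by
    intro z z' sz hz hnd
    obtain ⟨us, hus⟩ := isUnit_ev_of_notMem π hπ 𝔪 ev h𝔪 sz sz.2
    have h1 := congrArg evA hz
    rw [map_mul, hevA, evLoc_algebraMap, evLoc_algebraMap, ← hus] at h1
    -- ev z' = evA z * unit
    have hz0 : ev z' ≠ 0 := by
      intro h0
      apply hnd
      rw [h0] at h1
      have : evLoc π hπ 𝔪 ev h𝔪 z = 0 := by
        have := congrArg (· * ((us⁻¹ : Rˣ) : R)) h1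
        simpa [mul_assoc] using this
      rw [hevA, this]; exact dvd_zero _
    obtain ⟨i, u0, hi⟩ := IsDiscreteValuationRing.eq_unit_mul_pow_irreducible hz0 hπ
    have hilt : i < j + 1 := by
      by_contra hge
      apply hnd
      have hdvd : π ^ (j + 1) ∣ ev z' := by
        rw [hi]; exact Dvd.dvd.mul_left (pow_dvd_pow π (by omega)) _
      obtain ⟨t, ht⟩ := hdvd
      refine ⟨t * ((us⁻¹ : Rˣ) : R), ?_⟩
      have := congrArg (· * ((us⁻¹ : Rˣ) : R)) h1
      simp only [mul_assoc, Units.mul_inv, mul_one] at this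
      rw [hevA, this, ht]; ring
    refine ⟨((u0⁻¹ : Rˣ) : R) * π ^ (j - i), ?_⟩
    rw [hi]
    have hpow : π ^ (j + 1) = π ^ i * (π * π ^ (j - i)) := by
      rw [← pow_succ', ← pow_add]; congr 1; omega
    rw [hpow]
    have : (u0 : R) * π ^ i * (π * (((u0⁻¹ : Rˣ) : R) * π ^ (j - i)))
        = ((u0 : R) * ((u0⁻¹ : Rˣ) : R)) * (π ^ i * (π * π ^ (j - i))) := by ring
    rw [this, Units.mul_inv, one_mul]
  refine ⟨j + 1, x', y', (c : B) * (w' * ((sx : B) * (sy : B))), (c : B) * (sw : B), hx'm, hy'm,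
    hgen, ?_, ?_, ?_⟩
  · exact fun h => (h𝔪p.mem_or_mem h).elim c.2 sw.2
  · have h1 : (c : B) * (sw : B) * (x' * y') = (c : B) * ((sw : B) * (x' * y')) := by ring
    rw [h1, hc]; ring
  · rcases hxy with h | h
    · exact Or.inl (hval x x' sx hx' h)
    · exact Or.inr (hval y y' sy hy' h)

/-- **Dichotomy, chart form.**  Two sections through `𝔪` that are both not `ChartGood` coincide. -/
theorem eq_of_not_chartGood (π : R) (hπ : Irreducible π) (𝔪 : Ideal B) [h𝔪p : 𝔪.IsPrime]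
    (ev ev' : B →ₐ[R] R) (h𝔪 : ∀ b, b ∈ 𝔪 ↔ π ∣ ev b) (h𝔪' : ∀ b, b ∈ 𝔪 ↔ π ∣ ev' b)
    (x₀ y₀ w₀ d₀ : B) (hx₀ : x₀ ∈ 𝔪) (hy₀ : y₀ ∈ 𝔪)
    (hgen₀ : ∀ b ∈ 𝔪, ∃ d, d ∉ 𝔪 ∧ d * b ∈ Ideal.span {algebraMap R B π, x₀, y₀})
    (hd₀ : d₀ ∉ 𝔪) (hmul₀ : d₀ * (x₀ * y₀) = algebraMap R B π * w₀)
    (hng : ¬ ChartGood π 𝔪 ev) (hng' : ¬ ChartGood π 𝔪 ev') : ev = ev' := by
  classical
  set A := Localization.AtPrime 𝔪 with hA
  have hπ0 : π ≠ 0 := hπ.ne_zero
  have hπnu : ¬ IsUnit π := hπ.not_isUnit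
  have hπB : algebraMap R B π ∈ 𝔪 := by
    rw [h𝔪, AlgHom.commutes]; exact dvd_rfl
  have hπA' : algebraMap B A (algebraMap R B π) = algebraMap R A π :=
    (IsScalarTower.algebraMap_apply R B A π).symm
  have hπA : algebraMap R A π ∈ maximalIdeal A := by
    rw [← hπA']
    exact (IsLocalization.AtPrime.to_map_mem_maximal_iff A 𝔪 _).2 hπB
  have hkrull : ∀ r : R, (∀ j : ℕ, π ^ (j + 1) ∣ r) → r = 0 := by
    intro r hr
    by_contra h0
    obtain ⟨i, u0, hi⟩ := IsDiscreteValuationRing.eq_unit_mul_pow_irreducible h0 hπ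
    obtain ⟨t, ht⟩ := hr i
    -- π^i * u0 = π^(i+1) * t  ⇒  u0 = π t ⇒ π unit
    rw [hi, pow_succ] at ht
    have h2 : (u0 : R) = π * t := by
      have h3 : π ^ i * (u0 : R) = π ^ i * (π * t) := by rw [mul_comm]; rw [ht]; ring
      exact mul_left_cancel₀ (pow_ne_zero _ hπ0) h3
    exact hπnu (isUnit_of_mul_isUnit_left (h2 ▸ u0.isUnit))
  -- the level-0 triple in `A`
  have hd₀u : IsUnit (algebraMap B A d₀) :=
    IsLocalization.map_units A (⟨d₀, hd₀⟩ : 𝔪.primeCompl)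
  obtain ⟨d₀i, hd₀i⟩ := hd₀u.exists_right_inv
  have T₀ : IsTriple π 0 (algebraMap B A x₀) (algebraMap B A y₀) (algebraMap B A w₀ * d₀i) := by
    refine ⟨?_, ?_, ?_, ?_⟩
    · rw [← Localization.AtPrime.map_eq_maximalIdeal, Ideal.map_le_iff_le_comap]
      intro b hb
      obtain ⟨d, hd, hdb⟩ := hgen₀ b hb
      rw [Ideal.mem_comap]
      have hdu : IsUnit (algebraMap B A d) := IsLocalization.map_units A (⟨d, hd⟩ : 𝔪.primeCompl)
      have h3 : Ideal.span {algebraMap R B π, x₀, y₀}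
          ≤ (Ideal.span {algebraMap R A π, algebraMap B A x₀, algebraMap B A y₀}).comap
            (algebraMap B A) := by
        rw [Ideal.span_le]
        intro z hz
        simp only [Set.mem_insert_iff, Set.mem_singleton_iff] at hz
        rcases hz with rfl | rfl | rfl
        · rw [SetLike.mem_coe, Ideal.mem_comap, hπA']; exact Ideal.subset_span (by simp)
        · rw [SetLike.mem_coe, Ideal.mem_comap]; exact Ideal.subset_span (by simp)
        · rw [SetLike.mem_coe, Ideal.mem_comap]; exact Ideal.subset_span (by simp)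
      have h4 : algebraMap B A d * algebraMap B A b
          ∈ Ideal.span {algebraMap R A π, algebraMap B A x₀, algebraMap B A y₀} := by
        rw [← map_mul]; exact h3 hdb
      exact (Ideal.unit_mul_mem_iff_mem _ hdu).1 h4
    · exact (IsLocalization.AtPrime.to_map_mem_maximal_iff A 𝔪 x₀).2 hx₀
    · exact (IsLocalization.AtPrime.to_map_mem_maximal_iff A 𝔪 y₀).2 hy₀
    · have h1 := congrArg (algebraMap B A) hmul₀
      simp only [map_mul, hπA'] at h1
      calc algebraMap B A x₀ * algebraMap B A y₀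
          = (algebraMap B A d₀ * d₀i) * (algebraMap B A x₀ * algebraMap B A y₀) := by
            rw [hd₀i, one_mul]
        _ = (algebraMap B A d₀ * (algebraMap B A x₀ * algebraMap B A y₀)) * d₀i := by ring
        _ = algebraMap R A π ^ (0 + 1) * (algebraMap B A w₀ * d₀i) := by rw [h1]; ring
  have hloc := evLoc_mem π hπ 𝔪 ev h𝔪
  have hloc' := evLoc_mem π hπ 𝔪 ev' h𝔪'
  have hngA : ¬ Good π (evLoc π hπ 𝔪 ev h𝔪) := fun h => hng (chartGood_of_good π hπ 𝔪 ev h𝔪 h)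
  have hngA' : ¬ Good π (evLoc π hπ 𝔪 ev' h𝔪') :=
    fun h => hng' (chartGood_of_good π hπ 𝔪 ev' h𝔪' h)
  have heq := eq_of_not_good π hπ0 hπnu hkrull hπA (evLoc π hπ 𝔪 ev h𝔪) (evLoc π hπ 𝔪 ev' h𝔪')
    hloc hloc' _ _ _ T₀ hngA hngA'
  apply AlgHom.ext
  intro b
  rw [← evLoc_algebraMap π hπ 𝔪 ev h𝔪 b, ← evLoc_algebraMap π hπ 𝔪 ev' h𝔪' b, heq]

end Fermat.Agent.ES.N34.NodeChart11
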