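/-
Program N (S34), node chapter (helper11, DRAFT): Galois transport of sections, triples and goodness.
A non-good section through a node is fixed by every automorphism `τ` of the situation
(so it contributes nothing to `τD − D`).

`τR : R ≃+* R`, `τ : A ≃+* A` compatible with `algebraMap`, `τR π = π * unit`.
The conjugate section of `ev` is `conj ev = τR ∘ ev ∘ τ⁻¹`.
-/
import Mathlib
import Fermat.Agent.ES.N34.NodeDich11

set_option autoImplicit false

namespace Fermat.Agent.ES.N34.NodeGal11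

open IsLocalRing NodeDich11

variable {R A : Type*} [CommRing R] [CommRing A] [Algebra R A]

/-- the conjugate section `τR ∘ ev ∘ τ⁻¹` -/
def conj (τR : R ≃+* R) (τ : A ≃+* A)
    (hτ : ∀ r : R, τ (algebraMap R A r) = algebraMap R A (τR r)) (ev : A →ₐ[R] R) : A →ₐ[R] R where
  toRingHom := (τR : R →+* R).comp ((ev : A →+* R).comp (τ.symm : A →+* A))
  commutes' := by
    intro r
    have h1 : τ.symm (algebraMap R A r) = algebraMap R A (τR.symm r) := by
      rw [RingEquiv.symm_apply_eq, hτ, RingEquiv.apply_symm_apply]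
    show τR (ev (τ.symm (algebraMap R A r))) = algebraMap R R r
    rw [h1, AlgHom.commutes]
    show τR (τR.symm r) = r
    exact RingEquiv.apply_symm_apply _ _

theorem conj_apply (τR : R ≃+* R) (τ : A ≃+* A)
    (hτ : ∀ r : R, τ (algebraMap R A r) = algebraMap R A (τR r)) (ev : A →ₐ[R] R) (b : A) :
    conj τR τ hτ ev b = τR (ev (τ.symm b)) := rfl

theorem conj_apply_map (τR : R ≃+* R) (τ : A ≃+* A)
    (hτ : ∀ r : R, τ (algebraMap R A r) = algebraMap R A (τR r)) (ev : A →ₐ[R] R) (b : A) :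
    conj τR τ hτ ev (τ b) = τR (ev b) := by
  rw [conj_apply, RingEquiv.symm_apply_apply]

variable [IsLocalRing A]

/-- `τ` maps triples to triples. -/
theorem IsTriple.map (τR : R ≃+* R) (τ : A ≃+* A)
    (hτ : ∀ r : R, τ (algebraMap R A r) = algebraMap R A (τR r))
    (π : R) (ε : Rˣ) (hπ : τR π = π * ε) {j : ℕ} {x y w : A} (T : IsTriple π j x y w) :
    IsTriple π j (τ x) (τ y) (algebraMap R A ((ε : R) ^ (j + 1)) * τ w) := by
  have hmax : ∀ b : A, b ∈ maximalIdeal A → τ b ∈ maximalIdeal A := by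
    intro b hb
    rw [IsLocalRing.mem_maximalIdeal, mem_nonunits_iff] at hb ⊢
    intro h
    apply hb
    have := h.map (τ.symm : A →+* A)
    simpa using this
  have hτπ : τ (algebraMap R A π) = algebraMap R A π * algebraMap R A (ε : R) := by
    rw [hτ, hπ, map_mul]
  refine ⟨?_, hmax _ T.x_mem, hmax _ T.y_mem, ?_⟩
  · intro b hb
    -- b = τ (τ⁻¹ b), τ⁻¹ b ∈ 𝔪 ≤ span{π, x, y}
    have hb' : τ.symm b ∈ maximalIdeal A := by
      rw [IsLocalRing.mem_maximalIdeal, mem_nonunits_iff] at hb ⊢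
      intro h
      apply hb
      have := h.map (τ : A →+* A)
      simpa using this
    obtain ⟨a, z, hz, hbz⟩ := Ideal.mem_span_insert.mp (T.gen hb')
    obtain ⟨c, z', hz', rfl⟩ := Ideal.mem_span_insert.mp hz
    obtain ⟨d, rfl⟩ := Ideal.mem_span_singleton'.mp hz'
    have : b = τ (a * algebraMap R A π + (c * x + d * y)) := by
      rw [← hbz, RingEquiv.apply_symm_apply]
    rw [this, map_add, map_add, map_mul, map_mul, map_mul, hτπ]
    refine Ideal.add_mem _ ?_ (Ideal.add_mem _ ?_ ?_)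
    · have : τ a * (algebraMap R A π * algebraMap R A (ε : R))
          = (τ a * algebraMap R A (ε : R)) * algebraMap R A π := by ring
      rw [this]
      exact Ideal.mul_mem_left _ _ (Ideal.subset_span (by simp))
    · exact Ideal.mul_mem_left _ _ (Ideal.subset_span (by simp))
    · exact Ideal.mul_mem_left _ _ (Ideal.subset_span (by simp))
  · rw [← map_mul, T.mul, map_mul, map_pow, hτπ, mul_pow, map_pow]
    ring

variable [IsDomain R]

omit [IsLocalRing A] [IsDomain R] in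
/-- divisibility by powers of `π` is `τR`-invariant -/
theorem pow_dvd_map_iff (τR : R ≃+* R) (π : R) (ε : Rˣ) (hπ : τR π = π * ε) (k : ℕ) (r : R) :
    π ^ k ∣ τR r ↔ π ^ k ∣ r := by
  have hsymm : τR.symm π = π * τR.symm ((ε⁻¹ : Rˣ) : R) := by
    rw [RingEquiv.symm_apply_eq, map_mul, hπ, RingEquiv.apply_symm_apply, mul_assoc,
      Units.mul_inv, mul_one]
  constructor
  · rintro ⟨c, hc⟩
    refine ⟨τR.symm ((ε⁻¹ : Rˣ) : R) ^ k * τR.symm c, ?_⟩
    have : r = τR.symm (π ^ k * c) := by rw [← hc, RingEquiv.symm_apply_apply]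
    rw [this, map_mul, map_pow, hsymm, mul_pow]
    ring
  · rintro ⟨c, hc⟩
    refine ⟨(ε : R) ^ k * τR c, ?_⟩
    rw [hc, map_mul, map_pow, hπ, mul_pow]
    ring

omit [IsDomain R] in
/-- goodness is transported by `τ` -/
theorem Good.conj (τR : R ≃+* R) (τ : A ≃+* A)
    (hτ : ∀ r : R, τ (algebraMap R A r) = algebraMap R A (τR r))
    (π : R) (ε : Rˣ) (hπ : τR π = π * ε) {ev : A →ₐ[R] R} (h : Good π ev) :
    Good π (conj τR τ hτ ev) := by
  obtain ⟨j, x, y, w, T, hxy⟩ := h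
  refine ⟨j, τ x, τ y, _, IsTriple.map τR τ hτ π ε hπ T, ?_⟩
  rw [conj_apply_map, conj_apply_map, pow_dvd_map_iff τR π ε hπ, pow_dvd_map_iff τR π ε hπ]
  exact hxy

omit [IsLocalRing A] [IsDomain R] in
theorem conj_conj_symm (τR : R ≃+* R) (τ : A ≃+* A)
    (hτ : ∀ r : R, τ (algebraMap R A r) = algebraMap R A (τR r))
    (hτ' : ∀ r : R, τ.symm (algebraMap R A r) = algebraMap R A (τR.symm r)) (ev : A →ₐ[R] R) :
    conj τR.symm τ.symm hτ' (conj τR τ hτ ev) = ev := by
  apply AlgHom.ext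
  intro b
  rw [conj_apply, conj_apply]
  simp

/-- **A non-good section is `τ`-fixed.** -/
theorem conj_eq_of_not_good [IsNoetherianRing A] (τR : R ≃+* R) (τ : A ≃+* A)
    (hτ : ∀ r : R, τ (algebraMap R A r) = algebraMap R A (τR r))
    (π : R) (ε : Rˣ) (hπτ : τR π = π * ε)
    (hπ0 : π ≠ 0) (hπnu : ¬ IsUnit π)
    (hkrull : ∀ r : R, (∀ j : ℕ, π ^ (j + 1) ∣ r) → r = 0)
    (hπ : algebraMap R A π ∈ maximalIdeal A)
    (ev : A →ₐ[R] R) (hloc : ∀ b ∈ maximalIdeal A, ∃ r : R, ev b = π * r)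
    (x₀ y₀ w₀ : A) (T₀ : IsTriple π 0 x₀ y₀ w₀) (hng : ¬ Good π ev) :
    conj τR τ hτ ev = ev := by
  have hτ' : ∀ r : R, τ.symm (algebraMap R A r) = algebraMap R A (τR.symm r) := by
    intro r
    rw [RingEquiv.symm_apply_eq, hτ, RingEquiv.apply_symm_apply]
  have hsymmπ : τR.symm π = π * ((⟨τR.symm ((ε⁻¹ : Rˣ) : R), τR.symm (ε : R), by
      rw [← map_mul, Units.inv_mul, map_one], by rw [← map_mul, Units.mul_inv, map_one]⟩ : Rˣ) : R) := by
    show τR.symm π = π * τR.symm ((ε⁻¹ : Rˣ) : R)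
    rw [RingEquiv.symm_apply_eq, map_mul, hπτ, RingEquiv.apply_symm_apply, mul_assoc,
      Units.mul_inv, mul_one]
  have hng' : ¬ Good π (conj τR τ hτ ev) := by
    intro h
    apply hng
    have := Good.conj τR.symm τ.symm hτ' π _ hsymmπ h
    rwa [conj_conj_symm τR τ hτ hτ' ev] at this
  have hloc' : ∀ b ∈ maximalIdeal A, ∃ r : R, conj τR τ hτ ev b = π * r := by
    intro b hb
    have hb' : τ.symm b ∈ maximalIdeal A := by
      rw [IsLocalRing.mem_maximalIdeal, mem_nonunits_iff] at hb ⊢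
      intro h
      apply hb
      have := h.map (τ : A →+* A)
      simpa using this
    obtain ⟨r, hr⟩ := hloc _ hb'
    refine ⟨(ε : R) * τR r, ?_⟩
    rw [conj_apply, hr, map_mul, hπτ]
    ring
  exact eq_of_not_good π hπ0 hπnu hkrull hπ (conj τR τ hτ ev) ev hloc' hloc x₀ y₀ w₀ T₀ hng' hng

end Fermat.Agent.ES.N34.NodeGal11
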