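/-
Program N (S34), node chapter (helper11, DRAFT): Galois transport in CHART form.
A section through the node `𝔪` of a chart `B` which is not `ChartGood` is fixed by every
automorphism `(σR, σ)` of the situation with `σ 𝔪 = 𝔪`, `σR π = π * unit`.
-/
import Mathlib
import Fermat.Agent.ES.N34.NodeGal11
import Fermat.Agent.ES.N34.NodeChart11

set_option autoImplicit false

namespace Fermat.Agent.ES.N34.NodeChartGal11

open NodeGal11 NodeChart11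

variable {R B : Type*} [CommRing R] [IsDomain R] [IsDiscreteValuationRing R]
  [CommRing B] [Algebra R B]

omit [IsDomain R] [IsDiscreteValuationRing R] in
/-- `ChartGood` is transported by `σ`. -/
theorem chartGood_conj (σR : R ≃+* R) (σ : B ≃+* B)
    (hσ : ∀ r : R, σ (algebraMap R B r) = algebraMap R B (σR r))
    (π : R) (ε : Rˣ) (hπσ : σR π = π * ε) (𝔪 : Ideal B) (hσ𝔪 : ∀ b, σ b ∈ 𝔪 ↔ b ∈ 𝔪)
    (ev : B →ₐ[R] R) (h : ChartGood π 𝔪 ev) : ChartGood π 𝔪 (conj σR σ hσ ev) := by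
  obtain ⟨E, x, y, w, d0, hx, hy, hgen, hd0, hmul, hgood⟩ := h
  have hσπ : σ (algebraMap R B π) = algebraMap R B π * algebraMap R B (ε : R) := by
    rw [hσ, hπσ, map_mul]
  refine ⟨E, σ x, σ y, algebraMap R B ((ε : R) ^ E) * σ w, σ d0, (hσ𝔪 x).2 hx, (hσ𝔪 y).2 hy,
    ?_, fun h => hd0 ((hσ𝔪 d0).1 h), ?_, ?_⟩
  · intro b hb
    have hb' : σ.symm b ∈ 𝔪 := by
      rw [← hσ𝔪, RingEquiv.apply_symm_apply]; exact hb
    obtain ⟨d, hd, hdb⟩ := hgen _ hb'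
    refine ⟨σ d, fun h => hd ((hσ𝔪 d).1 h), ?_⟩
    have h1 : σ d * b = σ (d * σ.symm b) := by rw [map_mul, RingEquiv.apply_symm_apply]
    rw [h1]
    have hle : Ideal.span {algebraMap R B π, x, y}
        ≤ (Ideal.span {algebraMap R B π, σ x, σ y}).comap (σ : B →+* B) := by
      rw [Ideal.span_le]
      intro z hz
      simp only [Set.mem_insert_iff, Set.mem_singleton_iff] at hz
      rw [SetLike.mem_coe, Ideal.mem_comap]
      rcases hz with rfl | rfl | rfl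
      · show σ (algebraMap R B π) ∈ _
        rw [hσπ]
        exact Ideal.mul_mem_right _ _ (Ideal.subset_span (by simp))
      · exact Ideal.subset_span (by simp)
      · exact Ideal.subset_span (by simp)
    exact hle hdb
  · rw [← map_mul, ← map_mul, hmul, map_mul, map_pow, hσπ, mul_pow, map_pow]
    ring
  · have key : ∀ z : B, (∃ γ : R, π ^ E = ev z * (π * γ)) →
        ∃ γ : R, π ^ E = conj σR σ hσ ev (σ z) * (π * γ) := by
      rintro z ⟨γ, hγ⟩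
      refine ⟨(ε : R) * σR γ * ((ε⁻¹ : Rˣ) : R) ^ E, ?_⟩
      rw [conj_apply_map]
      have h1 := congrArg σR hγ
      rw [map_pow, map_mul, map_mul, hπσ, mul_pow] at h1
      -- π^E ε^E = σR(ev z) (π ε σR γ)
      have h2 : π ^ E = (π ^ E * (ε : R) ^ E) * ((ε⁻¹ : Rˣ) : R) ^ E := by
        rw [mul_assoc, ← mul_pow, Units.mul_inv, one_pow, mul_one]
      rw [h2, h1]; ring
    rcases hgood with h | h
    · exact Or.inl (key x h)
    · exact Or.inr (key y h)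

/-- **A section which is not `ChartGood` is `σ`-fixed.** -/
theorem conj_eq_of_not_chartGood [IsNoetherianRing B] (σR : R ≃+* R) (σ : B ≃+* B)
    (hσ : ∀ r : R, σ (algebraMap R B r) = algebraMap R B (σR r))
    (π : R) (hπ : Irreducible π) (ε : Rˣ) (hπσ : σR π = π * ε)
    (𝔪 : Ideal B) [h𝔪p : 𝔪.IsPrime] (hσ𝔪 : ∀ b, σ b ∈ 𝔪 ↔ b ∈ 𝔪)
    (ev : B →ₐ[R] R) (h𝔪 : ∀ b, b ∈ 𝔪 ↔ π ∣ ev b)
    (x₀ y₀ w₀ d₀ : B) (hx₀ : x₀ ∈ 𝔪) (hy₀ : y₀ ∈ 𝔪)
    (hgen₀ : ∀ b ∈ 𝔪, ∃ d, d ∉ 𝔪 ∧ d * b ∈ Ideal.span {algebraMap R B π, x₀, y₀})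
    (hd₀ : d₀ ∉ 𝔪) (hmul₀ : d₀ * (x₀ * y₀) = algebraMap R B π * w₀)
    (hng : ¬ ChartGood π 𝔪 ev) : conj σR σ hσ ev = ev := by
  have hσ' : ∀ r : R, σ.symm (algebraMap R B r) = algebraMap R B (σR.symm r) := by
    intro r
    rw [RingEquiv.symm_apply_eq, hσ, RingEquiv.apply_symm_apply]
  have hσ𝔪' : ∀ b, σ.symm b ∈ 𝔪 ↔ b ∈ 𝔪 := by
    intro b
    rw [← hσ𝔪 (σ.symm b), RingEquiv.apply_symm_apply]
  set ε' : Rˣ := ⟨σR.symm ((ε⁻¹ : Rˣ) : R), σR.symm (ε : R), by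
      rw [← map_mul, Units.inv_mul, map_one], by rw [← map_mul, Units.mul_inv, map_one]⟩ with hε'
  have hsymmπ : σR.symm π = π * (ε' : R) := by
    show σR.symm π = π * σR.symm ((ε⁻¹ : Rˣ) : R)
    rw [RingEquiv.symm_apply_eq, map_mul, hπσ, RingEquiv.apply_symm_apply, mul_assoc,
      Units.mul_inv, mul_one]
  have hng' : ¬ ChartGood π 𝔪 (conj σR σ hσ ev) := by
    intro h
    apply hng
    have := chartGood_conj σR.symm σ.symm hσ' π ε' hsymmπ 𝔪 hσ𝔪' _ h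
    rwa [conj_conj_symm σR σ hσ hσ' ev] at this
  have h𝔪' : ∀ b, b ∈ 𝔪 ↔ π ∣ conj σR σ hσ ev b := by
    intro b
    rw [conj_apply, ← pow_one π, pow_dvd_map_iff σR π ε hπσ 1, pow_one, ← h𝔪, hσ𝔪']
  exact eq_of_not_chartGood π hπ 𝔪 (conj σR σ hσ ev) ev h𝔪' h𝔪 x₀ y₀ w₀ d₀ hx₀ hy₀ hgen₀ hd₀ hmul₀
    hng' hng

end Fermat.Agent.ES.N34.NodeChartGal11
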