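/-
Program N (S34), MODEL, brick S6 (helper29): (M3) "a closed point on BOTH components is an ordinary
node", CHART FORM (no localisation type): from the two Kronecker congruences and the local
generators of the two branches to the literal `NodeCoords π B 𝔪` of N_PLAN27.

* `exists_half`, `exists_coords` : pure commutative algebra in a commutative ring `B` with a prime
  `𝔪` and two ideals `P1 P2 ≤ 𝔪` (the vertical primes `𝔭_j = B ∩ π O_j`) with `P1 ∩ P2 ⊆ π B`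
  (reduced special fibre).  Input: `s ∈ 𝔪` generating `𝔪` modulo `P1` up to denominators
  `d ∉ 𝔪` (a local uniformiser of the branch `B / 𝔭_1`) which is a `q`-th power modulo `P2`
  (`s - c ^ q ∈ P2`; Kronecker: functions of level `M'` are `q`-th powers along the other
  component), and the mirror datum `s', c'`; `2 ≤ q`.  Output: `x ∈ P2`, `y ∈ P1` with
  `x y ∈ π B` and `∀ f ∈ 𝔪, ∃ d ∉ 𝔪, d f ∈ (π, x, y)`.
  This is the chart form (with denominators) of helper25's `NodeFibre25.exists_node_coords`.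
* `vert` : the ideal `𝔭 = B ∩ π O` of a chart `B ⊆ O`.
* `nodeCoords_of_kron` : the `F`-level statement in helper13's vocabulary (`B : Subalgebra R F`,
  `O1 O2 : ValuationSubring F`, saturation), conclusion = the literal `NodeCoords π B 𝔪`.
* `nodeCoords_of_kron_offBranch` : same with the hypotheses `¬ OffBranch π B O_j 𝔪`.
-/
import Mathlib
import Fermat.Agent.ES.N34.NodalCore13

set_option autoImplicit false

namespace Fermat.Agent.ES.N34.NodeCoords29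

open Fermat.Agent.ES.N34.NodalCore13

section Pure

variable {B : Type*} [CommRing B]

/-- **One half of (M3), chart form.**  `x := d ^ q * s - (a * s') ^ q ∈ P2` and
`w * x ≡ v * s mod P1` with `v, w ∉ 𝔪`. -/
theorem exists_half (𝔪 P1 P2 : Ideal B) [h𝔪 : 𝔪.IsPrime] (hP1 : P1 ≤ 𝔪) (hP2 : P2 ≤ 𝔪)
    (q : ℕ) (hq : 2 ≤ q) (s s' c c' : B) (hs : s ∈ 𝔪) (hs' : s' ∈ 𝔪)
    (hsc : s - c ^ q ∈ P2) (hs'c' : s' - c' ^ q ∈ P1)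
    (hgen1 : ∀ f ∈ 𝔪, ∃ d : B, d ∉ 𝔪 ∧ ∃ b : B, d * f - b * s ∈ P1)
    (hgen2 : ∀ f ∈ 𝔪, ∃ d : B, d ∉ 𝔪 ∧ ∃ b : B, d * f - b * s' ∈ P2) :
    ∃ x : B, x ∈ P2 ∧ ∃ v w : B, v ∉ 𝔪 ∧ w ∉ 𝔪 ∧ w * x - v * s ∈ P1 := by
  -- `c, c' ∈ 𝔪`
  have hc : c ∈ 𝔪 := by
    apply h𝔪.mem_of_pow_mem q
    have : c ^ q = s - (s - c ^ q) := by ring
    rw [this]
    exact Ideal.sub_mem _ hs (hP2 hsc)
  have hc' : c' ∈ 𝔪 := by
    apply h𝔪.mem_of_pow_mem q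
    have : c' ^ q = s' - (s' - c' ^ q) := by ring
    rw [this]
    exact Ideal.sub_mem _ hs' (hP1 hs'c')
  obtain ⟨d, hd, a, ha⟩ := hgen2 c hc
  obtain ⟨d', hd', a', ha'⟩ := hgen1 c' hc'
  have hpow2 : (d * c) ^ q - (a * s') ^ q ∈ P2 := by
    obtain ⟨k, hk⟩ := sub_dvd_pow_sub_pow (d * c) (a * s') q
    rw [hk]
    exact Ideal.mul_mem_right _ _ ha
  have hpow1 : (d' * c') ^ q - (a' * s) ^ q ∈ P1 := by
    obtain ⟨k, hk⟩ := sub_dvd_pow_sub_pow (d' * c') (a' * s) q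
    rw [hk]
    exact Ideal.mul_mem_right _ _ ha'
  obtain ⟨q', rfl⟩ : ∃ q', q = q' + 2 := ⟨q - 2, by omega⟩
  have h1 : d' ^ (q' + 2) * s' - (a' * s) ^ (q' + 2) ∈ P1 := by
    have : d' ^ (q' + 2) * s' - (a' * s) ^ (q' + 2)
        = d' ^ (q' + 2) * (s' - c' ^ (q' + 2)) + ((d' * c') ^ (q' + 2) - (a' * s) ^ (q' + 2)) := by
      ring
    rw [this]
    exact Ideal.add_mem _ (Ideal.mul_mem_left _ _ hs'c') hpow1
  refine ⟨d ^ (q' + 2) * s - (a * s') ^ (q' + 2), ?_,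
    (d * d') ^ (q' + 2) - a ^ (q' + 2) * s' ^ (q' + 1) * a' ^ (q' + 2) * s ^ (q' + 1),
    d' ^ (q' + 2), ?_, ?_, ?_⟩
  · have : d ^ (q' + 2) * s - (a * s') ^ (q' + 2)
        = d ^ (q' + 2) * (s - c ^ (q' + 2)) + ((d * c) ^ (q' + 2) - (a * s') ^ (q' + 2)) := by
      ring
    rw [this]
    exact Ideal.add_mem _ (Ideal.mul_mem_left _ _ hsc) hpow2
  · intro hv
    have hmem : a ^ (q' + 2) * s' ^ (q' + 1) * a' ^ (q' + 2) * s ^ (q' + 1) ∈ 𝔪 := by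
      have : a ^ (q' + 2) * s' ^ (q' + 1) * a' ^ (q' + 2) * s ^ (q' + 1)
          = (a ^ (q' + 2) * s' ^ (q' + 1) * a' ^ (q' + 2) * s ^ q') * s := by ring
      rw [this]
      exact Ideal.mul_mem_left _ _ hs
    have hdd : (d * d') ^ (q' + 2) ∈ 𝔪 := by
      have := Ideal.add_mem _ hv hmem
      rwa [sub_add_cancel] at this
    exact (h𝔪.mem_or_mem (h𝔪.mem_of_pow_mem _ hdd)).elim hd hd'
  · exact fun hw => hd' (h𝔪.mem_of_pow_mem _ hw)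
  · have : d' ^ (q' + 2) * (d ^ (q' + 2) * s - (a * s') ^ (q' + 2))
          - ((d * d') ^ (q' + 2) - a ^ (q' + 2) * s' ^ (q' + 1) * a' ^ (q' + 2) * s ^ (q' + 1)) * s
        = -(a ^ (q' + 2) * s' ^ (q' + 1)) * (d' ^ (q' + 2) * s' - (a' * s) ^ (q' + 2)) := by ring
    rw [this]
    exact Ideal.mul_mem_left _ _ h1

/-- **(M3), chart form, pure algebra.**  Coordinates `x ∈ P2`, `y ∈ P1` at a crossing point. -/
theorem exists_coords (π : B) (𝔪 P1 P2 : Ideal B) [h𝔪 : 𝔪.IsPrime] (hP1 : P1 ≤ 𝔪) (hP2 : P2 ≤ 𝔪)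
    (hcap : ∀ f, f ∈ P1 → f ∈ P2 → ∃ e, f = π * e)
    (q : ℕ) (hq : 2 ≤ q) (s s' c c' : B) (hs : s ∈ 𝔪) (hs' : s' ∈ 𝔪)
    (hsc : s - c ^ q ∈ P2) (hs'c' : s' - c' ^ q ∈ P1)
    (hgen1 : ∀ f ∈ 𝔪, ∃ d : B, d ∉ 𝔪 ∧ ∃ b : B, d * f - b * s ∈ P1)
    (hgen2 : ∀ f ∈ 𝔪, ∃ d : B, d ∉ 𝔪 ∧ ∃ b : B, d * f - b * s' ∈ P2) :
    ∃ x y : B, x ∈ P2 ∧ y ∈ P1 ∧ (∃ e : B, x * y = π * e) ∧
      ∀ f ∈ 𝔪, ∃ d : B, d ∉ 𝔪 ∧ ∃ a b e : B, d * f = a * x + b * y + π * e := by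
  obtain ⟨x, hx2, v, w, hv, hw, hxv⟩ :=
    exists_half 𝔪 P1 P2 hP1 hP2 q hq s s' c c' hs hs' hsc hs'c' hgen1 hgen2
  obtain ⟨y, hy1, v', w', hv', hw', hyv⟩ :=
    exists_half 𝔪 P2 P1 hP2 hP1 q hq s' s c' c hs' hs hs'c' hsc hgen2 hgen1
  refine ⟨x, y, hx2, hy1, hcap _ (Ideal.mul_mem_left _ _ hy1) (Ideal.mul_mem_right _ _ hx2), ?_⟩
  intro f hf
  obtain ⟨δ, hδ, b, hb⟩ := hgen1 f hf
  -- `r1 := v δ f - b w x ∈ P1 ∩ 𝔪`
  have hr1 : v * δ * f - b * w * x ∈ P1 := by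
    have : v * δ * f - b * w * x = v * (δ * f - b * s) - b * (w * x - v * s) := by ring
    rw [this]
    exact Ideal.sub_mem _ (Ideal.mul_mem_left _ _ hb) (Ideal.mul_mem_left _ _ hxv)
  have hr1m : v * δ * f - b * w * x ∈ 𝔪 :=
    Ideal.sub_mem _ (Ideal.mul_mem_left _ _ hf) (Ideal.mul_mem_left _ _ (hP2 hx2))
  obtain ⟨δ', hδ', b', hb'⟩ := hgen2 _ hr1m
  have hr2 : v' * δ' * (v * δ * f - b * w * x) - b' * w' * y ∈ P2 := by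
    have : v' * δ' * (v * δ * f - b * w * x) - b' * w' * y
        = v' * (δ' * (v * δ * f - b * w * x) - b' * s') - b' * (w' * y - v' * s') := by ring
    rw [this]
    exact Ideal.sub_mem _ (Ideal.mul_mem_left _ _ hb') (Ideal.mul_mem_left _ _ hyv)
  have hr2' : v' * δ' * (v * δ * f - b * w * x) - b' * w' * y ∈ P1 :=
    Ideal.sub_mem _ (Ideal.mul_mem_left _ _ hr1) (Ideal.mul_mem_left _ _ hy1)
  obtain ⟨e, he⟩ := hcap _ hr2' hr2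
  refine ⟨v' * δ' * (v * δ), ?_, v' * δ' * (b * w), b' * w', e, ?_⟩
  · intro h
    rcases h𝔪.mem_or_mem h with h1 | h2
    · exact (h𝔪.mem_or_mem h1).elim hv' hδ'
    · exact (h𝔪.mem_or_mem h2).elim hv hδ
  · rw [← he]; ring

end Pure

section Chart

variable {R F : Type*} [CommRing R] [Field F] [Algebra R F]

/-- The vertical ideal `𝔭 = B ∩ π O` of a chart `B ⊆ O`. -/
def vert (π : R) (B : Subalgebra R F) (O : ValuationSubring F) (leO : ∀ x ∈ B, x ∈ O) :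
    Ideal B where
  carrier := {b | ∃ c ∈ O, (b : F) = algebraMap R F π * c}
  zero_mem' := ⟨0, O.zero_mem, by simp⟩
  add_mem' := by
    rintro a b ⟨c, hc, hac⟩ ⟨c', hc', hbc⟩
    exact ⟨c + c', O.add_mem _ _ hc hc', by push_cast; rw [hac, hbc]; ring⟩
  smul_mem' := by
    rintro a b ⟨c, hc, hbc⟩
    exact ⟨(a : F) * c, O.mul_mem _ _ (leO _ a.2) hc, by
      show ((a * b : B) : F) = _
      push_cast; rw [hbc]; ring⟩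

theorem mem_vert (π : R) (B : Subalgebra R F) (O : ValuationSubring F) (leO : ∀ x ∈ B, x ∈ O)
    (b : B) : b ∈ vert π B O leO ↔ ∃ c ∈ O, (b : F) = algebraMap R F π * c := Iff.rfl

/-- Saturation: `𝔭_1 ∩ 𝔭_2 = π B`. -/
theorem vert_inf (π : R) (B : Subalgebra R F) (O1 O2 : ValuationSubring F)
    (leO1 : ∀ x ∈ B, x ∈ O1) (leO2 : ∀ x ∈ B, x ∈ O2)
    (sat : ∀ b ∈ B, ∀ c : F, c ∈ O1 → c ∈ O2 → b = algebraMap R F π * c → c ∈ B)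
    (pi_ne : algebraMap R F π ≠ 0) (f : B)
    (h1 : f ∈ vert π B O1 leO1) (h2 : f ∈ vert π B O2 leO2) :
    ∃ e : B, f = algebraMap R B π * e := by
  obtain ⟨c1, hc1, hf1⟩ := h1
  obtain ⟨c2, hc2, hf2⟩ := h2
  have hcc : c1 = c2 := mul_left_cancel₀ pi_ne (hf1.symm.trans hf2)
  have hcB : c1 ∈ B := sat (f : F) f.2 c1 hc1 (hcc ▸ hc2) hf1
  exact ⟨⟨c1, hcB⟩, Subtype.ext hf1⟩

/-- **(M3) in helper13's vocabulary.**  `𝔪` a prime of the saturated chart `B` lying on both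
components (`hon1`, `hon2`); `s, c` with `s ∈ 𝔪`, `s - c ^ q ∈ π O2`, `s` a local generator of `𝔪`
modulo `π O1`; mirror datum `s', c'`.  Conclusion: the literal `NodeCoords π B 𝔪` of N_PLAN27,
with moreover `x ∈ π O2`, `y ∈ π O1` and `x * y ∈ π B` (no denominator). -/
theorem nodeCoords_strong (π : R) (B : Subalgebra R F) (O1 O2 : ValuationSubring F)
    (leO1 : ∀ x ∈ B, x ∈ O1) (leO2 : ∀ x ∈ B, x ∈ O2)
    (sat : ∀ b ∈ B, ∀ c : F, c ∈ O1 → c ∈ O2 → b = algebraMap R F π * c → c ∈ B)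
    (pi_ne : algebraMap R F π ≠ 0)
    (𝔪 : Ideal B) [h𝔪 : 𝔪.IsPrime]
    (hon1 : ∀ b : B, (∃ c ∈ O1, (b : F) = algebraMap R F π * c) → b ∈ 𝔪)
    (hon2 : ∀ b : B, (∃ c ∈ O2, (b : F) = algebraMap R F π * c) → b ∈ 𝔪)
    (q : ℕ) (hq : 2 ≤ q) (s c s' c' : B) (hs : s ∈ 𝔪) (hs' : s' ∈ 𝔪)
    (hsc : ∃ o ∈ O2, (s : F) - (c : F) ^ q = algebraMap R F π * o)
    (hs'c' : ∃ o ∈ O1, (s' : F) - (c' : F) ^ q = algebraMap R F π * o)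
    (hgen1 : ∀ f ∈ 𝔪, ∃ d : B, d ∉ 𝔪 ∧ ∃ b : B, ∃ o ∈ O1,
      (d : F) * (f : F) - (b : F) * (s : F) = algebraMap R F π * o)
    (hgen2 : ∀ f ∈ 𝔪, ∃ d : B, d ∉ 𝔪 ∧ ∃ b : B, ∃ o ∈ O2,
      (d : F) * (f : F) - (b : F) * (s' : F) = algebraMap R F π * o) :
    ∃ x y : B, (∃ o ∈ O2, (x : F) = algebraMap R F π * o) ∧
      (∃ o ∈ O1, (y : F) = algebraMap R F π * o) ∧
      (∃ e : B, x * y = algebraMap R B π * e) ∧
      ∀ f ∈ 𝔪, ∃ d : B, d ∉ 𝔪 ∧ ∃ a b e : B, d * f = a * x + b * y + algebraMap R B π * e := by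
  have hP1 : vert π B O1 leO1 ≤ 𝔪 := fun b hb => hon1 b hb
  have hP2 : vert π B O2 leO2 ≤ 𝔪 := fun b hb => hon2 b hb
  have hsc' : s - c ^ q ∈ vert π B O2 leO2 := by
    obtain ⟨o, ho, h⟩ := hsc
    exact ⟨o, ho, by push_cast; exact h⟩
  have hs'c'' : s' - c' ^ q ∈ vert π B O1 leO1 := by
    obtain ⟨o, ho, h⟩ := hs'c'
    exact ⟨o, ho, by push_cast; exact h⟩
  have hg1 : ∀ f ∈ 𝔪, ∃ d : B, d ∉ 𝔪 ∧ ∃ b : B, d * f - b * s ∈ vert π B O1 leO1 := by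
    intro f hf
    obtain ⟨d, hd, b, o, ho, h⟩ := hgen1 f hf
    exact ⟨d, hd, b, o, ho, by push_cast; exact h⟩
  have hg2 : ∀ f ∈ 𝔪, ∃ d : B, d ∉ 𝔪 ∧ ∃ b : B, d * f - b * s' ∈ vert π B O2 leO2 := by
    intro f hf
    obtain ⟨d, hd, b, o, ho, h⟩ := hgen2 f hf
    exact ⟨d, hd, b, o, ho, by push_cast; exact h⟩
  obtain ⟨x, y, hx, hy, hxy, hspan⟩ :=
    exists_coords (algebraMap R B π) 𝔪 (vert π B O1 leO1) (vert π B O2 leO2) hP1 hP2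
      (vert_inf π B O1 O2 leO1 leO2 sat pi_ne) q hq s s' c c' hs hs' hsc' hs'c'' hg1 hg2
  exact ⟨x, y, hx, hy, hxy, hspan⟩

/-- **(M3): the literal `NodeCoords π B 𝔪` of N_PLAN27.** -/
theorem nodeCoords_of_kron (π : R) (B : Subalgebra R F) (O1 O2 : ValuationSubring F)
    (leO1 : ∀ x ∈ B, x ∈ O1) (leO2 : ∀ x ∈ B, x ∈ O2)
    (sat : ∀ b ∈ B, ∀ c : F, c ∈ O1 → c ∈ O2 → b = algebraMap R F π * c → c ∈ B)
    (pi_ne : algebraMap R F π ≠ 0)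
    (𝔪 : Ideal B) [h𝔪 : 𝔪.IsPrime]
    (hon1 : ∀ b : B, (∃ c ∈ O1, (b : F) = algebraMap R F π * c) → b ∈ 𝔪)
    (hon2 : ∀ b : B, (∃ c ∈ O2, (b : F) = algebraMap R F π * c) → b ∈ 𝔪)
    (q : ℕ) (hq : 2 ≤ q) (s c s' c' : B) (hs : s ∈ 𝔪) (hs' : s' ∈ 𝔪)
    (hsc : ∃ o ∈ O2, (s : F) - (c : F) ^ q = algebraMap R F π * o)
    (hs'c' : ∃ o ∈ O1, (s' : F) - (c' : F) ^ q = algebraMap R F π * o)
    (hgen1 : ∀ f ∈ 𝔪, ∃ d : B, d ∉ 𝔪 ∧ ∃ b : B, ∃ o ∈ O1,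
      (d : F) * (f : F) - (b : F) * (s : F) = algebraMap R F π * o)
    (hgen2 : ∀ f ∈ 𝔪, ∃ d : B, d ∉ 𝔪 ∧ ∃ b : B, ∃ o ∈ O2,
      (d : F) * (f : F) - (b : F) * (s' : F) = algebraMap R F π * o) :
    ∃ x y : B, x ∈ 𝔪 ∧ y ∈ 𝔪 ∧
      (∃ d : B, d ∉ 𝔪 ∧ ∃ e : B, d * (x * y) = algebraMap R B π * e) ∧
      ∀ b ∈ 𝔪, ∃ d : B, d ∉ 𝔪 ∧ d * b ∈ Ideal.span {algebraMap R B π, x, y} := by
  obtain ⟨x, y, hx, hy, ⟨e, hxy⟩, hspan⟩ :=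
    nodeCoords_strong π B O1 O2 leO1 leO2 sat pi_ne 𝔪 hon1 hon2 q hq s c s' c' hs hs' hsc hs'c'
      hgen1 hgen2
  refine ⟨x, y, hon2 x hx, hon1 y hy, ⟨1, ?_, e, by rw [one_mul, hxy]⟩, ?_⟩
  · exact fun h1 => h𝔪.ne_top ((Ideal.eq_top_iff_one 𝔪).mpr h1)
  · intro b hb
    obtain ⟨d, hd, a, b', e', h⟩ := hspan b hb
    refine ⟨d, hd, ?_⟩
    rw [h]
    have hπ : algebraMap R B π ∈ Ideal.span {algebraMap R B π, x, y} :=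
      Ideal.subset_span (by simp)
    have hxm : x ∈ Ideal.span {algebraMap R B π, x, y} := Ideal.subset_span (by simp)
    have hym : y ∈ Ideal.span {algebraMap R B π, x, y} := Ideal.subset_span (by simp)
    exact Ideal.add_mem _ (Ideal.add_mem _ (Ideal.mul_mem_left _ _ hxm)
      (Ideal.mul_mem_left _ _ hym)) (Ideal.mul_mem_right _ _ hπ)

/-- Same with the hypotheses in the form `¬ OffBranch π B O_j 𝔪` of `NodalCL13.cl_nodal`. -/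
theorem nodeCoords_of_kron_offBranch (π : R) (B : Subalgebra R F) (O1 O2 : ValuationSubring F)
    (leO1 : ∀ x ∈ B, x ∈ O1) (leO2 : ∀ x ∈ B, x ∈ O2)
    (sat : ∀ b ∈ B, ∀ c : F, c ∈ O1 → c ∈ O2 → b = algebraMap R F π * c → c ∈ B)
    (pi_ne : algebraMap R F π ≠ 0)
    (𝔪 : Ideal B) [h𝔪 : 𝔪.IsPrime]
    (h1 : ¬ OffBranch π B O1 𝔪) (h2 : ¬ OffBranch π B O2 𝔪)
    (q : ℕ) (hq : 2 ≤ q) (s c s' c' : B) (hs : s ∈ 𝔪) (hs' : s' ∈ 𝔪)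
    (hsc : ∃ o ∈ O2, (s : F) - (c : F) ^ q = algebraMap R F π * o)
    (hs'c' : ∃ o ∈ O1, (s' : F) - (c' : F) ^ q = algebraMap R F π * o)
    (hgen1 : ∀ f ∈ 𝔪, ∃ d : B, d ∉ 𝔪 ∧ ∃ b : B, ∃ o ∈ O1,
      (d : F) * (f : F) - (b : F) * (s : F) = algebraMap R F π * o)
    (hgen2 : ∀ f ∈ 𝔪, ∃ d : B, d ∉ 𝔪 ∧ ∃ b : B, ∃ o ∈ O2,
      (d : F) * (f : F) - (b : F) * (s' : F) = algebraMap R F π * o) :
    ∃ x y : B, x ∈ 𝔪 ∧ y ∈ 𝔪 ∧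
      (∃ d : B, d ∉ 𝔪 ∧ ∃ e : B, d * (x * y) = algebraMap R B π * e) ∧
      ∀ b ∈ 𝔪, ∃ d : B, d ∉ 𝔪 ∧ d * b ∈ Ideal.span {algebraMap R B π, x, y} := by
  have hon1 : ∀ b : B, (∃ c ∈ O1, (b : F) = algebraMap R F π * c) → b ∈ 𝔪 := by
    intro b hb
    by_contra hb𝔪
    exact h1 ⟨b, hb𝔪, hb⟩
  have hon2 : ∀ b : B, (∃ c ∈ O2, (b : F) = algebraMap R F π * c) → b ∈ 𝔪 := by
    intro b hb
    by_contra hb𝔪
    exact h2 ⟨b, hb𝔪, hb⟩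
  exact nodeCoords_of_kron π B O1 O2 leO1 leO2 sat pi_ne 𝔪 hon1 hon2 q hq s c s' c' hs hs' hsc
    hs'c' hgen1 hgen2

end Chart

end Fermat.Agent.ES.N34.NodeCoords29
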