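/-
Program N (S34), MODEL, brick S6 (helper29), ASSEMBLY half: (M3) from the two copies of level `M'`.

`B⁰` (a type: the level-`M'` chart of Program H) with two ring homomorphisms `α β : B⁰ →+* F`
(`α` = inclusion of level `M'` into level `N' = M' q`, `β = V_q : 𝐪 ↦ 𝐪^q`) landing in the
level-`N'` chart `B`.  Inputs, in the literal shapes of helper16's (C-prin) (`CompN16`) and of the
chart form of helper14's Kronecker congruences (K) (`KronN14.kron_gauss` through the expansion at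
`∞` resp. through `T_S`):

* `(Cα)` at `𝔪`: `∃ s⁰, α s⁰ ∈ 𝔪 ∧ ∀ y ∈ 𝔪, ∃ d ∉ 𝔪, ∃ b : B, ∃ c ∈ O1, d y − b α(s⁰) = π c`;
* `(Cβ)` at `𝔪`: the mirror statement with `β`, `O2`;
* `(Kα)`: `∀ b⁰, ∃ c⁰, ∃ o ∈ O2, α b⁰ − (β c⁰)^q = π o`   (`c⁰ = φ⁻¹ b⁰`);
* `(Kβ)`: `∀ b⁰, ∃ c⁰, ∃ o ∈ O1, β b⁰ − (α c⁰)^q = π o`.

Output: the literal `NodeCoords π B 𝔪` (`NumData13.NodeCoords`, stated unfolded) at every prime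
`𝔪` of `B` lying on both branches.  Pure wiring of `NodeCoords29.nodeCoords_of_kron_offBranch`.
-/
import Mathlib
import Fermat.Agent.ES.N34.NodeCoords29

set_option autoImplicit false

namespace Fermat.Agent.ES.N34.NodeCoordsAsm29

open Fermat.Agent.ES.N34.NodalCore13 Fermat.Agent.ES.N34.NodeCoords29

variable {R F : Type*} [CommRing R] [Field F] [Algebra R F]

/-- **(M3) at one point from (C) and (K).** -/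
theorem nodeCoords_of_two_levels {B0 : Type*} [CommRing B0]
    (π : R) (B : Subalgebra R F) (O1 O2 : ValuationSubring F)
    (leO1 : ∀ x ∈ B, x ∈ O1) (leO2 : ∀ x ∈ B, x ∈ O2)
    (sat : ∀ b ∈ B, ∀ c : F, c ∈ O1 → c ∈ O2 → b = algebraMap R F π * c → c ∈ B)
    (pi_ne : algebraMap R F π ≠ 0)
    (α β : B0 →+* F) (hαB : ∀ b, α b ∈ B) (hβB : ∀ b, β b ∈ B)
    (q : ℕ) (hq : 2 ≤ q)
    (hKα : ∀ b : B0, ∃ c : B0, ∃ o ∈ O2, α b - (β c) ^ q = algebraMap R F π * o)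
    (hKβ : ∀ b : B0, ∃ c : B0, ∃ o ∈ O1, β b - (α c) ^ q = algebraMap R F π * o)
    (𝔪 : Ideal B) [h𝔪 : 𝔪.IsPrime]
    (h1 : ¬ OffBranch π B O1 𝔪) (h2 : ¬ OffBranch π B O2 𝔪)
    (hCα : ∃ s0 : B0, (⟨α s0, hαB s0⟩ : B) ∈ 𝔪 ∧ ∀ y ∈ 𝔪, ∃ d : B, d ∉ 𝔪 ∧ ∃ b : B, ∃ c ∈ O1,
      (d : F) * (y : F) - (b : F) * α s0 = algebraMap R F π * c)
    (hCβ : ∃ s0 : B0, (⟨β s0, hβB s0⟩ : B) ∈ 𝔪 ∧ ∀ y ∈ 𝔪, ∃ d : B, d ∉ 𝔪 ∧ ∃ b : B, ∃ c ∈ O2,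
      (d : F) * (y : F) - (b : F) * β s0 = algebraMap R F π * c) :
    ∃ x y : B, x ∈ 𝔪 ∧ y ∈ 𝔪 ∧
      (∃ d : B, d ∉ 𝔪 ∧ ∃ e : B, d * (x * y) = algebraMap R B π * e) ∧
      ∀ b ∈ 𝔪, ∃ d : B, d ∉ 𝔪 ∧ d * b ∈ Ideal.span {algebraMap R B π, x, y} := by
  obtain ⟨s0, hs, hgen1⟩ := hCα
  obtain ⟨s0', hs', hgen2⟩ := hCβ
  obtain ⟨c0, o, ho, hsc⟩ := hKα s0
  obtain ⟨c0', o', ho', hs'c'⟩ := hKβ s0'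
  exact nodeCoords_of_kron_offBranch π B O1 O2 leO1 leO2 sat pi_ne 𝔪 h1 h2 q hq
    ⟨α s0, hαB s0⟩ ⟨β c0, hβB c0⟩ ⟨β s0', hβB s0'⟩ ⟨α c0', hαB c0'⟩ hs hs'
    ⟨o, ho, hsc⟩ ⟨o', ho', hs'c'⟩ hgen1 hgen2

/-- **(M3) for a chart**: the field `node_i` of `NumData13.NodalNumData` from (C) and (K),
for ALL maximal ideals `𝔪 ∋ π` on both branches. -/
theorem node_field_of_two_levels {B0 : Type*} [CommRing B0]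
    (π : R) (B : Subalgebra R F) (O1 O2 : ValuationSubring F)
    (leO1 : ∀ x ∈ B, x ∈ O1) (leO2 : ∀ x ∈ B, x ∈ O2)
    (sat : ∀ b ∈ B, ∀ c : F, c ∈ O1 → c ∈ O2 → b = algebraMap R F π * c → c ∈ B)
    (pi_ne : algebraMap R F π ≠ 0)
    (α β : B0 →+* F) (hαB : ∀ b, α b ∈ B) (hβB : ∀ b, β b ∈ B)
    (q : ℕ) (hq : 2 ≤ q)
    (hKα : ∀ b : B0, ∃ c : B0, ∃ o ∈ O2, α b - (β c) ^ q = algebraMap R F π * o)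
    (hKβ : ∀ b : B0, ∃ c : B0, ∃ o ∈ O1, β b - (α c) ^ q = algebraMap R F π * o)
    (hCα : ∀ 𝔪 : Ideal B, 𝔪.IsMaximal → algebraMap R B π ∈ 𝔪 →
      ∃ s0 : B0, (⟨α s0, hαB s0⟩ : B) ∈ 𝔪 ∧ ∀ y ∈ 𝔪, ∃ d : B, d ∉ 𝔪 ∧ ∃ b : B, ∃ c ∈ O1,
        (d : F) * (y : F) - (b : F) * α s0 = algebraMap R F π * c)
    (hCβ : ∀ 𝔪 : Ideal B, 𝔪.IsMaximal → algebraMap R B π ∈ 𝔪 →
      ∃ s0 : B0, (⟨β s0, hβB s0⟩ : B) ∈ 𝔪 ∧ ∀ y ∈ 𝔪, ∃ d : B, d ∉ 𝔪 ∧ ∃ b : B, ∃ c ∈ O2,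
        (d : F) * (y : F) - (b : F) * β s0 = algebraMap R F π * c) :
    ∀ 𝔪 : Ideal B, 𝔪.IsMaximal → algebraMap R B π ∈ 𝔪 →
      ¬ OffBranch π B O1 𝔪 → ¬ OffBranch π B O2 𝔪 →
      ∃ x y : B, x ∈ 𝔪 ∧ y ∈ 𝔪 ∧
        (∃ d : B, d ∉ 𝔪 ∧ ∃ e : B, d * (x * y) = algebraMap R B π * e) ∧
        ∀ b ∈ 𝔪, ∃ d : B, d ∉ 𝔪 ∧ d * b ∈ Ideal.span {algebraMap R B π, x, y} := by
  intro 𝔪 h𝔪 hπ𝔪 h1 h2
  have : 𝔪.IsPrime := h𝔪.isPrime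
  exact nodeCoords_of_two_levels π B O1 O2 leO1 leO2 sat pi_ne α β hαB hβB q hq hKα hKβ 𝔪 h1 h2
    (hCα 𝔪 h𝔪 hπ𝔪) (hCβ 𝔪 h𝔪 hπ𝔪)

end Fermat.Agent.ES.N34.NodeCoordsAsm29
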