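/-
Program N (S34), MODEL, helper25: the ABSTRACT ordinary-node lemma "(N) by inseparability"
(N_NOTE27 §2 (M3)), pure commutative algebra, Mathlib only.

`C` a local ring (the local ring `S_z` of the normal model at a closed point `z` lying on BOTH
components), `π ∈ C`, `p1 p2` two proper ideals (the two vertical primes) with `p1 ∩ p2 ⊆ π C`
(the special fibre is reduced).  Suppose
* `s ∈ 𝔪` generates `𝔪` modulo `p1` (reduces to a uniformiser of the branch `D_1 = C / p1`) and is a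
  `q`-th power modulo `p2` (`s - c ^ q ∈ p2`: "functions of level `M'` are `q`-th powers along `C_2`"),
* symmetrically `s' ∈ 𝔪` generates `𝔪` modulo `p2` and `s' - c' ^ q ∈ p1`,
* `2 ≤ q`.
Then there are `x ∈ p2`, `y ∈ p1` with `x ≡ s · unit mod p1`, `y ≡ s' · unit mod p2`,
`𝔪 = (π, x, y)` and `x y ∈ π C`: an ordinary node with coordinate triple `(x, y, 0)`.
No DVR/noetherian/domain hypothesis is used.
-/
import Mathlib

set_option autoImplicit false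

namespace Fermat.Agent.ES.N34.NodeFibre25

open IsLocalRing

variable {C : Type*} [CommRing C] [IsLocalRing C]

/-- In a local ring, `1 - m` is a unit for `m ∈ 𝔪`. -/
theorem isUnit_one_sub_of_mem {m : C} (hm : m ∈ maximalIdeal C) : IsUnit (1 - m) := by
  by_contra h
  have h1 : 1 - m ∈ maximalIdeal C := (mem_maximalIdeal _).mpr h
  have : (1 : C) ∈ maximalIdeal C := by
    have := Ideal.add_mem _ h1 hm
    rwa [sub_add_cancel] at this
  exact (maximalIdeal.isMaximal C).ne_top ((Ideal.eq_top_iff_one _).mpr this)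

/-- a root of an element of `𝔪` lies in `𝔪`. -/
theorem mem_of_pow_mem {c : C} {q : ℕ} (h : c ^ q ∈ maximalIdeal C) : c ∈ maximalIdeal C :=
  (maximalIdeal.isMaximal C).isPrime.mem_of_pow_mem q h

/-- **One half of (N).** `x := s - a ^ q * s' ^ q` lies in `p2` and is `s · unit` modulo `p1`. -/
theorem exists_half (p1 p2 : Ideal C) (hp1 : p1 ≤ maximalIdeal C) (hp2 : p2 ≤ maximalIdeal C)
    (q : ℕ) (hq : 2 ≤ q) (s s' c c' : C)
    (hs : s ∈ maximalIdeal C) (hs' : s' ∈ maximalIdeal C)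
    (hsc : s - c ^ q ∈ p2) (hs'c' : s' - c' ^ q ∈ p1)
    (hgen1 : ∀ f ∈ maximalIdeal C, ∃ b, f - b * s ∈ p1)
    (hgen2 : ∀ f ∈ maximalIdeal C, ∃ b, f - b * s' ∈ p2) :
    ∃ x : C, x ∈ p2 ∧ ∃ v : C, IsUnit v ∧ x - v * s ∈ p1 := by
  have hq0 : q ≠ 0 := by omega
  -- `c, c' ∈ 𝔪`
  have hc : c ∈ maximalIdeal C := by
    apply mem_of_pow_mem (q := q)
    have : c ^ q = s - (s - c ^ q) := by ring
    rw [this]
    exact Ideal.sub_mem _ hs (hp2 hsc)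
  have hc' : c' ∈ maximalIdeal C := by
    apply mem_of_pow_mem (q := q)
    have : c' ^ q = s' - (s' - c' ^ q) := by ring
    rw [this]
    exact Ideal.sub_mem _ hs' (hp1 hs'c')
  obtain ⟨a, ha⟩ := hgen2 c hc
  obtain ⟨a', ha'⟩ := hgen1 c' hc'
  -- `c ^ q ≡ (a s') ^ q mod p2`, `c' ^ q ≡ (a' s) ^ q mod p1`
  have hpow2 : c ^ q - (a * s') ^ q ∈ p2 := by
    obtain ⟨k, hk⟩ := sub_dvd_pow_sub_pow c (a * s') q
    rw [hk]
    exact Ideal.mul_mem_right _ _ ha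
  have hpow1 : c' ^ q - (a' * s) ^ q ∈ p1 := by
    obtain ⟨k, hk⟩ := sub_dvd_pow_sub_pow c' (a' * s) q
    rw [hk]
    exact Ideal.mul_mem_right _ _ ha'
  obtain ⟨q', rfl⟩ : ∃ q', q = q' + 2 := ⟨q - 2, by omega⟩
  refine ⟨s - (a * s') ^ (q' + 2), ?_, 1 - a ^ (q' + 2) * s' ^ (q' + 1) * a' ^ (q' + 2) * s ^ (q' + 1),
    ?_, ?_⟩
  · have : s - (a * s') ^ (q' + 2) = (s - c ^ (q' + 2)) + (c ^ (q' + 2) - (a * s') ^ (q' + 2)) := by
      ring
    rw [this]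
    exact Ideal.add_mem _ hsc hpow2
  · apply isUnit_one_sub_of_mem
    have : a ^ (q' + 2) * s' ^ (q' + 1) * a' ^ (q' + 2) * s ^ (q' + 1)
        = (a ^ (q' + 2) * s' ^ (q' + 1) * a' ^ (q' + 2) * s ^ q') * s := by ring
    rw [this]
    exact Ideal.mul_mem_left _ _ hs
  · -- `x - v s = - a^q s'^(q-1) (s' - (a' s)^q)`, and `s' - (a' s)^q ∈ p1`
    have h1 : s' - (a' * s) ^ (q' + 2) ∈ p1 := by
      have : s' - (a' * s) ^ (q' + 2)
          = (s' - c' ^ (q' + 2)) + (c' ^ (q' + 2) - (a' * s) ^ (q' + 2)) := by ring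
      rw [this]
      exact Ideal.add_mem _ hs'c' hpow1
    have : s - (a * s') ^ (q' + 2)
          - (1 - a ^ (q' + 2) * s' ^ (q' + 1) * a' ^ (q' + 2) * s ^ (q' + 1)) * s
        = -(a ^ (q' + 2) * s' ^ (q' + 1)) * (s' - (a' * s) ^ (q' + 2)) := by ring
    rw [this]
    exact Ideal.mul_mem_left _ _ h1

/-- **(N): the ordinary node.** -/
theorem exists_node_coords (π : C) (p1 p2 : Ideal C)
    (hp1 : p1 ≤ maximalIdeal C) (hp2 : p2 ≤ maximalIdeal C)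
    (hcap : ∀ f, f ∈ p1 → f ∈ p2 → ∃ e, f = π * e)
    (q : ℕ) (hq : 2 ≤ q) (s s' c c' : C)
    (hs : s ∈ maximalIdeal C) (hs' : s' ∈ maximalIdeal C)
    (hsc : s - c ^ q ∈ p2) (hs'c' : s' - c' ^ q ∈ p1)
    (hgen1 : ∀ f ∈ maximalIdeal C, ∃ b, f - b * s ∈ p1)
    (hgen2 : ∀ f ∈ maximalIdeal C, ∃ b, f - b * s' ∈ p2) :
    ∃ x y : C, x ∈ p2 ∧ y ∈ p1 ∧
      (∃ v : C, IsUnit v ∧ x - v * s ∈ p1) ∧ (∃ v : C, IsUnit v ∧ y - v * s' ∈ p2) ∧
      (∀ f ∈ maximalIdeal C, ∃ a b e : C, f = a * x + b * y + π * e) ∧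
      (∃ e : C, x * y = π * e) ∧
      x ∈ maximalIdeal C ∧ y ∈ maximalIdeal C := by
  obtain ⟨x, hx2, v, hv, hxv⟩ :=
    exists_half p1 p2 hp1 hp2 q hq s s' c c' hs hs' hsc hs'c' hgen1 hgen2
  obtain ⟨y, hy1, v', hv', hyv⟩ :=
    exists_half p2 p1 hp2 hp1 q hq s' s c' c hs' hs hs'c' hsc hgen2 hgen1
  have hxm : x ∈ maximalIdeal C := hp2 hx2
  have hym : y ∈ maximalIdeal C := hp1 hy1
  refine ⟨x, y, hx2, hy1, ⟨v, hv, hxv⟩, ⟨v', hv', hyv⟩, ?_, hcap _ (Ideal.mul_mem_left _ _ hy1)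
    (Ideal.mul_mem_right _ _ hx2), hxm, hym⟩
  intro f hf
  obtain ⟨vi, hvi⟩ := hv.exists_left_inv
  obtain ⟨vi', hvi'⟩ := hv'.exists_left_inv
  -- `f ≡ b s ≡ b v⁻¹ x mod p1`
  obtain ⟨b, hb⟩ := hgen1 f hf
  have hr1 : f - b * vi * x ∈ p1 := by
    have : f - b * vi * x = (f - b * s) - b * vi * (x - v * s) - b * (vi * v - 1) * s := by ring
    rw [this, hvi, sub_self, mul_zero, zero_mul, sub_zero]
    exact Ideal.sub_mem _ hb (Ideal.mul_mem_left _ _ hxv)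
  set r1 := f - b * vi * x with hr1def
  have hr1m : r1 ∈ maximalIdeal C := Ideal.sub_mem _ hf (Ideal.mul_mem_left _ _ hxm)
  obtain ⟨b', hb'⟩ := hgen2 r1 hr1m
  have hr2 : r1 - b' * vi' * y ∈ p2 := by
    have : r1 - b' * vi' * y
        = (r1 - b' * s') - b' * vi' * (y - v' * s') - b' * (vi' * v' - 1) * s' := by ring
    rw [this, hvi', sub_self, mul_zero, zero_mul, sub_zero]
    exact Ideal.sub_mem _ hb' (Ideal.mul_mem_left _ _ hyv)
  have hr2' : r1 - b' * vi' * y ∈ p1 := Ideal.sub_mem _ hr1 (Ideal.mul_mem_left _ _ hy1)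
  obtain ⟨e, he⟩ := hcap _ hr2' hr2
  refine ⟨b * vi, b' * vi', e, ?_⟩
  rw [← he, hr1def]; ring

end Fermat.Agent.ES.N34.NodeFibre25
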