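/-
Program N (S34), node-local lemma (2′) (helper11, DRAFT in scratch; not on main).

`A` a noetherian local ring, `R` a domain with a ring hom `R → A` and a retraction `ev : A → R`
(the section `P̄`), `𝔪_A = (u, v, π)`, `u * v = π ^ κ * c` with `c` ARBITRARY, `ev u = π ^ i * a₀`
with `a₀` a unit and `i < κ`.  Then `ker ev` is the `π`-saturation of `(u - ev u)`:
the only horizontal component of `V(u - a)` through the node is the section, with multiplicity one.
No completion, no Weierstrass preparation, no thickness.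
-/
import Mathlib

set_option autoImplicit false

namespace Fermat.Agent.ES.N34.NodeLemma11

open IsLocalRing

variable {R A : Type*} [CommRing R] [IsDomain R] [CommRing A] [Algebra R A]

/-- the `π`-saturation of an ideal -/
def sat (π : A) (J : Ideal A) : Ideal A where
  carrier := {x | ∃ N : ℕ, π ^ N * x ∈ J}
  add_mem' := by
    rintro x y ⟨N, hN⟩ ⟨M, hM⟩
    refine ⟨N + M, ?_⟩
    have : π ^ (N + M) * (x + y) = π ^ M * (π ^ N * x) + π ^ N * (π ^ M * y) := by
      rw [pow_add]; ring
    rw [this]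
    exact J.add_mem (J.mul_mem_left _ hN) (J.mul_mem_left _ hM)
  zero_mem' := ⟨0, by simp⟩
  smul_mem' := by
    rintro r x ⟨N, hN⟩
    refine ⟨N, ?_⟩
    have : π ^ N * (r • x) = r * (π ^ N * x) := by rw [smul_eq_mul]; ring
    rw [this]
    exact J.mul_mem_left _ hN

theorem mem_sat {π : A} {J : Ideal A} {x : A} : x ∈ sat π J ↔ ∃ N : ℕ, π ^ N * x ∈ J := Iff.rfl

theorem le_sat (π : A) (J : Ideal A) : J ≤ sat π J := fun x hx => ⟨0, by simpa using hx⟩

/-- **Node lemma (2′).** -/
theorem ker_ev_eq_sat [IsLocalRing A] [IsNoetherianRing A] (ev : A →ₐ[R] R) (π a₀ : R) (a₀inv : R) (ha₀ : a₀ * a₀inv = 1)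
    (hπ : algebraMap R A π ∈ maximalIdeal A)
    (u v c : A) (hm : maximalIdeal A ≤ Ideal.span {u, v, algebraMap R A π})
    (κ i : ℕ) (hi : 0 < i) (hiκ : i < κ)
    (huv : u * v = algebraMap R A π ^ κ * c)
    (ha : ev u = π ^ i * a₀) (hπ0 : π ≠ 0) :
    RingHom.ker (ev : A →+* R) = sat (algebraMap R A π) (Ideal.span {u - algebraMap R A (ev u)}) := by
  set p : A := algebraMap R A π with hp
  set a : A := algebraMap R A (ev u) with haA
  set J : Ideal A := Ideal.span {u - a} with hJ
  have hev_alg : ∀ r : R, ev (algebraMap R A r) = r := fun r => by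
    rw [AlgHom.commutes]; rfl
  -- `sat ≤ ker`
  have hsat_le : sat p J ≤ RingHom.ker (ev : A →+* R) := by
    rintro x ⟨N, hN⟩
    rw [RingHom.mem_ker]
    have hJker : J ≤ RingHom.ker (ev : A →+* R) := by
      rw [hJ, Ideal.span_singleton_le_iff_mem, RingHom.mem_ker]
      show ev (u - a) = 0
      rw [map_sub, haA, hev_alg, sub_self]
    have h1 := hJker hN
    rw [RingHom.mem_ker] at h1
    have h2 : π ^ N * ev x = 0 := by
      have : (ev : A →+* R) (p ^ N * x) = π ^ N * ev x := by
        show ev (p ^ N * x) = π ^ N * ev x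
        rw [map_mul, map_pow, hp, hev_alg]
      rw [← this]; exact h1
    rcases mul_eq_zero.mp h2 with h | h
    · exact absurd (pow_eq_zero_iff (n := N) (by
        intro hN0; subst hN0; simp at h) |>.mp h) hπ0
    · exact h
  apply le_antisymm _ hsat_le
  -- key identity: `(u - a) * v = - p ^ i * w`, `w = a₀ v - p ^ (κ - i) c`
  set a0 : A := algebraMap R A a₀ with ha0
  set a0i : A := algebraMap R A a₀inv with ha0i
  have ha0u : a0 * a0i = 1 := by rw [ha0, ha0i, ← map_mul, ha₀, map_one]
  have haA' : a = p ^ i * a0 := by rw [haA, ha, map_mul, map_pow]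
  set w : A := a0 * v - p ^ (κ - i) * c with hw
  have hkey : p ^ i * w = -((u - a) * v) := by
    have hκ : p ^ κ = p ^ i * p ^ (κ - i) := by rw [← pow_add]; congr 1; omega
    rw [hw, haA']
    have : (u - p ^ i * a0) * v = u * v - p ^ i * a0 * v := by ring
    rw [this, huv, hκ]; ring
  have hw_sat : w ∈ sat p J := by
    refine ⟨i, ?_⟩
    rw [hkey]
    exact J.neg_mem (J.mul_mem_right _ (Ideal.subset_span rfl))
  -- `v ∈ sat + p A`
  have hv : v ∈ sat p J ⊔ Ideal.span {p} := by
    have hv' : v = a0i * w + p * (a0i * p ^ (κ - i - 1) * c) := by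
      have h1 : p ^ (κ - i) = p * p ^ (κ - i - 1) := by
        rw [← pow_succ']; congr 1; omega
      have : a0i * w = v - a0i * (p ^ (κ - i) * c) := by
        rw [hw, mul_sub, ← mul_assoc, mul_comm a0i a0, ha0u, one_mul]
      rw [this, h1]; ring
    rw [hv']
    exact Ideal.add_mem _ (Ideal.mem_sup_left ((sat p J).mul_mem_left _ hw_sat))
      (Ideal.mem_sup_right (Ideal.mul_mem_right _ _ (Ideal.subset_span rfl)))
  have hu : u ∈ sat p J ⊔ Ideal.span {p} := by
    have hu' : u = (u - a) + p * (p ^ (i - 1) * a0) := by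
      rw [haA']
      have : p ^ i = p * p ^ (i - 1) := by rw [← pow_succ']; congr 1; omega
      rw [this]; ring
    rw [hu']
    exact Ideal.add_mem _ (Ideal.mem_sup_left (le_sat p J (Ideal.subset_span rfl)))
      (Ideal.mem_sup_right (Ideal.mul_mem_right _ _ (Ideal.subset_span rfl)))
  have hm' : maximalIdeal A ≤ sat p J ⊔ Ideal.span {p} := by
    refine hm.trans ?_
    rw [Ideal.span_le]
    rintro x (rfl | rfl | rfl)
    · exact hu
    · exact hv
    · exact Ideal.mem_sup_right (Ideal.subset_span rfl)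
  -- `ker ≤ sat ⊔ p • ker`
  have hker_m : RingHom.ker (ev : A →+* R) ≤ maximalIdeal A := by
    apply IsLocalRing.le_maximalIdeal
    intro h
    have : (1 : A) ∈ RingHom.ker (ev : A →+* R) := by rw [h]; trivial
    rw [RingHom.mem_ker] at this
    have h1 : (ev : A →+* R) 1 = 1 := map_one _
    rw [h1] at this
    exact one_ne_zero this
  have hstep : RingHom.ker (ev : A →+* R) ≤
      sat p J ⊔ Ideal.span {p} • RingHom.ker (ev : A →+* R) := by
    intro x hx
    have hx' := hm' (hker_m hx)
    obtain ⟨s, hs, y, hy, rfl⟩ := Submodule.mem_sup.mp hx'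
    obtain ⟨y', rfl⟩ := Ideal.mem_span_singleton'.mp hy
    refine Submodule.mem_sup.mpr ⟨s, hs, y' * p, ?_, rfl⟩
    have hs0 : (ev : A →+* R) s = 0 := RingHom.mem_ker.mp (hsat_le hs)
    rw [RingHom.mem_ker, map_add, hs0, zero_add] at hx
    have hy0 : ev y' * π = 0 := by
      have : (ev : A →+* R) (y' * p) = ev y' * π := by
        show ev (y' * p) = ev y' * π
        rw [map_mul, hp, hev_alg]
      rw [← this]; exact hx
    have hy'ker : y' ∈ RingHom.ker (ev : A →+* R) := by
      rw [RingHom.mem_ker]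
      rcases mul_eq_zero.mp hy0 with h | h
      · exact h
      · exact absurd h hπ0
    rw [mul_comm]
    exact Ideal.mul_mem_mul (Ideal.subset_span rfl) hy'ker
  have hfg : (RingHom.ker (ev : A →+* R)).FG := IsNoetherian.noetherian _
  have hjac : Ideal.span {p} ≤ Ideal.jacobson (⊥ : Ideal A) := by
    rw [IsLocalRing.jacobson_eq_maximalIdeal ⊥ bot_ne_top, Ideal.span_singleton_le_iff_mem]
    exact hπ
  exact Submodule.le_of_le_smul_of_le_jacobson_bot hfg hjac hstep

end Fermat.Agent.ES.N34.NodeLemma11
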