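/-
Program N (S34), brick L3 (helper10): **sections of a chart and places** — the three statements
(S-a), (S-b), (S-c) + (N-i) consumed by helper6's `NodeGlue6.nodeDatum_of_sections`.

Vocabulary (helper6, `LocNodePlace6` / `NodeAsm6`; the statements below are written with these
definitions UNFOLDED, so that this file does not import them):
  `IsPointOf B ev v := (∀ b : B, (b:F) ∈ O_v) ∧ ∀ b : B, ev b = 0 ↔ ((b:F) = 0 ∨ 0 < v.ord b)`
  `Thr B 𝔪 v := (∀ b ∈ B, b ∈ O_v) ∧ ∀ b : B, (b:F)⁻¹ ∉ O_v → b ∈ 𝔪`.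

* `place_eq_of_isPointOf` (S-c): two places with the same section coincide.
* `isPointOf_conj` (S-b): `IsPointOf B ev v → IsPointOf B (NodeGal11.conj σR σB hσ ev) (σ • v)`.
* `thr_inv_smul` (N-i): `Thr B 𝔪 v → Thr B 𝔪 (σ⁻¹ • v)`.
* `exists_section_of_rational` (S-a): a rational place through `𝔪` has a section
  `ev : B →ₐ[R] R` with `IsPointOf B ev v` and `b ∈ 𝔪 ↔ π ∣ ev b`.
-/
import Mathlib
import Fermat.Prelude.Def_AlgebraicCurve_BaseChangeGalois
import Fermat.Agent.X0.FFDict
import Fermat.Agent.ES.N34.NodeGal11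
import Fermat.Agent.ES.N34.HorizPlace13

set_option autoImplicit false
set_option linter.unusedSectionVars false

noncomputable section

namespace Fermat.Agent.ES.N34.PlaceSec10

open AlgebraicCurve Fermat.Agent.X0.FF Fermat.Agent.ES.N34.HorizPlace13

variable {R K F : Type*} [CommRing R] [IsDomain R] [IsDiscreteValuationRing R] [Field K] [Field F]
  [Algebra R K] [Algebra K F] [Algebra R F] [IsScalarTower R K F]

/-! ### (S-c) a place is determined by its section -/

omit [IsDiscreteValuationRing R] in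
/-- the valuation ring of a place with section `ev` is `B` localised at `ker ev`. -/
theorem le_of_isPointOf (B : Subalgebra R F) (ev : B →ₐ[R] R) (u v : Place K F)
    (hu : ∀ x : F, x ∈ u.toValuationSubring ↔
      ∃ a s : B, s ∉ RingHom.ker (ev : B →+* R) ∧ x * (s : F) = (a : F))
    (hv : (∀ b : B, (b : F) ∈ v.toValuationSubring) ∧
      ∀ b : B, ev b = 0 ↔ ((b : F) = 0 ∨ 0 < v.ord (b : F))) :
    u.toValuationSubring ≤ v.toValuationSubring := by
  intro x hx
  obtain ⟨a, s, hs, hxs⟩ := (hu x).mp hx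
  have hs' : ev s ≠ 0 := hs
  have h1 : ¬ ((s : F) = 0 ∨ 0 < v.ord (s : F)) := fun h => hs' ((hv.2 s).mpr h)
  have hs0 : (s : F) ≠ 0 := fun h => h1 (Or.inl h)
  have h2 : v.ord (s : F) = 0 := by
    have := ord_nonneg_of_mem v (hv.1 s)
    have h3 : ¬ 0 < v.ord (s : F) := fun h => h1 (Or.inr h)
    omega
  have h3 : (s : F)⁻¹ ∈ v.toValuationSubring := by
    apply mem_of_ord_nonneg
    rw [Place.ord_inv, h2]; simp
  have : x = (a : F) * (s : F)⁻¹ := by rw [← hxs]; field_simp
  rw [this]
  exact mul_mem (hv.1 a) h3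

omit [IsDiscreteValuationRing R] in
/-- **(S-c)** two places with the same section on the chart coincide. -/
theorem place_eq_of_isPointOf (π : R) (t : F) (B : Subalgebra R F) (ht : t ∈ B)
    (noethB : IsNoetherianRing B) (fracR : IsFractionRing R K)
    (dvrR : ∀ r : R, r ≠ 0 → ∃ (k : ℕ) (v : Rˣ), r = π ^ k * v)
    (pi_ne : algebraMap R F π ≠ 0)
    (intcl : ∀ x : F, IsIntegral B x → x ∈ B)
    (int0 : ∀ x ∈ B, IsIntegral (Algebra.adjoin R {t}) x)
    (frac : ∀ x : F, ∃ a ∈ B, ∃ b ∈ B, b ≠ 0 ∧ x * b = a)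
    (v w : Place K F) (ev : B →ₐ[R] R)
    (hv : (∀ b : B, (b : F) ∈ v.toValuationSubring) ∧
      ∀ b : B, ev b = 0 ↔ ((b : F) = 0 ∨ 0 < v.ord (b : F)))
    (hw : (∀ b : B, (b : F) ∈ w.toValuationSubring) ∧
      ∀ b : B, ev b = 0 ↔ ((b : F) = 0 ∨ 0 < w.ord (b : F))) :
    v = w := by
  classical
  set 𝔭 : Ideal B := RingHom.ker (ev : B →+* R) with h𝔭def
  have h𝔭 : 𝔭.IsPrime := RingHom.ker_isPrime _
  have hπ𝔭 : algebraMap R B π ∉ 𝔭 := by
    intro hmem
    have h1 : ev (algebraMap R B π) = 0 := hmem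
    rw [AlgHom.commutes] at h1
    apply pi_ne
    have : π = 0 := h1
    rw [this, map_zero]
  have hne : 𝔭 ≠ ⊥ := by
    intro h0
    apply v.ne_top'
    rw [eq_top_iff]
    intro z _
    obtain ⟨a, ha, b, hb, hb0, hab⟩ := frac z
    have hbk : ev ⟨b, hb⟩ ≠ 0 := by
      intro hk
      have : (⟨b, hb⟩ : B) ∈ 𝔭 := hk
      rw [h0, Ideal.mem_bot] at this
      exact hb0 (congrArg Subtype.val this)
    have h1 : ¬ (b = 0 ∨ 0 < v.ord b) := fun h => hbk ((hv.2 ⟨b, hb⟩).mpr h)
    have h2 : v.ord b = 0 := by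
      have := ord_nonneg_of_mem v (hv.1 ⟨b, hb⟩)
      have h3 : ¬ 0 < v.ord b := fun h => h1 (Or.inr h)
      have h4 : v.ord ((⟨b, hb⟩ : B) : F) = v.ord b := rfl
      omega
    have h3 : b⁻¹ ∈ v.toValuationSubring := by
      apply mem_of_ord_nonneg
      rw [Place.ord_inv, h2]; simp
    have : z = a * b⁻¹ := by rw [← hab]; field_simp
    rw [this]
    exact mul_mem (hv.1 ⟨a, ha⟩) h3
  obtain ⟨u, hu⟩ := exists_place_of_horizontal (K := K) π t B ht noethB fracR dvrR pi_ne intcl int0
    frac 𝔭 hne hπ𝔭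
  have h1 : u.toValuationSubring = v.toValuationSubring :=
    ValuationSubring.eq_of_le_of_ne_top _ (le_of_isPointOf B ev u v hu hv) v.ne_top'
  have h2 : u.toValuationSubring = w.toValuationSubring :=
    ValuationSubring.eq_of_le_of_ne_top _ (le_of_isPointOf B ev u w hu hw) w.ne_top'
  exact Place.ext (h1.symm.trans h2)

/-! ### (S-b), (N-i): transport by a semilinear automorphism preserving the chart -/

open scoped Pointwise in
omit [IsDomain R] [IsDiscreteValuationRing R] [Algebra R K] [IsScalarTower R K F] in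
theorem mem_smul_place_iff (σ : SemilinearAut K F) (v : Place K F) (x : F) :
    x ∈ (σ • v).toValuationSubring ↔ σ⁻¹ • x ∈ v.toValuationSubring := by
  rw [SemilinearAut.smul_toValuationSubring]
  exact ValuationSubring.mem_pointwise_smul_iff_inv_smul_mem

omit [IsDomain R] [IsDiscreteValuationRing R] [Algebra R K] [IsScalarTower R K F] in
theorem mem_inv_smul_place_iff (σ : SemilinearAut K F) (v : Place K F) (x : F) :
    x ∈ (σ⁻¹ • v).toValuationSubring ↔ σ • x ∈ v.toValuationSubring := by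
  rw [mem_smul_place_iff, inv_inv]

omit [IsDomain R] [IsDiscreteValuationRing R] [Algebra R K] [IsScalarTower R K F] in
/-- **(S-b)** the section of `σ • v` is the conjugate section. -/
theorem isPointOf_conj (B : Subalgebra R F) (σ : SemilinearAut K F) (σR : R ≃+* R) (σB : B ≃+* B)
    (hσ : ∀ r : R, σB (algebraMap R B r) = algebraMap R B (σR r))
    (hcoe : ∀ b : B, ((σB b : B) : F) = σ • (b : F))
    (v : Place K F) (ev : B →ₐ[R] R)
    (hv : (∀ b : B, (b : F) ∈ v.toValuationSubring) ∧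
      ∀ b : B, ev b = 0 ↔ ((b : F) = 0 ∨ 0 < v.ord (b : F))) :
    (∀ b : B, (b : F) ∈ (σ • v).toValuationSubring) ∧
      ∀ b : B, NodeGal11.conj σR σB hσ ev b = 0 ↔ ((b : F) = 0 ∨ 0 < (σ • v).ord (b : F)) := by
  have hsymm : ∀ b : B, ((σB.symm b : B) : F) = σ⁻¹ • (b : F) := by
    intro b
    have h1 := hcoe (σB.symm b)
    rw [RingEquiv.apply_symm_apply] at h1
    rw [h1, inv_smul_smul]
  refine ⟨fun b => ?_, fun b => ?_⟩
  · rw [mem_smul_place_iff, ← hsymm]
    exact hv.1 _
  · rw [NodeGal11.conj_apply]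
    have h1 : σR (ev (σB.symm b)) = 0 ↔ ev (σB.symm b) = 0 := map_eq_zero_iff _ σR.injective
    have h2 : (σ • v).ord (b : F) = v.ord ((σB.symm b : B) : F) := by
      have := SemilinearAut.ord_smul σ v ((σB.symm b : B) : F)
      rw [hsymm, smul_inv_smul] at this
      rw [this, hsymm]
    have h3 : ((σB.symm b : B) : F) = 0 ↔ (b : F) = 0 := by
      rw [hsymm]
      constructor
      · intro h
        have := congrArg (σ • ·) h
        simpa using this
      · intro h
        rw [h, smul_zero]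
    rw [h1, hv.2, h2, h3]

omit [IsDomain R] [IsDiscreteValuationRing R] [Algebra R K] [IsScalarTower R K F] in
/-- **(N-i)** the places through `𝔪` are stable under `σ⁻¹`. -/
theorem thr_inv_smul (B : Subalgebra R F) (𝔪 : Ideal B) (σ : SemilinearAut K F) (σB : B ≃+* B)
    (hcoe : ∀ b : B, ((σB b : B) : F) = σ • (b : F))
    (hσ𝔪 : ∀ b, σB b ∈ 𝔪 ↔ b ∈ 𝔪) (v : Place K F)
    (hv : (∀ b ∈ B, b ∈ v.toValuationSubring) ∧
      ∀ b : B, ((b : F))⁻¹ ∉ v.toValuationSubring → b ∈ 𝔪) :
    (∀ b ∈ B, b ∈ (σ⁻¹ • v).toValuationSubring) ∧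
      ∀ b : B, ((b : F))⁻¹ ∉ (σ⁻¹ • v).toValuationSubring → b ∈ 𝔪 := by
  refine ⟨fun b hb => ?_, fun b hb => ?_⟩
  · rw [mem_inv_smul_place_iff]
    have := hcoe ⟨b, hb⟩
    rw [← this]
    exact hv.1 _ (σB ⟨b, hb⟩).2
  · rw [mem_inv_smul_place_iff, smul_inv'', ← hcoe] at hb
    exact (hσ𝔪 b).mp (hv.2 _ hb)

/-! ### (S-a) a rational place through `𝔪` has a section -/

section Value

variable (v : Place K F) (hrat : Function.Surjective (algebraMap K v.ResidueField))

/-- `K ≃ κ(v)` at a rational place. -/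
def resEquiv : K ≃+* v.ResidueField :=
  RingEquiv.ofBijective (algebraMap K v.ResidueField)
    ⟨(algebraMap K v.ResidueField).injective, hrat⟩

/-- the value map `f ↦ f(v)` at a rational place. -/
def valueAt : v.toValuationSubring →+* K :=
  ((resEquiv v hrat).symm : v.ResidueField →+* K).comp
    (IsLocalRing.residue v.toValuationSubring)

omit [IsDomain R] [IsDiscreteValuationRing R] [Algebra R K] [Algebra R F] [IsScalarTower R K F] in
theorem valueAt_algebraMap (c : K) :
    valueAt v hrat (algebraMap K v.toValuationSubring c) = c := by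
  show (resEquiv v hrat).symm ((resEquiv v hrat) c) = c
  exact RingEquiv.symm_apply_apply _ _

omit [IsDomain R] [IsDiscreteValuationRing R] [Algebra R K] [Algebra R F] [IsScalarTower R K F] in
theorem valueAt_eq_zero_iff (f : v.toValuationSubring) :
    valueAt v hrat f = 0 ↔ f ∈ IsLocalRing.maximalIdeal v.toValuationSubring := by
  rw [← IsLocalRing.residue_eq_zero_iff]
  show (resEquiv v hrat).symm (IsLocalRing.residue _ f) = 0 ↔ _
  exact map_eq_zero_iff _ (resEquiv v hrat).symm.injective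

end Value

/-- **(S-a)** a rational place of `F / K` through the closed point `𝔪 ∋ π` of the chart `B` has a
section `ev : B →ₐ[R] R` (its point on the chart), and `𝔪 = ev⁻¹(π R)`. -/
theorem exists_section_of_rational (π : R) (hπ : Irreducible π) (t : F) (B : Subalgebra R F)
    (ht : t ∈ B) (fracR : IsFractionRing R K)
    (int0 : ∀ x ∈ B, IsIntegral (Algebra.adjoin R {t}) x)
    (𝔪 : Ideal B) (h𝔪top : 𝔪 ≠ ⊤) (hπ𝔪 : algebraMap R B π ∈ 𝔪)
    (v : Place K F) (hrat : Function.Surjective (algebraMap K v.ResidueField))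
    (hv : (∀ b ∈ B, b ∈ v.toValuationSubring) ∧
      ∀ b : B, ((b : F))⁻¹ ∉ v.toValuationSubring → b ∈ 𝔪) :
    ∃ ev : B →ₐ[R] R,
      ((∀ b : B, (b : F) ∈ v.toValuationSubring) ∧
        ∀ b : B, ev b = 0 ↔ ((b : F) = 0 ∨ 0 < v.ord (b : F))) ∧
      ∀ b, b ∈ 𝔪 ↔ π ∣ ev b := by
  classical
  have hinjRK : Function.Injective (algebraMap R K) := IsFractionRing.injective R K
  -- the value map on the chart
  let ι : B →+* v.toValuationSubring :=
    (B.val : B →+* F).codRestrict v.toValuationSubring.toSubring (fun b => hv.1 _ b.2)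
  let φ : B →+* K := (valueAt v hrat).comp ι
  have hφR : ∀ r : R, φ (algebraMap R B r) = algebraMap R K r := by
    intro r
    have : ι (algebraMap R B r) = algebraMap K v.toValuationSubring (algebraMap R K r) := by
      apply Subtype.ext
      show algebraMap R F r = algebraMap K F (algebraMap R K r)
      exact IsScalarTower.algebraMap_apply R K F r
    show valueAt v hrat (ι (algebraMap R B r)) = _
    rw [this, valueAt_algebraMap]
  -- the kernel of the value map lies in `𝔪`
  have hkerφ : ∀ b : B, φ b = 0 ↔ ((b : F) = 0 ∨ 0 < v.ord (b : F)) := by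
    intro b
    show valueAt v hrat (ι b) = 0 ↔ _
    rw [valueAt_eq_zero_iff, mem_maximalIdeal_iff]
    constructor
    · rintro (h | h)
      · left; exact congrArg Subtype.val h
      · right; exact h
    · rintro (h | h)
      · left; exact Subtype.ext h
      · right; exact h
  have hker𝔪 : ∀ b : B, φ b = 0 → b ∈ 𝔪 := by
    intro b hb
    rcases (hkerφ b).mp hb with h | h
    · have : b = 0 := Subtype.ext h
      rw [this]; exact 𝔪.zero_mem
    · apply hv.2
      intro hmem
      have := ord_nonneg_of_mem v hmem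
      rw [Place.ord_inv] at this
      omega
  -- `t(v) ∈ R`
  have hc : ∃ c₀ : R, algebraMap R K c₀ = φ ⟨t, ht⟩ := by
    by_cases h0 : φ ⟨t, ht⟩ = 0
    · exact ⟨0, by rw [h0, map_zero]⟩
    rcases ValuationRing.isInteger_or_isInteger R (φ ⟨t, ht⟩) with ⟨c₀, hc₀⟩ | ⟨d, hd⟩
    · exact ⟨c₀, hc₀⟩
    · by_cases hdu : IsUnit d
      · obtain ⟨e, he⟩ := hdu.exists_right_inv
        refine ⟨e, ?_⟩
        have h1 : algebraMap R K d * algebraMap R K e = 1 := by rw [← map_mul, he, map_one]
        rw [hd] at h1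
        have := eq_inv_of_mul_eq_one_right h1
        rw [this, inv_inv]
      · exfalso
        have hdm : d ∈ IsLocalRing.maximalIdeal R := (IsLocalRing.mem_maximalIdeal _).mpr hdu
        rw [hπ.maximalIdeal_eq, Ideal.mem_span_singleton] at hdm
        obtain ⟨r, rfl⟩ := hdm
        -- `b₁ = 1 - π r t` vanishes at `v`
        set b₁ : B := 1 - algebraMap R B (π * r) * ⟨t, ht⟩ with hb₁
        have hφb₁ : φ b₁ = 0 := by
          rw [hb₁, map_sub, map_one, map_mul, hφR, hd, inv_mul_cancel₀ h0, sub_self]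
        have hb₁𝔪 := hker𝔪 b₁ hφb₁
        apply h𝔪top
        rw [Ideal.eq_top_iff_one]
        have : (1 : B) = b₁ + (algebraMap R B r * ⟨t, ht⟩) * algebraMap R B π := by
          rw [hb₁, map_mul]; ring
        rw [this]
        exact 𝔪.add_mem hb₁𝔪 (𝔪.mul_mem_left _ hπ𝔪)
  obtain ⟨c₀, hc₀⟩ := hc
  -- the values of the chart lie in `R`
  have hint : ∀ b : B, ∃ r : R, algebraMap R K r = φ b := by
    intro b
    obtain ⟨p, hpm, hp⟩ := isIntegral_aeval t B ht int0 b
    have hcomp : φ.comp (Polynomial.aeval (⟨t, ht⟩ : B) : Polynomial R →ₐ[R] B).toRingHom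
        = (algebraMap R K).comp (Polynomial.aeval c₀ : Polynomial R →ₐ[R] R).toRingHom := by
      apply Polynomial.ringHom_ext
      · intro a
        show φ (Polynomial.aeval (⟨t, ht⟩ : B) (Polynomial.C a))
          = algebraMap R K (Polynomial.aeval c₀ (Polynomial.C a))
        rw [Polynomial.aeval_C, Polynomial.aeval_C, hφR]
        rfl
      · show φ (Polynomial.aeval (⟨t, ht⟩ : B) Polynomial.X)
          = algebraMap R K (Polynomial.aeval c₀ Polynomial.X)
        rw [Polynomial.aeval_X, Polynomial.aeval_X, hc₀]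
    have h1 : Polynomial.eval₂ (φ.comp
        (Polynomial.aeval (⟨t, ht⟩ : B) : Polynomial R →ₐ[R] B).toRingHom) (φ b) p = 0 := by
      rw [← Polynomial.hom_eval₂, hp, map_zero]
    rw [hcomp, ← Polynomial.eval₂_map] at h1
    have hintK : IsIntegral R (φ b) :=
      ⟨p.map (Polynomial.aeval c₀ : Polynomial R →ₐ[R] R).toRingHom, hpm.map _, h1⟩
    exact IsIntegrallyClosed.isIntegral_iff.mp hintK
  -- the section
  let φA : B →ₐ[R] K := { φ with commutes' := hφR }
  have hrange : ∀ b : B, φA b ∈ (Algebra.ofId R K).range := by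
    intro b
    obtain ⟨r, hr⟩ := hint b
    exact ⟨r, hr⟩
  let e : R ≃ₐ[R] (Algebra.ofId R K).range := AlgEquiv.ofInjective (Algebra.ofId R K) hinjRK
  let ev : B →ₐ[R] R := (e.symm : (Algebra.ofId R K).range →ₐ[R] R).comp
    (φA.codRestrict (Algebra.ofId R K).range hrange)
  have hev : ∀ b : B, algebraMap R K (ev b) = φ b := by
    intro b
    have h1 : e (ev b) = φA.codRestrict (Algebra.ofId R K).range hrange b :=
      e.apply_symm_apply _
    have h2 := congrArg Subtype.val h1
    exact h2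
  have hev0 : ∀ b : B, ev b = 0 ↔ φ b = 0 := by
    intro b
    rw [← hev, map_eq_zero_iff _ hinjRK]
  refine ⟨ev, ⟨fun b => hv.1 _ b.2, fun b => by rw [hev0, hkerφ]⟩, fun b => ?_⟩
  -- `b - ev b ∈ ker φ ⊆ 𝔪`
  have hsub : b - algebraMap R B (ev b) ∈ 𝔪 := by
    apply hker𝔪
    rw [map_sub, hφR, hev, sub_self]
  constructor
  · intro hb
    by_contra hdvd
    have hu : IsUnit (ev b) := by
      by_contra hnu
      have hm : ev b ∈ IsLocalRing.maximalIdeal R := (IsLocalRing.mem_maximalIdeal _).mpr hnu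
      rw [hπ.maximalIdeal_eq, Ideal.mem_span_singleton] at hm
      exact hdvd hm
    have h1 : algebraMap R B (ev b) ∈ 𝔪 := by
      have : algebraMap R B (ev b) = b - (b - algebraMap R B (ev b)) := by ring
      rw [this]; exact 𝔪.sub_mem hb hsub
    exact h𝔪top (Ideal.eq_top_of_isUnit_mem _ h1 (hu.map _))
  · rintro ⟨r, hr⟩
    have : b = (b - algebraMap R B (ev b)) + algebraMap R B r * algebraMap R B π := by
      rw [hr, map_mul]; ring
    rw [this]
    exact 𝔪.add_mem hsub (𝔪.mul_mem_left _ hπ𝔪)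

end Fermat.Agent.ES.N34.PlaceSec10
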