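/-
Program N (S34), GAL chapter, brick `SigmaRes15` (helper15; ruling r2 (2) of helper27): **restrictions of
a field automorphism `σ : F ≃+* F` to the base ring `R` and to a chart `B ⊂ F`, and `σ 𝔪 = 𝔪`.**

Everything is stated for a bare `σ` with elementwise hypotheses (no structure):
* `hB : ∀ x, x ∈ B ↔ σ x ∈ B`  ⊢  `sigmaB B σ hB : B ≃+* B` (`coe_sigmaB`);
* `h : ∀ r, ∃ r', σ (algebraMap R F r) = algebraMap R F r'`, the same for `σ.symm`, `R → F` injective
  ⊢ `sigmaR σ hinj h h' : R ≃+* R` (`algebraMap_sigmaR`), `sigmaB_algebraMap` (semilinearity: the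
  hypothesis `hτ` of `NodeGal11` / `NodeChartGal11`);
* `hcongr : ∀ x, x ∈ O1 → x ∈ O2 → PiO π O1 O2 (σ x - x)` and `π`-saturation of `B` in `O1 ⊓ O2`
  ⊢ `sigmaB_sub_mem` (`σ b - b ∈ π B`), `sigmaB_mem_iff` (**`σ 𝔪 = 𝔪`** for every ideal `𝔪 ∋ π`),
  `comap_sigmaB_eq`, `map_sigmaB_eq`, `map_primeCompl_sigmaB_eq` (the hypothesis of
  `IsLocalization.ringEquivOfRingEquiv` for `B_𝔪`);
* `piO_of_sub_mem` : the ADAPTER from `GalGauss21.IsInertial` (fields `sub_mem` for `O1` and for `O2`)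
  to `hcongr`;
* `sigmaR_pi`, `sigmaR_pi'` : `σ_R π = π * ε`, `ε : Rˣ` (the hypothesis `hπ` of `NodeGal11`), from
  `dvrR` and `σ p / p ∈ O^×` (resp. the field `map_p` of `IsInertial`).
-/
import Mathlib
import Fermat.Agent.ES.N34.NodalCore13

set_option autoImplicit false

namespace Fermat.Agent.ES.N34.SigmaRes15

open Fermat.Agent.ES.N34.NodalCore13

section Restrict

variable {R F : Type*} [CommRing R] [Field F] [Algebra R F]

/-- The restriction of `σ` to a `σ`-stable subalgebra (as a ring automorphism). -/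
def sigmaB (B : Subalgebra R F) (σ : F ≃+* F) (hB : ∀ x : F, x ∈ B ↔ σ x ∈ B) : B ≃+* B where
  toFun b := ⟨σ b, (hB b).mp b.2⟩
  invFun b := ⟨σ.symm b, (hB _).mpr (by rw [RingEquiv.apply_symm_apply]; exact b.2)⟩
  left_inv b := Subtype.ext (RingEquiv.symm_apply_apply σ _)
  right_inv b := Subtype.ext (RingEquiv.apply_symm_apply σ _)
  map_mul' a b := Subtype.ext (map_mul σ _ _)
  map_add' a b := Subtype.ext (map_add σ _ _)

@[simp] theorem coe_sigmaB (B : Subalgebra R F) (σ : F ≃+* F) (hB : ∀ x : F, x ∈ B ↔ σ x ∈ B)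
    (b : B) : ((sigmaB B σ hB b : B) : F) = σ (b : F) := rfl

@[simp] theorem coe_sigmaB_symm (B : Subalgebra R F) (σ : F ≃+* F)
    (hB : ∀ x : F, x ∈ B ↔ σ x ∈ B) (b : B) :
    (((sigmaB B σ hB).symm b : B) : F) = σ.symm (b : F) := rfl

/-- The restriction of `σ` to `R` (needs `R → F` injective). -/
noncomputable def sigmaR (σ : F ≃+* F) (hinj : Function.Injective (algebraMap R F))
    (h : ∀ r : R, ∃ r' : R, σ (algebraMap R F r) = algebraMap R F r')
    (h' : ∀ r : R, ∃ r' : R, σ.symm (algebraMap R F r) = algebraMap R F r') : R ≃+* R where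
  toFun r := Classical.choose (h r)
  invFun r := Classical.choose (h' r)
  left_inv r := by
    apply hinj
    have e1 := Classical.choose_spec (h' (Classical.choose (h r)))
    have e2 := Classical.choose_spec (h r)
    calc algebraMap R F (Classical.choose (h' (Classical.choose (h r))))
        = σ.symm (algebraMap R F (Classical.choose (h r))) := e1.symm
      _ = algebraMap R F r := by rw [← e2, RingEquiv.symm_apply_apply]
  right_inv r := by
    apply hinj
    have e1 := Classical.choose_spec (h (Classical.choose (h' r)))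
    have e2 := Classical.choose_spec (h' r)
    calc algebraMap R F (Classical.choose (h (Classical.choose (h' r))))
        = σ (algebraMap R F (Classical.choose (h' r))) := e1.symm
      _ = algebraMap R F r := by rw [← e2, RingEquiv.apply_symm_apply]
  map_mul' a b := by
    apply hinj
    have e1 := Classical.choose_spec (h (a * b))
    have e2 := Classical.choose_spec (h a)
    have e3 := Classical.choose_spec (h b)
    calc algebraMap R F (Classical.choose (h (a * b))) = σ (algebraMap R F (a * b)) := e1.symm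
      _ = σ (algebraMap R F a) * σ (algebraMap R F b) := by rw [map_mul, map_mul]
      _ = algebraMap R F (Classical.choose (h a) * Classical.choose (h b)) := by
        rw [map_mul (algebraMap R F), ← e2, ← e3]
  map_add' a b := by
    apply hinj
    have e1 := Classical.choose_spec (h (a + b))
    have e2 := Classical.choose_spec (h a)
    have e3 := Classical.choose_spec (h b)
    calc algebraMap R F (Classical.choose (h (a + b))) = σ (algebraMap R F (a + b)) := e1.symm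
      _ = σ (algebraMap R F a) + σ (algebraMap R F b) := by rw [map_add, map_add]
      _ = algebraMap R F (Classical.choose (h a) + Classical.choose (h b)) := by
        rw [map_add (algebraMap R F), ← e2, ← e3]

theorem algebraMap_sigmaR (σ : F ≃+* F) (hinj : Function.Injective (algebraMap R F))
    (h : ∀ r : R, ∃ r' : R, σ (algebraMap R F r) = algebraMap R F r')
    (h' : ∀ r : R, ∃ r' : R, σ.symm (algebraMap R F r) = algebraMap R F r') (r : R) :
    algebraMap R F (sigmaR σ hinj h h' r) = σ (algebraMap R F r) :=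
  (Classical.choose_spec (h r)).symm

theorem algebraMap_sigmaR_symm (σ : F ≃+* F) (hinj : Function.Injective (algebraMap R F))
    (h : ∀ r : R, ∃ r' : R, σ (algebraMap R F r) = algebraMap R F r')
    (h' : ∀ r : R, ∃ r' : R, σ.symm (algebraMap R F r) = algebraMap R F r') (r : R) :
    algebraMap R F ((sigmaR σ hinj h h').symm r) = σ.symm (algebraMap R F r) :=
  (Classical.choose_spec (h' r)).symm

/-- `sigmaB` is `sigmaR`-semilinear. -/
theorem sigmaB_algebraMap (B : Subalgebra R F) (σ : F ≃+* F) (hB : ∀ x : F, x ∈ B ↔ σ x ∈ B)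
    (hinj : Function.Injective (algebraMap R F))
    (h : ∀ r : R, ∃ r' : R, σ (algebraMap R F r) = algebraMap R F r')
    (h' : ∀ r : R, ∃ r' : R, σ.symm (algebraMap R F r) = algebraMap R F r') (r : R) :
    sigmaB B σ hB (algebraMap R B r) = algebraMap R B (sigmaR σ hinj h h' r) := by
  apply Subtype.ext
  show σ (algebraMap R F r) = algebraMap R F (sigmaR σ hinj h h' r)
  rw [algebraMap_sigmaR]

/-- **`σ 𝔪 = 𝔪`** (elementwise): for an ideal `𝔪 ∋ π` of a `π`-saturated chart, `σ b - b ∈ π B ⊆ 𝔪`. -/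
theorem sigmaB_sub_mem (π : R) (B : Subalgebra R F) (O1 O2 : ValuationSubring F)
    (leO1 : ∀ x ∈ B, x ∈ O1) (leO2 : ∀ x ∈ B, x ∈ O2)
    (sat : ∀ b ∈ B, ∀ c : F, c ∈ O1 → c ∈ O2 → b = algebraMap R F π * c → c ∈ B)
    (σ : F ≃+* F) (hB : ∀ x : F, x ∈ B ↔ σ x ∈ B)
    (hcongr : ∀ x : F, x ∈ O1 → x ∈ O2 → PiO π O1 O2 (σ x - x))
    (b : B) : sigmaB B σ hB b - b ∈ Ideal.span {algebraMap R B π} := by
  obtain ⟨c, hc1, hc2, hc⟩ := hcongr b (leO1 _ b.2) (leO2 _ b.2)
  have hcB : c ∈ B := sat (σ b - b) (B.sub_mem ((hB b).mp b.2) b.2) c hc1 hc2 hc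
  rw [Ideal.mem_span_singleton']
  refine ⟨⟨c, hcB⟩, ?_⟩
  apply Subtype.ext
  show c * algebraMap R F π = σ b - b
  rw [hc, mul_comm]

theorem sigmaB_mem_iff (π : R) (B : Subalgebra R F) (O1 O2 : ValuationSubring F)
    (leO1 : ∀ x ∈ B, x ∈ O1) (leO2 : ∀ x ∈ B, x ∈ O2)
    (sat : ∀ b ∈ B, ∀ c : F, c ∈ O1 → c ∈ O2 → b = algebraMap R F π * c → c ∈ B)
    (σ : F ≃+* F) (hB : ∀ x : F, x ∈ B ↔ σ x ∈ B)
    (hcongr : ∀ x : F, x ∈ O1 → x ∈ O2 → PiO π O1 O2 (σ x - x))
    (𝔪 : Ideal B) (hπ𝔪 : algebraMap R B π ∈ 𝔪) (b : B) :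
    sigmaB B σ hB b ∈ 𝔪 ↔ b ∈ 𝔪 := by
  have h : sigmaB B σ hB b - b ∈ 𝔪 :=
    (Ideal.span_singleton_le_iff_mem 𝔪).mpr hπ𝔪
      (sigmaB_sub_mem π B O1 O2 leO1 leO2 sat σ hB hcongr b)
  constructor
  · intro hb
    have := 𝔪.sub_mem hb h
    rwa [sub_sub_cancel] at this
  · intro hb
    have := 𝔪.add_mem h hb
    rwa [sub_add_cancel] at this

/-- `σ 𝔪 = 𝔪` as an equality of ideals (`comap` form). -/
theorem comap_sigmaB_eq (π : R) (B : Subalgebra R F) (O1 O2 : ValuationSubring F)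
    (leO1 : ∀ x ∈ B, x ∈ O1) (leO2 : ∀ x ∈ B, x ∈ O2)
    (sat : ∀ b ∈ B, ∀ c : F, c ∈ O1 → c ∈ O2 → b = algebraMap R F π * c → c ∈ B)
    (σ : F ≃+* F) (hB : ∀ x : F, x ∈ B ↔ σ x ∈ B)
    (hcongr : ∀ x : F, x ∈ O1 → x ∈ O2 → PiO π O1 O2 (σ x - x))
    (𝔪 : Ideal B) (hπ𝔪 : algebraMap R B π ∈ 𝔪) :
    𝔪.comap (sigmaB B σ hB : B →+* B) = 𝔪 := by
  ext b
  rw [Ideal.mem_comap]
  exact sigmaB_mem_iff π B O1 O2 leO1 leO2 sat σ hB hcongr 𝔪 hπ𝔪 b

/-- `σ 𝔪 = 𝔪` as an equality of ideals (`map` form). -/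
theorem map_sigmaB_eq (π : R) (B : Subalgebra R F) (O1 O2 : ValuationSubring F)
    (leO1 : ∀ x ∈ B, x ∈ O1) (leO2 : ∀ x ∈ B, x ∈ O2)
    (sat : ∀ b ∈ B, ∀ c : F, c ∈ O1 → c ∈ O2 → b = algebraMap R F π * c → c ∈ B)
    (σ : F ≃+* F) (hB : ∀ x : F, x ∈ B ↔ σ x ∈ B)
    (hcongr : ∀ x : F, x ∈ O1 → x ∈ O2 → PiO π O1 O2 (σ x - x))
    (𝔪 : Ideal B) (hπ𝔪 : algebraMap R B π ∈ 𝔪) :
    𝔪.map (sigmaB B σ hB : B →+* B) = 𝔪 := by
  apply le_antisymm
  · rw [Ideal.map_le_iff_le_comap,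
      comap_sigmaB_eq π B O1 O2 leO1 leO2 sat σ hB hcongr 𝔪 hπ𝔪]
  · intro b hb
    have h1 : (sigmaB B σ hB).symm b ∈ 𝔪 := by
      rw [← sigmaB_mem_iff π B O1 O2 leO1 leO2 sat σ hB hcongr 𝔪 hπ𝔪, RingEquiv.apply_symm_apply]
      exact hb
    have h2 := Ideal.mem_map_of_mem (sigmaB B σ hB : B →+* B) h1
    rwa [RingEquiv.coe_toRingHom, RingEquiv.apply_symm_apply] at h2

/-- The complement of a prime `𝔪 ∋ π` is `σ`-stable: the hypothesis of
`IsLocalization.ringEquivOfRingEquiv` for the localisation `B_𝔪`. -/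
theorem map_primeCompl_sigmaB_eq (π : R) (B : Subalgebra R F) (O1 O2 : ValuationSubring F)
    (leO1 : ∀ x ∈ B, x ∈ O1) (leO2 : ∀ x ∈ B, x ∈ O2)
    (sat : ∀ b ∈ B, ∀ c : F, c ∈ O1 → c ∈ O2 → b = algebraMap R F π * c → c ∈ B)
    (σ : F ≃+* F) (hB : ∀ x : F, x ∈ B ↔ σ x ∈ B)
    (hcongr : ∀ x : F, x ∈ O1 → x ∈ O2 → PiO π O1 O2 (σ x - x))
    (𝔪 : Ideal B) [𝔪.IsPrime] (hπ𝔪 : algebraMap R B π ∈ 𝔪) :
    𝔪.primeCompl.map (sigmaB B σ hB).toMonoidHom = 𝔪.primeCompl := by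
  ext b
  constructor
  · rintro ⟨a, ha, rfl⟩
    show ¬ (sigmaB B σ hB a ∈ 𝔪)
    rw [sigmaB_mem_iff π B O1 O2 leO1 leO2 sat σ hB hcongr 𝔪 hπ𝔪]
    exact ha
  · intro hb
    refine ⟨(sigmaB B σ hB).symm b, ?_, ?_⟩
    · show ¬ ((sigmaB B σ hB).symm b ∈ 𝔪)
      rw [← sigmaB_mem_iff π B O1 O2 leO1 leO2 sat σ hB hcongr 𝔪 hπ𝔪, RingEquiv.apply_symm_apply]
      exact hb
    · show sigmaB B σ hB ((sigmaB B σ hB).symm b) = b
      exact RingEquiv.apply_symm_apply _ _

/-- `sigmaR π = π * unit` when `R` is a DVR with uniformiser `π` mapping into a valuation subring `O`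
in which `π` is not a unit. -/
theorem sigmaR_pi (π : R) (O : ValuationSubring F) (leO : ∀ r : R, algebraMap R F r ∈ O)
    (hnu : (algebraMap R F π)⁻¹ ∉ O)
    (dvrR : ∀ r : R, r ≠ 0 → ∃ (k : ℕ) (v : Rˣ), r = π ^ k * v)
    (σ : F ≃+* F) (hinj : Function.Injective (algebraMap R F))
    (h : ∀ r : R, ∃ r' : R, σ (algebraMap R F r) = algebraMap R F r')
    (h' : ∀ r : R, ∃ r' : R, σ.symm (algebraMap R F r) = algebraMap R F r')
    (h1 : σ (algebraMap R F π) / algebraMap R F π ∈ O)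
    (h2 : algebraMap R F π / σ (algebraMap R F π) ∈ O) :
    ∃ ε : Rˣ, sigmaR σ hinj h h' π = π * ε := by
  set p : F := algebraMap R F π with hp
  have hp0 : p ≠ 0 := by
    intro h0
    apply hnu
    rw [h0, inv_zero]
    exact O.zero_mem
  have hπ0 : π ≠ 0 := by
    rintro rfl
    apply hp0
    rw [hp, map_zero]
  have hs0 : sigmaR σ hinj h h' π ≠ 0 := by
    intro h0
    apply hπ0
    have := congrArg (sigmaR σ hinj h h').symm h0
    rwa [RingEquiv.symm_apply_apply, map_zero] at this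
  obtain ⟨k, v, hkv⟩ := dvrR _ hs0
  have hσp : σ p = p ^ k * algebraMap R F (v : R) := by
    rw [hp, ← algebraMap_sigmaR σ hinj h h' π, hkv, map_mul, map_pow]
  have hv : algebraMap R F (v : R) ∈ O := leO _
  have hvinv : (algebraMap R F (v : R))⁻¹ ∈ O := by
    have : (algebraMap R F (v : R))⁻¹ = algebraMap R F ((v⁻¹ : Rˣ) : R) := by
      rw [inv_eq_iff_eq_inv, ← one_div, eq_div_iff, ← map_mul, Units.mul_inv, map_one]
      have : algebraMap R F ((v⁻¹ : Rˣ) : R) * algebraMap R F (v : R) = 1 := by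
        rw [← map_mul, Units.inv_mul, map_one]
      exact left_ne_zero_of_mul_eq_one this
    rw [this]
    exact leO _
  have hv0 : algebraMap R F (v : R) ≠ 0 := by
    intro h0
    rw [h0, inv_zero] at hvinv
    have : σ p = 0 := by rw [hσp, h0, mul_zero]
    exact hp0 ((map_eq_zero σ).mp this)
  have hk : k = 1 := by
    rcases Nat.lt_trichotomy k 1 with hlt | heq | hgt
    · -- `k = 0`: `σ p / p = v / p`, so `p⁻¹ ∈ O`
      exfalso
      have hk0 : k = 0 := by omega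
      apply hnu
      have e : p⁻¹ = (σ p / p) * (algebraMap R F (v : R))⁻¹ := by
        rw [hσp, hk0, pow_zero, one_mul]
        field_simp
      rw [e]
      exact O.mul_mem _ _ h1 hvinv
    · exact heq
    · -- `k ≥ 2`: `p / σ p = (p ^ (k-1) v)⁻¹`
      exfalso
      obtain ⟨j, rfl⟩ : ∃ j, k = j + 2 := ⟨k - 2, by omega⟩
      apply hnu
      have e : p⁻¹ = (p / σ p) * algebraMap R F (v : R) * p ^ j := by
        rw [hσp]
        field_simp
        ring
      rw [e]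
      exact O.mul_mem _ _ (O.mul_mem _ _ h2 hv) (pow_mem (leO π) j)
  refine ⟨v, ?_⟩
  rw [hkv, hk, pow_one]

end Restrict

section Adapter

variable {R F : Type*} [CommRing R] [Field F] [Algebra R F]

/-- **Adapter** from the one-valuation congruences (`GalGauss21.IsInertial.sub_mem` for `O1` and
for `O2`) to the two-valuation congruence `PiO π O1 O2 (σ x - x)`. -/
theorem piO_of_sub_mem (π : R) (O1 O2 : ValuationSubring F) (pi_ne : algebraMap R F π ≠ 0)
    (σ : F ≃+* F)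
    (h1 : ∀ x ∈ O1, ∃ c ∈ O1, σ x - x = algebraMap R F π * c)
    (h2 : ∀ x ∈ O2, ∃ c ∈ O2, σ x - x = algebraMap R F π * c) :
    ∀ x : F, x ∈ O1 → x ∈ O2 → PiO π O1 O2 (σ x - x) := by
  intro x hx1 hx2
  obtain ⟨c1, hc1, e1⟩ := h1 x hx1
  obtain ⟨c2, hc2, e2⟩ := h2 x hx2
  have : c1 = c2 := mul_left_cancel₀ pi_ne (e1.symm.trans e2)
  subst this
  exact ⟨c1, hc1, hc2, e1⟩

/-- `sigmaR_pi` with the hypothesis in the shape of the field `map_p` of `GalGauss21.IsInertial`. -/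
theorem sigmaR_pi' (π : R) (O : ValuationSubring F) (leO : ∀ r : R, algebraMap R F r ∈ O)
    (hnu : (algebraMap R F π)⁻¹ ∉ O)
    (dvrR : ∀ r : R, r ≠ 0 → ∃ (k : ℕ) (v : Rˣ), r = π ^ k * v)
    (σ : F ≃+* F) (hinj : Function.Injective (algebraMap R F))
    (h : ∀ r : R, ∃ r' : R, σ (algebraMap R F r) = algebraMap R F r')
    (h' : ∀ r : R, ∃ r' : R, σ.symm (algebraMap R F r) = algebraMap R F r')
    (hp : ∃ ε : F, ε ∈ O ∧ ε⁻¹ ∈ O ∧ σ (algebraMap R F π) = algebraMap R F π * ε) :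
    ∃ ε : Rˣ, sigmaR σ hinj h h' π = π * ε := by
  obtain ⟨ε, hε, hεi, e⟩ := hp
  have hp0 : algebraMap R F π ≠ 0 := by
    intro h0
    apply hnu
    rw [h0, inv_zero]
    exact O.zero_mem
  have hε0 : ε ≠ 0 := by
    rintro rfl
    rw [mul_zero] at e
    exact hp0 ((map_eq_zero σ).mp e)
  refine sigmaR_pi π O leO hnu dvrR σ hinj h h' ?_ ?_
  · have : σ (algebraMap R F π) / algebraMap R F π = ε := by
      rw [e]; field_simp
    rw [this]; exact hε
  · have : algebraMap R F π / σ (algebraMap R F π) = ε⁻¹ := by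
      rw [e]; field_simp
    rw [this]; exact hεi

end Adapter

end Fermat.Agent.ES.N34.SigmaRes15
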