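/-
Program N (S34), node chapter (helper11, DRAFT): the local equation `ξ_P` of a GOOD section.

Output of the chapter, in the shape consumed by the (U3) assembly at a node:
* `exists_xi_of_good` : a good section `ev` has `ξ ∈ A`, `ev ξ = 0`, with
  `ker ev = {b | ∃ N, π^N b ∈ (ξ)}` (so `ξ` is a uniformiser of `A_{ker ev}` and lies in no other
  prime `𝔮 ∌ π` that does not contain `ker ev`);
* `ker_le_of_xi_mem` : a prime `𝔮 ∌ π` containing `ξ` contains `ker ev`.
Together with `NodeDich11.eq_of_not_good` / `NodeGal11.conj_eq_of_not_good` (the at most one non-good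
section is fixed by every automorphism) this is (INV) of N_NOTE27 §3 without any normal form.
-/
import Mathlib
import Fermat.Agent.ES.N34.NodeLemma11
import Fermat.Agent.ES.N34.NodeDich11

set_option autoImplicit false

namespace Fermat.Agent.ES.N34.NodeXi11

open IsLocalRing NodeLemma11 NodeDich11

variable {R A : Type*} [CommRing R] [IsDomain R] [CommRing A] [Algebra R A]
  [IsLocalRing A] [IsNoetherianRing A]

/-- **Lemma A for a good section** (saturation form). -/
theorem exists_xi_of_good (π : R) (hπ0 : π ≠ 0)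
    (dvrR : ∀ r : R, r ≠ 0 → ∃ (k : ℕ) (v : Rˣ), r = π ^ k * v)
    (hπ : algebraMap R A π ∈ maximalIdeal A)
    (ev : A →ₐ[R] R) (hloc : ∀ b ∈ maximalIdeal A, ∃ r : R, ev b = π * r)
    (hgood : Good π ev) :
    ∃ ξ : A, ev ξ = 0 ∧ ξ ∈ maximalIdeal A ∧
      RingHom.ker (ev : A →+* R) = sat (algebraMap R A π) (Ideal.span {ξ}) := by
  obtain ⟨j, x, y, w, T, hxy⟩ := hgood
  have hev_alg : ∀ r : R, ev (algebraMap R A r) = r := fun r => by
    rw [AlgHom.commutes]; rfl
  -- the one-sided statement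
  have key : ∀ (x y : A), maximalIdeal A ≤ Ideal.span {x, y, algebraMap R A π} →
      x ∈ maximalIdeal A → x * y = algebraMap R A π ^ (j + 1) * w → ¬ π ^ (j + 1) ∣ ev x →
      ∃ ξ : A, ev ξ = 0 ∧ ξ ∈ maximalIdeal A ∧
        RingHom.ker (ev : A →+* R) = sat (algebraMap R A π) (Ideal.span {ξ}) := by
    intro x y hgen hxm hmul hnd
    have hx0 : ev x ≠ 0 := by
      intro h; apply hnd; rw [h]; exact dvd_zero _
    obtain ⟨i, a₀, hi⟩ := dvrR (ev x) hx0
    have hilt : i < j + 1 := by
      by_contra hge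
      apply hnd
      rw [hi]
      exact Dvd.dvd.mul_right (pow_dvd_pow π (by omega)) _
    have hipos : 0 < i := by
      rcases Nat.eq_zero_or_pos i with h0 | h0
      · exfalso
        subst h0
        obtain ⟨r, hr⟩ := hloc x hxm
        rw [hi, pow_zero, one_mul] at hr
        -- a unit equals π * r: π is a unit, but π maps into 𝔪
        have hu : IsUnit (π * r) := hr ▸ a₀.isUnit
        have hπu : IsUnit π := isUnit_of_mul_isUnit_left hu
        have : IsUnit (algebraMap R A π) := hπu.map _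
        exact (IsLocalRing.mem_maximalIdeal _).mp hπ this
      · exact h0
    refine ⟨x - algebraMap R A (ev x), ?_, ?_, ?_⟩
    · rw [map_sub, hev_alg, sub_self]
    · refine Ideal.sub_mem _ hxm ?_
      obtain ⟨r, hr⟩ := hloc x hxm
      rw [hr, map_mul]
      exact Ideal.mul_mem_right _ _ hπ
    · exact ker_ev_eq_sat ev π (a₀ : R) ((a₀⁻¹ : Rˣ) : R) (by simp) hπ x y w hgen (j + 1) i hipos
        hilt hmul hi hπ0
  have hgen1 : maximalIdeal A ≤ Ideal.span {x, y, algebraMap R A π} := by
    refine T.gen.trans (Ideal.span_mono ?_)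
    intro t ht
    simp only [Set.mem_insert_iff, Set.mem_singleton_iff] at ht ⊢
    tauto
  have hgen2 : maximalIdeal A ≤ Ideal.span {y, x, algebraMap R A π} := by
    refine T.gen.trans (Ideal.span_mono ?_)
    intro t ht
    simp only [Set.mem_insert_iff, Set.mem_singleton_iff] at ht ⊢
    tauto
  rcases hxy with h | h
  · exact key x y hgen1 T.x_mem T.mul h
  · exact key y x hgen2 T.y_mem (by rw [mul_comm]; exact T.mul) h

omit [IsDomain R] [IsLocalRing A] [IsNoetherianRing A] in
/-- a prime not containing `π` that contains `ξ` contains the `π`-saturation of `(ξ)` -/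
theorem sat_le_of_mem (π : R) (ξ : A) (𝔮 : Ideal A) [𝔮.IsPrime]
    (hπ𝔮 : algebraMap R A π ∉ 𝔮) (hξ : ξ ∈ 𝔮) :
    sat (algebraMap R A π) (Ideal.span {ξ}) ≤ 𝔮 := by
  rintro b ⟨N, hN⟩
  have h1 : algebraMap R A π ^ N * b ∈ 𝔮 :=
    (Ideal.span_singleton_le_iff_mem 𝔮).mpr hξ hN
  rcases Ideal.IsPrime.mem_or_mem ‹_› h1 with h | h
  · exact absurd (Ideal.IsPrime.mem_of_pow_mem ‹_› N h) hπ𝔮
  · exact h

end Fermat.Agent.ES.N34.NodeXi11
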