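/-
Program N (S34), brick A1 (helper13), part 1: **abstract NUM**.

`R` a DVR with uniformiser `π`, `K = Frac R`, `F / K` a function field with a nodal two-chart model
(`NumData13.NodalNumData`, the deliverable of MODEL), `g` a `K`-semilinear automorphism of `F` which
is inertial for both Gauss valuation rings `O1`, `O2` (`GalGauss21.IsInertial`, the deliverable of
GAL), `m` invertible in `R`, `f ∈ F^×` with `m ∣ ord_v f` at all places.  If the node assembly (L4)
provides `NodalCL13.NodeDatum` for the second difference `u = g(g f / f) / (g f / f)` at every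
two-branch point, then `u = c⁻¹ s^m`, i.e.

  `s ^ m * (g f) ^ 2 = c • (g (g f) * f)`      (the literal conclusion of `UNum`).

(U1) is `GalGauss21.secondDiff_sub_one_two`; (U2) is `GalPlaces1.dvd_ord_sd`.
-/
import Mathlib
import Fermat.Prelude.Def_AlgebraicCurve_BaseChangeGalois
import Fermat.Agent.ES.N34.NumData13
import Fermat.Agent.ES.N34.GalGauss21
import Fermat.Agent.ES.N34.GalPlaces1

set_option autoImplicit false

namespace Fermat.Agent.ES.N34.NumAbs13

open AlgebraicCurve
open Fermat.Agent.ES.N34.NodalCore13 Fermat.Agent.ES.N34.NodalCL13 Fermat.Agent.ES.N34.NumData13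
  Fermat.Agent.ES.N34.GalGauss21 Fermat.Agent.ES.N34.GalPlaces1

section

variable {K F : Type*} [Field K] [Field F] [Algebra K F]

/-- helper1's second difference (semilinear automorphisms) is helper21's (ring automorphisms). -/
theorem sd_eq_secondDiff (g g' : SemilinearAut K F) (f : F) :
    sd g g' f = secondDiff (SemilinearAut.toRingAut g) (SemilinearAut.toRingAut g') f := rfl

/-- `u · (g f)^2 = g (g f) · f` for the second difference `u` of `f ≠ 0`. -/
theorem secondDiff_self_mul (σ : F ≃+* F) {f : F} (hf : f ≠ 0) :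
    secondDiff σ σ f * (σ f) ^ 2 = σ (σ f) * f := by
  have h1 : σ f ≠ 0 := (map_ne_zero_iff σ σ.injective).mpr hf
  unfold secondDiff
  rw [map_div₀]
  field_simp

end

section

variable {R K F : Type*} [CommRing R] [Field K] [Field F] [Algebra R K] [Algebra K F]
  [Algebra R F] [IsScalarTower R K F]

/-- **Abstract NUM.** -/
theorem num_abs {π : R} {t : F} {B0 B1 : Subalgebra R F} {O1 O2 : ValuationSubring F}
    (D : NodalNumData R K F π t B0 B1 O1 O2) (g : SemilinearAut K F)
    (hg1 : IsInertial O1 (algebraMap R F π) (SemilinearAut.toRingAut g))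
    (hg2 : IsInertial O2 (algebraMap R F π) (SemilinearAut.toRingAut g))
    (m : ℕ) (hm : 0 < m) (minv : R) (hminv : (m : R) * minv = 1) (f : F) (hf : f ≠ 0)
    (hord : ∀ v : Place K F, (m : ℤ) ∣ v.ord f)
    (hU3_0 : ∀ 𝔪 : Ideal B0, 𝔪.IsMaximal → algebraMap R B0 π ∈ 𝔪 →
      ¬ OffBranch π B0 O1 𝔪 → ¬ OffBranch π B0 O2 𝔪 → NodeCoords π B0 𝔪 →
        NodeDatum π B0 O1 O2 m
          (secondDiff (SemilinearAut.toRingAut g) (SemilinearAut.toRingAut g) f) 𝔪)
    (hU3_1 : ∀ 𝔪 : Ideal B1, 𝔪.IsMaximal → algebraMap R B1 π ∈ 𝔪 →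
      ¬ OffBranch π B1 O1 𝔪 → ¬ OffBranch π B1 O2 𝔪 → NodeCoords π B1 𝔪 →
        NodeDatum π B1 O1 O2 m
          (secondDiff (SemilinearAut.toRingAut g) (SemilinearAut.toRingAut g) f) 𝔪) :
    ∃ (c : K) (s : F), c ≠ 0 ∧
      s ^ m * (SemilinearAut.toRingAut g f) ^ 2 =
        c • (SemilinearAut.toRingAut g (SemilinearAut.toRingAut g f) * f) := by
  set σ := SemilinearAut.toRingAut g with hσ
  have M := D.model
  -- (U1)
  have hu1 : PiO π O1 O2 (secondDiff σ σ f - 1) :=
    secondDiff_sub_one_two π O1 O2 hg1 hg1 hg2 hg2 M.pi_ne M.unif1 M.unif2 M.arch1 M.arch2 hf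
  -- (U2)
  have hu2 : ∀ v : Place K F, (m : ℤ) ∣ v.ord (secondDiff σ σ f) := fun v =>
    dvd_ord_sd g g (m : ℤ) hf hord v
  obtain ⟨s, hs0, c, hc0, hsc⟩ := D.cl m hm minv hminv (secondDiff σ σ f) hu1 hu2 hU3_0 hU3_1
  refine ⟨c, s, hc0, ?_⟩
  rw [hsc, Algebra.smul_def, mul_assoc, secondDiff_self_mul σ hf]

end

end Fermat.Agent.ES.N34.NumAbs13
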