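/-
Program N (S34), brick A1 (helper13), part 3: **glue MODEL + GAL + L3/L4 ⊢ NUM (abstract).**

Generic `R K F` (as in `NodalCL13`), `R` a DVR.  Inputs:
* `D : NumData13.NodalNumData R K F π t B0 B1 O1 O2` (MODEL, M9), `π` irreducible;
* `hσ : GalChart21.SigmaData π t O1 O2 σ` for `σ` the ring automorphism of a `K`-semilinear
  automorphism `g` of `F` (GAL, G4);
* `f ≠ 0` with `m ∣ ord_v f` everywhere, finite support, RATIONAL support.
Outputs: `hU3_0`, `hU3_1` of `NumAbs13.num_abs` literally (`nodeDatum_B0`, `nodeDatum_B1`), via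
helper10's `NodeSec10.nodeDatum_of_rational` (= L3 `PlaceSec10` + L4 `NodeGlue6`/`NodeAsm6`); and
`num_of_model`, the conclusion of `UNum`.
-/
import Mathlib
import Fermat.Agent.ES.N34.NumAbs13
import Fermat.Agent.ES.N34.GalChart21
import Fermat.Agent.ES.N34.NodeSec10

set_option autoImplicit false
set_option linter.unusedSectionVars false

namespace Fermat.Agent.ES.N34.NumGlue13

open AlgebraicCurve
open Fermat.Agent.ES.N34.NodalCore13 Fermat.Agent.ES.N34.NodalCL13 Fermat.Agent.ES.N34.NumData13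
  Fermat.Agent.ES.N34.GalGauss21 Fermat.Agent.ES.N34.GalChart21 Fermat.Agent.ES.N34.NumAbs13

variable {R K F : Type*} [CommRing R] [IsDomain R] [IsDiscreteValuationRing R] [Field K] [Field F]
  [Algebra R K] [Algebra K F] [Algebra R F] [IsScalarTower R K F]

variable {π : R} {t : F} {B0 B1 : Subalgebra R F} {O1 O2 : ValuationSubring F}

/-- (U3) on the chart `B0`. -/
theorem nodeDatum_B0 (D : NodalNumData R K F π t B0 B1 O1 O2) (hπ : Irreducible π)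
    (g : SemilinearAut K F) (hσ : SigmaData π t O1 O2 (SemilinearAut.toRingAut g))
    (m : ℕ) (hm : 0 < m) (f : F) (hf : f ≠ 0) (hord : ∀ v : Place K F, (m : ℤ) ∣ v.ord f)
    (hfin : {v : Place K F | v.ord f ≠ 0}.Finite)
    (hrat : ∀ v : Place K F, v.ord f ≠ 0 → Function.Surjective (algebraMap K v.ResidueField))
    (𝔪 : Ideal B0) (h𝔪 : 𝔪.IsMaximal) (hπ𝔪 : algebraMap R B0 π ∈ 𝔪)
    (hnc : NodeCoords π B0 𝔪) :
    NodeDatum π B0 O1 O2 m
      (secondDiff (SemilinearAut.toRingAut g) (SemilinearAut.toRingAut g) f) 𝔪 := by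
  have M := D.model
  have := h𝔪.isPrime
  obtain ⟨x₀, y₀, hx₀, hy₀, ⟨d₀, hd₀, w₀, hmul₀⟩, hgen₀⟩ := hnc
  exact NodeSec10.nodeDatum_of_rational (K := K) π hπ t B0 O1 O2 M.t_mem D.noeth0 D.fracR D.dvrR
    M.pi_ne M.pi_nonunit1 M.intcl0 M.int0 D.frac0 M.le_O1_0 M.le_O2_0 M.unif1 M.unif2 M.arch1
    M.arch2 M.sat0 𝔪 hπ𝔪 x₀ y₀ w₀ d₀ hx₀ hy₀ hgen₀ hd₀ hmul₀ g hσ.inert1 hσ.inert2
    (fun x => (hσ.mem_B0_iff M x).symm) hσ.semilin hσ.semilin_symm m hm f hf hord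
    (hfin.subset fun v hv => hv.2) (fun v _ hv => hrat v hv)

/-- (U3) on the chart `B1`. -/
theorem nodeDatum_B1 (D : NodalNumData R K F π t B0 B1 O1 O2) (hπ : Irreducible π)
    (g : SemilinearAut K F) (hσ : SigmaData π t O1 O2 (SemilinearAut.toRingAut g))
    (m : ℕ) (hm : 0 < m) (f : F) (hf : f ≠ 0) (hord : ∀ v : Place K F, (m : ℤ) ∣ v.ord f)
    (hfin : {v : Place K F | v.ord f ≠ 0}.Finite)
    (hrat : ∀ v : Place K F, v.ord f ≠ 0 → Function.Surjective (algebraMap K v.ResidueField))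
    (𝔪 : Ideal B1) (h𝔪 : 𝔪.IsMaximal) (hπ𝔪 : algebraMap R B1 π ∈ 𝔪)
    (hnc : NodeCoords π B1 𝔪) :
    NodeDatum π B1 O1 O2 m
      (secondDiff (SemilinearAut.toRingAut g) (SemilinearAut.toRingAut g) f) 𝔪 := by
  have M := D.model
  have := h𝔪.isPrime
  obtain ⟨x₀, y₀, hx₀, hy₀, ⟨d₀, hd₀, w₀, hmul₀⟩, hgen₀⟩ := hnc
  exact NodeSec10.nodeDatum_of_rational (K := K) π hπ t⁻¹ B1 O1 O2 M.tinv_mem D.noeth1 D.fracR
    D.dvrR M.pi_ne M.pi_nonunit1 M.intcl1 M.int1 D.frac1 M.le_O1_1 M.le_O2_1 M.unif1 M.unif2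
    M.arch1 M.arch2 M.sat1 𝔪 hπ𝔪 x₀ y₀ w₀ d₀ hx₀ hy₀ hgen₀ hd₀ hmul₀ g hσ.inert1 hσ.inert2
    (fun x => (hσ.mem_B1_iff M x).symm) hσ.semilin hσ.semilin_symm m hm f hf hord
    (hfin.subset fun v hv => hv.2) (fun v _ hv => hrat v hv)

/-- **NUM from MODEL + GAL** (rational support). -/
theorem num_of_model (D : NodalNumData R K F π t B0 B1 O1 O2) (hπ : Irreducible π)
    (g : SemilinearAut K F) (hσ : SigmaData π t O1 O2 (SemilinearAut.toRingAut g))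
    (m : ℕ) (hm : 0 < m) (minv : R) (hminv : (m : R) * minv = 1) (f : F) (hf : f ≠ 0)
    (hord : ∀ v : Place K F, (m : ℤ) ∣ v.ord f)
    (hfin : {v : Place K F | v.ord f ≠ 0}.Finite)
    (hrat : ∀ v : Place K F, v.ord f ≠ 0 → Function.Surjective (algebraMap K v.ResidueField)) :
    ∃ (c : K) (s : F), c ≠ 0 ∧
      s ^ m * (SemilinearAut.toRingAut g f) ^ 2 =
        c • (SemilinearAut.toRingAut g (SemilinearAut.toRingAut g f) * f) :=
  num_abs D g hσ.inert1 hσ.inert2 m hm minv hminv f hf hord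
    (fun 𝔪 h𝔪 hπ𝔪 _ _ hnc =>
      nodeDatum_B0 D hπ g hσ m hm f hf hord hfin hrat 𝔪 h𝔪 hπ𝔪 hnc)
    (fun 𝔪 h𝔪 hπ𝔪 _ _ hnc =>
      nodeDatum_B1 D hπ g hσ m hm f hf hord hfin hrat 𝔪 h𝔪 hπ𝔪 hnc)

end Fermat.Agent.ES.N34.NumGlue13
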