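/-
Program N (S34), brick A1 (helper13), part 4: **`UNum` from MODEL + GAL.**

Generic layer (as in Program H's `NumInst4`: typeclass search at the concrete number-field types is
slow, so everything is stated for an arbitrary field `Kt`, a discrete valuation subring `O` of `Kt`
and a subfield `E ⊂ Kt((q))`):

* `UStmt E q G` : the statement (U) for a set `G` of `Kt`-semilinear automorphisms of `E`;
* `NumReadyAt O E G` : the deliverables of MODEL (`NumData13.NodalNumData` over `R = O`, `F = E`,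
  with an irreducible `π`) and of GAL (`GalChart21.SigmaData` for every `g ∈ G`);
* `uStmt_of_ready` : `NumReadyAt` + finite supports + (`q ∤ m` ⇒ `m ∈ O^×`) ⇒ `UStmt`
  (via `NumGlue13.num_of_model`).

Concrete layer: `IfaceN4.UNum q N A K` follows from `UStmt (FK N K) q (inertiaSet N A K)`
(`unum_of_uStmt`); finite supports are `GalFinite21.finite_support_ord_FK`; hence `unum_of_ready`,
`unumLarge_of_ready`.
-/
import Mathlib
import Fermat.Agent.ES.N34.IfaceN4
import Fermat.Agent.ES.N34.NumGlue13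
import Fermat.Agent.ES.N34.GalBase21
import Fermat.Agent.ES.N34.GalFinite21
import Fermat.Agent.RED.NumInst4
import Fermat.Agent.RED.DESC.NumberFieldDVR27

set_option autoImplicit false
set_option synthInstance.maxHeartbeats 400000

open HahnSeries AlgebraicCurve ModularCurve

noncomputable section

namespace Fermat.Agent.ES.N34.NumReady13

open Fermat.Agent.ES.N34.NodalCore13 Fermat.Agent.ES.N34.NodalCL13 Fermat.Agent.ES.N34.NumData13
  Fermat.Agent.ES.N34.GalGauss21 Fermat.Agent.ES.N34.GalChart21 Fermat.Agent.ES.N34.NumGlue13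

section Generic

variable {Kt : Type*} [Field Kt]

/-- **(U)** over `(Kt, E)` for a set `G` of semilinear automorphisms; conclusion up to a nonzero
constant of `Kt`; the support of `div f` consists of rational places. -/
def UStmt (E : IntermediateField Kt (LaurentSeries Kt)) (q : ℕ) (G : Set (SemilinearAut Kt E)) :
    Prop :=
  ∀ g ∈ G, ∀ m : ℕ, ¬ q ∣ m → ∀ f : E, f ≠ 0 →
    (∀ v : Place Kt E, (m : ℤ) ∣ v.ord f) →
    (∀ v : Place Kt E, v.ord f ≠ 0 → Function.Surjective (algebraMap Kt v.ResidueField)) →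
    ∃ (c : Kt) (s : E), c ≠ 0 ∧
      s ^ m * (SemilinearAut.toRingAut g f) ^ 2 =
        c • (SemilinearAut.toRingAut g (SemilinearAut.toRingAut g f) * f)

variable (O : ValuationSubring Kt) (E : IntermediateField Kt (LaurentSeries Kt))

/-- **Everything NUM needs over `(O, E)`**: the nodal model and the inertia data. -/
def NumReadyAt (G : Set (SemilinearAut Kt E)) : Prop :=
  ∃ (π : O) (t : E) (B0 B1 : Subalgebra ↥O ↥E) (O1 O2 : ValuationSubring ↥E),
    Irreducible π ∧
    (haveI := Fermat.Agent.RED.NumInst4.isScalarTower_OE O E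
     NodalNumData ↥O Kt ↥E π t B0 B1 O1 O2) ∧
    ∀ g ∈ G, SigmaData π t O1 O2 (SemilinearAut.toRingAut g)

variable {O E}

/-- **(U) from the bundle.** -/
theorem uStmt_of_ready [IsDiscreteValuationRing O] {q : ℕ} {G : Set (SemilinearAut Kt E)}
    (hinv : ∀ m : ℕ, ¬ q ∣ m → ∃ minv : O, (m : O) * minv = 1)
    (hfin : ∀ f : E, f ≠ 0 → {v : Place Kt E | v.ord f ≠ 0}.Finite)
    (h : NumReadyAt O E G) : UStmt E q G := by
  obtain ⟨π, t, B0, B1, O1, O2, hπ, D, hG⟩ := h
  intro g hg m hm f hf hord hrat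
  have hm0 : 0 < m := Nat.pos_of_ne_zero fun h => hm (h ▸ dvd_zero q)
  obtain ⟨minv, hminv⟩ := hinv m hm
  have := Fermat.Agent.RED.NumInst4.isScalarTower_OE O E
  exact num_of_model D hπ g (hG g hg) m hm0 minv hminv f hf hord (hfin f hf) hrat

end Generic

section Concrete

open Fermat.Agent.RED.Interface4 Fermat.Agent.RED.DESC Fermat.Agent.ES.N34.IfaceN4
  Fermat.Agent.ES.N34.GalBase21

theorem toRingAut_galK_eq (N : ℕ) (K : IntermediateField ℚ Qbar) [Normal ℚ K]
    (τ : Qbar ≃ₐ[ℚ] Qbar) :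
    SemilinearAut.toRingAut (galK K N τ) = gK N K (τ.restrictNormal K) := rfl

/-- The inertia group of `A` acting on `K·F_N`. -/
def inertiaSet (N : ℕ) (A : ValuationSubring Qbar) (K : IntermediateField ℚ Qbar) [Normal ℚ K] :
    Set (SemilinearAut K (FK N K)) :=
  {g | ∃ τ ∈ A.inertiaSubgroupIn ℚ, g = galK K N τ}

/-- `UNum` from `UStmt` for `(K, K·F_N)` and the inertia group of `A`. -/
theorem unum_of_uStmt (q N : ℕ) (A : ValuationSubring Qbar) (K : IntermediateField ℚ Qbar)
    [Normal ℚ K] (h : UStmt (FK N K) q (inertiaSet N A K)) : UNum q N A K := by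
  intro τ hτ m hm f hf hord hrat
  exact h (galK K N τ) ⟨τ, hτ, rfl⟩ m hm f hf hord hrat

/-- **Everything NUM needs over one finite normal `K ⊂ ℚ̄`**:
`∃ π t B0 B1 O1 O2, Irreducible π ∧ NodalNumData (A∩K) K (K·F_N) π t B0 B1 O1 O2 ∧
  ∀ τ ∈ I_A, SigmaData π t O1 O2 (toRingAut (galK K N τ))`. -/
def NumReady (N : ℕ) (A : ValuationSubring Qbar) (K : IntermediateField ℚ Qbar) [Normal ℚ K] :
    Prop :=
  NumReadyAt (AK A K) (FK N K) (inertiaSet N A K)

/-- **`UNum` over one `K` from the bundle.** -/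
theorem unum_of_ready {q : ℕ} (hq : q.Prime) (N : ℕ) [NeZero N] {A : ValuationSubring Qbar}
    (hA : A.LiesOverPrime q) (K : IntermediateField ℚ Qbar) [Normal ℚ K]
    [FiniteDimensional ℚ K] (h : NumReady N A K) : UNum q N A K := by
  have hdvr : IsDiscreteValuationRing ↥(AK A K) :=
    NumberFieldDVR27.isDiscreteValuationRing_AK A K hq.ne_zero hA
  exact unum_of_uStmt q N A K
    (uStmt_of_ready (Fermat.Agent.RED.NumInst4.exists_inv_of_not_dvd hq hA K)
      (fun f hf => Fermat.Agent.ES.N34.GalFinite21.finite_support_ord_FK N K hf) h)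

/-- **`UNumLarge` from the bundle over all sufficiently large `K`.** -/
theorem unumLarge_of_ready {q : ℕ} (hq : q.Prime) (N : ℕ) [NeZero N] {A : ValuationSubring Qbar}
    (hA : A.LiesOverPrime q)
    (h : ∃ K₀ : IntermediateField ℚ Qbar, FiniteDimensional ℚ K₀ ∧
      ∀ (K : IntermediateField ℚ Qbar) [Normal ℚ K], FiniteDimensional ℚ K → K₀ ≤ K →
        NumReady N A K) : UNumLarge q N A := by
  obtain ⟨K₀, hK₀, hK⟩ := h
  exact ⟨K₀, hK₀, fun K _ hfd hle => unum_of_ready hq N hA K (hK K hfd hle)⟩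

end Concrete

end Fermat.Agent.ES.N34.NumReady13
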