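/-
Program N (S34), brick A1 (helper13), part 5: **NUM** — `IfaceN4.NumStep` from the deliverable of
MODEL (M9).

`ModelInput13.ModelInput n e q M' A` is the literal statement NUM consumes: over every sufficiently
large number field `K ⊂ ℚ̄` the ModelDefs9 data `(tN, B0, B1, O1, O2)` at level `M' * q` form a
`NumData13.NodalNumData` for every uniformiser `π` of `A ∩ K`.  GAL (`GalModel21.sigmaData`) and the
node chapter (`NodeSec10`, inside `NumGlue13`) are plugged in here.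
-/
import Mathlib
import Fermat.Agent.ES.N34.NumReady13
import Fermat.Agent.ES.N34.ModelInput13
import Fermat.Agent.ES.N34.GalModel21

set_option autoImplicit false
set_option synthInstance.maxHeartbeats 400000

open HahnSeries AlgebraicCurve ModularCurve

noncomputable section

namespace Fermat.Agent.ES.N34.NumN13

open Fermat.Agent.RED.Interface4 Fermat.Agent.RED.DESC Fermat.Agent.RED.PUR.GaussGen8
  Fermat.Agent.RED.BASE.EtaQuot12
  Fermat.Agent.ES.N34.IfaceN4 Fermat.Agent.ES.N34.NumData13 Fermat.Agent.ES.N34.GalBase21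
  Fermat.Agent.ES.N34.GalChart21 Fermat.Agent.ES.N34.ModelDefs9 Fermat.Agent.ES.N34.NumReady13
  Fermat.Agent.ES.N34.ModelInput13

/-- **`UNumLarge` at level `M' * q` from MODEL.** -/
theorem unumLarge_of_model {q : ℕ} (hq : q.Prime) {A : ValuationSubring Qbar}
    (hA : A.LiesOverPrime q) (n e M' : ℕ) [NeZero n] [NeZero M'] [NeZero q]
    (h : ModelInput n e q M' A) : UNumLarge q (M' * q) A := by
  obtain ⟨K₀, hK₀, hK⟩ := h
  refine unumLarge_of_ready hq (M' * q) hA ⟨K₀, hK₀, fun K _ hfd hle => ?_⟩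
  obtain ⟨ht, hE, hmodel⟩ := hK K hfd hle
  have hdvr : IsDiscreteValuationRing ↥(AK A K) :=
    NumberFieldDVR27.isDiscreteValuationRing_AK A K hq.ne_zero hA
  obtain ⟨ϖ, hϖ⟩ := IsDiscreteValuationRing.exists_irreducible ↥(AK A K)
  have hπ : IsUnif (AK A K) ϖ := isUnif_of_irreducible (AK A K) hϖ
  refine ⟨ϖ, tN q ht, B0 A q ht, B1 A q ht, O1 M' q hπ hE, O2 M' q hπ hE, hϖ, hmodel ϖ hπ, ?_⟩
  rintro g ⟨τ, hτ, rfl⟩
  exact Fermat.Agent.ES.N34.GalModel21.sigmaData hτ hπ hE n e (tN q ht) (coe_tN q ht)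

/-- **NUM** from MODEL: `(n, e) = (4, 8)` for odd `q`, `(9, 3)` for `q = 2`. -/
theorem numStep_of_model
    (hodd : ∀ (q M' : ℕ) [NeZero M'] [NeZero q] (A : ValuationSubring Qbar), q.Prime → ¬ q ∣ M' →
      q ≠ 2 → 4 ∣ M' → A.LiesOverPrime q → ModelInput 4 8 q M' A)
    (htwo : ∀ (M' : ℕ) [NeZero M'] (A : ValuationSubring Qbar), ¬ 2 ∣ M' →
      9 ∣ M' → A.LiesOverPrime 2 → ModelInput 9 3 2 M' A) : NumStep := by
  intro q M' A hq hqM hc hA
  have hM' : NeZero M' := ⟨fun h => hqM (h ▸ dvd_zero q)⟩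
  have hq' : NeZero q := ⟨hq.ne_zero⟩
  by_cases h2 : q = 2
  · subst h2
    rw [if_pos rfl] at hc
    exact unumLarge_of_model hq hA 9 3 M' (htwo M' A hqM hc hA)
  · rw [if_neg h2] at hc
    exact unumLarge_of_model hq hA 4 8 M' (hodd q M' A hq hqM h2 hc hA)

end Fermat.Agent.ES.N34.NumN13
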