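/-
Program N (S34), brick A1 (helper13), final part: **NUM** = `IfaceN4.NumStep`.

`NumN13.numStep_of_model` (GAL + NODE + CORE ⊢ NUM from MODEL's deliverable) applied to the two closed
theorems of MODEL (M9), `ModelEnd4.modelInput_four` (`q` odd, `4 ∣ M'`, Hauptmodul `tq · 4 8`) and
`ModelEnd4.modelInput_nine` (`q = 2`, `9 ∣ M'`, Hauptmodul `tq · 9 3`).
-/
import Mathlib
import Fermat.Agent.ES.N34.NumN13
import Fermat.Agent.ES.N34.ModelEnd4

set_option autoImplicit false

namespace Fermat.Agent.ES.N34.NumStep13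

/-- **NUM** (`IfaceN4.NumStep`), unconditionally. -/
theorem numStep : Fermat.Agent.ES.N34.IfaceN4.NumStep :=
  Fermat.Agent.ES.N34.NumN13.numStep_of_model
    (fun q M' _ _ A hq hqM h2 h4 hA =>
      Fermat.Agent.ES.N34.ModelEnd4.modelInput_four q M' A hq hqM h2 h4 hA)
    (fun M' _ A h2 h9 hA => Fermat.Agent.ES.N34.ModelEnd4.modelInput_nine M' A h2 h9 hA)

end Fermat.Agent.ES.N34.NumStep13
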