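/-
Program N (S34), helper12: **unipotent characteristic polynomial through a faithful Hecke module**.

Abstract core (companion of `ALG31/TraceInv12`): in the setting of `TraceInv12.trace_mul_eq_of_faithful`
(Hecke algebra `R` acting faithfully on a finite free `ℤ`-module `Λ`, comparison `ι₀ : Λ → M` with a
`ℤ_[p]`-module `M` carrying `ρM` with the Eichler–Shimura relation at Frobenius lifts, rank two
representation `ρV` over a local ring `T` with `charpoly (ρV Frob_ℓ) = X² - π(T_ℓ) X + ℓ`, density of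
Frobenius powers), if `τ` satisfies `ρM τ + d τ • ρM τ⁻¹ = 2` on `M` (i.e. `(ρM τ - 1)² = 0` when
`d τ = 1`) then `tr ρV τ = 2`; and if `d τ = 1` then `det ρV τ = 1`.  Hence
`charpoly (ρV τ) = (X - 1)²`.
-/
import Mathlib
import Fermat.Agent.ES.ALG31.TraceInv12

set_option autoImplicit false
set_option linter.unusedSectionVars false

open Polynomial

noncomputable section

namespace Fermat.Agent.ES.N34.TraceTwo12

open Fermat.Agent.ES.ALG.RelDense9 Fermat.Agent.ES.ALG31.Lucas15 Fermat.Agent.ES.ALG31.TraceInv12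

/-! ### determinants of congruent endomorphisms -/

theorem det_sub_mem_of_endCongr {T : Type*} [CommRing T] {V : Type*} [AddCommGroup V]
    [Module T V] [Module.Free T V] [Module.Finite T V] {I : Ideal T} {X Y : Module.End T V}
    (h : EndCongr I X Y) : LinearMap.det X - LinearMap.det Y ∈ I := by
  classical
  let b := Module.Free.chooseBasis T V
  rw [← LinearMap.det_toMatrix b X, ← LinearMap.det_toMatrix b Y, ← Ideal.Quotient.eq,
    RingHom.map_det, RingHom.map_det]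
  congr 1
  ext i j
  rw [RingHom.mapMatrix_apply, RingHom.mapMatrix_apply, Matrix.map_apply, Matrix.map_apply,
    Ideal.Quotient.eq, LinearMap.toMatrix_apply, LinearMap.toMatrix_apply]
  have := repr_mem_of_mem_smul_top b I (h (b j)) i
  rwa [map_sub, Finsupp.sub_apply] at this

section Main

variable {p : ℕ} [hp : Fact p.Prime]
  {R : Type*} [CommRing R] {Λ : Type*} [AddCommGroup Λ] [Module.Free ℤ Λ] [Module.Finite ℤ Λ]
  {M : Type*} [AddCommGroup M] [Module ℤ_[p] M]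
  {G : Type*} [Group G]
  {T : Type*} [CommRing T] [IsLocalRing T]
  {V : Type*} [AddCommGroup V] [Module T V] [Module.Free T V] [Module.Finite T V]

/-- **The trace of an element acting "unipotently of level two" on the Tate module.** -/
theorem trace_eq_two_of_faithful
    (hL : R →+* Module.End ℤ Λ) (hLinj : Function.Injective hL)
    (ι₀ : Λ →ₗ[ℤ] M) (hbc : IsBaseChange ℤ_[p] ι₀)
    (ρM : G →* Module.End ℤ_[p] M) (d : G →* ℤ_[p]ˣ)
    (hpT : (p : T) ∈ IsLocalRing.maximalIdeal T)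
    (hT : ∀ x : T, (∀ n, x ∈ IsLocalRing.maximalIdeal T ^ n) → x = 0)
    (π : R →+* T) (hV : Module.finrank T V = 2) (ρV : G →* Module.End T V)
    (Φ : G → ℕ → R → Prop)
    (hΦM : ∀ φ ℓ t, Φ φ ℓ t → ∀ x : Λ,
      ι₀ (hL t x) = (ρM φ + (ℓ : ℤ_[p]) • ρM φ⁻¹) (ι₀ x))
    (hΦd : ∀ φ ℓ t, Φ φ ℓ t → ((d φ : ℤ_[p]ˣ) : ℤ_[p]) = ℓ)
    (hΦV : ∀ φ ℓ t, Φ φ ℓ t → (ρV φ).charpoly = X ^ 2 - C (π t) * X + C (ℓ : T))
    (hdense : ∀ (n m : ℕ) (g : G), ∃ φ ℓ t, ∃ j : ℕ, Φ φ ℓ t ∧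
      EndCongr (IsLocalRing.maximalIdeal T ^ n) (ρV (g⁻¹ * φ ^ j)) 1 ∧
      EndCongr (Ideal.span {(p : ℤ_[p]) ^ m}) (ρM (g⁻¹ * φ ^ j)) 1 ∧
      ((d (g⁻¹ * φ ^ j) : ℤ_[p]ˣ) : ℤ_[p]) - 1 ∈ Ideal.span {(p : ℤ_[p]) ^ m})
    (τ : G) (hτW : W ρM d τ = 2) :
    LinearMap.trace T V (ρV τ) = 2 := by
  obtain ⟨c, hc⟩ := exists_sat_end hL hLinj p
  rw [← sub_eq_zero]
  apply hT
  intro n
  set m := n + c with hm
  set 𝔪 := IsLocalRing.maximalIdeal T with h𝔪
  set P : Ideal ℤ_[p] := Ideal.span {(p : ℤ_[p]) ^ m} with hP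
  obtain ⟨φ, ℓ, t, j, hΦ, h1, h2, h3⟩ := hdense n m τ
  set h := τ⁻¹ * φ ^ j with hh
  have hφj : φ ^ j = τ * h := by rw [hh, mul_inv_cancel_left]
  set r : R := lucasV t (ℓ : R) j with hr
  -- V-side
  have hr1 : LinearMap.trace T V (ρV τ) - π r ∈ 𝔪 ^ n := by
    have e : π r = LinearMap.trace T V (ρV (φ ^ j)) := by
      rw [map_pow, trace_pow_of_charpoly hV _ (hΦV φ ℓ t hΦ) j, hr, map_lucasV, map_natCast]
    rw [e, hφj, map_mul]
    have := (h1.mul_left (ρV τ)).symm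
    rw [mul_one] at this
    exact trace_sub_mem_of_endCongr this
  -- M-side
  have hX1 : EndCongr P (W ρM d (φ ^ j)) (W ρM d τ) := by
    rw [hφj]
    exact W_congr ρM d τ h h2 h3
  have hX2 : ∀ x : Λ, ι₀ (hL r x) = (W ρM d (φ ^ j)) (ι₀ x) := by
    intro x
    rw [W_pow, hΦd φ ℓ t hΦ]
    exact map_lucas_apply hL ι₀.toAddMonoidHom
      (by rw [← map_mul, mul_inv_cancel, map_one]) (by rw [← map_mul, inv_mul_cancel, map_one])
      t ℓ (hΦM φ ℓ t hΦ) j x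
  have hdiv : ∀ x : Λ, ∃ y : Λ, hL (r - 2) x = p ^ m • y := by
    intro x
    have h4 : ι₀ (hL (r - 2) x) ∈ P • (⊤ : Submodule ℤ_[p] M) := by
      have e2 : ι₀ (hL (r - 2) x) = (W ρM d (φ ^ j)) (ι₀ x) - (W ρM d τ) (ι₀ x) := by
        rw [map_sub, LinearMap.sub_apply, map_sub, hX2, hτW, map_ofNat]
        congr 1
        change ι₀ ((2 : Module.End ℤ Λ) x) = (2 : Module.End ℤ_[p] M) (ι₀ x)
        rw [show (2 : Module.End ℤ Λ) = 1 + 1 from one_add_one_eq_two.symm,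
          show (2 : Module.End ℤ_[p] M) = 1 + 1 from one_add_one_eq_two.symm,
          LinearMap.add_apply, LinearMap.add_apply, Module.End.one_apply, Module.End.one_apply,
          map_add]
      rw [e2]
      exact hX1 (ι₀ x)
    rw [hP, Submodule.ideal_span_singleton_smul] at h4
    obtain ⟨z, -, hz⟩ := h4
    exact exists_of_isBaseChange ι₀ hbc m _ z hz.symm
  obtain ⟨r'', hr''⟩ := hc m (r - 2) hdiv
  have hmc : m - c = n := by rw [hm]; exact Nat.add_sub_cancel_right n c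
  rw [hmc] at hr''
  have h5 : π r - 2 ∈ 𝔪 ^ n := by
    have : π r - 2 = π (r - 2) := by rw [map_sub, map_ofNat]
    rw [this, hr'', map_nsmul, nsmul_eq_mul]
    push_cast
    exact Ideal.mul_mem_right _ _ (Ideal.pow_mem_pow hpT n)
  have e : LinearMap.trace T V (ρV τ) - 2 =
      (LinearMap.trace T V (ρV τ) - π r) + (π r - 2) := by ring
  rw [e]
  exact Ideal.add_mem _ hr1 h5

/-- **The determinant is the cyclotomic character**: `det ρV τ = 1` if `d τ = 1`. -/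
theorem det_eq_one_of_dense
    (d : G →* ℤ_[p]ˣ)
    (hpT : (p : T) ∈ IsLocalRing.maximalIdeal T)
    (hT : ∀ x : T, (∀ n, x ∈ IsLocalRing.maximalIdeal T ^ n) → x = 0)
    (π : R →+* T) (hV : Module.finrank T V = 2) (ρV : G →* Module.End T V)
    (Φ : G → ℕ → R → Prop)
    (hΦd : ∀ φ ℓ t, Φ φ ℓ t → ((d φ : ℤ_[p]ˣ) : ℤ_[p]) = ℓ)
    (hΦV : ∀ φ ℓ t, Φ φ ℓ t → (ρV φ).charpoly = X ^ 2 - C (π t) * X + C (ℓ : T))
    (hdense : ∀ (n : ℕ) (g : G), ∃ φ ℓ t, ∃ j : ℕ, Φ φ ℓ t ∧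
      EndCongr (IsLocalRing.maximalIdeal T ^ n) (ρV (g⁻¹ * φ ^ j)) 1 ∧
      ((d (g⁻¹ * φ ^ j) : ℤ_[p]ˣ) : ℤ_[p]) - 1 ∈ Ideal.span {(p : ℤ_[p]) ^ n})
    (τ : G) (hτd : d τ = 1) :
    LinearMap.det (ρV τ) = 1 := by
  rw [← sub_eq_zero]
  apply hT
  intro n
  set 𝔪 := IsLocalRing.maximalIdeal T with h𝔪
  obtain ⟨φ, ℓ, t, j, hΦ, h1, h3⟩ := hdense n τ
  set h := τ⁻¹ * φ ^ j with hh
  have hφj : φ ^ j = τ * h := by rw [hh, mul_inv_cancel_left]
  -- `det ρV (φ ^ j) = ℓ ^ j`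
  have hdet : LinearMap.det (ρV (φ ^ j)) = ((ℓ ^ j : ℕ) : T) := by
    rw [map_pow, map_pow, (trace_det_of_charpoly hV _ (hΦV φ ℓ t hΦ)).2]
    push_cast; rfl
  -- `ℓ ^ j ≡ 1 mod p ^ n` in `ℤ`
  have hdh : ((d h : ℤ_[p]ˣ) : ℤ_[p]) = ((ℓ ^ j : ℕ) : ℤ_[p]) := by
    have : d h = d φ ^ j := by
      rw [hh, map_mul, map_inv, hτd, inv_one, one_mul, map_pow]
    rw [this, Units.val_pow_eq_pow_val, hΦd φ ℓ t hΦ]
    push_cast; rfl
  have hint : ((p ^ n : ℕ) : ℤ) ∣ ((ℓ ^ j : ℕ) : ℤ) - 1 := by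
    have h4 : (p : ℤ_[p]) ^ n ∣ (((ℓ ^ j : ℕ) : ℤ) - 1 : ℤ) := by
      rw [hdh] at h3
      have := Ideal.mem_span_singleton.mp h3
      push_cast
      exact_mod_cast this
    have := (PadicInt.pow_p_dvd_int_iff n _).mp h4
    exact_mod_cast this
  have h6 : ((ℓ ^ j : ℕ) : T) - 1 ∈ 𝔪 ^ n := by
    obtain ⟨z, hz⟩ := hint
    have e : ((ℓ ^ j : ℕ) : T) - 1 = ((((ℓ ^ j : ℕ) : ℤ) - 1 : ℤ) : T) := by push_cast; ring
    rw [e, hz]
    push_cast
    exact Ideal.mul_mem_right _ _ (Ideal.pow_mem_pow hpT n)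
  -- `det ρV h ≡ 1`
  have h7 : LinearMap.det (ρV h) - 1 ∈ 𝔪 ^ n := by
    have := det_sub_mem_of_endCongr h1
    rwa [show LinearMap.det (1 : Module.End T V) = 1 from map_one _] at this
  -- assemble: `det τ * det h = ℓ ^ j`
  have h8 : LinearMap.det (ρV τ) * LinearMap.det (ρV h) = ((ℓ ^ j : ℕ) : T) := by
    have e0 : ρV (φ ^ j) = ρV τ * ρV h := by rw [← map_mul, ← hφj]
    rw [← hdet, e0, Module.End.mul_eq_comp, LinearMap.det_comp]
  have e : LinearMap.det (ρV τ) - 1 =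
      (((ℓ ^ j : ℕ) : T) - 1) - LinearMap.det (ρV τ) * (LinearMap.det (ρV h) - 1) := by
    rw [← h8]; ring
  rw [e]
  exact Ideal.sub_mem _ h6 (Ideal.mul_mem_left _ _ h7)

/-- in rank two, `tr = 2` and `det = 1` give `charpoly = (X - 1)²`. -/
theorem charpoly_eq_of_trace_det (hV : Module.finrank T V = 2)
    (f : Module.End T V) (ht : LinearMap.trace T V f = 2) (hd : LinearMap.det f = 1) :
    f.charpoly = (X - 1) ^ 2 := by
  set b := Module.finBasisOfFinrankEq T V hV with hb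
  rw [← LinearMap.charpoly_toMatrix f b, Matrix.charpoly_fin_two,
    ← LinearMap.trace_eq_matrix_trace T b, LinearMap.det_toMatrix b, ht, hd]
  simp only [map_ofNat, map_one]
  ring

end Main

end Fermat.Agent.ES.N34.TraceTwo12
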