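/-
Program N (S34), helper12: **S34 from (K1) + (K2) + (T)**.

`H.ρ` is unipotent on inertia at `q ≠ p` as soon as every `τ` in an inertia group at `q` satisfies
`rhoT τ + rhoT τ⁻¹ = 2` on the Tate module `T_p J₀(N)` (i.e. `(rhoT τ - 1)² = 0`): same route as
`ALG31/S31Core12` (route C of Program K), with `TraceTwo12` instead of `TraceInv12 + TraceRigid13`.
-/
import Mathlib
import Fermat.Prelude.Def_CuspForm_HeckeGaloisRepDatum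
import Fermat.Agent.ES.ALG31.TraceInv12
import Fermat.Agent.ES.ALG31.S31Core12
import Fermat.Agent.ES.N34.TraceTwo12
import Fermat.Agent.ES.GAL.ChebQbar23
import Fermat.Agent.ES.J.CycloChar8
import Fermat.Agent.ES.J.S30Glue8

set_option autoImplicit false
set_option linter.unusedSectionVars false
set_option linter.overlappingInstances false
set_option synthInstance.maxHeartbeats 400000

open Polynomial AlgebraicCurve ModularCurve CuspForm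

noncomputable section

namespace Fermat.Agent.ES.N34.S34Core12

open Fermat.Agent.ES.ALG.RelDense9 Fermat.Agent.ES.ALG31.TraceInv12 Fermat.Agent.ES.ALG31.S31Core12
  Fermat.Agent.ES.N34.TraceTwo12
  Fermat.Agent.ES.J.S30Glue8 Fermat.Agent.ES.J.TateJZero13 Fermat.Agent.ES.J.CycloChar8
  Fermat.Agent.ES.HEQ.FaithInst26 Fermat.Agent.ES.HEQ.FaithFinal26

local notation "Qb" => AlgebraicClosure ℚ
local notation "GQ" => (AlgebraicClosure ℚ ≃ₐ[ℚ] AlgebraicClosure ℚ)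

variable {p : ℕ} [hp : Fact p.Prime] {N : ℕ} [NeZero N] {S : Finset ℕ}
  {𝒪 : Type} [CommRing 𝒪] [IsDomain 𝒪] [IsDiscreteValuationRing 𝒪]
  [IsAdicComplete (IsLocalRing.maximalIdeal 𝒪) 𝒪]
  {θ : CuspForm.heckeAlgebra N 2 (↑S : Set ℕ) →+* IsLocalRing.ResidueField 𝒪}
  {T : Type} [CommRing T] [IsLocalRing T] [IsNoetherianRing T]
  [IsAdicComplete (IsLocalRing.maximalIdeal T) T] [Algebra 𝒪 T] [IsLocalHom (algebraMap 𝒪 T)]
  [Module.Finite 𝒪 T] [Module.Free 𝒪 T]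

/-- **S34 from (K1) + (K2) + (T).** -/
theorem isUnipotentOnInertiaAt_of_inputs
    (hp𝒪 : (p : 𝒪) ∈ IsLocalRing.maximalIdeal 𝒪) (hpS : p ∈ S)
    (hNS : ∀ q : ℕ, q.Prime → q ∣ N → q ∈ S)
    (hfin : {y : JZero N | p • y = 0}.Finite) (hcmp : TateComparison p N)
    (H : CuspForm.HeckeGaloisRepDatum N (↑S : Set ℕ) 𝒪 θ T)
    (q : ℕ) (hq : q.Prime) (hqp : q ≠ p)
    (hTq : ∀ P : ValuationSubring Qb, P.LiesOverPrime q → ∀ τ ∈ P.inertiaSubgroupIn ℚ,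
      rhoT p N τ + rhoT p N τ⁻¹ = 2) :
    H.ρ.IsUnipotentOnInertiaAt q := by
  classical
  intro P hP τ hτ
  obtain ⟨ι₀, hbc, hheck⟩ := hcmp
  have hS : ∀ q : ℕ, q.Prime → q ∣ N → q ∈ (↑S : Set ℕ) := fun q hq hqN => by
    exact_mod_cast hNS q hq hqN
  have hne_p : ∀ ℓ : ℕ, ℓ ∉ (↑S : Set ℕ) → ℓ ≠ p := fun ℓ hℓS h => hℓS (by exact_mod_cast h ▸ hpS)
  -- the Frobenius data
  let Φ : GQ → ℕ → ↥(heckeAlgebra N 2 (↑S : Set ℕ)) → Prop := fun φ ℓ t =>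
    ∃ (hℓ : ℓ.Prime) (hℓN : ¬ ℓ ∣ N) (hℓS : ℓ ∉ (↑S : Set ℕ)) (A : ValuationSubring Qb),
      A.LiesOverPrime ℓ ∧ A.IsFrobeniusAt φ ℓ ∧ t = heckeAlgebra.T hℓ hℓN hℓS
  let hL : ↥(heckeAlgebra N 2 (↑S : Set ℕ)) →+* Module.End ℤ ↥(Lam N) :=
    (heckeLam (N := N) (↑S : Set ℕ) hS).toRingHom
  have hLinj : Function.Injective hL := heckeLam_injective (↑S : Set ℕ) hS
  have hΦM : ∀ φ ℓ t, Φ φ ℓ t → ∀ x : ↥(Lam N),
      ι₀ (hL t x) = (rhoT p N φ + (ℓ : ℤ_[p]) • rhoT p N φ⁻¹) (ι₀ x) := by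
    rintro φ ℓ t ⟨hℓ, hℓN, hℓS, A, hA, hφ, rfl⟩ x
    have h1 := rhoT_frobenius (p := p) (N := N) hℓ hℓN (hne_p ℓ hℓS) hA hφ
    have hFF' : rhoT p N φ * rhoT p N φ⁻¹ = 1 := by rw [← map_mul, mul_inv_cancel, map_one]
    have h2 : tT p N ⟨ℓ, hℓ⟩ = rhoT p N φ + (ℓ : ℤ_[p]) • rhoT p N φ⁻¹ := by
      have := congrArg (fun X => X * rhoT p N φ⁻¹) h1
      simp only [add_mul, sub_mul, smul_mul_assoc, mul_assoc, hFF', mul_one, one_mul,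
        zero_mul] at this
      rw [sub_add_eq_add_sub, sub_eq_zero] at this
      exact this.symm
    rw [← h2, hheck ℓ hℓ hℓN x]
    congr 1
    exact LinearMap.congr_fun (heckeLam_T' (↑S : Set ℕ) hS ℓ hℓ hℓN hℓS) x
  have hΦd : ∀ φ ℓ t, Φ φ ℓ t → ((cyclo p φ : ℤ_[p]ˣ) : ℤ_[p]) = ℓ := by
    rintro φ ℓ t ⟨hℓ, hℓN, hℓS, A, hA, hφ, rfl⟩
    exact cyclo_of_isFrobeniusAt p hℓ (hne_p ℓ hℓS) A hA hφ
  have hΦV : ∀ φ ℓ t, Φ φ ℓ t →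
      (H.ρ.ρ φ).charpoly = X ^ 2 - C (H.π t) * X + C (ℓ : T) := by
    rintro φ ℓ t ⟨hℓ, hℓN, hℓS, A, hA, hφ, rfl⟩
    exact H.charpoly_frob ℓ hℓ hℓN hℓS A hA φ hφ
  have hdense : ∀ (n m : ℕ) (g : GQ), ∃ φ ℓ t, ∃ j : ℕ, Φ φ ℓ t ∧
      EndCongr (IsLocalRing.maximalIdeal T ^ n) (H.ρ.ρ (g⁻¹ * φ ^ j)) 1 ∧
      EndCongr (Ideal.span {(p : ℤ_[p]) ^ m}) (rhoT p N (g⁻¹ * φ ^ j)) 1 ∧
      ((cyclo p (g⁻¹ * φ ^ j) : ℤ_[p]ˣ) : ℤ_[p]) - 1 ∈ Ideal.span {(p : ℤ_[p]) ^ m} := by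
    intro n m g
    obtain ⟨L₁, hL₁, h1⟩ := H.ρ.isAdicContinuous n
    obtain ⟨L₂, hL₂, h2⟩ := rhoT_continuous (p := p) (N := N) hfin m
    obtain ⟨L₃, hL₃, h3⟩ := cyclo_sub_one_mem p m
    have := hL₁
    have := hL₂
    have := hL₃
    obtain ⟨ℓ, A, φ, j, hℓ, hℓS, hA, hφ, hj⟩ :=
      Fermat.Agent.ES.GAL.ChebQbar23.exists_frobenius_inv_mul_pow_fixes (L₁ ⊔ L₂ ⊔ L₃) g S
    have hℓS' : ℓ ∉ (↑S : Set ℕ) := by simpa using hℓS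
    have hℓN : ¬ ℓ ∣ N := fun hdvd => hℓS (hNS ℓ hℓ hdvd)
    refine ⟨φ, ℓ, heckeAlgebra.T hℓ hℓN hℓS', j, ⟨hℓ, hℓN, hℓS', A, hA, hφ, rfl⟩, ?_, ?_, ?_⟩
    · intro v
      rw [Module.End.one_apply]
      exact h1 _ (fun x hx => hj x (le_sup_left (a := L₁ ⊔ L₂) (b := L₃)
        (le_sup_left (a := L₁) (b := L₂) hx))) v
    · intro v
      rw [Module.End.one_apply]
      obtain ⟨y, hy⟩ := h2 _ (fun x hx => hj x (le_sup_left (a := L₁ ⊔ L₂) (b := L₃)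
        (le_sup_right (a := L₁) (b := L₂) hx))) v
      rw [hy]
      exact Submodule.smul_mem_smul (Ideal.mem_span_singleton_self _) Submodule.mem_top
    · exact h3 _ (fun x hx => hj x (le_sup_right (a := L₁ ⊔ L₂) (b := L₃) hx))
  have hτd : cyclo p τ = 1 := cyclo_of_mem_inertia p hq hqp P hP hτ
  have hτW : W (rhoT p N) (cyclo p) τ = 2 := by
    unfold W
    rw [hτd, Units.val_one, one_smul]
    exact hTq P hP τ hτ
  have htr := trace_eq_two_of_faithful hL hLinj ι₀ hbc (rhoT p N) (cyclo p)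
    (natCast_mem_maximalIdeal hp𝒪) eq_zero_of_forall_mem_pow H.π H.ρ.finrank_eq H.ρ.ρ Φ
    hΦM hΦd hΦV hdense τ hτW
  have hdet := det_eq_one_of_dense (cyclo p)
    (natCast_mem_maximalIdeal hp𝒪) eq_zero_of_forall_mem_pow H.π H.ρ.finrank_eq H.ρ.ρ Φ
    hΦd hΦV (fun n g => by
      obtain ⟨φ, ℓ, t, j, h0, h1, -, h3⟩ := hdense n n g
      exact ⟨φ, ℓ, t, j, h0, h1, h3⟩) τ hτd
  exact charpoly_eq_of_trace_det H.ρ.finrank_eq _ htr hdet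

end Fermat.Agent.ES.N34.S34Core12
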