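/-
Program N (S34), helper12: **bridge from torsion points to the Tate module**.

If `τ ∈ Gal(ℚ̄/ℚ)` satisfies `(τ - 1)² y = 0` for every `p`-power torsion point `y` of `J₀(N)(ℚ̄)`,
then `rhoT τ + rhoT τ⁻¹ = 2` on the Tate module `TJ p N` — the hypothesis `(T)` of
`S34Core12.isUnipotentOnInertiaAt_of_inputs`.
-/
import Mathlib
import Fermat.Agent.ES.J.TateJZero13

set_option autoImplicit false
set_option synthInstance.maxHeartbeats 400000
set_option linter.unusedSectionVars false

noncomputable section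

open AlgebraicCurve ModularCurve

namespace Fermat.Agent.ES.N34.TateBridge12

open Fermat.Agent.ES.J.TateModule13 Fermat.Agent.ES.J.TateJZero13

local notation "Qb" => AlgebraicClosure ℚ

variable {p : ℕ} [hp : Fact p.Prime] {N : ℕ} [NeZero N]

/-- `(τ - 1)² = 0` on all `p`-power torsion points ⇒ `rhoT τ + rhoT τ⁻¹ = 2`. -/
theorem rhoT_add_inv_eq_two (τ : Qb ≃ₐ[ℚ] Qb)
    (h : ∀ (k : ℕ) (y : JZero N), p ^ k • y = 0 → τ • τ • y + y = τ • y + τ • y) :
    rhoT p N τ + rhoT p N τ⁻¹ = 2 := by
  have hinv : rhoT p N τ * rhoT p N τ⁻¹ = 1 := by rw [← map_mul, mul_inv_cancel, map_one]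
  -- the quadratic relation
  have hq : rhoT p N τ * rhoT p N τ + 1 = rhoT p N τ + rhoT p N τ := by
    refine LinearMap.ext fun x => ?_
    ext k
    show τ • τ • proj k x + proj k x = τ • proj k x + τ • proj k x
    exact h k (proj k x) (pow_smul_proj k x)
  -- multiply by the inverse
  have := congrArg (fun X => X * rhoT p N τ⁻¹) hq
  simp only [add_mul, mul_assoc, hinv, mul_one, one_mul] at this
  rw [this, one_add_one_eq_two]

end Fermat.Agent.ES.N34.TateBridge12
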