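/-
Program N (S34), brick T0 (assembly) — helper12: the frozen statement S34 from `IfaceN4.InertiaTors`.

Chain: `InertiaTors` (`(τ-1)² = 0` on `J₀(N)(ℚ̄)[m]`, `q ∤ m`, `τ` in an inertia group at `q ∥ N`)
⇒ (`TateBridge12`) `ρ_T(τ) + ρ_T(τ⁻¹) = 2` on the `p`-adic Tate module, `p ≠ q`
⇒ (`S34Core12`, Program K: faithful Hecke action, K1, K2, trace rigidity) `H.ρ` is unipotent on inertia at `q`.
-/
import Fermat.Prelude.Def_CuspForm_HeckeGaloisRepDatum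
import Fermat.Prelude.Def_GaloisRep_LocalConditions
import Fermat.Agent.ES.N34.IfaceN4
import Fermat.Agent.ES.N34.S34Core12
import Fermat.Agent.ES.N34.TateBridge12
import Fermat.Agent.ES.J.S30Final8
import Fermat.Agent.ES.J.KummerSystemJ8

set_option autoImplicit false
open IsLocalRing ModularCurve

namespace Fermat.Agent.ES.N34.S34OfTors12

/-- **S34 from the geometric input `InertiaTors`.** -/
theorem s34_of_inertiaTors (hT : Fermat.Agent.ES.N34.IfaceN4.InertiaTors)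
    {𝒪 : Type} [CommRing 𝒪] [IsDomain 𝒪] [IsDiscreteValuationRing 𝒪]
    [IsAdicComplete (maximalIdeal 𝒪) 𝒪] [Finite (ResidueField 𝒪)] [CharZero 𝒪]
    {p : ℕ} (hp : p.Prime) (hp𝒪 : (p : 𝒪) ∈ maximalIdeal 𝒪)
    {N : ℕ} [NeZero N] {S : Finset ℕ} (hpS : p ∈ S) (hNS : ∀ q : ℕ, q.Prime → q ∣ N → q ∈ S)
    {θ : CuspForm.heckeAlgebra N 2 (↑S : Set ℕ) →+* ResidueField 𝒪}
    {T : Type} [CommRing T] [IsLocalRing T] [IsNoetherianRing T]
    [IsAdicComplete (maximalIdeal T) T] [Algebra 𝒪 T] [IsLocalHom (algebraMap 𝒪 T)]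
    [Module.Finite 𝒪 T] [Module.Free 𝒪 T]
    (H : CuspForm.HeckeGaloisRepDatum N (↑S : Set ℕ) 𝒪 θ T)
    (q : ℕ) (hq : q.Prime) (hqp : q ≠ p) (hqN : q ∣ N) (hq2 : ¬ q ^ 2 ∣ N) :
    H.ρ.IsUnipotentOnInertiaAt q :=
  haveI : Fact p.Prime := ⟨hp⟩
  Fermat.Agent.ES.N34.S34Core12.isUnipotentOnInertiaAt_of_inputs hp𝒪 hpS hNS
    (Fermat.Agent.ES.J.S30Final8.k1 p N)
    (Fermat.Agent.ES.J.K2Final11.k2 (Fermat.Agent.ES.J.KummerSystemJ8.kummerSystemJ p N)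
      (Fermat.Agent.ES.J.KummerSystemJ8.heckeCompatJ p N))
    H q hq hqp (fun P hP τ hτ =>
      Fermat.Agent.ES.N34.TateBridge12.rhoT_add_inv_eq_two τ (fun k y hy =>
        hT N q hq hqN hq2 P hP τ hτ (p ^ k)
          (fun hd => hqp ((Nat.prime_dvd_prime_iff_eq hq hp).mp (hq.dvd_of_dvd_pow hd))) y hy))

end Fermat.Agent.ES.N34.S34OfTors12
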