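/-
Program N (S34), brick T1 (TOP-N) — helper12: the Kummer ⇄ `JZero` bridge, `IfaceN4.TopStep`.

`UBar q N A` (field form: for `τ` in the inertia group of `A`, `q ∤ m`, `f ∈ ℚ̄·F_N` nonzero with all
orders divisible by `m`, the second difference `τ²f·f/(τf)²` is an `m`-th power `s^m`) gives
`(τ - 1)² y = 0` for every `y ∈ J₀(N)(ℚ̄)` with `m • y = 0`:

`y = [D]`, `m • D = div f`; `div (τ f) = τ · div f` (`SemilinearAut.ord_smul`), hence
`m • (τ²D - 2 τD + D) = div (τ²f·f/(τf)²) = m • div s`; divisors are torsion-free, so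
`τ²D - 2τD + D = div s` is principal.
-/
import Mathlib
import Fermat.Agent.ES.N34.IfaceN4

set_option autoImplicit false
set_option synthInstance.maxHeartbeats 400000

open HahnSeries AlgebraicCurve ModularCurve

noncomputable section

namespace Fermat.Agent.ES.N34.TorsionInertia12

open Fermat.Agent.RED.Interface4 Fermat.Agent.ES.N34.IfaceN4

/-- the arithmetic (coefficientwise) Galois action on `ℚ̄·F_N`, as a semilinear automorphism: this is
the action defining `σ • y` on `JZero N` (`ModularCurve.galois_smul_pic0_def`). -/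
abbrev gal (N : ℕ) (τ : Qbar ≃ₐ[ℚ] Qbar) : SemilinearAut Qbar (Fbar N) :=
  arithmeticGalois (modularFunctionFieldFull N) τ

variable {N : ℕ}

theorem gB_eq_smul (τ : Qbar ≃ₐ[ℚ] Qbar) (x : Fbar N) : gB N τ x = gal N τ • x := rfl

/-- `ord_v (τ x) = ord_{τ⁻¹ v} x`. -/
theorem ord_gB (τ : Qbar ≃ₐ[ℚ] Qbar) (v : Place Qbar (Fbar N)) (x : Fbar N) :
    v.ord (gB N τ x) = ((gal N τ)⁻¹ • v).ord x := by
  have h := SemilinearAut.ord_smul (gal N τ) ((gal N τ)⁻¹ • v) x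
  rw [smul_inv_smul] at h
  rw [gB_eq_smul]
  exact h

theorem gB_ne_zero (τ : Qbar ≃ₐ[ℚ] Qbar) {x : Fbar N} (hx : x ≠ 0) : gB N τ x ≠ 0 :=
  (map_ne_zero_iff _ (gB N τ).injective).mpr hx

/-- the order of `s` in `s^m (τf)² = τ²f · f`. -/
theorem ord_of_uBar_eq (τ : Qbar ≃ₐ[ℚ] Qbar) {m : ℕ} (hm0 : m ≠ 0) {f s : Fbar N} (hf : f ≠ 0)
    (hs : s ^ m * (gB N τ f) ^ 2 = gB N τ (gB N τ f) * f) (v : Place Qbar (Fbar N)) :
    (m : ℤ) * v.ord s =
      ((gal N τ)⁻¹ • (gal N τ)⁻¹ • v).ord f + v.ord f - 2 * ((gal N τ)⁻¹ • v).ord f := by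
  have hgf : gB N τ f ≠ 0 := gB_ne_zero τ hf
  have hggf : gB N τ (gB N τ f) ≠ 0 := gB_ne_zero τ hgf
  have hs0 : s ≠ 0 := by
    intro h0
    rw [h0, zero_pow hm0, zero_mul] at hs
    exact mul_ne_zero hggf hf hs.symm
  have h1 := congrArg v.ord hs
  rw [v.ord_mul (pow_ne_zero m hs0) (pow_ne_zero 2 hgf), v.ord_mul hggf hf,
    ← zpow_natCast s m, ← zpow_natCast (gB N τ f) 2, v.ord_zpow, v.ord_zpow, ord_gB, ord_gB,
    ord_gB] at h1
  push_cast at h1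
  linarith

/-- **The bridge**: `UBar` gives `(τ - 1)² = 0` on the prime-to-`q` torsion of `J₀(N)(ℚ̄)`. -/
theorem inertiaTors_of_uBar {q N : ℕ} {A : ValuationSubring Qbar} (h : UBar q N A)
    (τ : Qbar ≃ₐ[ℚ] Qbar) (hτ : τ ∈ A.inertiaSubgroupIn ℚ) (m : ℕ) (hm : ¬ q ∣ m)
    (y : JZero N) (hy : m • y = 0) :
    τ • τ • y + y = τ • y + τ • y := by
  obtain ⟨⟨D, hD⟩, rfl⟩ := Pic0.mk_surjective y
  have hm0 : m ≠ 0 := fun h0 => hm (h0 ▸ dvd_zero q)
  have hmZ : (m : ℤ) ≠ 0 := by exact_mod_cast hm0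
  -- `m • D` is principal
  have hmD : m • D ∈ Divisor.principal (K := Qbar) (F := Fbar N) := by
    have h1 : Pic0.mk (m • (⟨D, hD⟩ : Divisor.degZero (K := Qbar) (F := Fbar N))) = 0 := by
      rw [← hy]; rfl
    have h2 := (QuotientAddGroup.eq_zero_iff _).mp h1
    rw [AddSubgroup.mem_addSubgroupOf] at h2
    simpa using h2
  obtain ⟨f, hf0, hfD⟩ := hmD
  have hfD' : ∀ v : Place Qbar (Fbar N), (m : ℤ) * D v = v.ord f := by
    intro v
    rw [← hfD v]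
    simp
  obtain ⟨s, hs⟩ := h τ hτ m hm f hf0 (fun v => ⟨D v, (hfD' v).symm⟩)
  have hs0 : s ≠ 0 := by
    intro h0
    rw [h0, zero_pow hm0, zero_mul] at hs
    exact mul_ne_zero (gB_ne_zero τ (gB_ne_zero τ hf0)) hf0 hs.symm
  -- the goal in `Pic0`
  set g := gal N τ with hg
  show g • g • Pic0.mk ⟨D, hD⟩ + Pic0.mk ⟨D, hD⟩ = g • Pic0.mk ⟨D, hD⟩ + g • Pic0.mk ⟨D, hD⟩
  rw [SemilinearAut.pic0_smul_mk, SemilinearAut.pic0_smul_mk, ← Pic0.mk_add, ← Pic0.mk_add]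
  symm
  refine (QuotientAddGroup.eq).mpr ?_
  rw [AddSubgroup.mem_addSubgroupOf]
  refine ⟨s, hs0, fun v => ?_⟩
  -- compare `m •` both sides
  apply mul_left_cancel₀ hmZ
  rw [ord_of_uBar_eq τ hm0 hf0 hs v, ← hfD', ← hfD', ← hfD']
  simp only [AddSubgroup.coe_add, AddSubgroup.coe_neg, Finsupp.coe_add, Finsupp.coe_neg,
    Pi.add_apply, Pi.neg_apply, SemilinearAut.coe_degZeroSMulHom, SemilinearAut.divisor_smul_apply]
  ring

/-- **Chapter TOP-N.** -/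
theorem topStep : TopStep :=
  fun h N _ q hq hqN hq2 P hP τ hτ m hm y hy =>
    inertiaTors_of_uBar (h N q hq hqN hq2 P hP) τ hτ m hm y hy

end Fermat.Agent.ES.N34.TorsionInertia12
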