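/-
Program N (S34), chapter MODEL, brick (G2-abs) supplement, helper22 (request of helper16, S3).
Mathlib + `RED/PUR/UniqueExt20` + `ES/N34/TwoExt22`.

`F / E` finite, `O₁ ≠ O₂` valuation subrings of `F` with the same restriction `O_E` to `E`, `b₁`
(`n₁` elements of `O₁`), `b₂` (`n₂` elements of `O₂`) residually independent over `O_E`
(elementwise form of `TwoExt22`).

* `add_le_finrank_of_residually_independent` **(ADD)**: `n₁ + n₂ ≤ [F : E]`
  (the fundamental inequality `f₁ + f₂ ≤ n` without completions).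
* `exists_residue_combination` **(F1-abs)**: if moreover `[F : E] ≤ n₁ + n₂`, the residues of `b₁`
  SPAN the residue field of `O₁` over that of `O_E`: every `x ∈ O₁` is `≡ ∑ aᵢ b₁ᵢ mod 𝔪₁` with
  `aᵢ ∈ O_E`; primed version for `O₂`.
-/
import Mathlib
import Fermat.Agent.RED.PUR.UniqueExt20
import Fermat.Agent.ES.N34.TwoExt22

set_option autoImplicit false

namespace Fermat.Agent.ES.N34.TwoExtDeg22

open Fermat.Agent.RED.PUR.UniqueExt20 Fermat.Agent.ES.N34.TwoExt22

open scoped Classical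

variable {E F : Type*} [Field E] [Field F] [Algebra E F]

/-- **(ADD)** `n₁ + n₂ ≤ [F : E]`. -/
theorem add_le_finrank_of_residually_independent [FiniteDimensional E F] {n₁ n₂ : ℕ}
    (O₁ O₂ : ValuationSubring F) (h12 : O₁ ≠ O₂)
    (hcomap₂ : O₁.comap (algebraMap E F) = O₂.comap (algebraMap E F))
    (b₁ : Fin n₁ → F) (hb₁O : ∀ i, b₁ i ∈ O₁)
    (hb₁ : ∀ a : Fin n₁ → E, (∀ i, (O₁.comap (algebraMap E F)).valuation (a i) ≤ 1) →
      O₁.valuation (∑ i, algebraMap E F (a i) * b₁ i) < 1 →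
      ∀ i, (O₁.comap (algebraMap E F)).valuation (a i) < 1)
    (b₂ : Fin n₂ → F) (hb₂O : ∀ i, b₂ i ∈ O₂)
    (hb₂ : ∀ a : Fin n₂ → E, (∀ i, (O₁.comap (algebraMap E F)).valuation (a i) ≤ 1) →
      O₂.valuation (∑ i, algebraMap E F (a i) * b₂ i) < 1 →
      ∀ i, (O₁.comap (algebraMap E F)).valuation (a i) < 1) :
    n₁ + n₂ ≤ Module.finrank E F := by
  have : Algebra.IsAlgebraic E F := Algebra.IsAlgebraic.of_finite E F
  have n12 := not_le_of_ne_of_comap_eq h12 hcomap₂
  have n21 := not_le_of_ne_of_comap_eq (Ne.symm h12) hcomap₂.symm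
  obtain ⟨w₁, hw₁1, hw₁2⟩ := exists_approx n12 n21
  obtain ⟨w₂, hw₂2, hw₂1⟩ := exists_approx n21 n12
  choose c hc1 hc2 using fun i =>
    exists_adjust hw₁1 hw₁2 ((O₁.valuation_le_one_iff (b₁ i)).mpr (hb₁O i))
  choose c' hc'2 hc'1 using fun i =>
    exists_adjust hw₂2 hw₂1 ((O₂.valuation_le_one_iff (b₂ i)).mpr (hb₂O i))
  have hli : LinearIndependent E (fun o : Fin n₁ ⊕ Fin n₂ => Sum.elim c c' o) := by
    rw [Fintype.linearIndependent_iff]
    intro g hg
    by_contra hex
    push Not at hex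
    obtain ⟨j, hj0, hj⟩ := exists_scale (O₁.comap (algebraMap E F)) g hex
    set g' : Fin n₁ ⊕ Fin n₂ → E := fun o => g o / g j with hg'
    have hg'j : g' j = 1 := by simp only [hg']; exact div_self hj0
    have hrel : ∑ i, algebraMap E F (g' (Sum.inl i)) * c i +
        ∑ i, algebraMap E F (g' (Sum.inr i)) * c' i = 0 := by
      have h1 : ∑ i, algebraMap E F (g (Sum.inl i)) * c i +
          ∑ i, algebraMap E F (g (Sum.inr i)) * c' i = 0 := by
        rw [Fintype.sum_sum_type] at hg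
        simpa [Algebra.smul_def] using hg
      have h2 : ∑ i, algebraMap E F (g' (Sum.inl i)) * c i +
          ∑ i, algebraMap E F (g' (Sum.inr i)) * c' i =
          (algebraMap E F (g j))⁻¹ * (∑ i, algebraMap E F (g (Sum.inl i)) * c i +
            ∑ i, algebraMap E F (g (Sum.inr i)) * c' i) := by
        rw [mul_add, Finset.mul_sum, Finset.mul_sum]
        congr 1
        · refine Finset.sum_congr rfl fun i _ => ?_
          simp only [hg', map_div₀]; field_simp
        · refine Finset.sum_congr rfl fun i _ => ?_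
          simp only [hg', map_div₀]; field_simp
      rw [h2, h1, mul_zero]
    have hg'1 : ∀ o, O₁.valuation (algebraMap E F (g' o)) ≤ 1 := fun o =>
      (comap_val_le_one_iff O₁ _).mp (hj o)
    have hg'2 : ∀ o, O₂.valuation (algebraMap E F (g' o)) ≤ 1 := fun o => by
      rw [← comap_val_le_one_iff, ← hcomap₂]; exact hj o
    -- reduce modulo `𝔪₁`
    have hsum1 : O₁.valuation (∑ i, algebraMap E F (g' (Sum.inl i)) * b₁ i) < 1 := by
      have h3 : ∑ i, algebraMap E F (g' (Sum.inl i)) * b₁ i =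
          -(∑ i, algebraMap E F (g' (Sum.inr i)) * c' i) -
            ∑ i, algebraMap E F (g' (Sum.inl i)) * (c i - b₁ i) := by
        have : ∑ i, algebraMap E F (g' (Sum.inl i)) * (c i - b₁ i) =
            ∑ i, algebraMap E F (g' (Sum.inl i)) * c i -
              ∑ i, algebraMap E F (g' (Sum.inl i)) * b₁ i := by
          rw [← Finset.sum_sub_distrib]
          exact Finset.sum_congr rfl fun i _ => by ring
        rw [this]
        linear_combination hrel
      rw [h3]
      refine Valuation.map_sub_lt _ ?_ ?_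
      · rw [Valuation.map_neg]
        exact val_sum_mul_lt O₁ _ _ (fun i => hg'1 _) hc'1
      · exact val_sum_mul_lt O₁ _ _ (fun i => hg'1 _) hc1
    have hsmall1 := hb₁ (fun i => g' (Sum.inl i)) (fun i => hj _) hsum1
    -- reduce modulo `𝔪₂`
    have hsum2 : O₂.valuation (∑ i, algebraMap E F (g' (Sum.inr i)) * b₂ i) < 1 := by
      have h3 : ∑ i, algebraMap E F (g' (Sum.inr i)) * b₂ i =
          -(∑ i, algebraMap E F (g' (Sum.inl i)) * c i) -
            ∑ i, algebraMap E F (g' (Sum.inr i)) * (c' i - b₂ i) := by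
        have : ∑ i, algebraMap E F (g' (Sum.inr i)) * (c' i - b₂ i) =
            ∑ i, algebraMap E F (g' (Sum.inr i)) * c' i -
              ∑ i, algebraMap E F (g' (Sum.inr i)) * b₂ i := by
          rw [← Finset.sum_sub_distrib]
          exact Finset.sum_congr rfl fun i _ => by ring
        rw [this]
        linear_combination hrel
      rw [h3]
      refine Valuation.map_sub_lt _ ?_ ?_
      · rw [Valuation.map_neg]
        exact val_sum_mul_lt O₂ _ _ (fun i => hg'2 _) hc2
      · exact val_sum_mul_lt O₂ _ _ (fun i => hg'2 _) hc'2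
    have hsmall2 := hb₂ (fun i => g' (Sum.inr i)) (fun i => hj _) hsum2
    have hall : ∀ o, (O₁.comap (algebraMap E F)).valuation (g' o) < 1 := by
      rintro (i | i)
      · exact hsmall1 i
      · exact hsmall2 i
    have := hall j
    rw [hg'j, map_one] at this
    exact lt_irrefl _ this
  have hcard := hli.fintype_card_le_finrank
  rwa [Fintype.card_sum, Fintype.card_fin, Fintype.card_fin] at hcard

/-- Adding an element whose residue is not in the span keeps residual independence. -/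
theorem residually_independent_cons (O₁ : ValuationSubring F) {n₁ : ℕ}
    (b₁ : Fin n₁ → F)
    (hb₁ : ∀ a : Fin n₁ → E, (∀ i, (O₁.comap (algebraMap E F)).valuation (a i) ≤ 1) →
      O₁.valuation (∑ i, algebraMap E F (a i) * b₁ i) < 1 →
      ∀ i, (O₁.comap (algebraMap E F)).valuation (a i) < 1)
    {x : F} (hx : x ∈ O₁)
    (hnot : ∀ a : Fin n₁ → E, (∀ i, (O₁.comap (algebraMap E F)).valuation (a i) ≤ 1) →
      1 ≤ O₁.valuation (x - ∑ i, algebraMap E F (a i) * b₁ i)) :
    ∀ a : Fin (n₁ + 1) → E, (∀ i, (O₁.comap (algebraMap E F)).valuation (a i) ≤ 1) →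
      O₁.valuation (∑ i, algebraMap E F (a i) * (Fin.cons x b₁ : Fin (n₁ + 1) → F) i) < 1 →
      ∀ i, (O₁.comap (algebraMap E F)).valuation (a i) < 1 := by
  intro a ha hsum
  rw [Fin.sum_univ_succ] at hsum
  simp only [Fin.cons_zero, Fin.cons_succ] at hsum
  have hxv : O₁.valuation x ≤ 1 := (O₁.valuation_le_one_iff x).mpr hx
  have h0 : (O₁.comap (algebraMap E F)).valuation (a 0) < 1 := by
    by_contra hcon
    have h1 : (O₁.comap (algebraMap E F)).valuation (a 0) = 1 :=
      le_antisymm (ha 0) (not_lt.mp hcon)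
    have h1F : O₁.valuation (algebraMap E F (a 0)) = 1 := (comap_val_eq_one_iff O₁ _).mp h1
    have ha0 : a 0 ≠ 0 := by
      intro h; rw [h, map_zero] at h1; exact zero_ne_one h1
    have ha0F : algebraMap E F (a 0) ≠ 0 := fun h =>
      ha0 ((map_eq_zero_iff _ (algebraMap E F).injective).mp h)
    -- the combination `a' i = - a (succ i) / a 0`
    have hcoef : ∀ i : Fin n₁,
        (O₁.comap (algebraMap E F)).valuation (-(a i.succ) / a 0) ≤ 1 := by
      intro i
      rw [map_div₀, Valuation.map_neg, h1, div_one]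
      exact ha i.succ
    have h2 := hnot (fun i => -(a i.succ) / a 0) hcoef
    have h3 : x - ∑ i, algebraMap E F (-(a i.succ) / a 0) * b₁ i =
        (algebraMap E F (a 0))⁻¹ * (algebraMap E F (a 0) * x +
          ∑ i : Fin n₁, algebraMap E F (a i.succ) * b₁ i) := by
      rw [mul_add, Finset.mul_sum, ← mul_assoc, inv_mul_cancel₀ ha0F, one_mul, sub_eq_add_neg,
        ← Finset.sum_neg_distrib]
      congr 1
      refine Finset.sum_congr rfl fun i _ => ?_
      rw [map_div₀, map_neg]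
      field_simp
    rw [h3, map_mul, map_inv₀, h1F, inv_one, one_mul] at h2
    exact absurd (lt_of_le_of_lt h2 hsum) (lt_irrefl _)
  have hrest : O₁.valuation (∑ i : Fin n₁, algebraMap E F (a i.succ) * b₁ i) < 1 := by
    have h3 : ∑ i : Fin n₁, algebraMap E F (a i.succ) * b₁ i =
        (algebraMap E F (a 0) * x + ∑ i : Fin n₁, algebraMap E F (a i.succ) * b₁ i) -
          algebraMap E F (a 0) * x := by ring
    rw [h3]
    refine Valuation.map_sub_lt _ hsum ?_
    rw [map_mul]
    exact (mul_le_of_le_one_right' hxv).trans_lt ((comap_val_lt_one_iff O₁ _).mp h0)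
  have hsmall := hb₁ (fun i => a i.succ) (fun i => ha i.succ) hrest
  intro i
  refine Fin.cases h0 (fun i => hsmall i) i

/-- **(F1-abs)** the residues of `b₁` span the residue field of `O₁`. -/
theorem exists_residue_combination [FiniteDimensional E F] {n₁ n₂ : ℕ}
    (hn : Module.finrank E F ≤ n₁ + n₂) (O₁ O₂ : ValuationSubring F) (h12 : O₁ ≠ O₂)
    (hcomap₂ : O₁.comap (algebraMap E F) = O₂.comap (algebraMap E F))
    (b₁ : Fin n₁ → F) (hb₁O : ∀ i, b₁ i ∈ O₁)
    (hb₁ : ∀ a : Fin n₁ → E, (∀ i, (O₁.comap (algebraMap E F)).valuation (a i) ≤ 1) →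
      O₁.valuation (∑ i, algebraMap E F (a i) * b₁ i) < 1 →
      ∀ i, (O₁.comap (algebraMap E F)).valuation (a i) < 1)
    (b₂ : Fin n₂ → F) (hb₂O : ∀ i, b₂ i ∈ O₂)
    (hb₂ : ∀ a : Fin n₂ → E, (∀ i, (O₁.comap (algebraMap E F)).valuation (a i) ≤ 1) →
      O₂.valuation (∑ i, algebraMap E F (a i) * b₂ i) < 1 →
      ∀ i, (O₁.comap (algebraMap E F)).valuation (a i) < 1)
    {x : F} (hx : x ∈ O₁) :
    ∃ a : Fin n₁ → E, (∀ i, (O₁.comap (algebraMap E F)).valuation (a i) ≤ 1) ∧
      O₁.valuation (x - ∑ i, algebraMap E F (a i) * b₁ i) < 1 := by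
  by_contra hcon
  push Not at hcon
  have hcons := residually_independent_cons O₁ b₁ hb₁ hx hcon
  have hmem : ∀ i, (Fin.cons x b₁ : Fin (n₁ + 1) → F) i ∈ O₁ := by
    intro i
    refine Fin.cases ?_ (fun i => ?_) i
    · simpa using hx
    · simpa using hb₁O i
  have := add_le_finrank_of_residually_independent O₁ O₂ h12 hcomap₂
    (Fin.cons x b₁ : Fin (n₁ + 1) → F) hmem hcons b₂ hb₂O hb₂
  omega

/-- (F1-abs) for the second ring. -/
theorem exists_residue_combination' [FiniteDimensional E F] {n₁ n₂ : ℕ}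
    (hn : Module.finrank E F ≤ n₁ + n₂) (O₁ O₂ : ValuationSubring F) (h12 : O₁ ≠ O₂)
    (hcomap₂ : O₁.comap (algebraMap E F) = O₂.comap (algebraMap E F))
    (b₁ : Fin n₁ → F) (hb₁O : ∀ i, b₁ i ∈ O₁)
    (hb₁ : ∀ a : Fin n₁ → E, (∀ i, (O₁.comap (algebraMap E F)).valuation (a i) ≤ 1) →
      O₁.valuation (∑ i, algebraMap E F (a i) * b₁ i) < 1 →
      ∀ i, (O₁.comap (algebraMap E F)).valuation (a i) < 1)
    (b₂ : Fin n₂ → F) (hb₂O : ∀ i, b₂ i ∈ O₂)
    (hb₂ : ∀ a : Fin n₂ → E, (∀ i, (O₁.comap (algebraMap E F)).valuation (a i) ≤ 1) →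
      O₂.valuation (∑ i, algebraMap E F (a i) * b₂ i) < 1 →
      ∀ i, (O₁.comap (algebraMap E F)).valuation (a i) < 1)
    {x : F} (hx : x ∈ O₂) :
    ∃ a : Fin n₂ → E, (∀ i, (O₁.comap (algebraMap E F)).valuation (a i) ≤ 1) ∧
      O₂.valuation (x - ∑ i, algebraMap E F (a i) * b₂ i) < 1 := by
  have h := exists_residue_combination (n₁ := n₂) (n₂ := n₁) (by omega) O₂ O₁ (Ne.symm h12)
    hcomap₂.symm b₂ hb₂O (by rw [← hcomap₂]; exact hb₂) b₁ hb₁O (by rw [← hcomap₂]; exact hb₁) hx
  rw [← hcomap₂] at h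
  exact h

end Fermat.Agent.ES.N34.TwoExtDeg22
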